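import Fermat.Agent.JTorsion.GaloisHecke
import Fermat.Agent.Curve.Genus

/-!
# Continuity of the Galois action on classes; lifted torsion is stable
-/

set_option autoImplicit false
set_option linter.style.haveILetI false
set_option linter.unusedSectionVars false

noncomputable section

namespace FA.JTorsion

open AlgebraicCurve AlgebraicCurve.SemilinearAut FA.Level FA.ModField ModularCurve

variable (F₀ : IntermediateField ℚ (LaurentSeries ℚ))

local notation "Qb" => AlgebraicClosure ℚ

/-- An element of the base change is fixed as soon as finitely many constants are. -/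
theorem exists_finset_fix_series {x : LaurentSeries Qb} (hx : x ∈ laurentBaseChange Qb F₀) :
    ∃ S : Finset Qb, ∀ σ : GalQ, (∀ a ∈ S, σ a = a) → coeffMap (σ : Qb →+* Qb) x = x := by
  classical
  rw [mem_laurentBaseChange_iff] at hx
  induction hx using Subfield.closure_induction with
  | mem y hy =>
    rcases hy with ⟨a, rfl⟩ | ⟨z, _, rfl⟩
    · exact ⟨{a}, fun σ h => by
        rw [coeffMap_algebraMap]
        exact congrArg _ (h a (Finset.mem_singleton_self a))⟩
    · exact ⟨∅, fun σ _ => coeffMap_coeffEmb σ z⟩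
  | one => exact ⟨∅, fun σ _ => map_one _⟩
  | add x y _ _ hx hy =>
    obtain ⟨S, hS⟩ := hx
    obtain ⟨T, hT⟩ := hy
    exact ⟨S ∪ T, fun σ h => by
      rw [map_add, hS σ fun a ha => h a (Finset.mem_union_left _ ha),
        hT σ fun a ha => h a (Finset.mem_union_right _ ha)]⟩
  | neg x _ hx =>
    obtain ⟨S, hS⟩ := hx
    exact ⟨S, fun σ h => by rw [map_neg, hS σ h]⟩
  | inv x _ hx =>
    obtain ⟨S, hS⟩ := hx
    exact ⟨S, fun σ h => by rw [map_inv₀, hS σ h]⟩
  | mul x y _ _ hx hy =>
    obtain ⟨S, hS⟩ := hx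
    obtain ⟨T, hT⟩ := hy
    exact ⟨S ∪ T, fun σ h => by
      rw [map_mul, hS σ fun a ha => h a (Finset.mem_union_left _ ha),
        hT σ fun a ha => h a (Finset.mem_union_right _ ha)]⟩

variable {F₀} (hF : FA.Curve.IsFunctionField Qb (laurentBaseChange Qb F₀))

include hF

theorem exists_finset_fix_place (v : Place Qb (laurentBaseChange Qb F₀)) :
    ∃ S : Finset Qb, ∀ σ : GalQ, (∀ a ∈ S, σ a = a) → arithmeticGalois F₀ σ • v = v := by
  obtain ⟨f, hfv, hfo⟩ := FA.Curve.exists_pole_only hF v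
  obtain ⟨S, hS⟩ := exists_finset_fix_series F₀ f.2
  refine ⟨S, fun σ h => ?_⟩
  have hf : arithmeticGalois F₀ σ • f = f := Subtype.ext (hS σ h)
  by_contra hne
  have h1 := ord_smul (arithmeticGalois F₀ σ) v f
  rw [hf] at h1
  have h2 := hfo _ hne
  omega

/-- A class is fixed as soon as finitely many constants are. -/
theorem exists_finset_fix (x : Pic0 Qb (laurentBaseChange Qb F₀)) :
    ∃ S : Finset Qb, ∀ σ : GalQ, (∀ a ∈ S, σ a = a) → σ • x = x := by
  classical
  obtain ⟨D, rfl⟩ := Pic0.mk_surjective x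
  choose S hS using exists_finset_fix_place hF
  refine ⟨(D : Divisor Qb (laurentBaseChange Qb F₀)).support.biUnion S, fun σ h => ?_⟩
  rw [galois_smul_pic0_def, pic0_smul_mk]
  refine congrArg Pic0.mk (Subtype.ext ?_)
  rw [coe_degZeroSMulHom, divisor_smul_def]
  conv_rhs => rw [← Finsupp.mapDomain_id (v := (D : Divisor Qb (laurentBaseChange Qb F₀)))]
  exact Finsupp.mapDomain_congr fun v hv =>
    hS v σ fun a ha => h a (Finset.mem_biUnion.2 ⟨v, hv, ha⟩)

omit hF

variable (N : ℕ) [NeZero N] [Algebra Qb ℂ]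

/-- A finite set of classes is fixed by the Galois group of a finite extension. -/
theorem exists_field_fix (X : Set (JZero N)) (hX : X.Finite) :
    ∃ L : IntermediateField ℚ Qb, FiniteDimensional ℚ L ∧
      ∀ σ : GalQ, (∀ a ∈ L, σ a = a) → ∀ x ∈ X, σ • x = x := by
  classical
  choose S hS using exists_finset_fix (F₀ := modularFunctionFieldFull N)
    ((lvlGamma0 N).isFunctionField Qb)
  let T : Finset Qb := hX.toFinset.biUnion S
  refine ⟨IntermediateField.adjoin ℚ (T : Set Qb), ?_, fun σ h x hx => ?_⟩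
  · exact IntermediateField.finiteDimensional_adjoin fun a _ =>
      ((AlgebraicClosure.isAlgebraic ℚ).isAlgebraic a).isIntegral
  · exact hS x σ fun a ha => h a (IntermediateField.subset_adjoin ℚ _
      (Finset.mem_biUnion.2 ⟨x, hX.mem_toFinset.2 hx, ha⟩))


theorem galois_smul_mem_tors {n : ℕ} {x : JZero N} (hx : x ∈ tors (lvlGamma0 N) Qb n) (σ : GalQ) :
    σ • x ∈ tors (lvlGamma0 N) Qb n :=
  SemilinearAut.smul_mem_torsion (arithmeticGalois (modularFunctionFieldFull N) σ) hx

/-- The lifted torsion is stable under Galois. -/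
theorem galois_smul_mem_liftedTors {n : ℕ} [NeZero n] {x : JZero N}
    (hx : x ∈ liftedTors (lvlGamma0 N) Qb n) (σ : GalQ) :
    σ • x ∈ liftedTors (lvlGamma0 N) Qb n := by
  obtain ⟨y, hy, hyx⟩ := mem_liftedTors_iff.1 hx
  refine mem_liftedTors_iff.2 ⟨σ • y, galois_smul_mem_tors N hy σ, ?_⟩
  rw [← hyx]
  exact (map_nsmul (DistribSMul.toAddMonoidHom (JZero N) σ) (liftExp (lvlGamma0 N)) y).symm

/-- The Galois action on torsion factors through a finite extension. -/
theorem exists_field_fix_tors (n : ℕ) [NeZero n] :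
    ∃ L : IntermediateField ℚ Qb, FiniteDimensional ℚ L ∧
      ∀ σ : GalQ, (∀ a ∈ L, σ a = a) → ∀ x ∈ tors (lvlGamma0 N) Qb n, σ • x = x := by
  haveI := tors_finite (lvlGamma0 N) Qb n
  obtain ⟨L, hL, h⟩ := exists_field_fix N (Set.range (Subtype.val : tors (lvlGamma0 N) Qb n → JZero N))
    (Set.finite_range _)
  exact ⟨L, hL, fun σ hσ x hx => h σ hσ x ⟨⟨x, hx⟩, rfl⟩⟩

theorem heckeLvl_galois_smul (ℓ : ℕ) [NeZero ℓ] (σ : GalQ) (x : JZero N) :
    heckeLvl N ℓ (σ • x) = σ • heckeLvl N ℓ x :=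
  heckeOperatorAlong_galois_smul N ℓ σ x

end FA.JTorsion
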