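import Fermat.Agent.JTorsion.Cyclo
import Fermat.Agent.Local.Inertia

/-!
# The cyclotomic character with values in a field of positive characteristic
-/

set_option autoImplicit false
set_option linter.style.haveILetI false

noncomputable section

namespace FA.JTorsion

local notation "Qb" => AlgebraicClosure ℚ
local notation "GQ" => AlgebraicClosure ℚ ≃ₐ[ℚ] AlgebraicClosure ℚ

variable (p : ℕ) [Fact p.Prime] (k : Type) [Field k] [CharP k p]

/-- The reduction of the cyclotomic character. -/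
def cycK : GQ →* kˣ :=
  (Units.map ((ZMod.castHom (dvd_pow_self p one_ne_zero) k).comp
    (PadicInt.toZModPow 1)).toMonoidHom).comp (cycP p)

theorem cycK_val (σ : GQ) : ((cycK p k σ : kˣ) : k) =
    ZMod.castHom (dvd_pow_self p one_ne_zero) k (((cycP p σ : ℤ_[p]ˣ) : ℤ_[p]).toZModPow 1) := rfl

theorem cycK_frobenius {q : ℕ} (hq : q.Prime) (hqp : q ≠ p) {A : ValuationSubring Qb}
    (hA : A.LiesOverPrime q) {σ : GQ} (hσ : A.IsFrobeniusAt σ q) :
    ((cycK p k σ : kˣ) : k) = q := by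
  rw [cycK_val, cycP_frobenius p hq hqp hA hσ, map_natCast, map_natCast]

theorem exists_field_cycK :
    ∃ L : IntermediateField ℚ Qb, FiniteDimensional ℚ L ∧
      ∀ σ : GQ, (∀ a ∈ L, σ a = a) → cycK p k σ = 1 := by
  obtain ⟨L, hL, h⟩ := exists_field_cycP p 1
  exact ⟨L, hL, fun σ hσ => Units.ext (by rw [cycK_val, h σ hσ, map_one, Units.val_one])⟩

/-- Inertia away from `p` fixes the roots of unity of `p`-power order. -/
theorem inertia_fixes_root {q m : ℕ} (hq : q.Prime) (hqp : q ≠ p) {A : ValuationSubring Qb}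
    (hA : A.LiesOverPrime q) {σ : GQ} (hσ : σ ∈ A.inertiaSubgroupIn ℚ) {ζ : Qb}
    (hζ : ζ ^ p ^ m = 1) : σ ζ = ζ := by
  haveI : Algebra.IsAlgebraic ℚ Qb := AlgebraicClosure.isAlgebraic ℚ
  have hinert := FA.Local.inert_of_mem_inertiaSubgroupIn A hσ
  have hpm : p ^ m ≠ 0 := pow_ne_zero _ (Fact.out : p.Prime).ne_zero
  have hζ0 : ζ ≠ 0 := fun h => by simp [h, zero_pow hpm] at hζ
  have hv : A.valuation ζ = 1 := by
    have : A.valuation ζ ^ p ^ m = 1 := by rw [← map_pow, hζ, map_one]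
    exact (pow_eq_one_iff.mp this).resolve_right hpm
  have h1 := hinert.sub_lt ζ hv.le
  rw [← div_eq_one_iff_eq hζ0]
  refine FA.TW.eq_one_of_sub_one_nonunit (m := m) Fact.out hq hqp hA ?_ ?_
  · rw [div_pow, ← map_pow, hζ, map_one, div_one]
  · rw [div_sub_one hζ0, map_div₀, hv, div_one]
    exact h1

theorem cycP_inertia {q : ℕ} (hq : q.Prime) (hqp : q ≠ p) {A : ValuationSubring Qb}
    (hA : A.LiesOverPrime q) {σ : GQ} (hσ : σ ∈ A.inertiaSubgroupIn ℚ) : cycP p σ = 1 := by
  refine Units.ext (PadicInt.ext_of_toZModPow.mp fun n => ?_)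
  rw [Units.val_one, map_one, cycP_toZModPow]
  symm
  refine modularCyclotomicCharacter.unique Qb _ _ fun t ht => ?_
  have ht' : (t : Qb) ^ p ^ n = 1 := by
    rw [← Units.val_pow_eq_pow_val, (mem_rootsOfUnity _ t).mp ht, Units.val_one]
  show σ (t : Qb) = _
  rw [inertia_fixes_root p hq hqp hA hσ ht']
  have h := pow_eq_pow_mod 1 ht'
  rw [pow_one] at h
  rw [← Nat.cast_one (R := ZMod (p ^ n)), ZMod.val_natCast]
  exact h

theorem cycK_inertia {q : ℕ} (hq : q.Prime) (hqp : q ≠ p) {A : ValuationSubring Qb}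
    (hA : A.LiesOverPrime q) {σ : GQ} (hσ : σ ∈ A.inertiaSubgroupIn ℚ) : cycK p k σ = 1 :=
  Units.ext (by rw [cycK_val, cycP_inertia p hq hqp hA hσ, Units.val_one, Units.val_one, map_one, map_one])

end FA.JTorsion
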