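import Fermat.Agent.JTorsion.TwoDim
import Fermat.Agent.JTorsion.CycloRes
import Fermat.Agent.Density.Places
import Mathlib.GroupTheory.FiniteAbelian.Basic
import Mathlib.RingTheory.Nakayama
import Mathlib.RingTheory.TensorProduct.Maps
import Mathlib.RingTheory.TensorProduct.Finite

/-!
# Two-dimensional residual representations from a Galois module with Hecke action: generic part
-/

set_option autoImplicit false
set_option linter.style.haveILetI false
set_option linter.unusedSectionVars false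

noncomputable section

namespace FA.JTorsion

open scoped TensorProduct

local notation "Qb" => AlgebraicClosure ℚ
local notation "GQ" => AlgebraicClosure ℚ ≃ₐ[ℚ] AlgebraicClosure ℚ

variable {T : Type} [CommRing T] (p : ℕ) [Fact p.Prime] {k : Type} [Field k] [CharP k p]
  [Algebra T k]

/-- A finite faithful module has a nonzero functional compatible with any character mod `p`. -/
theorem exists_functional_of_faithful [Module.Finite ℤ T] {X : Type} [AddCommGroup X] [Module T X]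
    [Module.Finite T X] (hX : ∀ t : T, (∀ x : X, t • x = 0) → t = 0) :
    ∃ (g : X →ₗ[T] k) (x : X), g x ≠ 0 ∧ ∀ y, g (p • y) = 0 := by
  classical
  let ψ := algebraMap T k
  let m : Ideal T := RingHom.ker ψ
  haveI : m.IsPrime := RingHom.ker_isPrime ψ
  have hp : (p : T) ∈ m := by
    show ψ (p : T) = 0
    rw [map_natCast, CharP.cast_eq_zero]
  haveI : Module.Finite ℤ (T ⧸ m) :=
    Module.Finite.of_surjective (Ideal.Quotient.mk m).toAddMonoidHom.toIntLinearMap
      Ideal.Quotient.mk_surjective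
  haveI : Finite (T ⧸ m) := Module.finite_of_fg_torsion (M := T ⧸ m) fun {x} => by
    refine ⟨⟨(p : ℤ), mem_nonZeroDivisors_of_ne_zero
      (Int.natCast_ne_zero.2 (Fact.out : p.Prime).ne_zero)⟩, ?_⟩
    show (p : ℤ) • x = 0
    obtain ⟨t, rfl⟩ := Ideal.Quotient.mk_surjective x
    rw [natCast_zsmul, nsmul_eq_mul, ← map_natCast (Ideal.Quotient.mk m), ← map_mul,
      Ideal.Quotient.eq_zero_iff_mem]
    exact m.mul_mem_right t hp
  haveI : m.IsMaximal := Ideal.Quotient.maximal_of_isField _ (Finite.isField_of_domain (T ⧸ m))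
  letI : Field (T ⧸ m) := Ideal.Quotient.field m
  haveI : Nontrivial (X ⧸ m • (⊤ : Submodule T X)) := by
    rw [Submodule.Quotient.nontrivial_iff]
    intro htop
    obtain ⟨r, hr, hr0⟩ := Submodule.exists_sub_one_mem_and_smul_eq_zero_of_fg_of_le_smul m
      (⊤ : Submodule T X) Module.Finite.fg_top htop.ge
    rw [hX r fun x => hr0 x Submodule.mem_top] at hr
    have h1 := m.neg_mem hr
    rw [zero_sub, neg_neg] at h1
    exact RingHom.ker_ne_top ψ ((Ideal.eq_top_iff_one _).2 h1)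
  let b := Module.Free.chooseBasis (T ⧸ m) (X ⧸ m • (⊤ : Submodule T X))
  obtain ⟨i⟩ := b.index_nonempty
  let ψbar : (T ⧸ m) →+* k := Ideal.Quotient.lift m ψ fun a ha => ha
  let g₀ : X →ₗ[T] k :=
    { toFun := fun x => ψbar (b.coord i (Submodule.Quotient.mk x))
      map_add' := fun x y => by rw [Submodule.Quotient.mk_add, map_add, map_add]
      map_smul' := fun t x => by
        rw [RingHom.id_apply, Algebra.smul_def, Submodule.Quotient.mk_smul,
          show t • (Submodule.Quotient.mk x : X ⧸ m • (⊤ : Submodule T X)) =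
            (Ideal.Quotient.mk m t) • (Submodule.Quotient.mk x : X ⧸ m • (⊤ : Submodule T X)) from rfl,
          map_smul, smul_eq_mul, map_mul]
        rfl }
  obtain ⟨x, hx⟩ := Submodule.Quotient.mk_surjective _ (b i)
  refine ⟨g₀, x, ?_, fun y => by rw [map_nsmul, nsmul_eq_mul, CharP.cast_eq_zero, zero_mul]⟩
  show ψbar (b.coord i (Submodule.Quotient.mk x)) ≠ 0
  rw [hx, b.coord_apply, b.repr_self, Finsupp.single_eq_same, map_one]
  exact one_ne_zero

theorem isOpen_ker_of_field {M : Type} [MulOneClass M] (f : GQ →* M)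
    (h : ∃ L : IntermediateField ℚ Qb, FiniteDimensional ℚ L ∧
      ∀ σ : GQ, (∀ a ∈ L, σ a = a) → f σ = 1) : IsOpen (f.ker : Set GQ) := by
  obtain ⟨L, hL, hf⟩ := h
  exact Subgroup.isOpen_mono (H₁ := L.fixingSubgroup)
    (fun σ hσ => hf σ ((IntermediateField.mem_fixingSubgroup_iff _ _).1 hσ))
    (IntermediateField.fixingSubgroup_isOpen L)

variable [IsAlgClosed k] {M : Type} [AddCommGroup M] [Module T M] [Module.Finite T M]
  (act : GQ →* Module.End T M)

/-- The residual representation of a module with the quadratic relation. -/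
theorem exists_residual_abs (g : M →ₗ[T] k) (hg : g ≠ 0) (bad : Finset ℕ)
    (hact : ∃ L : IntermediateField ℚ Qb, FiniteDimensional ℚ L ∧
      ∀ σ : GQ, (∀ a ∈ L, σ a = a) → act σ = 1)
    (t : ℕ → T)
    (hrel : ∀ ℓ : ℕ, ℓ.Prime → ℓ ≠ p → ℓ ∉ bad → ∀ A : ValuationSubring Qb, A.LiesOverPrime ℓ →
      ∀ σ : GQ, A.IsFrobeniusAt σ ℓ → ∀ x, act σ x + ℓ • act σ⁻¹ x = t ℓ • x) :
    ∃ r : GQ →* Matrix (Fin 2) (Fin 2) k,
      (∃ L : IntermediateField ℚ Qb, FiniteDimensional ℚ L ∧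
        ∀ σ : GQ, (∀ a ∈ L, σ a = a) → r σ = 1) ∧
      (∀ σ, (r σ).det = ((cycK p k σ : kˣ) : k)) ∧
      (∀ σ, act σ = 1 → cycK p k σ = 1 → r σ = 1) ∧
      ∀ ℓ : ℕ, ℓ.Prime → ℓ ≠ p → ℓ ∉ bad → ∀ A : ValuationSubring Qb, A.LiesOverPrime ℓ →
        ∀ σ : GQ, A.IsFrobeniusAt σ ℓ → (r σ).trace = algebraMap T k (t ℓ) := by
  classical
  haveI : Nontrivial (k ⊗[T] M) := by
    obtain ⟨x, hx⟩ : ∃ x, g x ≠ 0 := by
      by_contra h; push Not at h; exact hg (LinearMap.ext h)
    let B : k ⊗[T] M →ₗ[T] k := TensorProduct.lift ((LinearMap.mul T k).compl₂ g)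
    refine ⟨⟨(1 : k) ⊗ₜ[T] x, 0, fun h => hx ?_⟩⟩
    have h2 := congrArg B h
    rw [map_zero, TensorProduct.lift.tmul, LinearMap.compl₂_apply, LinearMap.mul_apply', one_mul]
      at h2
    exact h2
  let ρW : GQ →* Module.End k (k ⊗[T] M) :=
    (Module.End.baseChangeHom (R := T) (A := k) (M := M)).toRingHom.toMonoidHom.comp act
  have hρ : ∀ σ, ρW σ = (act σ).baseChange k := fun σ => rfl
  let χ := cycK p k
  have hfrob : ∀ ℓ : ℕ, ℓ.Prime → ℓ ≠ p → ℓ ∉ bad → ∀ A : ValuationSubring Qb, A.LiesOverPrime ℓ →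
      ∀ σ : GQ, A.IsFrobeniusAt σ ℓ →
      ρW σ + (χ σ : k) • ρW σ⁻¹ = algebraMap T k (t ℓ) • 1 := by
    intro ℓ hℓ hℓp hbad A hA σ hσ
    refine TensorProduct.AlgebraTensorModule.ext fun c x => ?_
    have h := hrel ℓ hℓ hℓp hbad A hA σ hσ x
    rw [LinearMap.add_apply, LinearMap.smul_apply, LinearMap.smul_apply, hρ, hρ,
      LinearMap.baseChange_tmul, LinearMap.baseChange_tmul, Module.End.one_apply,
      cycK_frobenius p k hℓ hℓp hA hσ, Nat.cast_smul_eq_nsmul, ← TensorProduct.tmul_smul,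
      ← TensorProduct.tmul_add, h, TensorProduct.tmul_smul,
      TensorProduct.smul_tmul', TensorProduct.smul_tmul', Algebra.smul_def, smul_eq_mul]
  have htriv : ∀ σ, act σ = 1 → ρW σ = 1 := fun σ h => by
    show Module.End.baseChangeHom (R := T) (A := k) (M := M) (act σ) = 1
    rw [h, map_one]
  have hfield : ∃ L : IntermediateField ℚ Qb, FiniteDimensional ℚ L ∧
      ∀ σ : GQ, (∀ a ∈ L, σ a = a) → act σ = 1 ∧ χ σ = 1 := by
    obtain ⟨L, hL, h⟩ := hact
    obtain ⟨L', hL', h'⟩ := exists_field_cycK p k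
    exact ⟨L ⊔ L', inferInstance, fun σ hσ =>
      ⟨h σ fun a ha => hσ a ((le_sup_left : L ≤ L ⊔ L') ha),
        h' σ fun a ha => hσ a ((le_sup_right : L' ≤ L ⊔ L') ha)⟩⟩
  let K := (ρW.prod χ).ker
  have hK : IsOpen (K : Set GQ) := by
    refine isOpen_ker_of_field _ ?_
    obtain ⟨L, hL, h⟩ := hfield
    exact ⟨L, hL, fun σ hσ => Prod.ext (htriv σ (h σ hσ).1) (h σ hσ).2⟩
  have hscal : ∀ σ, Scal (A := Module.End k (k ⊗[T] M)) ρW χ σ := fun σ => by
    refine FA.Density.forall_of_frobenius_pow K hK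
      (fun τ => Scal (A := Module.End k (k ⊗[T] M)) ρW χ τ) ?_ (insert p bad) ?_ σ
    · intro τ n hn ⟨a, ha⟩
      obtain ⟨h1, h2⟩ := Prod.ext_iff.1 (MonoidHom.mem_ker.1 hn)
      have h3 : ρW n⁻¹ = 1 := by
        have h4 : ρW n⁻¹ * ρW n = 1 := by rw [← map_mul, inv_mul_cancel, map_one]
        rwa [show ρW n = 1 from h1, mul_one] at h4
      refine ⟨a, ?_⟩
      rw [map_mul, map_mul, mul_inv_rev, map_mul, show ρW n = 1 from h1, h3,
        show χ n = 1 from h2, mul_one, mul_one, one_mul]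
      exact ha
    · intro q hq hqS A hA τ hτ m
      simp only [Finset.mem_insert, not_or] at hqS
      exact Scal.pow ⟨_, hfrob q hq hqS.1 hqS.2 A hA τ hτ⟩ m
  obtain ⟨r, hr, -⟩ := exists_twoDim' ρW χ hscal
  refine ⟨r, ?_, fun σ => (hr σ).2.1, fun σ h1 h2 => (hr σ).2.2 (htriv σ h1) h2,
    fun ℓ hℓ hℓp hbad A hA σ hσ => (hr σ).1 _ (hfrob ℓ hℓ hℓp hbad A hA σ hσ)⟩
  obtain ⟨L, hL, h⟩ := hfield
  exact ⟨L, hL, fun σ hσ => (hr σ).2.2 (htriv σ (h σ hσ).1) (h σ hσ).2⟩

end FA.JTorsion
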