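import Mathlib
import Fermat.Agent.Period.AutC

/-!
# Complex numbers with finitely many conjugates are algebraic
-/

set_option autoImplicit false

namespace FA.JTorsion

open MvPolynomial

/-- A complex number with a finite orbit under the automorphisms of `ℂ` is algebraic. -/
theorem isAlgebraic_of_finite_orbit (z : ℂ)
    (h : (Set.range fun σ : ℂ ≃+* ℂ => σ z).Finite) : IsAlgebraic ℚ z := by
  by_contra hz
  let K := algebraicClosure ℚ ℂ
  haveI : Algebra.IsAlgebraic ℚ K := algebraicClosure.isAlgebraic ℚ ℂ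
  have hzK : Transcendental K z := fun halg => hz (halg.restrictScalars ℚ)
  have hs : AlgebraicIndepOn K id ({z} : Set ℂ) := by
    have : Unique ({z} : Set ℂ) := Set.uniqueSingleton z
    refine algebraicIndependent_unique_type_iff.mpr ?_
    rw [show (default : ({z} : Set ℂ)) = ⟨z, rfl⟩ from Subsingleton.elim _ _]
    exact hzK
  obtain ⟨t, hzt, ht⟩ := exists_isTranscendenceBasis_superset hs
  obtain ⟨σ, hσ⟩ :=
    FA.Period.exists_ringEquiv_extending _ ht (FA.Period.shiftVars t K).toRingEquiv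
  have hz1 : σ z = z + 1 := by
    have h1 := hσ (X ⟨z, hzt rfl⟩)
    simpa [FA.Period.shiftVars] using h1
  have hk : ∀ k : ℕ, ∃ τ : ℂ ≃+* ℂ, τ z = z + k := by
    intro k
    induction k with
    | zero => exact ⟨RingEquiv.refl ℂ, by simp⟩
    | succ k ih =>
      obtain ⟨τ, hτ⟩ := ih
      refine ⟨τ.trans σ, ?_⟩
      rw [RingEquiv.trans_apply, hτ, map_add, hz1, map_natCast]
      push_cast
      ring
  refine Set.infinite_range_of_injective (f := fun k : ℕ => z + (k : ℂ)) (fun a b hab => ?_)
    (h.subset ?_)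
  · exact_mod_cast add_left_cancel hab
  · rintro _ ⟨k, rfl⟩
    obtain ⟨τ, hτ⟩ := hk k
    exact ⟨τ, hτ⟩

/-- An algebraic number lies in every algebraically closed subfield. -/
theorem mem_range_of_isAlgebraic {L : Type} [Field L] [IsAlgClosed L] [Algebra ℚ L] [Algebra L ℂ]
    {z : ℂ} (h : IsAlgebraic ℚ z) : ∃ a : L, algebraMap L ℂ a = z := by
  set p := minpoly ℚ z
  have hp : p.Monic := minpoly.monic h.isIntegral
  have hsplit : (p.map (algebraMap ℚ L)).Splits := IsAlgClosed.splits _
  have hz : (p.map (algebraMap ℚ ℂ)).IsRoot z := by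
    rw [Polynomial.IsRoot, Polynomial.eval_map, ← Polynomial.aeval_def, minpoly.aeval]
  rw [show algebraMap ℚ ℂ = (algebraMap L ℂ).comp (algebraMap ℚ L) from Subsingleton.elim _ _,
    ← Polynomial.map_map] at hz
  have hmem : z ∈ ((p.map (algebraMap ℚ L)).map (algebraMap L ℂ)).roots :=
    Polynomial.mem_roots'.2 ⟨((hp.map _).map _).ne_zero, hz⟩
  rw [hsplit.roots_map, Multiset.mem_map] at hmem
  obtain ⟨a, -, ha⟩ := hmem
  exact ⟨a, ha⟩

end FA.JTorsion
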