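import Fermat.Agent.JTorsion.Kummer
import Fermat.Agent.JTorsion.Orbit
import Fermat.Agent.Level.BaseChange
import Fermat.Agent.Curve.Genus
import Fermat.Prelude.Def_ModularCurve_ArithmeticGalois

/-!
# Functions over `ℂ` with divisor divisible by `N` descend, up to constants and `N`-th powers

In each class there is a unique minimal normalised representative (pole only at infinity, least
pole order, leading coefficient one); there are finitely many of them and the automorphisms of `ℂ`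
permute them, so their coefficients are algebraic.
-/

set_option autoImplicit false
set_option linter.style.haveILetI false
set_option linter.unusedSectionVars false
set_option synthInstance.maxHeartbeats 200000
set_option maxHeartbeats 1600000

noncomputable section

namespace FA.JTorsion

open AlgebraicCurve FA.Level FA.Curve ModularCurve
open FA.ModField (exists_residue mem_place_of_ord_nonneg mem_place_iff)

variable (V : Lvl)

/-- All orders are divisible by `N`. -/
def DivN (N : ℕ) (f : V.fld ℂ) : Prop := f ≠ 0 ∧ ∀ v : Place ℂ (V.fld ℂ), (N : ℤ) ∣ v.ord f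

/-- Equality up to constants and `N`-th powers. -/
def SameCls (N : ℕ) (f f' : V.fld ℂ) : Prop :=
  ∃ (c : ℂ) (g : V.fld ℂ), c ≠ 0 ∧ g ≠ 0 ∧ f' = algebraMap ℂ (V.fld ℂ) c * f * g ^ N

/-- Pole only at infinity, of order `N k`, leading coefficient one. -/
def NormAt (N : ℕ) (f : V.fld ℂ) (k : ℕ) : Prop :=
  DivN V N f ∧ (∀ v, v ≠ infPlace V → 0 ≤ v.ord f) ∧
    (infPlace V).ord f = -((N * k : ℕ) : ℤ) ∧ (f : LaurentSeries ℂ).leadingCoeff = 1

/-- The minimal normalised elements. -/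
def IsMin (N : ℕ) (f : V.fld ℂ) : Prop :=
  ∃ k, NormAt V N f k ∧ ∀ f' k', SameCls V N f f' → NormAt V N f' k' → k ≤ k'

variable {V}

theorem SameCls.symm {N : ℕ} {f f' : V.fld ℂ} (h : SameCls V N f f') : SameCls V N f' f := by
  obtain ⟨c, g, hc, hg, rfl⟩ := h
  refine ⟨c⁻¹, g⁻¹, inv_ne_zero hc, inv_ne_zero hg, ?_⟩
  rw [map_inv₀, inv_pow]
  field_simp [(map_ne_zero (algebraMap ℂ (V.fld ℂ))).2 hc, pow_ne_zero N hg]

theorem SameCls.trans {N : ℕ} {f f' f'' : V.fld ℂ} (h : SameCls V N f f')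
    (h' : SameCls V N f' f'') : SameCls V N f f'' := by
  obtain ⟨c, g, hc, hg, rfl⟩ := h
  obtain ⟨c', g', hc', hg', rfl⟩ := h'
  exact ⟨c' * c, g * g', mul_ne_zero hc' hc, mul_ne_zero hg hg', by rw [map_mul, mul_pow]; ring⟩

theorem DivN.of_sameCls {N : ℕ} {f f' : V.fld ℂ} (hf : DivN V N f) (h : SameCls V N f f') :
    DivN V N f' := by
  obtain ⟨c, g, hc, hg, rfl⟩ := h
  have hc' := (map_ne_zero (algebraMap ℂ (V.fld ℂ))).2 hc
  refine ⟨mul_ne_zero (mul_ne_zero hc' hf.1) (pow_ne_zero N hg), fun v => ?_⟩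
  rw [v.ord_mul (mul_ne_zero hc' hf.1) (pow_ne_zero N hg), v.ord_mul hc' hf.1,
    FA.ModField.place_ord_algebraMap, FA.ModField.place_ord_pow, zero_add]
  exact dvd_add (hf.2 v) (dvd_mul_right _ _)

theorem leadingCoeff_pow' {K : Type*} [Field K] (s : LaurentSeries K) (n : ℕ) :
    (s ^ n).leadingCoeff = s.leadingCoeff ^ n := by
  induction n with
  | zero => simp
  | succ n ih => rw [pow_succ, HahnSeries.leadingCoeff_mul, ih, pow_succ]

theorem leadingCoeff_algebraMap (c : ℂ) :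
    ((algebraMap ℂ (V.fld ℂ) c : V.fld ℂ) : LaurentSeries ℂ).leadingCoeff = c := by
  show (algebraMap ℂ (LaurentSeries ℂ) c).leadingCoeff = c
  rw [algebraMap_laurentSeries_eq_single, HahnSeries.leadingCoeff_of_single]

/-- Multiply by a constant to make the leading coefficient one. -/
theorem exists_normalised {N : ℕ} {f : V.fld ℂ} (hf : DivN V N f)
    (hpos : ∀ v, v ≠ infPlace V → 0 ≤ v.ord f) :
    ∃ (k : ℕ) (c : ℂ), c ≠ 0 ∧ NormAt V N (algebraMap ℂ (V.fld ℂ) c * f) k := by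
  classical
  have hne : (f : LaurentSeries ℂ) ≠ 0 := fun h => hf.1 (Subtype.ext h)
  set c := (f : LaurentSeries ℂ).leadingCoeff⁻¹
  have hc : c ≠ 0 := inv_ne_zero (HahnSeries.leadingCoeff_ne_zero.2 hne)
  have hc' := (map_ne_zero (algebraMap ℂ (V.fld ℂ))).2 hc
  have hord : ∀ v : Place ℂ (V.fld ℂ), v.ord (algebraMap ℂ (V.fld ℂ) c * f) = v.ord f := fun v => by
    rw [v.ord_mul hc' hf.1, FA.ModField.place_ord_algebraMap, zero_add]
  have hle : (infPlace V).ord f ≤ 0 := by
    by_contra hlt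
    have h2 := FA.Curve.degree_divOf (V.isFunctionField ℂ) f
    rw [FA.Curve.degree_eq_finset_sum (V.isFunctionField ℂ) _
      (Finset.subset_insert (infPlace V) (FA.Curve.divOf (V.isFunctionField ℂ) f).support)] at h2
    have h3 := Finset.single_le_sum (f := fun v => FA.Curve.divOf (V.isFunctionField ℂ) f v)
      (s := insert (infPlace V) (FA.Curve.divOf (V.isFunctionField ℂ) f).support) (fun v _ => by
        rcases eq_or_ne v (infPlace V) with rfl | hv
        · simp only [FA.Curve.divOf_apply]; omega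
        · simpa using hpos v hv) (Finset.mem_insert_self _ _)
    simp only [FA.Curve.divOf_apply] at h2 h3
    omega
  obtain ⟨d, hd⟩ := hf.2 (infPlace V)
  rcases Nat.eq_zero_or_pos N with rfl | hN
  · refine ⟨0, c, hc, ⟨mul_ne_zero hc' hf.1, fun v => by rw [hord]; exact hf.2 v⟩,
      fun v hv => by rw [hord]; exact hpos v hv, by rw [hord, hd]; simp, ?_⟩
    rw [MulMemClass.coe_mul, HahnSeries.leadingCoeff_mul, leadingCoeff_algebraMap]
    exact inv_mul_cancel₀ (HahnSeries.leadingCoeff_ne_zero.2 hne)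
  refine ⟨(-d).toNat, c, hc, ⟨mul_ne_zero hc' hf.1, fun v => by rw [hord]; exact hf.2 v⟩,
      fun v hv => by rw [hord]; exact hpos v hv, ?_, ?_⟩
  · rw [hord, hd]
    have : d ≤ 0 := by
      by_contra h
      have := mul_pos (Int.natCast_pos.2 hN) (not_le.1 h)
      omega
    rw [Nat.cast_mul, Int.toNat_of_nonneg (by omega)]
    ring
  · rw [MulMemClass.coe_mul, HahnSeries.leadingCoeff_mul, leadingCoeff_algebraMap]
    exact inv_mul_cancel₀ (HahnSeries.leadingCoeff_ne_zero.2 hne)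

/-- Two minimal normalised elements of one class are equal. -/
theorem eq_of_isMin {N : ℕ} (hN : N ≠ 0) {f f' : V.fld ℂ} (hf : IsMin V N f)
    (hf' : IsMin V N f') (h : SameCls V N f f') : f = f' := by
  classical
  obtain ⟨k, hk, hmin⟩ := hf
  obtain ⟨k', hk', hmin'⟩ := hf'
  obtain rfl : k = k' := le_antisymm (hmin _ _ h hk') (hmin' _ _ h.symm hk)
  obtain ⟨c, g, hc, hg, hfg⟩ := h
  have hc' := (map_ne_zero (algebraMap ℂ (V.fld ℂ))).2 hc
  have hord : ∀ v : Place ℂ (V.fld ℂ), v.ord f' = v.ord f + N * v.ord g := fun v => by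
    rw [hfg, v.ord_mul (mul_ne_zero hc' hk.1.1) (pow_ne_zero N hg), v.ord_mul hc' hk.1.1,
      FA.ModField.place_ord_algebraMap, FA.ModField.place_ord_pow, zero_add]
  have hginf : (infPlace V).ord g = 0 := by
    have := hord (infPlace V)
    rw [hk.2.2.1, hk'.2.2.1] at this
    have h0 : (N : ℤ) * (infPlace V).ord g = 0 := by linarith
    exact (mul_eq_zero.1 h0).resolve_left (Int.natCast_ne_zero.2 hN)
  obtain ⟨a, ha⟩ := exists_residue (V.isFunctionField ℂ).isCurve (infPlace V)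
    (mem_place_of_ord_nonneg _ hginf.ge)
  rcases ha with ha | ha
  · -- `g` is a constant
    have hlead := hk'.2.2.2
    rw [hfg, MulMemClass.coe_mul, MulMemClass.coe_mul, SubmonoidClass.coe_pow,
      HahnSeries.leadingCoeff_mul, HahnSeries.leadingCoeff_mul, leadingCoeff_pow', ha,
      leadingCoeff_algebraMap, leadingCoeff_algebraMap, hk.2.2.2, mul_one] at hlead
    rw [hfg, ha, mul_assoc, mul_comm f, ← mul_assoc, ← map_pow, ← map_mul, hlead, map_one, one_mul]
  · exfalso
    set g₂ := g - algebraMap ℂ (V.fld ℂ) a with hg₂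
    have hg20 : g₂ ≠ 0 := fun h0 => by simp [h0] at ha
    have hpos : ∀ v, v ≠ infPlace V → 0 ≤ v.ord (f * g₂ ^ N) := by
      intro v hv
      rw [v.ord_mul hk.1.1 (pow_ne_zero N hg20), FA.ModField.place_ord_pow]
      have h1 : min (v.ord g) 0 ≤ v.ord g₂ := by
        have := (AtLeast.sub ((atLeast_ord (v := v) g).mono (min_le_left _ 0))
          ((atLeast_algebraMap (v := v) a).mono (min_le_right (v.ord g) 0)))
        exact (atLeast_iff hg20).1 this
      rcases min_cases (v.ord g) 0 with ⟨h2, -⟩ | ⟨h2, -⟩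
      · have h4 := hk'.2.1 v hv
        rw [hord] at h4
        have := mul_le_mul_of_nonneg_left h1 (Int.natCast_nonneg N)
        rw [h2] at this
        linarith
      · have h4 := hk.2.1 v hv
        have := mul_le_mul_of_nonneg_left h1 (Int.natCast_nonneg N)
        rw [h2, mul_zero] at this
        linarith
    have hsame : SameCls V N f (f * g₂ ^ N) := ⟨1, g₂, one_ne_zero, hg20, by simp⟩
    obtain ⟨k₂, d, hd, hk₂⟩ := exists_normalised (hk.1.of_sameCls hsame) hpos
    have := hmin _ _ (hsame.trans ⟨d, 1, hd, one_ne_zero, by simp⟩) hk₂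
    have h5 := hk₂.2.2.1
    rw [(infPlace V).ord_mul ((map_ne_zero _).2 hd) (mul_ne_zero hk.1.1 (pow_ne_zero N hg20)),
      FA.ModField.place_ord_algebraMap, zero_add,
      (infPlace V).ord_mul hk.1.1 (pow_ne_zero N hg20), FA.ModField.place_ord_pow, hk.2.2.1] at h5
    have h6 : (N : ℤ) * k₂ < N * k := by
      push_cast at h5
      nlinarith [Nat.pos_of_ne_zero hN]
    have h7 : (N : ℤ) * k ≤ N * k₂ :=
      mul_le_mul_of_nonneg_left (by exact_mod_cast this) (Int.natCast_nonneg N)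
    omega

/-- The divisor divided by `N`. -/
theorem exists_divisor_quot {N : ℕ} {f : V.fld ℂ} (hf : DivN V N f) (hN : N ≠ 0) :
    ∃ D : Divisor.degZero (K := ℂ) (F := V.fld ℂ),
      ∀ v, (N : ℤ) * (D : Divisor ℂ (V.fld ℂ)) v = v.ord f := by
  classical
  set hF := V.isFunctionField ℂ
  set D : Divisor ℂ (V.fld ℂ) := (divOf hF f).mapRange (fun z => z / (N : ℤ)) (by simp)
  have hD : ∀ v, (N : ℤ) * D v = v.ord f := fun v => by
    rw [Finsupp.mapRange_apply, divOf_apply, Int.mul_ediv_cancel' (hf.2 v)]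
  refine ⟨⟨D, ?_⟩, hD⟩
  rw [Divisor.mem_degZero]
  have h1 : (N : ℤ) • D = divOf hF f := Finsupp.ext fun v => by simp [hD v]
  have h2 := congrArg Divisor.degree h1
  rw [map_zsmul, degree_divOf, smul_eq_mul] at h2
  exact (mul_eq_zero.1 h2).resolve_left (Int.natCast_ne_zero.2 hN)

/-- Every class has a minimal normalised element. -/
theorem exists_isMin {N : ℕ} (hN : N ≠ 0) {f : V.fld ℂ} (hf : DivN V N f) :
    ∃ f', SameCls V N f f' ∧ IsMin V N f' := by
  classical
  set hF := V.isFunctionField ℂ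
  obtain ⟨D, hD⟩ := exists_divisor_quot hf hN
  obtain ⟨g, hg, hgpos⟩ : ∃ g : V.fld ℂ, g ≠ 0 ∧
      ∀ v, v ≠ infPlace V → 0 ≤ v.ord f + N * v.ord g := by
    set G := genus ℂ (V.fld ℂ)
    set E : Divisor ℂ (V.fld ℂ) := (D : Divisor ℂ (V.fld ℂ)) +
      Finsupp.single (infPlace V) ((G : ℤ) + 1) with hE
    have hdeg : Divisor.degree E = (G : ℤ) + 1 := by
      rw [hE, map_add, Divisor.degree_single, hF.deg_eq_one, D.2, zero_add, Nat.cast_one, mul_one]
    have hpos : 0 < ell E := by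
      have := riemann_inequality hF E
      omega
    obtain ⟨g, hgE, hg⟩ := exists_ne_zero_of_ell_pos hpos
    refine ⟨g, hg, fun v hv => ?_⟩
    have h1 := (atLeast_iff hg).1 (mem_riemannRochSpace.1 hgE v)
    rw [hE, Finsupp.add_apply, Finsupp.single_eq_of_ne hv, add_zero] at h1
    have := mul_le_mul_of_nonneg_left h1 (Int.natCast_nonneg N)
    rw [← hD v]
    linarith
  have hsame : SameCls V N f (f * g ^ N) := ⟨1, g, one_ne_zero, hg, by simp⟩
  obtain ⟨k, c, hc, hk⟩ := exists_normalised (hf.of_sameCls hsame) (fun v hv => by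
    rw [v.ord_mul hf.1 (pow_ne_zero N hg), FA.ModField.place_ord_pow]
    exact hgpos v hv)
  have hex : ∃ k, ∃ f', SameCls V N f f' ∧ NormAt V N f' k :=
    ⟨k, _, hsame.trans ⟨c, 1, hc, one_ne_zero, by simp⟩, hk⟩
  obtain ⟨f', hs, hf'⟩ := Nat.find_spec hex
  exact ⟨f', hs, _, hf', fun f'' k'' hs' hk'' => Nat.find_min' hex ⟨f'', hs.trans hs', hk''⟩⟩

/-- There are finitely many minimal normalised elements. -/
theorem finite_isMin {N : ℕ} (hN : N ≠ 0) : {f : V.fld ℂ | IsMin V N f}.Finite := by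
  classical
  haveI : NeZero N := ⟨hN⟩
  haveI := tors_finite V ℂ N
  have key : ∀ f : {f : V.fld ℂ | IsMin V N f}, ∃ D : Divisor.degZero (K := ℂ) (F := V.fld ℂ),
      ∀ v, (N : ℤ) * (D : Divisor ℂ (V.fld ℂ)) v = v.ord (f : V.fld ℂ) := fun f =>
    exists_divisor_quot f.2.choose_spec.1.1 hN
  choose D hD using key
  let cls : {f : V.fld ℂ | IsMin V N f} → tors V ℂ N := fun f => ⟨Pic0.mk (D f), by
    rw [Pic0.mem_torsion]
    refine (QuotientAddGroup.eq_zero_iff _).2 ?_
    rw [AddSubgroup.mem_addSubgroupOf]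
    exact ⟨f, f.2.choose_spec.1.1.1, fun v => by simp [hD f v]⟩⟩
  refine Set.finite_coe_iff.1 (Finite.of_injective cls fun f f' h => ?_)
  have h1 := congrArg Subtype.val h
  have h2 := QuotientAddGroup.eq.1 h1
  rw [AddSubgroup.mem_addSubgroupOf] at h2
  obtain ⟨g, hg, hgD⟩ := h2
  refine Subtype.ext (eq_of_isMin hN f.2 f'.2 ?_)
  have hf0 : (f : V.fld ℂ) ≠ 0 := f.2.choose_spec.1.1.1
  have hf0' : (f' : V.fld ℂ) ≠ 0 := f'.2.choose_spec.1.1.1
  set u : V.fld ℂ := (f' : V.fld ℂ) * ((f : V.fld ℂ) * g ^ N)⁻¹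
  have hu : ∀ v : Place ℂ (V.fld ℂ), AtLeast v 0 u := fun v => by
    refine Or.inr ?_
    rw [v.ord_mul hf0' (inv_ne_zero (mul_ne_zero hf0 (pow_ne_zero N hg))), v.ord_inv,
      v.ord_mul hf0 (pow_ne_zero N hg), FA.ModField.place_ord_pow, ← hD f v, ← hD f' v,
      show v.ord g = -(D f : Divisor ℂ (V.fld ℂ)) v + (D f' : Divisor ℂ (V.fld ℂ)) v by
        rw [← hgD v]; simp]
    ring_nf
    exact le_refl _
  have h3 := mem_span_of_isConst hu fun _ hg' => exists_ord_neg (V.isFunctionField ℂ) hg'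
  rw [Submodule.mem_span_singleton] at h3
  obtain ⟨a, ha⟩ := h3
  rw [Algebra.smul_def, mul_one, eq_mul_inv_iff_mul_eq₀ (mul_ne_zero hf0 (pow_ne_zero N hg))] at ha
  refine ⟨a, g, fun h0 => hf0' ?_, hg, by rw [← ha, mul_assoc]⟩
  rw [← ha, h0, map_zero, zero_mul]

/-- An automorphism of `ℂ` acting on the field. -/
def galC (V : Lvl) (σ : ℂ ≃+* ℂ) : SemilinearAut ℂ (V.fld ℂ) :=
  arithmeticGalois V.F₀ (AlgEquiv.ofRingEquiv (f := σ) fun q => by simp)

theorem coe_galC (σ : ℂ ≃+* ℂ) (f : V.fld ℂ) :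
    ((galC V σ • f : V.fld ℂ) : LaurentSeries ℂ) = coeffMap (σ : ℂ →+* ℂ) (f : LaurentSeries ℂ) :=
  rfl

theorem galC_symm (σ : ℂ ≃+* ℂ) (f : V.fld ℂ) : galC V σ • galC V σ.symm • f = f := by
  apply Subtype.ext
  rw [coe_galC, coe_galC, coeffMap_coeffMap,
    coeffMap_congr (g := RingHom.id ℂ) (RingHom.ext fun a => σ.apply_symm_apply a), coeffMap_id]

theorem order_coeffMap {K K' : Type*} [Field K] [Field K'] (σ : K →+* K') (s : LaurentSeries K) :
    (coeffMap σ s).order = s.order := by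
  rcases eq_or_ne s 0 with rfl | hs
  · simp
  have h : (coeffMap σ s).coeff s.order ≠ 0 := by
    rw [coeffMap_coeff]
    exact (map_ne_zero σ).2 (HahnSeries.coeff_order_eq_zero.not.2 hs)
  refine le_antisymm (HahnSeries.order_le_of_coeff_ne_zero h) ?_
  by_contra hlt
  have h' : coeffMap σ s ≠ 0 := fun h0 => h (by rw [h0]; simp)
  apply HahnSeries.coeff_order_eq_zero.not.2 h'
  rw [coeffMap_coeff, HahnSeries.coeff_eq_zero_of_lt_order (not_le.1 hlt), map_zero]

theorem galC_infPlace (σ : ℂ ≃+* ℂ) : galC V σ • infPlace V = infPlace V := by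
  refine Place.ext (SetLike.ext fun f => ?_)
  rw [SemilinearAut.smul_toValuationSubring,
    ValuationSubring.mem_pointwise_smul_iff_inv_smul_mem]
  rcases eq_or_ne f 0 with rfl | hf
  · simp
  have hf' : (galC V σ)⁻¹ • f ≠ 0 := fun h => hf (by
    simpa using congrArg (galC V σ • ·) h)
  rw [mem_place_iff, mem_place_iff, ord_infPlace, ord_infPlace]
  conv_rhs => rw [← smul_inv_smul (galC V σ) f, coe_galC, order_coeffMap]

theorem normAt_galC {N : ℕ} {f : V.fld ℂ} {k : ℕ} (h : NormAt V N f k) (σ : ℂ ≃+* ℂ) :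
    NormAt V N (galC V σ • f) k := by
  obtain ⟨⟨hf, hdiv⟩, hpos, hinf, hlead⟩ := h
  have hord : ∀ v : Place ℂ (V.fld ℂ), v.ord (galC V σ • f) = ((galC V σ)⁻¹ • v).ord f := fun v => by
    have := SemilinearAut.ord_smul (galC V σ) ((galC V σ)⁻¹ • v) f
    rwa [smul_inv_smul] at this
  refine ⟨⟨fun h0 => hf (by simpa using congrArg ((galC V σ)⁻¹ • ·) h0),
    fun v => by rw [hord]; exact hdiv _⟩, fun v hv => ?_, ?_, ?_⟩
  · rw [hord]
    refine hpos _ fun h0 => hv ?_
    rw [← smul_inv_smul (galC V σ) v, h0, galC_infPlace]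
  · rw [ord_infPlace, coe_galC, order_coeffMap, ← ord_infPlace, hinf]
  · rw [coe_galC, HahnSeries.leadingCoeff_eq, order_coeffMap, coeffMap_coeff,
      ← HahnSeries.leadingCoeff_eq, hlead, map_one]

theorem SameCls.gal {N : ℕ} {f f' : V.fld ℂ} (h : SameCls V N f f') (σ : ℂ ≃+* ℂ) :
    SameCls V N (galC V σ • f) (galC V σ • f') := by
  obtain ⟨c, g, hc, hg, rfl⟩ := h
  refine ⟨σ c, galC V σ • g, (map_ne_zero σ).2 hc, fun h0 => hg ?_, ?_⟩
  · simpa using congrArg ((galC V σ)⁻¹ • ·) h0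
  · rw [smul_mul', smul_mul', smul_pow']
    congr 2
    exact SemilinearAut.smul_algebraMap _ c

theorem isMin_galC {N : ℕ} {f : V.fld ℂ} (h : IsMin V N f) (σ : ℂ ≃+* ℂ) :
    IsMin V N (galC V σ • f) := by
  obtain ⟨k, hk, hmin⟩ := h
  refine ⟨k, normAt_galC hk σ, fun f' k' hs hk' => hmin _ _ ?_ (normAt_galC hk' σ.symm)⟩
  have h1 := hs.gal σ.symm
  have h2 := galC_symm (V := V) σ.symm f
  rw [RingEquiv.symm_symm] at h2
  rwa [h2] at h1

variable (V)

/-- An element of the field over `ℂ` with coefficients in `L` comes from the field over `L`. -/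
theorem exists_toC_of_coeff {L : Type} [Field L] [Algebra ℚ L] [Algebra L ℂ] {f : V.fld ℂ}
    {s : LaurentSeries L} (hs : coeffMap (algebraMap L ℂ) s = (f : LaurentSeries ℂ)) :
    ∃ g : V.fld L, toC V L g = f := by
  obtain ⟨a, b, hb, hab⟩ := V.exists_fraction ℂ f
  have hser : (a : LaurentSeries ℂ) = coeffMap (algebraMap L ℂ) s * (b : LaurentSeries ℂ) := by
    rw [hs]
    exact (congrArg Subtype.val hab).symm
  have hb' : (b : LaurentSeries ℂ) ≠ 0 := fun h => hb (Subtype.ext h)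
  obtain ⟨φ, hφ⟩ : ∃ φ : ℂ →ₗ[L] L,
      φ ((b : LaurentSeries ℂ).coeff (b : LaurentSeries ℂ).order) ≠ 0 :=
    Module.Projective.exists_dual_ne_zero L (HahnSeries.coeff_order_eq_zero.not.2 hb')
  have ha := coeffFun_mem_adjoin V.gen φ a.2
  have hb2 := coeffFun_mem_adjoin V.gen φ b.2
  rw [hser, coeffFun_coeffMap_mul] at ha
  have hne : coeffFun φ (b : LaurentSeries ℂ) ≠ 0 := fun h => hφ (by
    simpa [coeffFun_coeff] using
      congrArg (fun c : LaurentSeries L => c.coeff (b : LaurentSeries ℂ).order) h)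
  have hmem : s ∈ V.fld L := by
    rw [← mul_div_cancel_right₀ s hne]
    exact div_mem (V.alg_le L ha) (V.alg_le L hb2)
  exact ⟨⟨s, hmem⟩, Subtype.ext hs⟩

/-- Descent of an element with divisor divisible by `N`. -/
theorem exists_descended {L : Type} [Field L] [IsAlgClosed L] [Algebra ℚ L] [Algebra L ℂ]
    {N : ℕ} (hN : N ≠ 0) {f₀ : V.fld ℂ} (h₀ : DivN V N f₀) :
    ∃ f : V.fld L, SameCls V N f₀ (toC V L f) := by
  obtain ⟨f', hs, hf'⟩ := exists_isMin hN h₀
  have halg : ∀ i, IsAlgebraic ℚ ((f' : LaurentSeries ℂ).coeff i) := fun i => by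
    refine isAlgebraic_of_finite_orbit _ ?_
    refine ((finite_isMin hN).image fun g : V.fld ℂ => (g : LaurentSeries ℂ).coeff i).subset ?_
    rintro _ ⟨σ, rfl⟩
    exact ⟨galC V σ • f', isMin_galC hf' σ, rfl⟩
  choose t ht using fun i => mem_range_of_isAlgebraic (L := L) (halg i)
  have hpwo : (Function.support t).IsPWO :=
    (f' : LaurentSeries ℂ).isPWO_support.mono fun i hi h0 => hi (by
      apply (algebraMap L ℂ).injective
      rw [ht, h0, map_zero])
  set s : LaurentSeries L := ⟨t, hpwo⟩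
  obtain ⟨f, hf⟩ := exists_toC_of_coeff V (f := f') (s := s) (HahnSeries.ext (funext ht))
  exact ⟨f, hf ▸ hs⟩

end FA.JTorsion
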