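import Fermat.Agent.JTorsion.LatMod
import Fermat.Agent.CurveRed.GoodReduction
import Fermat.Agent.ModField.Congruence.Export

/-!
# Good reduction of `J₀(N)` at all primes not dividing the level
-/

set_option autoImplicit false
set_option linter.style.haveILetI false
set_option maxHeartbeats 1000000

noncomputable section

namespace FA.JTorsion

/-- Good reduction at every prime not dividing the level. -/
theorem goodRed_all (N : ℕ) [NeZero N] : GoodRed N where
  inertia ℓ hℓ hℓN A hA σ hσ n hn x hx :=
    haveI : Fact ℓ.Prime := ⟨hℓ⟩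
    FA.ModField.inertia_smul_torsion N hℓN hA
      (FA.CurveRed.Modular.reductionInputsModL N hℓ hℓN A hA) hσ hn hx
  frobenius ℓ hℓ hℓN _ A hA σ hσ n hn x hx :=
    haveI : Fact ℓ.Prime := ⟨hℓ⟩
    FA.ModField.frobenius_smul_torsion N hℓN hA
      (FA.CurveRed.Modular.reductionInputsModL N hℓ hℓN A hA) hσ hn hx

end FA.JTorsion
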