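import Fermat.Agent.Deform.EigenLift
import Fermat.Agent.Period.Integral
import Fermat.Prelude.Def_FLTPrelim_ModularRep

/-!
# The character of the Hecke algebra given by a normalised eigenform
-/

set_option autoImplicit false
set_option linter.style.haveILetI false
set_option linter.unusedSectionVars false

noncomputable section

namespace FA.JTorsion

open CongruenceSubgroup FA.Deform

variable {N : ℕ} [NeZero N] {g : CuspForm (Gamma0 N) 2}

theorem qCoeff_rec (hg : g.IsNormalizedEigenform) {p : ℕ} (hp : p.Prime) (n : ℕ) :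
    qLin N g (n * p) + (if p ∣ n then cor N p * qLin N g (n / p) else 0) =
      qLin N g p * qLin N g n := by
  rcases Nat.eq_zero_or_pos n with rfl | hn
  · simp [qLin_zero_apply]
  obtain ⟨r, m, hm, rfl⟩ := Nat.exists_eq_pow_mul_and_not_dvd hn.ne' p hp.ne_one
  have hcop : ∀ s : ℕ, (p ^ s).Coprime m := fun s =>
    ((hp.coprime_iff_not_dvd).2 hm).pow_left s
  have hmul : ∀ s : ℕ, qLin N g (p ^ s * m) = qLin N g (p ^ s) * qLin N g m := fun s =>
    hg.qCoeff_mul_of_coprime _ _ (hcop s)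
  rw [show p ^ r * m * p = p ^ (r + 1) * m by ring, hmul, hmul]
  rcases r with _ | r
  · rw [if_neg (by simpa using hm), pow_one, pow_zero,
      show qLin N g 1 = 1 from hg.qCoeff_one]
    ring
  · rw [if_pos ((dvd_pow_self p (Nat.succ_ne_zero r)).mul_right m),
      show p ^ (r + 1) * m / p = p ^ r * m by
        rw [pow_succ, mul_comm (p ^ r) p, mul_assoc, Nat.mul_div_cancel_left _ hp.pos], hmul]
    by_cases hpN : p ∣ N
    · have h := hg.qCoeff_prime_pow_of_dvd p r hp hpN
      simp only [← qLin_apply] at h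
      rw [cor, if_pos hpN, h]
      ring
    · have h := hg.qCoeff_prime_pow_of_not_dvd p r hp hpN
      simp only [← qLin_apply] at h
      rw [cor, if_neg hpN, h]
      ring

theorem heckeT_eigen (hg : g.IsNormalizedEigenform) {p : ℕ} (hp : p.Prime) (hpN : ¬ p ∣ N) :
    CuspForm.heckeTLin 2 hp hpN g = qLin N g p • g := by
  refine qLin_injective (funext fun n => ?_)
  rw [qLin_heckeT hp hpN, map_smul, Pi.smul_apply, smul_eq_mul, ← qCoeff_rec hg hp n, cor,
    if_neg hpN]

theorem heckeU_eigen (hg : g.IsNormalizedEigenform) {p : ℕ} (hp : p.Prime) (hpN : p ∣ N) :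
    CuspForm.heckeULin 2 hpN g = qLin N g p • g := by
  refine qLin_injective (funext fun n => ?_)
  rw [qLin_heckeU hp hpN, map_smul, Pi.smul_apply, smul_eq_mul, ← qCoeff_rec hg hp n, cor,
    if_pos hpN, zero_mul, ite_self, add_zero]

variable (S : Set ℕ)

theorem exists_eigenvalue (hg : g.IsNormalizedEigenform) (t : CuspForm.heckeAlgebra N 2 S) :
    ∃ c : ℂ, (t : Module.End ℂ (CuspForm (Gamma0 N) 2)) g = c • g := by
  obtain ⟨t, ht⟩ := t
  refine Algebra.adjoin_induction (p := fun t _ => ∃ c : ℂ, t g = c • g) ?_ ?_ ?_ ?_ ht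
  · rintro _ (⟨ℓ, hℓ, hℓN, -, rfl⟩ | ⟨q, hqN, hq, -, rfl⟩)
    · exact ⟨_, heckeT_eigen hg hℓ hℓN⟩
    · exact ⟨_, heckeU_eigen hg hq hqN⟩
  · intro r
    exact ⟨r, by rw [eq_intCast, Module.End.intCast_apply, Int.cast_smul_eq_zsmul]⟩
  · rintro x y - - ⟨c, hc⟩ ⟨d, hd⟩
    exact ⟨c + d, by rw [LinearMap.add_apply, hc, hd, add_smul]⟩
  · rintro x y - - ⟨c, hc⟩ ⟨d, hd⟩
    exact ⟨d * c, by rw [Module.End.mul_apply, hd, map_smul, hc, smul_smul]⟩

/-- The eigencharacter, with values in the algebraic integers. -/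
theorem exists_eigenChar (hg : g.IsNormalizedEigenform) :
    ∃ ψ : CuspForm.heckeAlgebra N 2 S →+* integralClosure ℤ ℂ,
      ∀ (ℓ : ℕ) (hℓ : ℓ.Prime) (hℓN : ¬ ℓ ∣ N) (hℓS : ℓ ∉ S),
        (ψ (CuspForm.heckeAlgebra.T hℓ hℓN hℓS) : ℂ) = ModularFormClass.qCoeff g ℓ := by
  choose c hc using exists_eigenvalue S hg
  have hne : g ≠ 0 := hg.ne_zero
  have hu : ∀ {a b : ℂ}, a • g = b • g → a = b := fun h => smul_left_injective ℂ hne h
  let χ : CuspForm.heckeAlgebra N 2 S →+* ℂ :=
    { toFun := c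
      map_one' := hu (by rw [← hc 1, one_smul]; rfl)
      map_mul' := fun s t => hu (by
        rw [← hc, MulMemClass.coe_mul, Module.End.mul_apply, hc t, map_smul, hc s, smul_smul,
          mul_comm])
      map_zero' := hu (by rw [← hc 0, zero_smul]; rfl)
      map_add' := fun s t => hu (by
        rw [← hc, Subalgebra.coe_add, LinearMap.add_apply, hc s, hc t, add_smul]) }
  have hint : ∀ t, χ t ∈ integralClosure ℤ ℂ := fun t => by
    haveI : Module.Finite ℤ (CuspForm.heckeAlgebra N 2 S) :=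
      FA.Period.moduleFinite_heckeAlgebra N 2 S
    exact (Algebra.IsIntegral.isIntegral (R := ℤ) t).map χ.toIntAlgHom
  refine ⟨χ.codRestrict (integralClosure ℤ ℂ) hint, fun ℓ hℓ hℓN hℓS => hu ?_⟩
  show c _ • g = _
  rw [← hc]
  exact heckeT_eigen hg hℓ hℓN

end FA.JTorsion
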