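import Fermat.Agent.JTorsion.Residual
import Fermat.Agent.JTorsion.Eigen
import Fermat.Agent.EC.TorsionGalois
import Fermat.Agent.Local.Reducible
import Fermat.Prelude.Def_FreyPackage_EigenformResidualAttachment
import Mathlib.FieldTheory.Normal.Closure
import Mathlib.FieldTheory.IsAlgClosed.AlgebraicClosure
import Mathlib.LinearAlgebra.Matrix.Charpoly.LinearMap
import Mathlib.RingTheory.Ideal.GoingUp
import Mathlib.RingTheory.IntegralClosure.IntegrallyClosed

/-!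
# Residual representations attached to eigenforms (given good reduction)
-/

set_option autoImplicit false
set_option linter.style.haveILetI false
set_option linter.unusedSectionVars false

noncomputable section

open Polynomial

namespace FA.JTorsion

local notation "Qb" => AlgebraicClosure ℚ
local notation "ZB" => integralClosure ℤ ℂ

theorem isAlgClosed_residue (m : Ideal ZB) [hm : m.IsMaximal] :
    letI := Ideal.Quotient.field m; IsAlgClosed (ZB ⧸ m) := by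
  letI := Ideal.Quotient.field m
  refine IsAlgClosed.of_exists_root _ fun P hP hirr => ?_
  have hdeg : 0 < P.natDegree := hirr.natDegree_pos
  obtain ⟨Q, hQ, hQdeg, hQm⟩ := Polynomial.lifts_and_degree_eq_and_monic
    ((Polynomial.lifts_iff_coeff_lifts P).2 fun n => Ideal.Quotient.mk_surjective (P.coeff n)) hP
  have hQdeg' : 0 < (Q.map (algebraMap ZB ℂ)).degree := by
    rw [hQm.degree_map, hQdeg]
    exact natDegree_pos_iff_degree_pos.1 hdeg
  obtain ⟨z, hz⟩ := IsAlgClosed.exists_root (Q.map (algebraMap ZB ℂ)) hQdeg'.ne'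
  have hzint : IsIntegral ZB z := ⟨Q, hQm, by
    rwa [IsRoot.def, Polynomial.eval_map] at hz⟩
  have hzZ : IsIntegral ℤ z := isIntegral_trans (R := ℤ) (A := ZB) z hzint
  let z' : ZB := ⟨z, hzZ⟩
  refine ⟨Ideal.Quotient.mk m z', ?_⟩
  rw [← hQ, Polynomial.eval_map, Polynomial.eval₂_hom]
  have h0 : Q.eval z' = 0 := by
    refine Subtype.ext ?_
    show algebraMap ZB ℂ (Q.eval _) = 0
    rw [← Polynomial.eval₂_at_apply, ← Polynomial.eval_map]
    exact hz
  rw [h0, map_zero]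

theorem isMaximal_of_natCast_mem {p : ℕ} [Fact p.Prime] (m : Ideal ZB) [m.IsPrime]
    (hp : (p : ZB) ∈ m) : m.IsMaximal := by
  refine Ideal.isMaximal_of_isIntegral_of_isMaximal_comap (R := ℤ) m ?_
  have h1 : Ideal.span {(p : ℤ)} ≤ m.comap (algebraMap ℤ ZB) := by
    rw [Ideal.span_le, Set.singleton_subset_iff]
    show algebraMap ℤ ZB (p : ℤ) ∈ m
    rwa [map_natCast]
  have h2 : (Ideal.span {(p : ℤ)}).IsMaximal :=
    PrincipalIdealRing.isMaximal_of_irreducible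
      (Nat.prime_iff_prime_int.1 (Fact.out : p.Prime)).irreducible
  rw [← h2.eq_of_le (Ideal.IsPrime.ne_top inferInstance) h1]
  exact h2

/-- The algebra structure on `ℂ` used for the construction. -/
theorem exists_algebra_qbar : Nonempty (Algebra Qb ℂ) := by
  haveI : Algebra.IsAlgebraic ℚ Qb := AlgebraicClosure.isAlgebraic ℚ
  exact ⟨(IsAlgClosed.lift (R := ℚ) (S := Qb) (M := ℂ)).toRingHom.toAlgebra⟩

variable {N : ℕ} [NeZero N] {g : CuspForm (CongruenceSubgroup.Gamma0 N) 2}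

/-- The matrices attached to an eigenform modulo a maximal ideal over `p`. -/
theorem exists_residual_of_eigenform (hGR : GoodRed N) (hg : g.IsNormalizedEigenform) {p : ℕ}
    [Fact p.Prime] (m : Ideal ZB) [m.IsMaximal] (hp : (p : ZB) ∈ m) :
    letI := Ideal.Quotient.field m
    ∃ r : GalQ →* Matrix (Fin 2) (Fin 2) (ZB ⧸ m),
      (∃ L : IntermediateField ℚ Qb, FiniteDimensional ℚ L ∧
        ∀ σ : GalQ, (∀ a ∈ L, σ a = a) → r σ = 1) ∧
      ∀ ℓ : ℕ, ℓ.Prime → ¬ ℓ ∣ N → ℓ ≠ p →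
        ∀ A : ValuationSubring Qb, A.LiesOverPrime ℓ →
          (∀ σ ∈ A.inertiaSubgroupIn ℚ, r σ = 1) ∧
          ∀ σ : GalQ, A.IsFrobeniusAt σ ℓ →
            ∃ a : ZB, (a : ℂ) = ModularFormClass.qCoeff g ℓ ∧
              (r σ).trace = Ideal.Quotient.mk m a ∧ (r σ).det = (ℓ : ZB ⧸ m) := by
  letI := Ideal.Quotient.field m
  haveI := isAlgClosed_residue m
  obtain ⟨alg⟩ := exists_algebra_qbar
  letI := alg
  haveI : CharP (ZB ⧸ m) p := by
    refine (CharP.charP_iff_prime_eq_zero Fact.out).2 ?_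
    rw [← map_natCast (Ideal.Quotient.mk m), Ideal.Quotient.eq_zero_iff_mem]
    exact hp
  obtain ⟨ψ, hψ⟩ := exists_eigenChar (↑(∅ : Finset ℕ) : Set ℕ) hg
  obtain ⟨r, hfin, -, hr⟩ := exists_residual N ∅ p ((Ideal.Quotient.mk m).comp ψ) hGR
  refine ⟨r, hfin, fun ℓ hℓ hℓN hℓp A hA => ?_⟩
  obtain ⟨hI, hF⟩ := hr ℓ hℓ hℓN hℓp A hA
  have hℓS : ℓ ∉ (↑(∅ : Finset ℕ) : Set ℕ) := by simp
  exact ⟨hI, fun σ hσ => ⟨_, hψ ℓ hℓ hℓN hℓS, hF hℓS σ hσ⟩⟩

/-- A matrix representation of finite level as a residual representation. -/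
def residualOfMatrix {k : Type} [Field k] (r : GalQ →* Matrix (Fin 2) (Fin 2) k)
    (h : ∃ L : IntermediateField ℚ Qb, FiniteDimensional ℚ L ∧
      ∀ σ : GalQ, (∀ a ∈ L, σ a = a) → r σ = 1) : ResidualGaloisRep k where
  V := Fin 2 → k
  finrank_eq := Module.finrank_fin_fun k
  ρ := (Matrix.toLinAlgEquiv' (R := k)).toRingEquiv.toRingHom.toMonoidHom.comp r
  factorsThroughFiniteLevel := by
    obtain ⟨L, hL, hr⟩ := h
    refine ⟨L, hL, fun σ hσ => ?_⟩
    show Matrix.toLinAlgEquiv' (r σ) = 1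
    rw [hr σ hσ, map_one]

/-- The statement of S29, given good reduction at every level. -/
theorem exists_attached (hGR : ∀ (N : ℕ) [NeZero N], GoodRed N)
    {N : ℕ} {g : CuspForm (CongruenceSubgroup.Gamma0 N) 2} (hg : g.IsNormalizedEigenform)
    {p : ℕ} (hp : p.Prime) {k : Type} [Field k] [CharP k p] (φ : ZB →+* k) :
    ∃ ρ : ResidualGaloisRep k, ρ.IsAttachedTo g φ ∧
      ∀ ℓ : ℕ, ℓ.Prime → ¬ ℓ ∣ N * p → ρ.IsUnramifiedAt ℓ := by
  rcases eq_or_ne N 0 with rfl | hN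
  · exact ⟨residualOfMatrix (1 : GalQ →* Matrix (Fin 2) (Fin 2) k)
      ⟨⊥, inferInstance, fun σ _ => rfl⟩,
      fun ℓ _ hℓN => absurd (dvd_zero ℓ) hℓN, fun ℓ _ hℓN => absurd (by simp) hℓN⟩
  haveI : NeZero N := ⟨hN⟩
  haveI : Fact p.Prime := ⟨hp⟩
  haveI : (RingHom.ker φ).IsPrime := RingHom.ker_isPrime φ
  have hpm : (p : ZB) ∈ RingHom.ker φ := by
    rw [RingHom.mem_ker, map_natCast, CharP.cast_eq_zero]
  haveI := isMaximal_of_natCast_mem (p := p) (RingHom.ker φ) hpm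
  letI := Ideal.Quotient.field (RingHom.ker φ)
  obtain ⟨r, hfin, hr⟩ := exists_residual_of_eigenform (hGR N) hg (p := p) (RingHom.ker φ) hpm
  let ι : ZB ⧸ RingHom.ker φ →+* k := RingHom.kerLift φ
  refine ⟨residualOfMatrix (ι.mapMatrix.toMonoidHom.comp r) ?_, ?_, ?_⟩
  · obtain ⟨L, hL, hL'⟩ := hfin
    exact ⟨L, hL, fun σ hσ => by
      show ι.mapMatrix (r σ) = 1
      rw [hL' σ hσ, map_one]⟩
  · intro ℓ hℓ hℓN hℓk A hA σ hσ
    have hℓp : ℓ ≠ p := fun h => hℓk (h ▸ CharP.cast_eq_zero k p)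
    obtain ⟨a, ha, htr, hdet⟩ := (hr ℓ hℓ hℓN hℓp A hA).2 σ hσ
    refine ⟨a, ha, ?_⟩
    show LinearMap.charpoly (Matrix.toLinAlgEquiv' (ι.mapMatrix (r σ))) = _
    rw [show Matrix.toLinAlgEquiv' (ι.mapMatrix (r σ)) = Matrix.toLin' (ι.mapMatrix (r σ)) from rfl,
      Matrix.charpoly_toLin', Matrix.charpoly_fin_two, RingHom.mapMatrix_apply,
      show ((r σ).map ι).det = ι (r σ).det from (RingHom.map_det ι (r σ)).symm, hdet, map_natCast]
    congr 3
    rw [Matrix.trace_fin_two, Matrix.map_apply, Matrix.map_apply, ← ι.map_add, ← Matrix.trace_fin_two,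
      htr]
    rfl
  · intro ℓ hℓ hℓNp A hA σ hσ
    have hℓN : ¬ ℓ ∣ N := fun h => hℓNp (h.mul_right p)
    have hℓp : ℓ ≠ p := fun h => hℓNp (h ▸ dvd_mul_left p N)
    show Matrix.toLinAlgEquiv' (ι.mapMatrix (r σ)) = 1
    rw [(hr ℓ hℓ hℓN hℓp A hA).1 σ hσ, map_one, map_one]

open scoped CongruenceSubgroup in
/-- The statement of S42, given good reduction at every level. -/
theorem eigenformResidualAttachment (hGR : ∀ (N : ℕ) [NeZero N], GoodRed N) (P : FreyPackage)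
    (M : ℕ) (hM : 0 < M) : P.EigenformResidualAttachmentAt M := by
  classical
  intro g hg m hm hp
  haveI : NeZero M := ⟨hM.ne'⟩
  haveI : Fact P.p.Prime := ⟨P.pp⟩
  letI := Ideal.Quotient.field m
  haveI : CharP (ZB ⧸ m) P.p := by
    refine (CharP.charP_iff_prime_eq_zero P.pp).2 ?_
    rw [← map_natCast (Ideal.Quotient.mk m), Ideal.Quotient.eq_zero_iff_mem]
    exact hp
  obtain ⟨r, ⟨L₂, hL₂, hr2⟩, hr⟩ := exists_residual_of_eigenform (hGR M) hg (p := P.p) m hp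
  obtain ⟨L₁, hL₁, hr1⟩ := FA.EC.galoisFactorsThroughFiniteLevel P.freyCurve (n := P.p) P.pp.ne_zero
  haveI : Algebra.IsAlgebraic ℚ Qb := AlgebraicClosure.isAlgebraic ℚ
  haveI : IsAlgClosure ℚ Qb := ⟨inferInstance, inferInstance⟩
  haveI : Normal ℚ Qb := IsAlgClosure.normal ℚ Qb
  let F : IntermediateField ℚ Qb := IntermediateField.normalClosure ℚ (L₁ ⊔ L₂ : IntermediateField ℚ Qb) Qb
  haveI : FiniteDimensional ℚ F := normalClosure.is_finiteDimensional ℚ _ Qb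
  haveI : Normal ℚ F := normalClosure.normal ℚ _ Qb
  haveI : IsGalois ℚ F := IsGalois.mk
  haveI : NumberField F := { }
  let ρ : Representation (ZB ⧸ m) GalQ (Fin 2 → ZB ⧸ m) :=
    (Matrix.toLinAlgEquiv' (R := ZB ⧸ m)).toRingEquiv.toRingHom.toMonoidHom.comp r
  refine ⟨ZB ⧸ m, inferInstance, ZMod.algebra _ _, Fin 2 → ZB ⧸ m, inferInstance, inferInstance,
    ρ, Ideal.Quotient.mk m, F, inferInstance, inferInstance, inferInstance, inferInstance,
    inferInstance, by rw [Ideal.mk_ker], Module.finrank_fin_fun _, ?_, ?_, ?_⟩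
  · intro σ hσ
    have hfix : ∀ a ∈ (L₁ ⊔ L₂ : IntermediateField ℚ Qb), σ a = a := fun a ha => by
      have h1 : σ ∈ F.fixingSubgroup := by rwa [← IntermediateField.restrictNormalHom_ker F]
      exact (IntermediateField.mem_fixingSubgroup_iff _ _).1 h1 a
        (IntermediateField.le_normalClosure _ ha)
    refine Subgroup.mem_inf.2 ⟨hr1 σ fun a ha => hfix a ((le_sup_left : L₁ ≤ L₁ ⊔ L₂) ha), ?_⟩
    show Matrix.toLinAlgEquiv' (r σ) = 1
    rw [hr2 σ fun a ha => hfix a ((le_sup_right : L₂ ≤ L₁ ⊔ L₂) ha), map_one]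
  · intro ℓ hℓ hℓM hℓp A hA τ hτ
    obtain ⟨a, ha, htr, -⟩ := (hr ℓ hℓ hℓM hℓp A hA).2 τ hτ
    refine ⟨a, ha, ?_⟩
    show LinearMap.trace _ _ (Matrix.toLinAlgEquiv' (r τ)) = _
    rw [show Matrix.toLinAlgEquiv' (r τ) = Matrix.toLin' (r τ) from rfl, Matrix.trace_toLin'_eq,
      htr]
  · intro ℓ hℓ hℓM hℓp A hA τ hτ
    obtain ⟨a, ha, -, hdet⟩ := (hr ℓ hℓ hℓM hℓp A hA).2 τ hτ
    show LinearMap.det (Matrix.toLinAlgEquiv' (r τ)) = _
    rw [show Matrix.toLinAlgEquiv' (r τ) = Matrix.toLin' (r τ) from rfl, LinearMap.det_toLin', hdet]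

end FA.JTorsion
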