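import Fermat.Agent.JTorsion.Burnside
import Mathlib.LinearAlgebra.Matrix.Charpoly.Coeff
import Mathlib.LinearAlgebra.Matrix.Charpoly.LinearMap
import Mathlib.LinearAlgebra.Matrix.ToLin

/-!
# A quadratic relation on an irreducible representation forces dimension at most two
-/

set_option autoImplicit false
set_option linter.style.haveILetI false
set_option linter.unusedSectionVars false

namespace FA.JTorsion

section Scal

variable {R A G : Type*} [CommRing R] [Ring A] [Algebra R A] [Group G]

/-- `g + χ(g) g⁻¹` acts as a scalar. -/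
def Scal (ρ : G →* A) (χ : G →* Rˣ) (g : G) : Prop :=
  ∃ t : R, ρ g + (χ g : R) • ρ g⁻¹ = t • 1

theorem Scal.pow {ρ : G →* A} {χ : G →* Rˣ} {g : G} (h : Scal ρ χ g) (m : ℕ) :
    Scal ρ χ (g ^ m) := by
  obtain ⟨t, ht⟩ := h
  induction m using Nat.twoStepInduction with
  | zero => exact ⟨2, by rw [pow_zero, inv_one, map_one, map_one, Units.val_one, one_smul, two_smul]⟩
  | one => exact ⟨t, by rw [pow_one]; exact ht⟩
  | more m ih1 ih2 =>
    obtain ⟨a, ha⟩ := ih1
    obtain ⟨b, hb⟩ := ih2
    refine ⟨t * b - (χ g : R) * a, ?_⟩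
    have e : (ρ g + (χ g : R) • ρ g⁻¹) * (ρ (g ^ (m + 1)) + (χ (g ^ (m + 1)) : R) • ρ (g ^ (m + 1))⁻¹) =
        (ρ (g ^ (m + 2)) + (χ (g ^ (m + 2)) : R) • ρ (g ^ (m + 2))⁻¹) +
          (χ g : R) • (ρ (g ^ m) + (χ (g ^ m) : R) • ρ (g ^ m)⁻¹) := by
      simp only [add_mul, mul_add, smul_add, smul_mul_assoc, mul_smul_comm, smul_smul, ← map_mul,
        ← Units.val_mul]
      rw [show g * g ^ (m + 1) = g ^ (m + 2) from (pow_succ' g (m + 1)).symm,
        show g * (g ^ (m + 1))⁻¹ = (g ^ m)⁻¹ by rw [pow_succ, mul_inv_rev, mul_inv_cancel_left],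
        show g⁻¹ * g ^ (m + 1) = g ^ m by rw [pow_succ', inv_mul_cancel_left],
        show g⁻¹ * (g ^ (m + 1))⁻¹ = (g ^ (m + 2))⁻¹ by
          rw [← mul_inv_rev, ← pow_succ]]
      rw [show g ^ (m + 1) * g = g ^ (m + 2) from (pow_succ g (m + 1)).symm,
        show g * g ^ m = g ^ (m + 1) from (pow_succ' g m).symm]
      abel
    rw [ht, hb, smul_mul_assoc, one_mul, smul_smul, ha, smul_smul] at e
    rw [sub_smul, eq_sub_iff_add_eq]
    exact e.symm

end Scal

section Constituent

open Module

variable {k V G : Type*} [Field k] [IsAlgClosed k] [AddCommGroup V] [Module k V]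
  [FiniteDimensional k V] [Nontrivial V] [Group G]

theorem smul_one_injective {a b : k} (h : a • (1 : Module.End k V) = b • 1) : a = b :=
  smul_left_injective k (one_ne_zero (α := Module.End k V)) h

variable {ρ : G →* Module.End k V} {χ : G →* kˣ}

/-- The anti-involution exists as soon as the dimension exceeds one. -/
theorem exists_star (hscal : ∀ g, Scal ρ χ g)
    (hspan : Submodule.span k (Set.range ρ) = ⊤) (hd : 2 ≤ finrank k V) :
    ∃ (st : Module.End k V →ₗ[k] Module.End k V) (τ : Module.End k V →ₗ[k] k),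
      (∀ g, st (ρ g) = (χ g : k) • ρ g⁻¹) ∧ (∀ x y, st (x * y) = st y * st x) ∧
      (∀ x, st x = τ x • 1 - x) := by
  classical
  choose t ht using hscal
  let L : (G →₀ k) →ₗ[k] Module.End k V := Finsupp.linearCombination k ρ
  let T : (G →₀ k) →ₗ[k] k := Finsupp.linearCombination k t
  let M : (G →₀ k) →ₗ[k] Module.End k V :=
    Finsupp.linearCombination k fun g => (χ g : k) • ρ g⁻¹
  have hM : ∀ a, M a = T a • 1 - L a := by
    intro a
    induction a using Finsupp.induction_linear with
    | zero => simp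
    | add a b ha hb => rw [map_add, map_add, map_add, add_smul, ha, hb]; abel
    | single g c =>
      simp only [M, T, L, Finsupp.linearCombination_single, smul_eq_mul, mul_smul, ← smul_sub]
      rw [← ht g, add_sub_cancel_left]
  have hker : ∀ a, L a = 0 → T a = 0 := by
    intro a ha
    by_contra hne
    have hscalar : ∀ h : G, ∃ c : k, ρ h = c • 1 := by
      intro h
      let r : (G →₀ k) →ₗ[k] (G →₀ k) := Finsupp.lmapDomain k k (· * h)
      have h1 : ∀ b, L (r b) = L b * ρ h ∧ M (r b) = ((χ h : k) • ρ h⁻¹) * M b := by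
        intro b
        induction b using Finsupp.induction_linear with
        | zero => simp
        | add b b' hb hb' =>
          simp only [map_add, hb.1, hb.2, hb'.1, hb'.2, add_mul, mul_add, and_self]
        | single g c =>
          simp only [r, L, M, Finsupp.lmapDomain_apply, Finsupp.mapDomain_single,
            Finsupp.linearCombination_single, map_mul, Units.val_mul, smul_mul_assoc,
            mul_smul_comm, smul_smul, mul_inv_rev]
          refine ⟨trivial, ?_⟩
          congr 1
          ring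
      obtain ⟨e1, e2⟩ := h1 a
      rw [ha, zero_mul] at e1
      rw [hM, hM, e1, ha, sub_zero, sub_zero, mul_smul_comm, mul_one, smul_smul] at e2
      have hne' : T a * (χ h : k) ≠ 0 := mul_ne_zero hne (χ h).ne_zero
      have e3 : ρ h⁻¹ = ((T a * (χ h : k))⁻¹ * T (r a)) • 1 := by
        rw [mul_smul, e2, smul_smul, inv_mul_cancel₀ hne', one_smul]
      refine ⟨((T a * (χ h : k))⁻¹ * T (r a))⁻¹, ?_⟩
      have hmul : ρ h * ρ h⁻¹ = 1 := by rw [← map_mul, mul_inv_cancel, map_one]
      rw [e3, mul_smul_comm, mul_one] at hmul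
      by_cases hz : (T a * (χ h : k))⁻¹ * T (r a) = 0
      · rw [hz, zero_smul] at hmul
        exact absurd hmul zero_ne_one
      · rw [← hmul, smul_smul, inv_mul_cancel₀ hz, one_smul]
    have htop : (⊤ : Submodule k (Module.End k V)) ≤ Submodule.span k {1} := by
      rw [← hspan, Submodule.span_le]
      rintro _ ⟨g, rfl⟩
      obtain ⟨c, hc⟩ := hscalar g
      exact Submodule.mem_span_singleton.2 ⟨c, hc.symm⟩
    have h2 := Submodule.finrank_mono htop
    rw [finrank_top, Module.finrank_linearMap] at h2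
    have h3 : finrank k (Submodule.span k {(1 : Module.End k V)}) ≤ 1 := by
      rw [finrank_span_singleton one_ne_zero]
    have h4 := Nat.mul_le_mul hd hd
    omega
  have hsurj : Function.Surjective L := LinearMap.range_eq_top.1 (by
    rw [Finsupp.range_linearCombination, hspan])
  obtain ⟨s, hs⟩ := L.exists_rightInverse_of_surjective (LinearMap.range_eq_top.2 hsurj)
  have hT : ∀ a, T (s (L a)) = T a := fun a => by
    rw [← sub_eq_zero, ← map_sub]
    exact hker _ (by rw [map_sub, sub_eq_zero]; exact LinearMap.congr_fun hs (L a))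
  have hst : ∀ a, M (s (L a)) = M a := fun a => by
    rw [hM, hM, hT, show L (s (L a)) = L a from LinearMap.congr_fun hs (L a)]
  have hg : ∀ g, M (s (ρ g)) = (χ g : k) • ρ g⁻¹ := fun g => by
    have h1 : ρ g = L (Finsupp.single g 1) := by
      simp [L, Finsupp.linearCombination_single]
    rw [h1, hst]
    simp [M, Finsupp.linearCombination_single]
  refine ⟨M.comp s, T.comp s, hg, fun x y => ?_, fun x => ?_⟩
  · have hx : x ∈ Submodule.span k (Set.range ρ) := hspan ▸ Submodule.mem_top
    have hy : y ∈ Submodule.span k (Set.range ρ) := hspan ▸ Submodule.mem_top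
    induction hx, hy using Submodule.span_induction₂ with
    | mem_mem x y hx hy =>
      obtain ⟨g, rfl⟩ := hx
      obtain ⟨h, rfl⟩ := hy
      simp only [LinearMap.comp_apply, ← map_mul ρ, hg]
      rw [map_mul χ, Units.val_mul, mul_inv_rev, map_mul ρ, smul_mul_assoc, mul_smul_comm,
        smul_smul, mul_comm (χ g : k)]
    | zero_left y _ => simp
    | zero_right x _ => simp
    | add_left x x' y _ _ _ h1 h2 => simp only [add_mul, map_add, mul_add, h1, h2]
    | add_right x y y' _ _ _ h1 h2 => simp only [mul_add, map_add, add_mul, h1, h2]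
    | smul_left c x y _ _ h1 => simp only [smul_mul_assoc, map_smul, mul_smul_comm, h1]
    | smul_right c x y _ _ h1 => simp only [mul_smul_comm, map_smul, smul_mul_assoc, h1]
  · show M (s x) = _
    rw [hM, show L (s x) = x from LinearMap.congr_fun hs x]
    rfl

theorem jordan_eq {st : Module.End k V →ₗ[k] Module.End k V} {τ : Module.End k V →ₗ[k] k}
    (hanti : ∀ x y, st (x * y) = st y * st x) (hτ : ∀ x, st x = τ x • 1 - x)
    (x y : Module.End k V) :
    x * y + y * x = (τ (x * y) - τ x * τ y) • 1 + τ x • y + τ y • x := by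
  have h := hanti x y
  rw [hτ, hτ, hτ, sub_mul, mul_sub, mul_sub, smul_mul_assoc, smul_mul_assoc, one_mul, one_mul,
    mul_smul_comm, mul_one, smul_smul] at h
  rw [sub_smul, mul_comm (τ x)]
  rw [sub_eq_iff_eq_add] at h
  rw [h]
  abel

theorem finrank_le_two {st : Module.End k V →ₗ[k] Module.End k V} {τ : Module.End k V →ₗ[k] k}
    (hanti : ∀ x y, st (x * y) = st y * st x) (hτ : ∀ x, st x = τ x • 1 - x) :
    finrank k V ≤ 2 := by
  by_contra hd
  push Not at hd
  let b := Module.finBasis k V
  let i : Fin (finrank k V) := ⟨0, by omega⟩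
  let j : Fin (finrank k V) := ⟨1, by omega⟩
  let l : Fin (finrank k V) := ⟨2, by omega⟩
  have hij : i ≠ j := by simp [i, j, Fin.ext_iff]
  have hil : i ≠ l := by simp [i, l, Fin.ext_iff]
  have hjl : j ≠ l := by simp [j, l, Fin.ext_iff]
  let X : Module.End k V := LinearMap.smulRight (b.coord j) (b i)
  let Y : Module.End k V := LinearMap.smulRight (b.coord l) (b j)
  have h := LinearMap.congr_fun (jordan_eq hanti hτ X Y) (b l)
  have h2 := congrArg (b.coord i) h
  simp [X, Y, hij, hil, hjl] at h2

/-- An irreducible representation with the quadratic relation yields one of dimension two. -/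
theorem exists_twoDim (ρ : G →* Module.End k V) (χ : G →* kˣ)
    (hirr : ∀ U : Submodule k V, (∀ g, ∀ u ∈ U, ρ g u ∈ U) → U = ⊥ ∨ U = ⊤)
    (hscal : ∀ g, Scal ρ χ g) :
    ∃ r : G →* Matrix (Fin 2) (Fin 2) k, (∀ g,
      (∀ t : k, ρ g + (χ g : k) • ρ g⁻¹ = t • 1 → (r g).trace = t) ∧ (r g).det = χ g ∧
        (ρ g = 1 → χ g = 1 → r g = 1)) ∧
      ∃ Λ₁ Λ₂ : Module.End k V →ₗ[k] Matrix (Fin 2) (Fin 2) k,
        ∀ g, r g = Λ₁ (ρ g) + (χ g : k) • Λ₂ (ρ g⁻¹) := by
  classical
  have hspan : Submodule.span k (Set.range ρ) = ⊤ := by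
    refine eq_top_of_irreducible _ (Submodule.subset_span ⟨1, map_one ρ⟩) ?_ fun U hU =>
      hirr U fun g u hu => hU _ (Submodule.subset_span ⟨g, rfl⟩) u hu
    intro a ha b hb
    induction ha, hb using Submodule.span_induction₂ with
    | mem_mem x y hx hy =>
      obtain ⟨g, rfl⟩ := hx
      obtain ⟨h, rfl⟩ := hy
      exact Submodule.subset_span ⟨g * h, map_mul ρ g h⟩
    | zero_left y _ => simp
    | zero_right x _ => simp
    | add_left x x' y _ _ _ h1 h2 => rw [add_mul]; exact add_mem h1 h2
    | add_right x y y' _ _ _ h1 h2 => rw [mul_add]; exact add_mem h1 h2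
    | smul_left c x y _ _ h1 => rw [smul_mul_assoc]; exact Submodule.smul_mem _ c h1
    | smul_right c x y _ _ h1 => rw [mul_smul_comm]; exact Submodule.smul_mem _ c h1
  rcases Nat.lt_or_ge (finrank k V) 2 with hd | hd
  · have hpos : 0 < finrank k V := finrank_pos
    have h1 : finrank k V = 1 := by omega
    obtain ⟨v, hv0, hv⟩ := finrank_eq_one_iff'.1 h1
    have hsc : ∀ g, ∃ c : k, ρ g = c • 1 := fun g => by
      obtain ⟨c, hc⟩ := hv (ρ g v)
      refine ⟨c, LinearMap.ext fun w => ?_⟩
      obtain ⟨a, rfl⟩ := hv w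
      rw [map_smul, ← hc, smul_comm]
      rfl
    choose ψ hψ using hsc
    have hmul : ∀ g h, ψ (g * h) = ψ g * ψ h := fun g h => smul_one_injective (V := V) (by
      rw [← hψ, map_mul, hψ, hψ, smul_mul_assoc, one_mul, smul_smul])
    have hone : ψ 1 = 1 := smul_one_injective (V := V) (by rw [← hψ, map_one, one_smul])
    have hinv : ∀ g, ψ g * ψ g⁻¹ = 1 := fun g => by rw [← hmul, mul_inv_cancel, hone]
    refine ⟨
      { toFun := fun g => !![ψ g, 0; 0, (χ g : k) * ψ g⁻¹]
        map_one' := by
          rw [Matrix.one_fin_two, inv_one, hone, map_one, Units.val_one, one_mul]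
        map_mul' := fun g h => by
          rw [Matrix.mul_fin_two, mul_inv_rev, hmul, hmul, map_mul, Units.val_mul]
          ext i j
          fin_cases i <;> fin_cases j <;> simp
          ring }, fun g => ⟨fun t ht => ?_, ?_, fun h1 h2 => ?_⟩, ?_⟩
    · show Matrix.trace !![ψ g, 0; 0, (χ g : k) * ψ g⁻¹] = t
      rw [Matrix.trace_fin_two_of]
      refine smul_one_injective (V := V) ?_
      rw [← ht, hψ g, hψ g⁻¹, smul_smul, add_smul]
    · show Matrix.det !![ψ g, 0; 0, (χ g : k) * ψ g⁻¹] = _
      rw [Matrix.det_fin_two_of]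
      linear_combination (χ g : k) * hinv g
    · show !![ψ g, 0; 0, (χ g : k) * ψ g⁻¹] = 1
      have h3 : ψ g = 1 := smul_one_injective (V := V) (by rw [← hψ, h1, one_smul])
      have h4 : ψ g⁻¹ = 1 := by
        have h5 := hinv g
        rwa [h3, one_mul] at h5
      rw [h3, h4, h2, Units.val_one, one_mul, Matrix.one_fin_two]
    · let ev := LinearEquiv.ofBijective (LinearMap.toSpanSingleton k V v)
        ⟨fun a c h => smul_left_injective k hv0 h, fun w => hv w⟩
      let f : Module.End k V →ₗ[k] k := ev.symm.toLinearMap.comp (LinearMap.applyₗ v)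
      have hf : ∀ g, f (ρ g) = ψ g := fun g => by
        show ev.symm (ρ g v) = ψ g
        rw [ev.symm_apply_eq, hψ g]
        rfl
      refine ⟨f.smulRight !![1, 0; 0, 0], f.smulRight !![0, 0; 0, 1], fun g => ?_⟩
      show !![ψ g, 0; 0, (χ g : k) * ψ g⁻¹] = _
      rw [LinearMap.smulRight_apply, LinearMap.smulRight_apply, hf, hf]
      ext i j
      fin_cases i <;> fin_cases j <;> simp
  · obtain ⟨st, τ, hst, hanti, hτ⟩ := exists_star hscal hspan hd
    have hd2 : finrank k V = 2 := le_antisymm (finrank_le_two hanti hτ) hd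
    let b : Module.Basis (Fin 2) k V := Module.finBasisOfFinrankEq k V hd2
    let e : Module.End k V →ₐ[k] Matrix (Fin 2) (Fin 2) k :=
      (LinearMap.toMatrixAlgEquiv b).toAlgHom
    have he : ∀ x, e x = LinearMap.toMatrixAlgEquiv b x := fun _ => rfl
    -- `τ` is the trace
    have htr : ∀ x, τ x = (e x).trace := by
      let E : Fin 2 → Fin 2 → Module.End k V := fun i j =>
        (LinearMap.toMatrixAlgEquiv b).symm (Matrix.single i j 1)
      have hE : ∀ i j l m, E i j * E l m = if j = l then E i m else 0 := fun i j l m => by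
        rw [← map_mul]
        split_ifs with h
        · subst h; rw [Matrix.single_mul_single_same, one_mul]
        · rw [Matrix.single_mul_single_of_ne _ _ _ _ h, map_zero]
      have hJ : ∀ i j, i ≠ j → τ (E i j) = 0 ∧ τ (E i i) = 1 := by
        intro i j hij
        have h := jordan_eq hanti hτ (E i j) (E j i)
        rw [hE, hE, if_pos rfl, if_pos rfl] at h
        have h' := congrArg e h
        simp only [map_add, map_smul, map_one, he, E, AlgEquiv.apply_symm_apply] at h'
        have h00 := congrFun (congrFun h' i) i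
        have h01 := congrFun (congrFun h' i) j
        have h10 := congrFun (congrFun h' j) i
        simp [hij, hij.symm] at h00 h01 h10
        refine ⟨h10.symm, ?_⟩
        rw [← h01, ← h10, mul_zero, sub_zero] at h00
        exact h00.symm
      have hd0 := hJ 0 1 (by decide)
      have hd1 := hJ 1 0 (by decide)
      intro x
      have hx : x = e x 0 0 • E 0 0 + e x 0 1 • E 0 1 + e x 1 0 • E 1 0 + e x 1 1 • E 1 1 := by
        apply (LinearMap.toMatrixAlgEquiv b).injective
        simp only [map_add, map_smul, E, AlgEquiv.apply_symm_apply]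
        ext i j
        fin_cases i <;> fin_cases j <;> simp [he]
      conv_lhs => rw [hx]
      simp only [map_add, map_smul, smul_eq_mul, hd0.1, hd0.2, hd1.1, hd1.2, mul_one, mul_zero,
        add_zero, Matrix.trace_fin_two]
    refine ⟨e.toMonoidHom.comp ρ, fun g => ⟨fun t ht => ?_, ?_, fun h1 _ => ?_⟩,
      e.toLinearMap, 0, fun g => by rw [LinearMap.zero_apply, smul_zero, add_zero]; rfl⟩
    · refine smul_one_injective (V := V) ?_
      show (e (ρ g)).trace • 1 = t • 1
      rw [← htr, ← ht, ← hst, hτ, add_sub_cancel]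
    · show (e (ρ g)).det = _
      have h5 : (e (ρ g)).trace • e (ρ g) - e (ρ g) * e (ρ g) = (χ g : k) • 1 := by
        have h6 := congrArg e (congrArg (ρ g * ·) ((hst g).symm.trans (hτ (ρ g))))
        simp only [mul_smul_comm, ← map_mul ρ, mul_inv_cancel, map_one, mul_sub, mul_one, map_smul,
          map_sub, htr] at h6
        rw [h6]
        congr 1
        rw [← map_mul e, map_mul ρ]
      have h7 := congrFun (congrFun h5 0) 0
      simp [Matrix.mul_apply, Fin.sum_univ_two, Matrix.trace_fin_two] at h7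
      rw [Matrix.det_fin_two]
      linear_combination h7
    · show e (ρ g) = 1
      rw [h1, map_one]

/-- A quadratic relation yields a two-dimensional representation, without irreducibility. -/
theorem exists_twoDim' (ρ : G →* Module.End k V) (χ : G →* kˣ) (hscal : ∀ g, Scal ρ χ g) :
    ∃ r : G →* Matrix (Fin 2) (Fin 2) k, (∀ g,
      (∀ t : k, ρ g + (χ g : k) • ρ g⁻¹ = t • 1 → (r g).trace = t) ∧ (r g).det = χ g ∧
        (ρ g = 1 → χ g = 1 → r g = 1)) ∧
      ∃ Λ₁ Λ₂ : Module.End k V →ₗ[k] Matrix (Fin 2) (Fin 2) k,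
        ∀ g, r g = Λ₁ (ρ g) + (χ g : k) • Λ₂ (ρ g⁻¹) := by
  classical
  let P : ℕ → Prop := fun d => ∃ U : Submodule k V, U ≠ ⊥ ∧ (∀ g, ∀ u ∈ U, ρ g u ∈ U) ∧
    Module.finrank k U = d
  have hP : ∃ d, P d := ⟨_, ⊤, top_ne_bot, fun _ _ _ => Submodule.mem_top, rfl⟩
  obtain ⟨U, hU0, hU, hUd⟩ := Nat.find_spec hP
  haveI : Nontrivial U := Submodule.nontrivial_iff_ne_bot.2 hU0
  let ρU : G →* Module.End k U :=
    { toFun := fun g => (ρ g).restrict (hU g)
      map_one' := LinearMap.ext fun u => Subtype.ext (by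
        show ρ 1 (u : V) = u
        rw [map_one]; rfl)
      map_mul' := fun g h => LinearMap.ext fun u => Subtype.ext (by
        show ρ (g * h) (u : V) = ρ g (ρ h u)
        rw [map_mul]; rfl) }
  have hres : ∀ g (t : k), ρ g + (χ g : k) • ρ g⁻¹ = t • 1 →
      ρU g + (χ g : k) • ρU g⁻¹ = t • 1 := fun g t ht =>
    LinearMap.ext fun u => Subtype.ext (LinearMap.congr_fun ht (u : V))
  obtain ⟨r, hr, Λ₁, Λ₂, hΛ⟩ := exists_twoDim ρU χ (fun U' hU' => by
    by_cases hb : U' = ⊥
    · exact Or.inl hb
    refine Or.inr ?_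
    have h1 : U'.map U.subtype ≠ ⊥ := fun h =>
      hb (Submodule.map_injective_of_injective (Submodule.injective_subtype U)
        (h.trans (Submodule.map_bot _).symm))
    have h2 : Module.finrank k U ≤ Module.finrank k (U'.map U.subtype) := by
      rw [hUd]
      refine Nat.find_le ⟨_, h1, ?_, rfl⟩
      rintro g _ ⟨u, hu, rfl⟩
      exact ⟨ρU g u, hU' g u hu, rfl⟩
    rw [Submodule.finrank_map_subtype_eq] at h2
    exact Submodule.eq_top_of_finrank_eq (le_antisymm (Submodule.finrank_le _) h2))
    fun g => (hscal g).imp fun t ht => hres g t ht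
  obtain ⟨π, hπ⟩ := U.subtype.exists_leftInverse_of_injective
    (LinearMap.ker_eq_bot.2 (Submodule.injective_subtype U))
  let cut : Module.End k V →ₗ[k] Module.End k U :=
    { toFun := fun X => π.comp (X.comp U.subtype)
      map_add' := fun X Y => by rw [LinearMap.add_comp, LinearMap.comp_add]
      map_smul' := fun c X => by rw [LinearMap.smul_comp, LinearMap.comp_smul]; rfl }
  have hcut : ∀ g, cut (ρ g) = ρU g := fun g => LinearMap.ext fun u =>
    LinearMap.congr_fun hπ (ρU g u)
  refine ⟨r, fun g => ⟨fun t ht => (hr g).1 t (hres g t ht), (hr g).2.1, fun h1 h2 =>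
    (hr g).2.2 (LinearMap.ext fun u => Subtype.ext ?_) h2⟩, Λ₁.comp cut, Λ₂.comp cut, fun g => ?_⟩
  · show ρ g (u : V) = u
    rw [h1]
    rfl
  · rw [LinearMap.comp_apply, LinearMap.comp_apply, hcut, hcut]
    exact hΛ g

end Constituent

end FA.JTorsion
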