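import Fermat.Agent.JTorsion.Integral
import Fermat.Agent.JTorsion.TwoDim
import Fermat.Prelude.Thm_Algebra_finite_maximalSpectrum_and_bijective_localization_of_module_finite
import Fermat.Prelude.Thm_IsLocalRing_isAdicComplete_of_module_finite
import Mathlib.FieldTheory.IsAlgClosed.AlgebraicClosure
import Mathlib.FieldTheory.IntermediateField.Adjoin.Algebra
import Mathlib.RingTheory.DedekindDomain.IntegralClosure
import Mathlib.RingTheory.DiscreteValuationRing.TFAE
import Mathlib.RingTheory.LocalRing.ResidueField.Instances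
import Mathlib.LinearAlgebra.Matrix.ToLin

/-!
# A two-dimensional representation over a finite extension of a complete discrete valuation ring
-/

set_option autoImplicit false
set_option linter.style.haveILetI false
set_option linter.unusedSectionVars false
set_option maxHeartbeats 1000000

noncomputable section

namespace FA.JTorsion

open IsLocalRing

/-- A domain finite over a complete local Noetherian ring is local. -/
theorem isLocalRing_of_finite_complete {O : Type} [CommRing O] [IsLocalRing O] [IsNoetherianRing O]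
    [IsAdicComplete (maximalIdeal O) O] (A : Type) [CommRing A] [IsDomain A] [Algebra O A]
    [Module.Finite O A] : IsLocalRing A := by
  classical
  obtain ⟨-, hbij, -, -⟩ :=
    Algebra.finite_maximalSpectrum_and_bijective_localization_of_module_finite (𝒪 := O) A
  haveI : Subsingleton (MaximalSpectrum A) := by
    refine ⟨fun I J => by_contra fun hIJ => ?_⟩
    obtain ⟨e, he⟩ := hbij.2 (Pi.single I 1)
    obtain ⟨f, hf⟩ := hbij.2 (Pi.single J 1)
    have h0 : e * f = 0 := hbij.1 (by
      rw [map_mul, map_zero, he, hf, ← Pi.single_mul_left]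
      rw [Pi.single_eq_of_ne hIJ, mul_zero, Pi.single_zero])
    rcases mul_eq_zero.1 h0 with h | h
    · rw [h, map_zero] at he
      simpa using congrFun he I
    · rw [h, map_zero] at hf
      simpa using congrFun hf J
  obtain ⟨M, hM⟩ := Ideal.exists_maximal A
  refine IsLocalRing.of_unique_max_ideal ⟨M, hM, fun J hJ => ?_⟩
  exact congrArg MaximalSpectrum.asIdeal
    (Subsingleton.elim (⟨J, hJ⟩ : MaximalSpectrum A) ⟨M, hM⟩)

variable {O : Type} [CommRing O] [IsDomain O] [IsDiscreteValuationRing O]
  [IsAdicComplete (maximalIdeal O) O] [Finite (ResidueField O)] [CharZero O]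

/-- The two-dimensional representation of a matrix representation with the quadratic relation. -/
theorem exists_descend {G : Type} [Group G] {d : ℕ} (hd : 0 < d)
    (ρ : G →* Matrix (Fin d) (Fin d) O) (χ : G →* Oˣ) (hscal : ∀ g, Scal ρ χ g) :
    ∃ (O' : Type) (_ : CommRing O') (_ : IsDomain O') (_ : IsDiscreteValuationRing O')
      (_ : IsAdicComplete (maximalIdeal O') O') (_ : Finite (ResidueField O')) (_ : CharZero O')
      (_ : Algebra O O') (_ : Module.Finite O O') (_ : IsLocalHom (algebraMap O O')),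
    Function.Injective (algebraMap O O') ∧
    ∃ r : G →* Matrix (Fin 2) (Fin 2) O',
      (∀ g (t : O), ρ g + (χ g : O) • ρ g⁻¹ = t • 1 → (r g).trace = algebraMap O O' t) ∧
      (∀ g, (r g).det = algebraMap O O' (χ g)) ∧
      (∀ g, ρ g = 1 → χ g = 1 → r g = 1) ∧
      ∃ v : ℕ, ∀ g n, (∀ i j, (ρ g - 1) i j ∈ maximalIdeal O ^ (n + v)) →
        (∀ i j, (ρ g⁻¹ - 1) i j ∈ maximalIdeal O ^ (n + v)) →
        (χ g : O) - 1 ∈ maximalIdeal O ^ (n + v) →
        ∀ i j, (r g - 1) i j ∈ maximalIdeal O' ^ n := by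
  classical
  let K := FractionRing O
  haveI : CharZero K := charZero_of_injective_algebraMap (IsFractionRing.injective O K)
  let Kb := AlgebraicClosure K
  let a : O →+* Kb := (algebraMap K Kb).comp (algebraMap O K)
  haveI : Nonempty (Fin d) := ⟨⟨0, hd⟩⟩
  let E : Matrix (Fin d) (Fin d) Kb ≃ₐ[Kb] Module.End Kb (Fin d → Kb) := Matrix.toLinAlgEquiv'
  let ρV : G →* Module.End Kb (Fin d → Kb) :=
    (E.toAlgHom.toMonoidHom.comp a.mapMatrix.toMonoidHom).comp ρ
  let χV : G →* Kbˣ := (Units.map a.toMonoidHom).comp χ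
  have hV : ∀ g (t : O), ρ g + (χ g : O) • ρ g⁻¹ = t • 1 →
      ρV g + (χV g : Kb) • ρV g⁻¹ = a t • 1 := by
    intro g t ht
    have hsm : ∀ (s : O) (M : Matrix (Fin d) (Fin d) O),
        E (a.mapMatrix (s • M)) = a s • E (a.mapMatrix M) := fun s M => by
      rw [← map_smul]
      congr 1
      ext i j
      simp
    have h' := congrArg (fun M => E (a.mapMatrix M)) ht
    simp only [map_add, hsm, map_one] at h'
    exact h'
  obtain ⟨r, hr, Λ₁, Λ₂, hΛ⟩ := exists_twoDim' ρV χV
    fun g => by obtain ⟨t, ht⟩ := hscal g; exact ⟨a t, hV g t ht⟩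
  let lam₁ : Fin d × Fin d → Matrix (Fin 2) (Fin 2) Kb := fun ij => Λ₁ (E (Matrix.single ij.1 ij.2 1))
  let lam₂ : Fin d × Fin d → Matrix (Fin 2) (Fin 2) Kb := fun ij => Λ₂ (E (Matrix.single ij.1 ij.2 1))
  have hexp : ∀ (Λ : Module.End Kb (Fin d → Kb) →ₗ[Kb] Matrix (Fin 2) (Fin 2) Kb) g,
      Λ (ρV g) = ∑ ij : Fin d × Fin d, a (ρ g ij.1 ij.2) • Λ (E (Matrix.single ij.1 ij.2 1)) := by
    intro Λ g
    have e : a.mapMatrix (ρ g) =
        ∑ ij : Fin d × Fin d, a (ρ g ij.1 ij.2) • Matrix.single ij.1 ij.2 (1 : Kb) := by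
      conv_lhs => rw [Matrix.matrix_eq_sum_single (a.mapMatrix (ρ g))]
      rw [Fintype.sum_prod_type]
      refine Finset.sum_congr rfl fun i _ => Finset.sum_congr rfl fun j _ => ?_
      simp [Matrix.smul_single]
    show Λ (E (a.mapMatrix (ρ g))) = _
    simp only [e, map_sum, map_smul]
  let S : Finset Kb := Finset.univ.image
    fun q : (Fin d × Fin d) × Fin 2 × Fin 2 => lam₁ q.1 q.2.1 q.2.2
  let S' : Finset Kb := Finset.univ.image
    fun q : (Fin d × Fin d) × Fin 2 × Fin 2 => lam₂ q.1 q.2.1 q.2.2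
  let F : IntermediateField K Kb := IntermediateField.adjoin K ((S ∪ S' : Finset Kb) : Set Kb)
  haveI : FiniteDimensional K F := IntermediateField.finiteDimensional_adjoin
    fun x _ => (Algebra.IsAlgebraic.isAlgebraic x).isIntegral
  haveI : Algebra.IsSeparable K F := inferInstance
  let O' := integralClosure O F
  haveI : IsIntegralClosure O' O F := inferInstance
  haveI : IsFractionRing O' F := integralClosure.isFractionRing_of_finite_extension K F
  haveI : Module.Finite O O' := IsIntegralClosure.finite O K F O'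
  haveI : IsDedekindDomain O' := integralClosure.isDedekindDomain O K F
  have hinj : Function.Injective (algebraMap O O') := by
    intro x y h
    have h' : algebraMap O F x = algebraMap O F y :=
      congrArg Subtype.val h
    rw [IsScalarTower.algebraMap_apply O K F, IsScalarTower.algebraMap_apply O K F] at h'
    exact IsFractionRing.injective O K ((algebraMap K F).injective h')
  haveI : IsLocalRing O' := isLocalRing_of_finite_complete (O := O) O'
  haveI : IsLocalHom (algebraMap O O') :=
    (algebraMap_isIntegral_iff.2 (Algebra.IsIntegral.of_finite O O')).isLocalHom hinj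
  haveI : IsDiscreteValuationRing O' := by
    refine ((IsDiscreteValuationRing.TFAE O' fun hf => IsDiscreteValuationRing.not_isField O
      (isField_of_isIntegral_of_isField hinj hf)).out 0 2).2 (inferInstance : IsDedekindDomain O')
  haveI : IsAdicComplete (maximalIdeal O') O' :=
    IsLocalRing.isAdicComplete_of_module_finite (𝒪 := O)
  haveI : Finite (ResidueField O') := Module.finite_of_finite (ResidueField O)
  haveI : CharZero O' := charZero_of_injective_algebraMap hinj
  -- common denominator
  have hmem : ∀ x ∈ S ∪ S', x ∈ F := fun x hx => IntermediateField.subset_adjoin K _ hx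
  obtain ⟨⟨c, hc0⟩, hc⟩ := IsLocalization.exist_integer_multiples (nonZeroDivisors O')
    (S ∪ S').attach fun x => (⟨x.1, hmem x.1 x.2⟩ : F)
  let ι : O' →+* Kb := (algebraMap F Kb).comp (algebraMap O' F)
  have hι : Function.Injective ι := (algebraMap F Kb).injective.comp (IsFractionRing.injective O' F)
  have hιa : ∀ x, ι (algebraMap O O' x) = a x := fun x => by
    show algebraMap F Kb (algebraMap O' F (algebraMap O O' x)) = algebraMap K Kb (algebraMap O K x)
    rw [← IsScalarTower.algebraMap_apply O O' F, IsScalarTower.algebraMap_apply O K F,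
      ← IsScalarTower.algebraMap_apply K F Kb]
  have hint : ∀ x, ∀ hx : x ∈ S ∪ S', ∃ y : O', ι y = ι c * x := fun x hx => by
    obtain ⟨y, hy⟩ := hc ⟨x, hx⟩ (Finset.mem_attach _ _)
    refine ⟨y, ?_⟩
    show algebraMap F Kb (algebraMap O' F y) = _
    rw [hy, Algebra.smul_def, map_mul]
    rfl
  choose l₁ hl₁ using fun q : (Fin d × Fin d) × Fin 2 × Fin 2 => hint (lam₁ q.1 q.2.1 q.2.2)
    (Finset.mem_union_left _ (Finset.mem_image_of_mem _ (Finset.mem_univ q)))
  choose l₂ hl₂ using fun q : (Fin d × Fin d) × Fin 2 × Fin 2 => hint (lam₂ q.1 q.2.1 q.2.2)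
    (Finset.mem_union_right _ (Finset.mem_image_of_mem _ (Finset.mem_univ q)))
  let Φ : G → Matrix (Fin 2) (Fin 2) O' := fun g => Matrix.of fun i j =>
    ∑ q : Fin d × Fin d, algebraMap O O' (ρ g q.1 q.2) * l₁ (q, i, j) +
      algebraMap O O' (χ g) * ∑ q : Fin d × Fin d, algebraMap O O' (ρ g⁻¹ q.1 q.2) * l₂ (q, i, j)
  have hΦ : ∀ g, ι.mapMatrix (Φ g) = ι c • r g := by
    intro g
    ext i j
    rw [hΛ g, hexp, hexp]
    simp only [Φ, RingHom.mapMatrix_apply, Matrix.map_apply, Matrix.of_apply, map_add, map_mul,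
      map_sum, hιa, hl₁, hl₂, Matrix.smul_apply, Matrix.add_apply, Matrix.sum_apply, smul_eq_mul,
      mul_add, Finset.mul_sum]
    refine congrArg₂ (· + ·) (Finset.sum_congr rfl fun q _ => ?_) (Finset.sum_congr rfl fun q _ => ?_)
    · show _ = ι c * (a (ρ g q.1 q.2) * lam₁ q i j)
      ring
    · show _ = ι c * (a (χ g) * (a (ρ g⁻¹ q.1 q.2) * lam₂ q i j))
      ring
  have hmi : Function.Injective (ι.mapMatrix : Matrix (Fin 2) (Fin 2) O' → _) :=
    Matrix.map_injective hι
  have hsmul : ∀ (s : O') (M : Matrix (Fin 2) (Fin 2) O'),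
      ι.mapMatrix (s • M) = ι s • ι.mapMatrix M := fun s M => by
    ext i j
    simp
  obtain ⟨r', hr', v, hv⟩ := exists_integral_model c (nonZeroDivisors.ne_zero hc0) Φ
    (hmi (by rw [hΦ, hsmul, map_one, map_one]))
    (fun g h => hmi (by
      rw [map_mul, hsmul, hΦ, hΦ, hΦ, smul_mul_assoc, mul_smul_comm, map_mul r]))
  refine ⟨O', inferInstance, inferInstance, inferInstance, inferInstance, inferInstance,
    inferInstance, inferInstance, inferInstance, inferInstance, hinj, r', fun g t ht => ?_,
    fun g => ?_, fun g h1 h2 => ?_, v, fun g n hn hn' hn'' => hv g n fun i j => ?_⟩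
  · have hc' : ι c ≠ 0 := (map_ne_zero_iff ι hι).2 (nonZeroDivisors.ne_zero hc0)
    refine hι (mul_left_cancel₀ hc' ?_)
    rw [← map_mul, (hr' g).1, hιa, ← (hr g).1 _ (hV g t ht), ← smul_eq_mul, ← Matrix.trace_smul,
      ← hΦ]
    simp [Matrix.trace_fin_two]
  · have hc' : ι c ≠ 0 := (map_ne_zero_iff ι hι).2 (nonZeroDivisors.ne_zero hc0)
    refine hι (mul_left_cancel₀ (pow_ne_zero 2 hc') ?_)
    rw [← map_pow, ← map_mul, (hr' g).2.1, RingHom.map_det, hΦ, Matrix.det_smul, Fintype.card_fin,
      (hr g).2.1, hιa, map_pow]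
    rfl
  · refine (hr' g).2.2 (hmi ?_)
    rw [hΦ, hsmul, map_one, (hr g).2.2 ?_ ?_]
    · show E (a.mapMatrix (ρ g)) = 1
      rw [h1, map_one, map_one]
    · show Units.map a.toMonoidHom (χ g) = 1
      rw [h2, map_one]
  · have hle : ∀ x : O, x ∈ maximalIdeal O ^ (n + v) →
        algebraMap O O' x ∈ maximalIdeal O' ^ (n + v) := fun x hx => by
      have h' := Ideal.mem_map_of_mem (algebraMap O O') hx
      rw [Ideal.map_pow] at h'
      exact Ideal.pow_right_mono
        (((local_hom_TFAE (algebraMap O O')).out 0 2).mp (inferInstance : IsLocalHom (algebraMap O O'))) _ h'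
    set I := maximalIdeal O' ^ (n + v) with hI
    rw [← Ideal.Quotient.eq_zero_iff_mem, Matrix.sub_apply, map_sub, sub_eq_zero]
    have e1 : ∀ q : Fin d × Fin d, Ideal.Quotient.mk I (algebraMap O O' (ρ g q.1 q.2)) =
        Ideal.Quotient.mk I (algebraMap O O' (ρ 1 q.1 q.2)) := fun q => by
      rw [Ideal.Quotient.eq, ← map_sub, map_one, ← Matrix.sub_apply]
      exact hle _ (hn _ _)
    have e2 : ∀ q : Fin d × Fin d, Ideal.Quotient.mk I (algebraMap O O' (ρ g⁻¹ q.1 q.2)) =
        Ideal.Quotient.mk I (algebraMap O O' (ρ 1 q.1 q.2)) := fun q => by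
      rw [Ideal.Quotient.eq, ← map_sub, map_one, ← Matrix.sub_apply]
      exact hle _ (hn' _ _)
    have e3 : Ideal.Quotient.mk I (algebraMap O O' (χ g)) = 1 := by
      rw [← map_one (Ideal.Quotient.mk I), Ideal.Quotient.eq, ← map_one (algebraMap O O'),
        ← map_sub]
      exact hle _ hn''
    simp only [Φ, Matrix.of_apply, map_add, map_mul, map_sum, inv_one, Units.val_one, map_one, e1,
      e2, e3]

end FA.JTorsion
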