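import Mathlib.Algebra.Module.LocalizedModule.Int
import Mathlib.LinearAlgebra.Dual.Lemmas
import Mathlib.LinearAlgebra.Matrix.Charpoly.LinearMap
import Mathlib.RingTheory.Ideal.Quotient.Operations
import Mathlib.RingTheory.Localization.FractionRing
import Mathlib.RingTheory.Localization.Integer
import Mathlib.Algebra.Module.Torsion.Basic

/-!
# Functionals on a faithful module with values in a domain
-/

set_option autoImplicit false
set_option linter.style.haveILetI false
set_option linter.unusedSectionVars false

noncomputable section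

namespace FA.JTorsion

variable {T : Type} [CommRing T] {X : Type} [AddCommGroup X] [Module T X] [Module.Finite T X]
  (hX : ∀ t : T, (∀ x : X, t • x = 0) → t = 0)

include hX in
/-- An element outside a prime kills no quotient `X / PX` of a faithful finite module. -/
theorem exists_not_torsion_of_faithful (P : Ideal T) [P.IsPrime] :
    ∃ x : X, ∀ s ∉ P, s • x ∉ P • (⊤ : Submodule T X) := by
  classical
  by_contra h
  push Not at h
  obtain ⟨F, hF⟩ := Module.Finite.fg_top (R := T) (M := X)
  choose s hs hsx using h
  let e := ∏ x ∈ F, s x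
  have he : e ∉ P := fun he => by
    obtain ⟨x, -, hx⟩ := (Ideal.IsPrime.prod_mem_iff (p := P)).1 he
    exact hs x hx
  have hmem : ∀ x : X, e • x ∈ P • (⊤ : Submodule T X) := by
    intro x
    have hx : x ∈ Submodule.span T (F : Set X) := hF.symm ▸ Submodule.mem_top
    induction hx using Submodule.span_induction with
    | mem y hy =>
      obtain ⟨u, hu⟩ := Finset.dvd_prod_of_mem s (Finset.mem_coe.1 hy)
      rw [show e = u * s y from hu.trans (mul_comm _ _), mul_smul]
      exact Submodule.smul_mem _ _ (hsx y)
    | zero => rw [smul_zero]; exact zero_mem _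
    | add a b _ _ ha hb => rw [smul_add]; exact add_mem ha hb
    | smul c a _ ha => rw [smul_comm]; exact Submodule.smul_mem _ c ha
  obtain ⟨f, hf, -, hc, hf0⟩ :=
    LinearMap.exists_monic_and_natDegree_eq_and_coeff_mem_pow_and_aeval_eq_zero T
      (algebraMap T (Module.End T X) e) P (by
        rintro _ ⟨x, rfl⟩
        exact hmem x)
  rw [Polynomial.aeval_algebraMap_apply_eq_algebraMap_eval] at hf0
  have h0 : f.eval e = 0 := hX _ fun x => LinearMap.congr_fun hf0 x
  rw [Polynomial.eval_eq_sum_range, Finset.sum_range_succ, hf.coeff_natDegree, one_mul,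
    add_eq_zero_iff_eq_neg'] at h0
  refine he (Ideal.IsPrime.mem_of_pow_mem inferInstance f.natDegree ?_)
  rw [h0]
  refine P.neg_mem (P.sum_mem fun i hi => P.mul_mem_right _ ?_)
  exact Ideal.pow_le_self (by have := Finset.mem_range.1 hi; omega) (hc i)

variable {R : Type} [CommRing R] [IsDomain R] [Algebra T R]

include hX in
/-- A faithful finite module has a nonzero functional compatible with any character into a
domain. -/
theorem exists_functional_domain : ∃ (g : X →ₗ[T] R) (x : X), g x ≠ 0 := by
  classical
  let P : Ideal T := RingHom.ker (algebraMap T R)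
  haveI : P.IsPrime := RingHom.ker_isPrime _
  obtain ⟨x₀, hx₀⟩ := exists_not_torsion_of_faithful hX P
  let M := X ⧸ P • (⊤ : Submodule T X)
  let A := T ⧸ P
  let ι : A →+* R := Ideal.Quotient.lift P (algebraMap T R) fun a ha => ha
  have hι : Function.Injective ι := (Ideal.injective_lift_iff fun _ ha => ha).2 rfl
  let K := FractionRing R
  let κ := Localization (nonZeroDivisors A)
  let mA : M →ₗ[A] LocalizedModule (nonZeroDivisors A) M := LocalizedModule.mkLinearMap _ M
  let v := mA (Submodule.Quotient.mk x₀)
  have hv : v ≠ 0 := by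
    intro h
    obtain ⟨⟨s, hs⟩, hsx⟩ := (IsLocalizedModule.eq_zero_iff (nonZeroDivisors A) mA).1 h
    obtain ⟨t, rfl⟩ := Ideal.Quotient.mk_surjective s
    refine hx₀ t (fun ht => nonZeroDivisors.ne_zero hs (Ideal.Quotient.eq_zero_iff_mem.2 ht)) ?_
    exact (Submodule.Quotient.mk_eq_zero _).1 hsx
  letI : Field κ := IsFractionRing.toField A
  obtain ⟨φ, hφ⟩ := Module.Projective.exists_dual_ne_zero κ hv
  let j : κ →+* K := IsFractionRing.lift (g := (algebraMap R K).comp ι)
    ((IsFractionRing.injective R K).comp hι)
  have hj : ∀ a : A, j (algebraMap A κ a) = algebraMap R K (ι a) := fun a =>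
    IsFractionRing.lift_algebraMap _ a
  let gK : X → K := fun x => j (φ (mA (Submodule.Quotient.mk x)))
  have gK_add : ∀ x y, gK (x + y) = gK x + gK y := fun x y => by
    simp only [gK, Submodule.Quotient.mk_add, map_add]
  have gK_smul : ∀ (t : T) x, gK (t • x) = algebraMap R K (algebraMap T R t) * gK x := fun t x => by
    simp only [gK]
    rw [Submodule.Quotient.mk_smul,
      show t • (Submodule.Quotient.mk x : M) = Ideal.Quotient.mk P t • (Submodule.Quotient.mk x : M)
        from rfl, map_smul, ← algebraMap_smul κ (Ideal.Quotient.mk P t), map_smul, smul_eq_mul,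
      map_mul, hj]
    rfl
  obtain ⟨F, hF⟩ := Module.Finite.fg_top (R := T) (M := X)
  obtain ⟨b, hb⟩ := IsLocalization.exist_integer_multiples (nonZeroDivisors R) F gK
  have hall : ∀ x, ∃ r : R, algebraMap R K r = algebraMap R K b * gK x := by
    intro x
    have hx : x ∈ Submodule.span T (F : Set X) := hF.symm ▸ Submodule.mem_top
    induction hx using Submodule.span_induction with
    | mem y hy =>
      obtain ⟨r, hr⟩ := hb y (Finset.mem_coe.1 hy)
      exact ⟨r, hr.trans (Algebra.smul_def _ _)⟩
    | zero => exact ⟨0, by simp [gK]⟩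
    | add a a' _ _ ha ha' =>
      obtain ⟨r, hr⟩ := ha
      obtain ⟨r', hr'⟩ := ha'
      exact ⟨r + r', by rw [map_add, hr, hr', gK_add, mul_add]⟩
    | smul c a _ ha =>
      obtain ⟨r, hr⟩ := ha
      exact ⟨algebraMap T R c * r, by rw [map_mul, hr, gK_smul, mul_left_comm]⟩
  choose g hg using hall
  have inj := IsFractionRing.injective R K
  refine ⟨⟨⟨g, fun x y => inj ?_⟩, fun t x => inj ?_⟩, x₀, fun h => ?_⟩
  · rw [map_add, hg, hg, hg, gK_add, mul_add]
  · rw [RingHom.id_apply, Algebra.smul_def, map_mul, hg, hg, gK_smul, mul_left_comm]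
  · have h' : algebraMap R K b * gK x₀ = 0 := by rw [← hg, show g x₀ = 0 from h, map_zero]
    rcases mul_eq_zero.1 h' with h' | h'
    · exact nonZeroDivisors.ne_zero b.2 (inj (h'.trans (map_zero _).symm))
    · exact hφ (j.injective (h'.trans (map_zero j).symm))

end FA.JTorsion
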