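import Fermat.Agent.JTorsion.LatRep
import Fermat.Agent.JTorsion.GaloisTors
import Fermat.Agent.Period.Integral

/-!
# The lattice as a Hecke module and the Galois action on its reductions
-/

set_option autoImplicit false
set_option linter.style.haveILetI false
set_option linter.unusedSectionVars false

noncomputable section

namespace FA.JTorsion

open AlgebraicCurve FA.Level ModularCurve CongruenceSubgroup

local notation "Qb" => AlgebraicClosure ℚ

/-- The good reduction input: at primes not dividing the level inertia fixes torsion of prime to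
`ℓ` order, and Frobenius satisfies the quadratic relation. -/
structure GoodRed (N : ℕ) [NeZero N] : Prop where
  inertia : ∀ ℓ : ℕ, ℓ.Prime → ¬ ℓ ∣ N → ∀ A : ValuationSubring Qb, A.LiesOverPrime ℓ →
    ∀ σ ∈ A.inertiaSubgroupIn ℚ, ∀ n : ℕ, ¬ ℓ ∣ n → ∀ x : JZero N, n • x = 0 → σ • x = x
  frobenius : ∀ ℓ : ℕ, ℓ.Prime → ¬ ℓ ∣ N → ∀ [NeZero ℓ],
    ∀ A : ValuationSubring Qb, A.LiesOverPrime ℓ →
    ∀ σ : GalQ, A.IsFrobeniusAt σ ℓ → ∀ n : ℕ, ¬ ℓ ∣ n → ∀ x : JZero N, n • x = 0 →
      σ • σ • x - heckeOperatorAlong Qb N ℓ (σ • x) + ℓ • x = 0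

variable [Algebra Qb ℂ] (N : ℕ) [NeZero N] (S : Set ℕ)

/-- The lattice as a module over the Hecke algebra. -/
def LatMod (_S : Set ℕ) : Type := ↥(cuspLat (lvlGamma0 N))

instance : AddCommGroup (LatMod N S) := inferInstanceAs (AddCommGroup ↥(cuspLat (lvlGamma0 N)))

/-- The identification. -/
def LatMod.val : LatMod N S ≃+ ↥(cuspLat (lvlGamma0 N)) := AddEquiv.refl _

instance : SMul (CuspForm.heckeAlgebra N 2 S) (LatMod N S) :=
  ⟨fun t x => (LatMod.val N S).symm (latRep N S t (LatMod.val N S x))⟩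

instance instModuleLatMod : Module (CuspForm.heckeAlgebra N 2 S) (LatMod N S) where
  one_smul x := by show latRep N S 1 x = x; rw [map_one]; rfl
  mul_smul s t x := by show latRep N S (s * t) x = _; rw [map_mul]; rfl
  smul_zero t := map_zero (latRep N S t)
  smul_add t := map_add (latRep N S t)
  add_smul s t x := by show latRep N S (s + t) x = _; rw [map_add]; rfl
  zero_smul x := by show latRep N S 0 x = _; rw [map_zero]; rfl

theorem LatMod.val_smul (t : CuspForm.heckeAlgebra N 2 S) (x : LatMod N S) :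
    LatMod.val N S (t • x) = latRep N S t (LatMod.val N S x) := rfl

instance latMod_finiteInt : Module.Finite ℤ (LatMod N S) := by
  haveI := (cuspLat_free_finite (lvlGamma0 N)).2
  exact Module.Finite.equiv (LatMod.val N S).symm.toIntLinearEquiv

instance latMod_finite : Module.Finite (CuspForm.heckeAlgebra N 2 S) (LatMod N S) :=
  Module.Finite.of_restrictScalars_finite ℤ _ _

/-- The Hecke algebra acts faithfully. -/
theorem latMod_faithful {t : CuspForm.heckeAlgebra N 2 S} (h : ∀ x : LatMod N S, t • x = 0) :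
    t = 0 :=
  latRep_injective N S (by rw [map_zero]; exact LinearMap.ext fun x => h x)

/-- The multiples by `n`. -/
def nMultiples (n : ℕ) : Submodule (CuspForm.heckeAlgebra N 2 S) (LatMod N S) :=
  LinearMap.range ((n : CuspForm.heckeAlgebra N 2 S) • LinearMap.id)

theorem mem_nMultiples {n : ℕ} {x : LatMod N S} : x ∈ nMultiples N S n ↔ ∃ y, n • y = x := by
  simp [nMultiples, LinearMap.mem_range, Nat.cast_smul_eq_nsmul]

/-- The lattice modulo `n`. -/
abbrev ModN (n : ℕ) : Type := LatMod N S ⧸ nMultiples N S n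

variable (n : ℕ) [NeZero n]

/-- The torsion class of a lattice element. -/
def toTorsHom : LatMod N S →+ JZero N :=
  ((tors (lvlGamma0 N) Qb n).subtype.comp (latTors (lvlGamma0 N) Qb n)).comp
    (LatMod.val N S).toAddMonoidHom

theorem toTorsHom_eq_zero_iff {x : LatMod N S} :
    toTorsHom N S n x = 0 ↔ x ∈ nMultiples N S n := by
  rw [mem_nMultiples]
  constructor
  · intro h
    obtain ⟨ψ, hψ⟩ := latTors_eq_zero_iff.1 (Subtype.ext h :
      latTors (lvlGamma0 N) Qb n (LatMod.val N S x) = 0)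
    exact ⟨(LatMod.val N S).symm ψ, hψ.symm⟩
  · rintro ⟨y, rfl⟩
    exact congrArg Subtype.val (latTors_eq_zero_iff (L := Qb).2
      ⟨LatMod.val N S y, map_nsmul (LatMod.val N S) n y⟩)

/-- The lattice modulo `n` embeds into the torsion. -/
def toTors : ModN N S n →+ JZero N :=
  QuotientAddGroup.lift _ (toTorsHom N S n) fun _ hx => (toTorsHom_eq_zero_iff N S n).2 hx

theorem toTors_mk (x : LatMod N S) :
    toTors N S n (Submodule.Quotient.mk x) = toTorsHom N S n x := rfl

theorem toTors_injective : Function.Injective (toTors N S n) := by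
  rw [injective_iff_map_eq_zero]
  intro q hq
  obtain ⟨x, rfl⟩ := Submodule.Quotient.mk_surjective _ q
  exact (Submodule.Quotient.mk_eq_zero _).2 ((toTorsHom_eq_zero_iff N S n).1 hq)

theorem nsmul_toTors (q : ModN N S n) : n • toTors N S n q = 0 := by
  obtain ⟨x, rfl⟩ := Submodule.Quotient.mk_surjective _ q
  have h := Pic0.mem_torsion.1 (latTors (lvlGamma0 N) Qb n (LatMod.val N S x)).2
  rw [natCast_zsmul] at h
  exact h

theorem toTors_mem (q : ModN N S n) : toTors N S n q ∈ liftedTors (lvlGamma0 N) Qb n := by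
  obtain ⟨x, rfl⟩ := Submodule.Quotient.mk_surjective _ q
  exact ⟨LatMod.val N S x, rfl⟩

theorem exists_toTors_eq {y : JZero N} (hy : y ∈ liftedTors (lvlGamma0 N) Qb n) :
    ∃ q, toTors N S n q = y := by
  obtain ⟨φ, rfl⟩ := hy
  exact ⟨Submodule.Quotient.mk ((LatMod.val N S).symm φ), rfl⟩

variable {S}

/-- The Hecke operator `T_ℓ` corresponds to the correspondence. -/
theorem toTors_T_smul {ℓ : ℕ} [NeZero ℓ] (hℓ : ℓ.Prime) (hℓN : ¬ ℓ ∣ N) (hℓS : ℓ ∉ S)
    (q : ModN N S n) :
    toTors N S n (CuspForm.heckeAlgebra.T (k := 2) hℓ hℓN hℓS • q) = heckeLvl N ℓ (toTors N S n q) := by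
  obtain ⟨x, rfl⟩ := Submodule.Quotient.mk_surjective _ q
  rw [← Submodule.Quotient.mk_smul, toTors_mk, toTors_mk]
  have h1 : LatMod.val N S (CuspForm.heckeAlgebra.T (k := 2) hℓ hℓN hℓS • x) =
      latHecke N ℓ (LatMod.val N S x) :=
    (LatMod.val_smul N S _ x).trans (LinearMap.congr_fun (latRep_T N hℓ hℓN hℓS) _)
  exact (congrArg (fun φ => (tors (lvlGamma0 N) Qb n).subtype (latTors (lvlGamma0 N) Qb n φ)) h1).trans
    (heckeOperatorAlong_latTors N ℓ (LatMod.val N S x)).symm

theorem toTors_U_smul {ℓ : ℕ} [NeZero ℓ] (hℓ : ℓ.Prime) (hℓN : ℓ ∣ N) (hℓS : ℓ ∉ S)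
    (q : ModN N S n) :
    toTors N S n (CuspForm.heckeAlgebra.U (k := 2) hℓ hℓN hℓS • q) = heckeLvl N ℓ (toTors N S n q) := by
  obtain ⟨x, rfl⟩ := Submodule.Quotient.mk_surjective _ q
  rw [← Submodule.Quotient.mk_smul, toTors_mk, toTors_mk]
  have h1 : LatMod.val N S (CuspForm.heckeAlgebra.U (k := 2) hℓ hℓN hℓS • x) =
      latHecke N ℓ (LatMod.val N S x) :=
    (LatMod.val_smul N S _ x).trans (LinearMap.congr_fun (latRep_U N hℓ hℓN hℓS) _)
  exact (congrArg (fun φ => (tors (lvlGamma0 N) Qb n).subtype (latTors (lvlGamma0 N) Qb n φ)) h1).trans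
    (heckeOperatorAlong_latTors N ℓ (LatMod.val N S x)).symm

variable (S)

theorem existsUnique_gal (σ : GalQ) (q : ModN N S n) :
    ∃! q', toTors N S n q' = σ • toTors N S n q := by
  obtain ⟨q', hq'⟩ := exists_toTors_eq N S n (galois_smul_mem_liftedTors N (toTors_mem N S n q) σ)
  exact ⟨q', hq', fun q'' h => toTors_injective N S n (h.trans hq'.symm)⟩

/-- The transported action. -/
def galVal (σ : GalQ) (q : ModN N S n) : ModN N S n := (existsUnique_gal N S n σ q).choose

theorem toTors_galVal (σ : GalQ) (q : ModN N S n) :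
    toTors N S n (galVal N S n σ q) = σ • toTors N S n q :=
  (existsUnique_gal N S n σ q).choose_spec.1

theorem galVal_add (σ : GalQ) (a b : ModN N S n) :
    galVal N S n σ (a + b) = galVal N S n σ a + galVal N S n σ b :=
  toTors_injective N S n (by
    rw [toTors_galVal, map_add, map_add, toTors_galVal, toTors_galVal, smul_add])

/-- The transported action as an additive map. -/
def galAdd (σ : GalQ) : ModN N S n →+ ModN N S n :=
  AddMonoidHom.mk' (galVal N S n σ) (galVal_add N S n σ)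

theorem galVal_smul (σ : GalQ) (t : CuspForm.heckeAlgebra N 2 S) (q : ModN N S n) :
    galVal N S n σ (t • q) = t • galVal N S n σ q := by
  obtain ⟨t, ht⟩ := t
  revert q
  refine Algebra.adjoin_induction
    (p := fun t ht => ∀ q : ModN N S n, galVal N S n σ ((⟨t, ht⟩ : CuspForm.heckeAlgebra N 2 S) • q) =
      (⟨t, ht⟩ : CuspForm.heckeAlgebra N 2 S) • galVal N S n σ q) ?_ ?_ ?_ ?_ ht
  · rintro _ (⟨ℓ, hℓ, hℓN, hℓS, rfl⟩ | ⟨ℓ, hℓN, hℓ, hℓS, rfl⟩) q <;>
      haveI : NeZero ℓ := ⟨hℓ.ne_zero⟩ <;> refine toTors_injective N S n ?_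
    · show toTors N S n (galVal N S n σ (CuspForm.heckeAlgebra.T (k := 2) hℓ hℓN hℓS • q)) =
        toTors N S n (CuspForm.heckeAlgebra.T (k := 2) hℓ hℓN hℓS • galVal N S n σ q)
      rw [toTors_galVal, toTors_T_smul, toTors_T_smul, toTors_galVal]
      exact (heckeLvl_galois_smul N ℓ σ _).symm
    · show toTors N S n (galVal N S n σ (CuspForm.heckeAlgebra.U (k := 2) hℓ hℓN hℓS • q)) =
        toTors N S n (CuspForm.heckeAlgebra.U (k := 2) hℓ hℓN hℓS • galVal N S n σ q)
      rw [toTors_galVal, toTors_U_smul, toTors_U_smul, toTors_galVal]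
      exact (heckeLvl_galois_smul N ℓ σ _).symm
  · intro r q
    have hr : (⟨algebraMap ℤ _ r, Subalgebra.algebraMap_mem _ r⟩ : CuspForm.heckeAlgebra N 2 S) =
        algebraMap ℤ _ r := rfl
    rw [hr, eq_intCast, Int.cast_smul_eq_zsmul, Int.cast_smul_eq_zsmul]
    exact map_zsmul (galAdd N S n σ) r q
  · intro x y hx hy h1 h2 q
    have hxy : (⟨x + y, add_mem hx hy⟩ : CuspForm.heckeAlgebra N 2 S) = ⟨x, hx⟩ + ⟨y, hy⟩ := rfl
    rw [hxy, add_smul, add_smul, galVal_add, h1, h2]
  · intro x y hx hy h1 h2 q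
    have hxy : (⟨x * y, mul_mem hx hy⟩ : CuspForm.heckeAlgebra N 2 S) = ⟨x, hx⟩ * ⟨y, hy⟩ := rfl
    rw [hxy, mul_smul, mul_smul, h1, h2]

/-- The Galois action on the lattice modulo `n`. -/
def galMod : GalQ →* Module.End (CuspForm.heckeAlgebra N 2 S) (ModN N S n) where
  toFun σ :=
    { toFun := galVal N S n σ
      map_add' := galVal_add N S n σ
      map_smul' := galVal_smul N S n σ }
  map_one' := LinearMap.ext fun q => toTors_injective N S n (by
    show toTors N S n (galVal N S n 1 q) = _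
    rw [toTors_galVal, one_smul]
    rfl)
  map_mul' σ τ := LinearMap.ext fun q => toTors_injective N S n (by
    show toTors N S n (galVal N S n (σ * τ) q) =
      toTors N S n (galVal N S n σ (galVal N S n τ q))
    rw [toTors_galVal, toTors_galVal, toTors_galVal, mul_smul])

theorem toTors_galMod (σ : GalQ) (q : ModN N S n) :
    toTors N S n (galMod N S n σ q) = σ • toTors N S n q := toTors_galVal N S n σ q

/-- The action factors through a finite extension. -/
theorem exists_field_galMod :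
    ∃ L : IntermediateField ℚ Qb, FiniteDimensional ℚ L ∧
      ∀ σ : GalQ, (∀ a ∈ L, σ a = a) → galMod N S n σ = 1 := by
  obtain ⟨L, hL, h⟩ := exists_field_fix_tors N n
  refine ⟨L, hL, fun σ hσ => LinearMap.ext fun q => toTors_injective N S n ?_⟩
  exact (toTors_galMod N S n σ q).trans (h σ hσ _ (liftedTors_le (toTors_mem N S n q)))

variable (hGR : GoodRed N) {ℓ : ℕ} (hℓ : ℓ.Prime) (hℓN : ¬ ℓ ∣ N) (hℓn : ¬ ℓ ∣ n)
  {A : ValuationSubring Qb} (hA : A.LiesOverPrime ℓ)

include hGR hℓ hℓN hℓn hA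

theorem galMod_inertia {σ : GalQ} (hσ : σ ∈ A.inertiaSubgroupIn ℚ) : galMod N S n σ = 1 :=
  LinearMap.ext fun q => toTors_injective N S n (by
    rw [toTors_galMod, hGR.inertia ℓ hℓ hℓN A hA σ hσ n hℓn _ (nsmul_toTors N S n q)]
    rfl)

theorem galMod_frobenius (hℓS : ℓ ∉ S) {σ : GalQ} (hσ : A.IsFrobeniusAt σ ℓ) (q : ModN N S n) :
    galMod N S n σ q + ℓ • galMod N S n σ⁻¹ q =
      CuspForm.heckeAlgebra.T (k := 2) hℓ hℓN hℓS • q := by
  haveI : NeZero ℓ := ⟨hℓ.ne_zero⟩
  set x := galMod N S n σ⁻¹ q with hx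
  have hq : q = galMod N S n σ x := by
    rw [hx, ← Module.End.mul_apply, ← map_mul, mul_inv_cancel, map_one, Module.End.one_apply]
  refine toTors_injective N S n ?_
  rw [map_add, toTors_T_smul N n hℓ hℓN hℓS, map_nsmul, hq, toTors_galMod,
    toTors_galMod]
  exact sub_eq_zero.1 ((add_sub_right_comm _ _ _).trans
    (hGR.frobenius ℓ hℓ hℓN A hA σ hσ n hℓn _ (nsmul_toTors N S n x)))

end FA.JTorsion
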