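import Fermat.Agent.JTorsion.PadicRep
import Fermat.Agent.JTorsion.Descend
import Fermat.Agent.JTorsion.Functional
import Fermat.Agent.JTorsion.LatMod
import Fermat.Agent.JTorsion.Attach

/-!
# `p`-adic representations attached to points of the Hecke algebra (given good reduction)
-/

set_option autoImplicit false
set_option linter.style.haveILetI false
set_option linter.unusedSectionVars false
set_option synthInstance.maxHeartbeats 100000
set_option maxHeartbeats 1000000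

noncomputable section

namespace FA.JTorsion

open FA.Level ModularCurve IsLocalRing Polynomial

local notation "Qb" => AlgebraicClosure ℚ

/-- The reductions of the Galois action at powers of `p` are compatible. -/
theorem galMod_compat [Algebra Qb ℂ] (N : ℕ) [NeZero N] (S : Set ℕ) (p : ℕ) [NeZero p]
    (σ : GalQ) :
    CompatFamily (P := fun n => nMultiples N S (p ^ n)) fun n => galMod N S (p ^ n) σ := by
  intro n x y h
  have key : ∀ z : LatMod N S, p • toTors N S (p ^ (n + 1)) (Submodule.Quotient.mk z) =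
      toTors N S (p ^ n) (Submodule.Quotient.mk z) := fun z => by
    haveI : NeZero (p * p ^ n) := ⟨mul_ne_zero (NeZero.ne p) (NeZero.ne _)⟩
    have e : ∀ (m : ℕ) [NeZero m], m = p * p ^ n →
        p • toTors N S m (Submodule.Quotient.mk z) =
          toTors N S (p ^ n) (Submodule.Quotient.mk z) := by
      rintro m _ rfl
      exact nsmul_latTors (LatMod.val N S z)
    exact e _ (pow_succ' p n)
  refine toTors_injective N S (p ^ n) ?_
  rw [toTors_galMod, ← key, ← key]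
  calc σ • (p • toTors N S (p ^ (n + 1)) (Submodule.Quotient.mk x))
      = p • (σ • toTors N S (p ^ (n + 1)) (Submodule.Quotient.mk x)) :=
        map_nsmul (DistribSMul.toAddMonoidHom (JZero N) σ) p _
    _ = _ := by rw [← toTors_galMod, h]

/-- The statement of S30, given good reduction. -/
theorem exists_galoisRep_of_point (p : ℕ) [Fact p.Prime] (N : ℕ) [NeZero N] (hGR : GoodRed N)
    (S : Finset ℕ) (hpS : p ∈ S)
    (O : Type) [CommRing O] [IsDomain O] [IsDiscreteValuationRing O]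
    [IsAdicComplete (maximalIdeal O) O] [Finite (ResidueField O)] [CharZero O]
    (hpO : (p : O) ∈ maximalIdeal O)
    (χ : CuspForm.heckeAlgebra N 2 (↑S : Set ℕ) →+* O) :
    ∃ (O' : Type) (_ : CommRing O') (_ : IsDomain O') (_ : IsDiscreteValuationRing O')
      (_ : IsAdicComplete (maximalIdeal O') O') (_ : Finite (ResidueField O')) (_ : CharZero O')
      (_ : Algebra O O') (_ : Module.Finite O O') (_ : IsLocalHom (algebraMap O O')),
    Function.Injective (algebraMap O O') ∧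
    ∃ ρ : GaloisRepAdic O',
      (∀ (ℓ : ℕ) (hℓ : ℓ.Prime) (hℓN : ¬ ℓ ∣ N) (hℓS : ℓ ∉ (↑S : Set ℕ)),
        ∀ A : ValuationSubring Qb, A.LiesOverPrime ℓ →
          ∀ σ : GalQ, A.IsFrobeniusAt σ ℓ →
            LinearMap.charpoly (ρ.ρ σ) =
              X ^ 2 - C (algebraMap O O' (χ (CuspForm.heckeAlgebra.T hℓ hℓN hℓS))) * X
                + C ((ℓ : O'))) ∧
      (∀ q : ℕ, q.Prime → ¬ q ∣ N → q ≠ p → ρ.IsUnramifiedAt q) := by
  classical
  obtain ⟨alg⟩ := exists_algebra_qbar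
  letI := alg
  letI := χ.toAlgebra
  haveI : NeZero p := ⟨(Fact.out : p.Prime).ne_zero⟩
  let H := CuspForm.heckeAlgebra N 2 (↑S : Set ℕ)
  let P : ℕ → Submodule H (LatMod N (↑S : Set ℕ)) := fun n => nMultiples N (↑S : Set ℕ) (p ^ n)
  have hP : PowCompat (R := O) (maximalIdeal O) P := by
    refine ⟨fun n x hx => ?_, fun n x hx => ?_⟩
    · obtain ⟨y, rfl⟩ := (mem_nMultiples N _).1 hx
      exact (mem_nMultiples N _).2 ⟨p • y, by rw [← mul_nsmul, ← pow_succ']⟩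
    · obtain ⟨y, rfl⟩ := (mem_nMultiples N _).1 hx
      rw [← Nat.cast_smul_eq_nsmul H, TensorProduct.tmul_smul, ← algebraMap_smul O, map_natCast,
        Nat.cast_pow]
      exact Submodule.smul_mem_smul (Ideal.pow_mem_pow hpO n) Submodule.mem_top
  let bad : Finset ℕ := S ∪ N.primeFactors
  let t : ℕ → H := fun ℓ =>
    if h : ℓ.Prime ∧ ¬ ℓ ∣ N ∧ ℓ ∉ (↑S : Set ℕ) then
      CuspForm.heckeAlgebra.T (k := 2) h.1 h.2.1 h.2.2 else 0
  have hbad : ∀ ℓ : ℕ, ℓ.Prime → ℓ ∉ bad → ¬ ℓ ∣ N ∧ ℓ ∉ (↑S : Set ℕ) := fun ℓ hℓ h => by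
    simp only [bad, Finset.mem_union, Nat.mem_primeFactors, not_or] at h
    exact ⟨fun hd => h.2 ⟨hℓ, hd, NeZero.ne N⟩, by simpa using h.1⟩
  have hnp : ∀ ℓ : ℕ, ℓ.Prime → ℓ ≠ p → ∀ n, ¬ ℓ ∣ p ^ n := fun ℓ hℓ hℓp n h =>
    hℓp ((Nat.prime_dvd_prime_iff_eq hℓ Fact.out).1 (hℓ.dvd_of_dvd_pow h))
  obtain ⟨g, x₀, hg⟩ := exists_functional_domain (R := O) (X := LatMod N (↑S : Set ℕ))
    fun _ h => latMod_faithful N (↑S : Set ℕ) h
  obtain ⟨d, ρ, cyc, hd, hscal, hfrob, hcyc, htriv, hcont⟩ :=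
    exists_matrix_rep p (fun n => galMod N (↑S : Set ℕ) (p ^ n)) hpO hP
      (galMod_compat N (↑S : Set ℕ) p) g x₀ hg
      (fun n => exists_field_galMod N (↑S : Set ℕ) (p ^ n)) bad t
      fun n ℓ hℓ hℓp hb A hA σ hσ q => by
        obtain ⟨hℓN, hℓS⟩ := hbad ℓ hℓ hb
        rw [show t ℓ = CuspForm.heckeAlgebra.T (k := 2) hℓ hℓN hℓS from dif_pos ⟨hℓ, hℓN, hℓS⟩]
        exact galMod_frobenius N (↑S : Set ℕ) (p ^ n) hGR hℓ hℓN (hnp ℓ hℓ hℓp n) hA hℓS hσ q
  obtain ⟨O', i₁, i₂, i₃, i₄, i₅, i₆, i₇, i₈, i₉, hinj, r, htr, hdet, hker, v, hv⟩ :=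
    exists_descend hd ρ cyc hscal
  have hr : FA.Deform.IsContRep r := fun n => by
    obtain ⟨L, hL, h⟩ := hcont (n + v)
    exact ⟨L, hL, fun σ hσ => hv σ n (h σ hσ).1
      (h σ⁻¹ fun a ha => by
        calc σ⁻¹ a = σ⁻¹ (σ a) := by rw [hσ a ha]
          _ = a := σ.symm_apply_apply a).1 (h σ hσ).2⟩
  refine ⟨O', i₁, i₂, i₃, i₄, i₅, i₆, i₇, i₈, i₉, hinj, FA.Deform.ofMatrix r hr, ?_, ?_⟩
  · intro ℓ hℓ hℓN hℓS A hA σ hσ
    have hℓp : ℓ ≠ p := fun h => hℓS (by rw [h]; exact Finset.mem_coe.2 hpS)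
    have hb : ℓ ∉ bad := by
      simp only [bad, Finset.mem_union, Nat.mem_primeFactors, not_or]
      exact ⟨by simpa using hℓS, fun h => hℓN h.2.1⟩
    show LinearMap.charpoly (Matrix.toLin (Pi.basisFun O' (Fin 2)) (Pi.basisFun O' (Fin 2)) (r σ)) = _
    rw [Matrix.charpoly_toLin, Matrix.charpoly_fin_two, hdet, (hcyc ℓ hℓ hℓp A hA).2 σ hσ,
      htr σ _ (hfrob ℓ hℓ hℓp hb A hA σ hσ),
      show t ℓ = CuspForm.heckeAlgebra.T (k := 2) hℓ hℓN hℓS from dif_pos ⟨hℓ, hℓN, hℓS⟩,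
      map_natCast]
    rfl
  · intro q hq hqN hqp A hA σ hσ
    show Matrix.toLinAlgEquiv (Pi.basisFun O' (Fin 2)) (r σ) = 1
    rw [hker σ (htriv σ fun n =>
      galMod_inertia N (↑S : Set ℕ) (p ^ n) hGR hq hqN (hnp q hq hqp n) hA hσ)
      ((hcyc q hq hqp A hA).1 σ hσ), map_one]

end FA.JTorsion
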