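import Fermat.Agent.JTorsion.TraceTools
import Fermat.Agent.JTorsion.LatMod
import Fermat.Agent.JTorsion.Attach
import Fermat.Agent.JTorsion.CycloRes
import Fermat.Agent.Density.Places
import Fermat.Prelude.Def_CuspForm_HeckeGaloisRepDatum

/-!
# Hecke Galois data are unramified outside `S` (given good reduction)

The trace of the representation is the limit of the traces on the torsion of the Jacobian, so
inertia does not change it; absolute irreducibility then makes inertia act trivially.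
-/

set_option autoImplicit false
set_option linter.style.haveILetI false
set_option linter.unusedSectionVars false
set_option synthInstance.maxHeartbeats 100000
set_option maxHeartbeats 4000000

noncomputable section

namespace FA.JTorsion

open FA.Level ModularCurve IsLocalRing Polynomial

local notation "Qb" => AlgebraicClosure ℚ

theorem latMod_free [Algebra Qb ℂ] (N : ℕ) [NeZero N] (S : Set ℕ) :
    Module.Free ℤ (LatMod N S) := by
  haveI := (cuspLat_free_finite (lvlGamma0 N)).1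
  exact Module.Free.of_equiv (LatMod.val N S).symm.toIntLinearEquiv

theorem nsmul_mod_eq [Algebra Qb ℂ] {N : ℕ} [NeZero N] {S : Set ℕ} {m : ℕ} (a : ℕ)
    (x : ModN N S m) : (a % m) • x = a • x := by
  have h : m • x = 0 := by
    obtain ⟨z, rfl⟩ := Submodule.Quotient.mk_surjective _ x
    exact (Submodule.Quotient.mk_eq_zero _).2 ((mem_nMultiples N S).2 ⟨z, rfl⟩)
  conv_rhs => rw [← Nat.mod_add_div a m, add_nsmul, mul_comm m, mul_nsmul', h, nsmul_zero,
    add_zero]

variable {p : ℕ} {N : ℕ} [NeZero N] {S : Finset ℕ}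
  {O : Type} [CommRing O] [IsDomain O] [IsDiscreteValuationRing O]
  [IsAdicComplete (maximalIdeal O) O]
  {θ : CuspForm.heckeAlgebra N 2 (↑S : Set ℕ) →+* ResidueField O}
  {T : Type} [CommRing T] [IsLocalRing T] [IsNoetherianRing T]
  [IsAdicComplete (maximalIdeal T) T] [Algebra O T] [IsLocalHom (algebraMap O T)]
  [Module.Finite O T] [Module.Free O T]

/-- The trace and determinant at Frobenius elements. -/
theorem trace_det_frobenius (H : CuspForm.HeckeGaloisRepDatum N (↑S : Set ℕ) O θ T)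
    (b : Module.Basis (Fin 2) T H.ρ.V) :
    ∀ (ℓ : ℕ) (hℓ : ℓ.Prime) (hℓN : ¬ ℓ ∣ N) (hℓS : ℓ ∉ (↑S : Set ℕ)),
      ∀ B : ValuationSubring Qb, B.LiesOverPrime ℓ → ∀ τ : GalQ, B.IsFrobeniusAt τ ℓ →
        (FA.Deform.matrixOf H.ρ b τ).trace =
            H.π (CuspForm.heckeAlgebra.T (k := 2) hℓ hℓN hℓS) ∧
          (FA.Deform.matrixOf H.ρ b τ).det = (ℓ : T) := by
  intro ℓ hℓ hℓN hℓS B hB τ hτ
  have h := H.charpoly_frob ℓ hℓ hℓN hℓS B hB τ hτ
  rw [← LinearMap.charpoly_toMatrix (H.ρ.ρ τ) b, ← FA.Deform.matrixOf_apply,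
    Matrix.charpoly_fin_two] at h
  have h1 := congrArg (fun f => coeff f 1) h
  have h0 := congrArg (fun f => coeff f 0) h
  simp [coeff_X, coeff_C] at h1 h0
  exact ⟨h1, h0⟩

section

variable [Algebra Qb ℂ] [Fact p.Prime]

/-- Inertia does not change the trace modulo any power. -/
theorem trace_inertia_mem (hGR : GoodRed N) (hp : p.Prime) (hpT : (p : T) ∈ maximalIdeal T)
    (hpS : p ∈ S) (H : CuspForm.HeckeGaloisRepDatum N (↑S : Set ℕ) O θ T)
    (b : Module.Basis (Fin 2) T H.ρ.V) {q : ℕ} (hq : q.Prime) (hqN : ¬ q ∣ N) (hqp : q ≠ p)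
    {A : ValuationSubring Qb} (hA : A.LiesOverPrime q) {σ : GalQ}
    (hσ : σ ∈ A.inertiaSubgroupIn ℚ) {c : ℕ}
    (hc : ∀ (n : ℕ) (t : CuspForm.heckeAlgebra N 2 (↑S : Set ℕ)),
      (∀ x : LatMod N (↑S : Set ℕ), ∃ y, t • x = (p ^ (n + c)) • y) → ∃ t', t = (p ^ n) • t')
    (j : ℕ) (g : GalQ) :
    (FA.Deform.matrixOf H.ρ b (σ * g)).trace - (FA.Deform.matrixOf H.ρ b g).trace ∈
      maximalIdeal T ^ j := by
  classical
  haveI : NeZero p := ⟨hp.ne_zero⟩
  let r := FA.Deform.matrixOf H.ρ b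
  have hfrob := trace_det_frobenius H b
  revert g
  let n := j + c
  let act := galMod N (↑S : Set ℕ) (p ^ n)
  let cn : GalQ →* (ZMod (p ^ n))ˣ :=
    (Units.map (PadicInt.toZModPow n).toMonoidHom).comp (cycP p)
  let rn := FA.Deform.mapRep (Ideal.Quotient.mk (maximalIdeal T ^ n)) r
  let K := ((act.prod cn).prod rn).ker
  obtain ⟨L₁, hL₁, h₁⟩ := exists_field_galMod N (↑S : Set ℕ) (p ^ n)
  obtain ⟨L₂, hL₂, h₂⟩ := exists_field_cycP p n
  obtain ⟨L₃, hL₃, h₃⟩ := FA.Deform.isContRep_matrixOf H.ρ b n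
  have hK : IsOpen (K : Set GalQ) :=
    Subgroup.isOpen_mono (H₁ := (L₁ ⊔ L₂ ⊔ L₃).fixingSubgroup) (fun τ hτ => by
      have hfix := (IntermediateField.mem_fixingSubgroup_iff _ _).1 hτ
      refine MonoidHom.mem_ker.2 (Prod.ext (Prod.ext
        (h₁ τ fun a ha => hfix a ((le_sup_left.trans le_sup_left : L₁ ≤ L₁ ⊔ L₂ ⊔ L₃) ha))
        (Units.ext (h₂ τ fun a ha =>
          hfix a ((le_sup_right.trans le_sup_left : L₂ ≤ L₁ ⊔ L₂ ⊔ L₃) ha)))) ?_)
      show (Ideal.Quotient.mk (maximalIdeal T ^ n)).mapMatrix (r τ) = 1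
      rw [← map_one (Ideal.Quotient.mk (maximalIdeal T ^ n)).mapMatrix]
      ext i k
      exact Ideal.Quotient.eq.2
        (h₃ τ (fun a ha => hfix a ((le_sup_right : L₃ ≤ L₁ ⊔ L₂ ⊔ L₃) ha)) i k))
      (IntermediateField.fixingSubgroup_isOpen _)
  let Φ : GalQ → Prop := fun τ => ∃ h : CuspForm.heckeAlgebra N 2 (↑S : Set ℕ),
    (∀ x, act τ x + ((cn τ : ZMod (p ^ n))).val • act τ⁻¹ x = h • x) ∧
      Ideal.Quotient.mk (maximalIdeal T ^ n) (r τ).trace =
        Ideal.Quotient.mk (maximalIdeal T ^ n) (H.π h)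
  have hall : ∀ τ, Φ τ := by
    refine fun τ => FA.Density.forall_of_frobenius_pow K hK Φ ?_ (S ∪ N.primeFactors) ?_ τ
    · intro τ η hη ⟨h, hx, htr⟩
      obtain ⟨hη', hr⟩ := Prod.ext_iff.1 (MonoidHom.mem_ker.1 hη)
      obtain ⟨h1, h2⟩ := Prod.ext_iff.1 hη'
      change act η = 1 at h1
      change cn η = 1 at h2
      change rn η = 1 at hr
      have h1' : act η⁻¹ = 1 := by
        have h4 : act η⁻¹ * act η = 1 := by rw [← map_mul, inv_mul_cancel, map_one]
        rwa [h1, mul_one] at h4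
      refine ⟨h, fun x => ?_, ?_⟩
      · rw [map_mul, map_mul, h2, mul_one, mul_inv_rev, map_mul, h1, h1', mul_one, one_mul]
        exact hx x
      · rw [← htr]
        have e : rn (τ * η) = rn τ := by rw [map_mul, hr, mul_one]
        simp only [Matrix.trace_fin_two, map_add]
        exact congrArg₂ (· + ·) (congrFun (congrFun e 0) 0) (congrFun (congrFun e 1) 1)
    · intro ℓ hℓ hℓS B hB τ hτ k
      simp only [Finset.mem_union, Nat.mem_primeFactors, not_or] at hℓS
      have hℓN : ¬ ℓ ∣ N := fun h => hℓS.2 ⟨hℓ, h, NeZero.ne N⟩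
      have hℓS' : ℓ ∉ (↑S : Set ℕ) := by simpa using hℓS.1
      have hℓp : ℓ ≠ p := fun h => hℓS.1 (h ▸ hpS)
      have hℓn : ¬ ℓ ∣ p ^ n := fun h =>
        hℓp ((Nat.prime_dvd_prime_iff_eq hℓ hp).1 (hℓ.dvd_of_dvd_pow h))
      let t := CuspForm.heckeAlgebra.T (k := 2) hℓ hℓN hℓS'
      refine ⟨powSum t (ℓ : CuspForm.heckeAlgebra N 2 (↑S : Set ℕ)) k, fun x => ?_, ?_⟩
      · have hrel : act τ + (ℓ : CuspForm.heckeAlgebra N 2 (↑S : Set ℕ)) • act τ⁻¹ = t • 1 :=
          LinearMap.ext fun y => by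
            rw [LinearMap.add_apply, LinearMap.smul_apply, LinearMap.smul_apply,
              Nat.cast_smul_eq_nsmul, Module.End.one_apply]
            exact galMod_frobenius N (↑S : Set ℕ) (p ^ n) hGR hℓ hℓN hℓn hB hℓS' hτ y
        have hpow := LinearMap.congr_fun (pow_add_smul_pow
          (by rw [← map_mul, mul_inv_cancel, map_one])
          (by rw [← map_mul, inv_mul_cancel, map_one]) hrel k) x
        rw [LinearMap.add_apply, LinearMap.smul_apply, LinearMap.smul_apply, ← Nat.cast_pow,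
          Nat.cast_smul_eq_nsmul, Module.End.one_apply, ← map_pow, ← map_pow, inv_pow] at hpow
        have hcn : ((cn (τ ^ k) : (ZMod (p ^ n))ˣ) : ZMod (p ^ n)) = ((ℓ ^ k : ℕ) : ZMod (p ^ n)) := by
          rw [map_pow, Units.val_pow_eq_pow_val, Nat.cast_pow]
          congr 1
          show PadicInt.toZModPow n ((cycP p τ : ℤ_[p]ˣ) : ℤ_[p]) = _
          rw [cycP_frobenius p hℓ hℓp hB hτ, map_natCast]
        rw [hcn, ZMod.val_natCast, nsmul_mod_eq]
        exact hpow
      · rw [map_pow, trace_pow_fin_two, map_powSum H.π, (hfrob ℓ hℓ hℓN hℓS' B hB τ hτ).1,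
          (hfrob ℓ hℓ hℓN hℓS' B hB τ hτ).2, map_natCast]
  intro g
  obtain ⟨h₁', hx₁, ht₁⟩ := hall (σ * g)
  obtain ⟨h₂', hx₂, ht₂⟩ := hall g
  have hσ1 : act σ = 1 := galMod_inertia N (↑S : Set ℕ) (p ^ n) hGR hq hqN
    (fun h => hqp ((Nat.prime_dvd_prime_iff_eq hq hp).1 (hq.dvd_of_dvd_pow h))) hA hσ
  have hσ2 : cn σ = 1 := by
    show Units.map _ (cycP p σ) = 1
    rw [cycP_inertia p hq hqp hA hσ, map_one]
  have hσ1' : act σ⁻¹ = 1 := by
    have h4 : act σ⁻¹ * act σ = 1 := by rw [← map_mul, inv_mul_cancel, map_one]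
    rwa [hσ1, mul_one] at h4
  obtain ⟨h', hh'⟩ := hc j (h₁' - h₂') fun z => by
    have e1 := hx₁ (Submodule.Quotient.mk z)
    have a1 : act (σ * g) = act g := by rw [map_mul act, hσ1, one_mul]
    have a2 : act (σ * g)⁻¹ = act g⁻¹ := by rw [mul_inv_rev, map_mul act, hσ1', mul_one]
    have a3 : cn (σ * g) = cn g := by rw [map_mul cn, hσ2, one_mul]
    rw [a1, a2, a3] at e1
    have e2 : Submodule.Quotient.mk ((h₁' - h₂') • z) =
        (0 : ModN N (↑S : Set ℕ) (p ^ n)) := by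
      rw [Submodule.Quotient.mk_smul, sub_smul, sub_eq_zero]
      exact e1.symm.trans (hx₂ (Submodule.Quotient.mk z))
    obtain ⟨y, hy⟩ := (mem_nMultiples N (↑S : Set ℕ)).1 ((Submodule.Quotient.mk_eq_zero _).1 e2)
    exact ⟨y, hy.symm⟩
  have hπ : H.π h₁' - H.π h₂' ∈ maximalIdeal T ^ j := by
    rw [← map_sub, hh', map_nsmul, nsmul_eq_mul, Nat.cast_pow]
    exact Ideal.mul_mem_right _ _ (Ideal.pow_mem_pow hpT j)
  have hle : maximalIdeal T ^ n ≤ maximalIdeal T ^ j := Ideal.pow_le_pow_right (Nat.le_add_right j c)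
  have e2 := sub_mem (hle (Ideal.Quotient.eq.1 ht₁)) (hle (Ideal.Quotient.eq.1 ht₂))
  have e3 := add_mem e2 hπ
  convert e3 using 1
  ring

end

/-- The statement of S31, given good reduction. -/
theorem isUnramifiedAt_of_notMem (hGR : GoodRed N) (hp : p.Prime)
    (hpO : (p : O) ∈ maximalIdeal O) (hpS : p ∈ S) (hNS : ∀ q : ℕ, q.Prime → q ∣ N → q ∈ S)
    (H : CuspForm.HeckeGaloisRepDatum N (↑S : Set ℕ) O θ T) (q : ℕ) (hq : q.Prime) (hqS : q ∉ S) :
    H.ρ.IsUnramifiedAt q := by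
  classical
  intro A hA σ hσ
  obtain ⟨alg⟩ := exists_algebra_qbar
  letI := alg
  haveI : Fact p.Prime := ⟨hp⟩
  haveI : NeZero p := ⟨hp.ne_zero⟩
  haveI := latMod_free N (↑S : Set ℕ)
  have hqN : ¬ q ∣ N := fun h => hqS (hNS q hq h)
  have hqp : q ≠ p := fun h => hqS (h ▸ hpS)
  let b := FA.Deform.repBasis H.ρ
  let r := FA.Deform.matrixOf H.ρ b
  have hpT : (p : T) ∈ maximalIdeal T := by
    have h := Ideal.mem_map_of_mem (algebraMap O T) hpO
    rw [map_natCast] at h
    have hle : (maximalIdeal O).map (algebraMap O T) ≤ maximalIdeal T :=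
      ((local_hom_TFAE (algebraMap O T)).out 0 2).mp (inferInstance : IsLocalHom (algebraMap O T))
    exact hle h
  obtain ⟨c, hc⟩ := exists_saturation p hp.ne_zero
    (fun _ h => latMod_faithful N (↑S : Set ℕ) h)
  have key : ∀ (j : ℕ) (g : GalQ), (r (σ * g)).trace - (r g).trace ∈ maximalIdeal T ^ j :=
    fun j g => trace_inertia_mem hGR hp hpT hpS H b hq hqN hqp hA hσ hc j g
  have htr : ∀ g, (r (σ * g)).trace = (r g).trace := fun g => by
    refine sub_eq_zero.1 (IsHausdorff.haus (I := maximalIdeal T) inferInstance _ fun j => ?_)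
    rw [SModEq.zero, smul_eq_mul, Ideal.mul_top]
    exact key j g
  have hzero : ∀ M : Matrix (Fin 2) (Fin 2) T, ((r σ - 1) * M).trace = 0 := fun M => by
    have hM : M ∈ Submodule.span T (Set.range r) :=
      (span_matrixOf_eq_top H.ρ H.residual_absIrr b).symm ▸ Submodule.mem_top
    induction hM using Submodule.span_induction with
    | mem x hx =>
      obtain ⟨g, rfl⟩ := hx
      rw [sub_mul, one_mul, ← map_mul, Matrix.trace_sub, htr, sub_self]
    | zero => rw [mul_zero, Matrix.trace_zero]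
    | add x y _ _ hx hy => rw [mul_add, Matrix.trace_add, hx, hy, add_zero]
    | smul a x _ hx => rw [Matrix.mul_smul, Matrix.trace_smul, hx, smul_zero]
  have h1 : r σ = 1 := by
    refine sub_eq_zero.1 (Matrix.ext fun i k => ?_)
    have h := hzero (Matrix.single k i 1)
    simpa [Matrix.trace, Matrix.mul_apply, Matrix.single_apply, Finset.sum_ite_eq, ite_and] using h
  apply (LinearMap.toMatrix b b).injective
  rw [← FA.Deform.matrixOf_apply, LinearMap.toMatrix_one]
  exact h1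

end FA.JTorsion
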