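import Fermat.Agent.JTorsion.AdicLimit
import Fermat.Agent.JTorsion.TwoDim
import Fermat.Agent.JTorsion.CycloRes
import Fermat.Agent.Density.Places
import Fermat.Agent.Deform.MatrixRep
import Fermat.Prelude.Thm_IsLocalRing_isAdicComplete_of_module_finite
import Mathlib.Algebra.Module.Torsion.Basic
import Mathlib.LinearAlgebra.FreeModule.PID

/-!
# The `p`-adic limit of torsion representations satisfying the quadratic relation
-/

set_option autoImplicit false
set_option linter.style.haveILetI false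
set_option linter.unusedSectionVars false
set_option maxHeartbeats 1000000

noncomputable section

namespace FA.JTorsion

open scoped TensorProduct
open IsLocalRing

local notation "Qb" => AlgebraicClosure ℚ
local notation "GQ" => AlgebraicClosure ℚ ≃ₐ[ℚ] AlgebraicClosure ℚ

variable {O : Type} [CommRing O] [IsDomain O] [IsDiscreteValuationRing O]

/-- An endomorphism congruent to scalars modulo every power is a scalar. -/
theorem exists_scalar_of_congr {Y : Type} [AddCommGroup Y] [Module O Y]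
    [IsHausdorff (maximalIdeal O) Y] (φ : Y →ₗ[O] O) (hφ : φ ≠ 0) (D : Module.End O Y)
    (h : ∀ n : ℕ, ∃ a : O, ∀ z, D z - a • z ∈ maximalIdeal O ^ n • (⊤ : Submodule O Y)) :
    ∃ a : O, D = a • 1 := by
  classical
  choose a ha using h
  obtain ⟨z₀, hz₀⟩ : ∃ z, φ z ≠ 0 := by
    by_contra hc
    push Not at hc
    exact hφ (LinearMap.ext hc)
  obtain ⟨ϖ, hϖ⟩ := IsDiscreteValuationRing.exists_irreducible O
  obtain ⟨v, u, hu⟩ := IsDiscreteValuationRing.eq_unit_mul_pow_irreducible hz₀ hϖ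
  have hpow : maximalIdeal O ^ v = Ideal.span {φ z₀} := by
    rw [hϖ.maximalIdeal_eq, Ideal.span_singleton_pow, hu, mul_comm,
      Ideal.span_singleton_mul_right_unit u.isUnit]
  have hmem : ∀ (n : ℕ) (y : Y), y ∈ maximalIdeal O ^ n • (⊤ : Submodule O Y) →
      φ y ∈ maximalIdeal O ^ n := fun n y hy => by
    have h' := Submodule.mem_map_of_mem (f := φ) hy
    rw [Submodule.map_smul''] at h'
    have h'' := Submodule.smul_mono le_rfl (le_top : Submodule.map φ ⊤ ≤ ⊤) h'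
    rwa [smul_eq_mul, Ideal.mul_top] at h''
  have hcong : ∀ n, φ (D z₀) - a n * φ z₀ ∈ maximalIdeal O ^ n := fun n => by
    have h' := hmem n _ (ha n z₀)
    rwa [map_sub, map_smul, smul_eq_mul] at h'
  obtain ⟨b, hb⟩ : ∃ b, φ (D z₀) = b * φ z₀ := by
    have h' := hcong v
    rw [hpow, Ideal.mem_span_singleton] at h'
    obtain ⟨c, hc⟩ := h'
    exact ⟨a v + c, by rw [add_mul, mul_comm c, ← hc, add_sub_cancel]⟩
  refine ⟨b, LinearMap.ext fun z => sub_eq_zero.1
    (IsHausdorff.haus (I := maximalIdeal O) inferInstance _ fun n => ?_)⟩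
  rw [SModEq.zero]
  have hab : a (n + v) - b ∈ maximalIdeal O ^ n := by
    have h' := hcong (n + v)
    rw [hb, ← sub_mul, pow_add, hpow, Ideal.mem_mul_span_singleton] at h'
    obtain ⟨c, hc, hc'⟩ := h'
    rw [mul_right_cancel₀ hz₀ hc'] at hc
    simpa using neg_mem hc
  have h1 := Submodule.smul_mono_left (N := (⊤ : Submodule O Y))
    (Ideal.pow_le_pow_right (le_add_right le_rfl : n ≤ n + v)) (ha (n + v) z)
  have h2 : (a (n + v) - b) • z ∈ maximalIdeal O ^ n • (⊤ : Submodule O Y) :=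
    Submodule.smul_mem_smul hab Submodule.mem_top
  convert add_mem h1 h2 using 1
  simp only [LinearMap.smul_apply, Module.End.one_apply, sub_smul]
  abel

variable [IsAdicComplete (maximalIdeal O) O] (p : ℕ) [Fact p.Prime]

/-- A `p`-adic character interpolating the cyclotomic character. -/
theorem exists_cycO (hp : (p : O) ∈ maximalIdeal O) :
    ∃ χ : GQ →* Oˣ,
      (∀ n : ℕ, ∃ L : IntermediateField ℚ Qb, FiniteDimensional ℚ L ∧
        ∀ σ : GQ, (∀ a ∈ L, σ a = a) → (χ σ : O) - 1 ∈ maximalIdeal O ^ n) ∧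
      ∀ q : ℕ, q.Prime → q ≠ p → ∀ A : ValuationSubring Qb, A.LiesOverPrime q →
        (∀ σ ∈ A.inertiaSubgroupIn ℚ, χ σ = 1) ∧
        ∀ σ : GQ, A.IsFrobeniusAt σ q → (χ σ : O) = q := by
  obtain ⟨ι, hι⟩ := exists_padicHom (maximalIdeal O) hp
  refine ⟨(Units.map ι.toMonoidHom).comp (cycP p), fun n => ?_, fun q hq hqp A hA => ⟨?_, ?_⟩⟩
  · obtain ⟨L, hL, h⟩ := exists_field_cycP p n
    exact ⟨L, hL, fun σ hσ => hι n _ (h σ hσ)⟩
  · intro σ hσ
    rw [MonoidHom.comp_apply, cycP_inertia p hq hqp hA hσ, map_one]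
  · intro σ hσ
    show ι ((cycP p σ : ℤ_[p]ˣ) : ℤ_[p]) = q
    rw [cycP_frobenius p hq hqp hA hσ, map_natCast]

variable {T : Type} [CommRing T] [Algebra T O] {X : Type} [AddCommGroup X] [Module T X]
  [Module.Finite T X] {P : ℕ → Submodule T X} (act : ∀ n, GQ →* Module.End T (X ⧸ P n))

/-- The matrices of the limit. -/
theorem exists_matrix_rep (hp : (p : O) ∈ maximalIdeal O) (hP : PowCompat (maximalIdeal O) P)
    (hact : ∀ σ, CompatFamily fun n => act n σ) (g : X →ₗ[T] O) (x₀ : X) (hg : g x₀ ≠ 0)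
    (hfield : ∀ n, ∃ L : IntermediateField ℚ Qb, FiniteDimensional ℚ L ∧
      ∀ σ : GQ, (∀ a ∈ L, σ a = a) → act n σ = 1)
    (bad : Finset ℕ) (t : ℕ → T)
    (hrel : ∀ n, ∀ ℓ : ℕ, ℓ.Prime → ℓ ≠ p → ℓ ∉ bad → ∀ A : ValuationSubring Qb,
      A.LiesOverPrime ℓ → ∀ σ : GQ, A.IsFrobeniusAt σ ℓ →
        ∀ q, act n σ q + ℓ • act n σ⁻¹ q = t ℓ • q) :
    ∃ (d : ℕ) (ρ : GQ →* Matrix (Fin d) (Fin d) O) (χ : GQ →* Oˣ), 0 < d ∧
      (∀ σ, Scal ρ χ σ) ∧
      (∀ ℓ : ℕ, ℓ.Prime → ℓ ≠ p → ℓ ∉ bad → ∀ A : ValuationSubring Qb, A.LiesOverPrime ℓ →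
        ∀ σ : GQ, A.IsFrobeniusAt σ ℓ →
          ρ σ + (χ σ : O) • ρ σ⁻¹ = algebraMap T O (t ℓ) • 1) ∧
      (∀ q : ℕ, q.Prime → q ≠ p → ∀ A : ValuationSubring Qb, A.LiesOverPrime q →
        (∀ σ ∈ A.inertiaSubgroupIn ℚ, χ σ = 1) ∧
        ∀ σ : GQ, A.IsFrobeniusAt σ q → (χ σ : O) = q) ∧
      (∀ σ, (∀ n, act n σ = 1) → ρ σ = 1) ∧
      ∀ n : ℕ, ∃ L : IntermediateField ℚ Qb, FiniteDimensional ℚ L ∧
        ∀ σ : GQ, (∀ a ∈ L, σ a = a) →
          (∀ i j, (ρ σ - 1) i j ∈ maximalIdeal O ^ n) ∧ (χ σ : O) - 1 ∈ maximalIdeal O ^ n := by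
  classical
  let m := maximalIdeal O
  haveI : IsAdicComplete m (O ⊗[T] X) :=
    P2MW.S_IsLocalRing_isAdicComplete_of_module_finite.M4cP1X1.isAdicComplete_of_module_finite m
  let ρ' : GQ →* Module.End O (O ⊗[T] X) := limRep m hP act hact
  obtain ⟨χ, hχc, hχ⟩ := exists_cycO p hp
  -- exact relation at Frobenius elements
  have hfrob : ∀ ℓ : ℕ, ℓ.Prime → ℓ ≠ p → ℓ ∉ bad → ∀ A : ValuationSubring Qb,
      A.LiesOverPrime ℓ → ∀ σ : GQ, A.IsFrobeniusAt σ ℓ →
        ρ' σ + (χ σ : O) • ρ' σ⁻¹ = algebraMap T O (t ℓ) • 1 := by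
    intro ℓ hℓ hℓp hb A hA σ hσ
    refine eq_of_forall_powTop m fun n x => ?_
    rw [(hχ ℓ hℓ hℓp A hA).2 σ hσ]
    exact limRep_relation_mem m hP act hact (hrel n ℓ hℓ hℓp hb A hA σ hσ) _
  let φ : O ⊗[T] X →ₗ[O] O := LinearMap.liftBaseChange O g
  have hφ0 : φ ((1 : O) ⊗ₜ[T] x₀) = g x₀ := by
    rw [LinearMap.liftBaseChange_tmul, one_smul]
  have hφ : φ ≠ 0 := fun h => hg (by rw [← hφ0, h, LinearMap.zero_apply])
  -- scalars modulo every power
  have hscal : ∀ σ, Scal (A := Module.End O (O ⊗[T] X)) ρ' χ σ := by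
    intro σ
    refine exists_scalar_of_congr φ hφ _ fun n => ?_
    obtain ⟨L, hL, hLact⟩ := hfield n
    obtain ⟨L', hL', hLχ⟩ := hχc n
    let χn : GQ →* (O ⧸ m ^ n)ˣ := (Units.map (Ideal.Quotient.mk (m ^ n)).toMonoidHom).comp χ
    let K := ((act n).prod χn).ker
    have hK : IsOpen (K : Set GQ) :=
      Subgroup.isOpen_mono (H₁ := (L ⊔ L').fixingSubgroup) (fun τ hτ => by
        have hfix := (IntermediateField.mem_fixingSubgroup_iff _ _).1 hτ
        refine MonoidHom.mem_ker.2 (Prod.ext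
          (hLact τ fun a ha => hfix a ((le_sup_left : L ≤ L ⊔ L') ha)) (Units.ext ?_))
        show Ideal.Quotient.mk (m ^ n) (χ τ : O) = 1
        rw [← map_one (Ideal.Quotient.mk (m ^ n)), Ideal.Quotient.eq]
        exact hLχ τ fun a ha => hfix a ((le_sup_right : L' ≤ L ⊔ L') ha))
        (IntermediateField.fixingSubgroup_isOpen _)
    refine FA.Density.forall_of_frobenius_pow K hK (fun τ => ∃ a : O, ∀ z,
      (ρ' τ + (χ τ : O) • ρ' τ⁻¹) z - a • z ∈ powTop m n) ?_ (insert p bad) ?_ σ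
    · intro τ η hη ⟨a, ha⟩
      obtain ⟨h1, h2⟩ := Prod.ext_iff.1 (MonoidHom.mem_ker.1 hη)
      have h1' : act n η⁻¹ = 1 := by
        have h4 : act n η⁻¹ * act n η = 1 := by rw [← map_mul, inv_mul_cancel, map_one]
        rwa [show act n η = 1 from h1, mul_one] at h4
      have h2' : (χ η : O) - 1 ∈ m ^ n := by
        rw [← Ideal.Quotient.eq, map_one]
        exact congrArg Units.val h2
      refine ⟨a, fun z => ?_⟩
      have e1 : ρ' (τ * η) z - ρ' τ z ∈ powTop m n := by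
        rw [map_mul, Module.End.mul_apply, ← map_sub]
        exact powTop_stable m _ (limRep_sub_one_mem m hP act hact (show act n η = 1 from h1) z)
      have e2 : ρ' (τ * η)⁻¹ z - ρ' τ⁻¹ z ∈ powTop m n := by
        rw [mul_inv_rev, map_mul, Module.End.mul_apply]
        exact limRep_sub_one_mem m hP act hact h1' _
      have e3 : (χ (τ * η) : O) • ρ' τ⁻¹ z - (χ τ : O) • ρ' τ⁻¹ z ∈ powTop m n := by
        refine (sub_smul (χ (τ * η) : O) (χ τ : O) (ρ' τ⁻¹ z)) ▸ Submodule.smul_mem_smul ?_ Submodule.mem_top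
        rw [map_mul, Units.val_mul, ← mul_sub_one]
        exact Ideal.mul_mem_left _ _ h2'
      have e4 := Submodule.smul_mem _ (χ (τ * η) : O) e2
      have := ha z
      simp only [LinearMap.add_apply, LinearMap.smul_apply, smul_sub] at this e4 ⊢
      convert add_mem (add_mem (add_mem this e1) e4) e3 using 1
      abel
    · intro q hq hqS A hA τ hτ k
      simp only [Finset.mem_insert, not_or] at hqS
      obtain ⟨a, ha⟩ := Scal.pow (A := Module.End O (O ⊗[T] X)) (ρ := ρ') (χ := χ)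
        ⟨_, hfrob q hq hqS.1 hqS.2 A hA τ hτ⟩ k
      exact ⟨a, fun z => by rw [ha, LinearMap.smul_apply, Module.End.one_apply, sub_self];
                            exact zero_mem _⟩
  -- the torsion-free quotient
  let Tor := Submodule.torsion O (O ⊗[T] X)
  let Y := (O ⊗[T] X) ⧸ Tor
  haveI : Module.Free O Y := Module.free_of_finite_type_torsion_free'
  have hstab : ∀ F : Module.End O (O ⊗[T] X), Tor ≤ Tor.comap F := fun F z hz => by
    obtain ⟨a, ha⟩ := hz
    exact ⟨a, (map_smul F (a : O) z).symm.trans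
      (by rw [show (a : O) • z = 0 from ha, map_zero])⟩
  let ρY : GQ →* Module.End O Y :=
    { toFun := fun σ => Tor.mapQ Tor (ρ' σ) (hstab _)
      map_one' := Submodule.linearMap_qext _ (LinearMap.ext fun z => by
        show Submodule.Quotient.mk (ρ' 1 z) = Submodule.Quotient.mk z
        rw [map_one, Module.End.one_apply])
      map_mul' := fun σ τ => Submodule.linearMap_qext _ (LinearMap.ext fun z => by
        show Submodule.Quotient.mk (ρ' (σ * τ) z) = Submodule.Quotient.mk (ρ' σ (ρ' τ z))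
        rw [map_mul, Module.End.mul_apply]) }
  let b := Module.finBasis O Y
  let e : Module.End O Y →ₐ[O] Matrix (Fin (Module.finrank O Y)) (Fin (Module.finrank O Y)) O :=
    (LinearMap.toMatrixAlgEquiv b).toAlgHom
  have hrelY : ∀ (σ : GQ) (a : O), ρ' σ + (χ σ : O) • ρ' σ⁻¹ = a • 1 →
      (e.toMonoidHom.comp ρY) σ + (χ σ : O) • (e.toMonoidHom.comp ρY) σ⁻¹ = a • 1 := by
    intro σ a ha
    have h' : ρY σ + (χ σ : O) • ρY σ⁻¹ = a • 1 :=
      Submodule.linearMap_qext _ (LinearMap.ext fun z =>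
        congrArg Submodule.Quotient.mk (LinearMap.congr_fun ha z))
    have h'' := congrArg e h'
    rwa [map_add, map_smul, map_smul, map_one] at h''
  refine ⟨Module.finrank O Y, e.toMonoidHom.comp ρY, χ, ?_, fun σ => (hscal σ).imp (hrelY σ),
    fun ℓ hℓ hℓp hb A hA σ hσ => hrelY σ _ (hfrob ℓ hℓ hℓp hb A hA σ hσ), hχ, fun σ hσ => ?_,
    fun n => ?_⟩
  · refine Module.finrank_pos_iff_exists_ne_zero.2 ⟨Submodule.Quotient.mk ((1 : O) ⊗ₜ[T] x₀),
      fun h => ?_⟩
    obtain ⟨⟨a, ha⟩, h'⟩ := (Submodule.Quotient.mk_eq_zero _).1 h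
    have h'' : φ (a • ((1 : O) ⊗ₜ[T] x₀)) = 0 := by
      rw [show a • ((1 : O) ⊗ₜ[T] x₀) = 0 from h', map_zero]
    rw [map_smul, hφ0, smul_eq_mul] at h''
    exact hg ((mul_eq_zero.1 h'').resolve_left (nonZeroDivisors.ne_zero ha))
  · show e (ρY σ) = 1
    rw [show ρY σ = 1 from Submodule.linearMap_qext _ (LinearMap.ext fun z =>
      congrArg Submodule.Quotient.mk (LinearMap.congr_fun (limRep_eq_one m hP act hact hσ) z)),
      map_one]
  · obtain ⟨L, hL, hLact⟩ := hfield n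
    obtain ⟨L', hL', hLχ⟩ := hχc n
    refine ⟨L ⊔ L', inferInstance, fun σ hσ =>
      ⟨fun i j => ?_, hLχ σ fun a ha => hσ a ((le_sup_right : L' ≤ L ⊔ L') ha)⟩⟩
    obtain ⟨z, hz⟩ := Submodule.Quotient.mk_surjective Tor (b j)
    have hdiff := limRep_sub_one_mem m hP act hact
      (hLact σ fun a ha => hσ a ((le_sup_left : L ≤ L ⊔ L') ha)) z
    have hq : (ρY σ - 1) (b j) ∈ m ^ n • (⊤ : Submodule O Y) := by
      have h' := Submodule.mem_map_of_mem (f := Tor.mkQ) hdiff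
      rw [powTop, Submodule.map_smul''] at h'
      rw [← hz, LinearMap.sub_apply, Module.End.one_apply]
      exact Submodule.smul_mono le_rfl le_top h'
    have h' := Submodule.mem_map_of_mem (f := b.coord i) hq
    rw [Submodule.map_smul''] at h'
    have h'' := Submodule.smul_mono le_rfl (le_top : Submodule.map (b.coord i) ⊤ ≤ ⊤) h'
    rw [smul_eq_mul, Ideal.mul_top] at h''
    show (e (ρY σ) - 1) i j ∈ _
    rw [← map_one e, ← map_sub, show e (ρY σ - 1) i j = b.repr ((ρY σ - 1) (b j)) i from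
      LinearMap.toMatrixAlgEquiv_apply b _ i j]
    exact h''

end FA.JTorsion
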