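import Fermat.Agent.JTorsion.HeckeGamma0
import Fermat.Prelude.Def_ModularCurve_PeriodHomPair

/-!
# The transfer and automorphisms; the twists of `Γ₀(N)` used for periods
-/

set_option autoImplicit false
set_option linter.style.haveILetI false
set_option linter.unusedSectionVars false

noncomputable section

namespace FA.JTorsion

open CongruenceSubgroup FA.Level ModularCurve
open scoped MatrixGroups

variable {V V' : Lvl}

theorem transferFun_congr {A : Type*} [AddCommMonoid A] {c c' : V'.grp → A}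
    (h : ∀ γ, c γ = c' γ) : transferFun (V := V) c = transferFun c' := by
  rw [funext h]

/-- The transfer commutes with an automorphism preserving the smaller group. -/
theorem transferFun_comp_aut {A : Type*} [AddCommGroup A] (c : Additive V'.grp →+ A)
    (σ : V.grp ≃* V.grp) (σ' : V'.grp ≃* V'.grp)
    (hσ : ∀ (x : V.grp) (h : (x : SL(2, ℤ)) ∈ V'.grp),
      ((σ x : V.grp) : SL(2, ℤ)) = (σ' ⟨x, h⟩ : SL(2, ℤ)))
    (hσ' : ∀ x : V.grp, ((σ x : V.grp) : SL(2, ℤ)) ∈ V'.grp → (x : SL(2, ℤ)) ∈ V'.grp)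
    (γ : V.grp) :
    transferFun (fun x => c (Additive.ofMul x)) (σ γ) =
      transferFun (fun x => c (Additive.ofMul (σ' x))) γ := by
  classical
  -- the permutation of the cosets induced by `σ`
  let τ : RelCos V V' → RelCos V V' := fun i => QuotientGroup.mk (σ (Quotient.out i))
  have hτ : Function.Bijective τ := by
    refine ⟨fun i j h => ?_, fun i => ?_⟩
    · have h1 := QuotientGroup.eq.1 h
      rw [← map_inv, ← map_mul, Subgroup.mem_subgroupOf] at h1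
      rw [← QuotientGroup.out_eq' i, ← QuotientGroup.out_eq' j, QuotientGroup.eq,
        Subgroup.mem_subgroupOf]
      exact hσ' _ h1
    · refine ⟨QuotientGroup.mk (σ.symm (Quotient.out i)), ?_⟩
      conv_rhs => rw [← QuotientGroup.out_eq' i]
      obtain ⟨h, hh⟩ := QuotientGroup.mk_out_eq_mul (V'.grp.subgroupOf V.grp)
        (σ.symm (Quotient.out i))
      show QuotientGroup.mk (σ (Quotient.out _)) = _
      rw [hh, map_mul, MulEquiv.apply_symm_apply, QuotientGroup.eq, mul_inv_rev,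
        inv_mul_cancel_right, Subgroup.mem_subgroupOf, Subgroup.coe_inv]
      refine inv_mem ?_
      rw [hσ _ h.2]
      exact (σ' _).2
  have hk : ∀ i, ((σ (relRep i) * (relRep (τ i))⁻¹ : V.grp) : SL(2, ℤ)) ∈ V'.grp := by
    intro i
    have h1 := QuotientGroup.eq.1 (QuotientGroup.out_eq' (τ i)).symm
    rw [Subgroup.mem_subgroupOf] at h1
    simpa [relRep] using h1
  have hτγ : ∀ i, τ (γ⁻¹ • i) = (σ γ)⁻¹ • τ i := fun i => by
    obtain ⟨h, hh⟩ := QuotientGroup.mk_out_eq_mul (V'.grp.subgroupOf V.grp)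
      (γ⁻¹ * Quotient.out i)
    have h1 : γ⁻¹ • i = (QuotientGroup.mk (γ⁻¹ * Quotient.out i) : RelCos V V') := by
      conv_lhs => rw [← QuotientGroup.out_eq' i]
      rfl
    show (QuotientGroup.mk (σ (Quotient.out (γ⁻¹ • i))) : RelCos V V') =
      QuotientGroup.mk ((σ γ)⁻¹ * σ (Quotient.out i))
    rw [h1, hh, map_mul, map_mul, map_inv, QuotientGroup.eq, mul_inv_rev, inv_mul_cancel_right,
      Subgroup.mem_subgroupOf, Subgroup.coe_inv]
    refine inv_mem ?_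
    rw [hσ _ h.2]
    exact (σ' _).2
  let k : RelCos V V' → V'.grp := fun i => ⟨_, hk i⟩
  have key : ∀ i, c (Additive.ofMul (σ' ⟨_, relRep_mul_mem γ i⟩)) =
      c (Additive.ofMul (k i)) + c (Additive.ofMul ⟨_, relRep_mul_mem (σ γ) (τ i)⟩) -
        c (Additive.ofMul (k (γ⁻¹ • i))) := by
    intro i
    have h : σ' ⟨_, relRep_mul_mem γ i⟩ =
        k i * (⟨_, relRep_mul_mem (σ γ) (τ i)⟩ : V'.grp) * (k (γ⁻¹ • i))⁻¹ := by
      apply Subtype.ext
      rw [← hσ _ (relRep_mul_mem γ i)]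
      simp only [k, Subgroup.coe_mul, Subgroup.coe_inv, map_mul, map_inv, hτγ]
      group
    rw [h, ofMul_mul, ofMul_mul, map_add, map_add, ofMul_inv, map_neg, sub_eq_add_neg]
  simp only [transferFun]
  rw [Finset.sum_congr rfl fun i _ => key i, Finset.sum_sub_distrib, Finset.sum_add_distrib,
    Fintype.sum_bijective _ hτ
      (fun i => c (Additive.ofMul ⟨_, relRep_mul_mem (σ γ) (τ i)⟩))
      (fun j => c (Additive.ofMul ⟨_, relRep_mul_mem (σ γ) j⟩)) (fun i => rfl),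
    Fintype.sum_equiv (MulAction.toPerm γ⁻¹ : Equiv.Perm (RelCos V V'))
      (fun i => c (Additive.ofMul (k (γ⁻¹ • i)))) (fun i => c (Additive.ofMul (k i)))
      (fun i => rfl)]
  abel

variable (N : ℕ) [NeZero N]

/-- `γ ↦ w γ w⁻¹` with `w = [[0,-1],[N,0]]`. -/
def wConj : Gamma0 N →* Gamma0 N where
  toFun γ := ⟨⟨!![(γ : SL(2, ℤ)) 1 1, -((γ : SL(2, ℤ)) 1 0 / (N : ℤ));
      -((N : ℤ) * (γ : SL(2, ℤ)) 0 1), (γ : SL(2, ℤ)) 0 0], by
        have hdet : (γ : SL(2, ℤ)) 0 0 * (γ : SL(2, ℤ)) 1 1 -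
            (γ : SL(2, ℤ)) 0 1 * (γ : SL(2, ℤ)) 1 0 = 1 := by
          rw [← Matrix.det_fin_two]; exact (γ : SL(2, ℤ)).2
        have hd : (N : ℤ) ∣ (γ : SL(2, ℤ)) 1 0 :=
          (ZMod.intCast_zmod_eq_zero_iff_dvd _ N).1 (Gamma0_mem.1 γ.2)
        obtain ⟨e, he⟩ := hd
        rw [Matrix.det_fin_two_of, he,
          Int.mul_ediv_cancel_left _ (Int.natCast_ne_zero.2 (NeZero.ne N))]
        rw [he] at hdet
        linear_combination hdet⟩, by
    rw [Gamma0_mem]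
    show ((-((N : ℤ) * (γ : SL(2, ℤ)) 0 1) : ℤ) : ZMod N) = 0
    simp⟩
  map_one' := by
    refine Subtype.ext (Subtype.ext ?_)
    ext i j
    fin_cases i <;> fin_cases j <;> simp
  map_mul' γ δ := by
    refine Subtype.ext (Subtype.ext ?_)
    have hd : ∀ x : Gamma0 N, ∃ e, (x : SL(2, ℤ)) 1 0 = (N : ℤ) * e := fun x =>
      (ZMod.intCast_zmod_eq_zero_iff_dvd _ N).1 (Gamma0_mem.1 x.2)
    obtain ⟨c, hc⟩ := hd γ
    obtain ⟨c', hc'⟩ := hd δ
    have hl : (N : ℤ) ≠ 0 := Int.natCast_ne_zero.2 (NeZero.ne N)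
    have hq : ∀ x : Gamma0 N, ∀ e : ℤ, (x : SL(2, ℤ)) 1 0 = (N : ℤ) * e →
        (x : SL(2, ℤ)) 1 0 / (N : ℤ) = e := fun x e he => by
      rw [he, Int.mul_ediv_cancel_left _ hl]
    have hcd : ((γ * δ : Gamma0 N) : SL(2, ℤ)) 1 0 =
        (N : ℤ) * (c * (δ : SL(2, ℤ)) 0 0 + (γ : SL(2, ℤ)) 1 1 * c') := by
      simp [Matrix.mul_apply, Fin.sum_univ_two, hc, hc']
      ring
    show (!![((γ * δ : Gamma0 N) : SL(2, ℤ)) 1 1, -(((γ * δ : Gamma0 N) : SL(2, ℤ)) 1 0 / (N : ℤ));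
        -((N : ℤ) * ((γ * δ : Gamma0 N) : SL(2, ℤ)) 0 1),
        ((γ * δ : Gamma0 N) : SL(2, ℤ)) 0 0] : Matrix (Fin 2) (Fin 2) ℤ) =
      !![(γ : SL(2, ℤ)) 1 1, -((γ : SL(2, ℤ)) 1 0 / (N : ℤ));
          -((N : ℤ) * (γ : SL(2, ℤ)) 0 1), (γ : SL(2, ℤ)) 0 0] *
        !![(δ : SL(2, ℤ)) 1 1, -((δ : SL(2, ℤ)) 1 0 / (N : ℤ));
          -((N : ℤ) * (δ : SL(2, ℤ)) 0 1), (δ : SL(2, ℤ)) 0 0]
    rw [hq _ _ hcd, hq γ c hc, hq δ c' hc']
    ext i j
    fin_cases i <;> fin_cases j <;> simp [Matrix.mul_apply, Fin.sum_univ_two, hc, hc'] <;> ring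

theorem exists_lower_left (γ : Gamma0 N) : ∃ e : ℤ, (γ : SL(2, ℤ)) 1 0 = (N : ℤ) * e :=
  (ZMod.intCast_zmod_eq_zero_iff_dvd _ N).1 (Gamma0_mem.1 γ.2)

theorem coe_wConj {γ : Gamma0 N} {e : ℤ} (he : (γ : SL(2, ℤ)) 1 0 = (N : ℤ) * e) :
    ((wConj N γ : SL(2, ℤ)) : Matrix (Fin 2) (Fin 2) ℤ) =
      !![(γ : SL(2, ℤ)) 1 1, -e; -((N : ℤ) * (γ : SL(2, ℤ)) 0 1), (γ : SL(2, ℤ)) 0 0] := by
  show (!![(γ : SL(2, ℤ)) 1 1, -((γ : SL(2, ℤ)) 1 0 / (N : ℤ));
      -((N : ℤ) * (γ : SL(2, ℤ)) 0 1), (γ : SL(2, ℤ)) 0 0] : Matrix (Fin 2) (Fin 2) ℤ) = _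
  rw [he, Int.mul_ediv_cancel_left _ (Int.natCast_ne_zero.2 (NeZero.ne N))]

theorem wConj_wConj (γ : Gamma0 N) : wConj N (wConj N γ) = γ := by
  obtain ⟨e, he⟩ := exists_lower_left N γ
  have h1 := coe_wConj N he
  refine Subtype.ext (Subtype.ext ?_)
  rw [coe_wConj N (γ := wConj N γ) (e := -(γ : SL(2, ℤ)) 0 1) (by rw [h1]; simp), h1]
  ext i j
  fin_cases i <;> fin_cases j <;> simp [he]

theorem wConj_trace (γ : Gamma0 N) :
    ((wConj N γ : SL(2, ℤ)) : Matrix (Fin 2) (Fin 2) ℤ).trace =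
      ((γ : SL(2, ℤ)) : Matrix (Fin 2) (Fin 2) ℤ).trace := by
  obtain ⟨e, he⟩ := exists_lower_left N γ
  rw [coe_wConj N he, Matrix.trace_fin_two_of, Matrix.trace_fin_two]
  ring

theorem jConj_wConj (γ : Gamma0 N) :
    Period.jConjGamma0 N (wConj N γ) = wConj N (Period.jConjGamma0 N γ) := by
  obtain ⟨e, he⟩ := exists_lower_left N γ
  refine Subtype.ext (Subtype.ext ?_)
  rw [Period.jConjGamma0_coe, Period.jConjSL_coe, coe_wConj N he,
    coe_wConj N (γ := Period.jConjGamma0 N γ) (e := -e) (by simp [he])]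
  ext i j
  fin_cases i <;> fin_cases j <;> simp

variable (ℓ : ℕ) [NeZero ℓ]

theorem jConj_conjScale (γ : Gamma0 (N * ℓ)) :
    Period.jConjGamma0 N (conjScale N ℓ γ) = conjScale N ℓ (Period.jConjGamma0 (N * ℓ) γ) := by
  obtain ⟨e, he⟩ := exists_lower_left (N * ℓ) γ
  have hl : (ℓ : ℤ) ≠ 0 := Int.natCast_ne_zero.2 (NeZero.ne ℓ)
  have he' : (γ : SL(2, ℤ)) 1 0 = (ℓ : ℤ) * ((N : ℤ) * e) := by rw [he]; push_cast; ring
  refine Subtype.ext (Subtype.ext ?_)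
  ext i j
  fin_cases i <;> fin_cases j <;>
    simp [conjScale, he', Int.mul_ediv_cancel_left _ hl, ← mul_neg]

/-- `γ ↦ J γ J` as an automorphism of the level. -/
def jEquiv (M : ℕ) [NeZero M] : (lvlGamma0 M).grp ≃* (lvlGamma0 M).grp where
  toFun x := Period.jConjGamma0 M x
  invFun x := Period.jConjGamma0 M x
  left_inv x := Period.jConjGamma0_jConjGamma0 M x
  right_inv x := Period.jConjGamma0_jConjGamma0 M x
  map_mul' x y := map_mul (Period.jConjGamma0 M) x y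

theorem coe_jEquiv (M : ℕ) [NeZero M] (x : (lvlGamma0 M).grp) :
    ((jEquiv M x : (lvlGamma0 M).grp) : SL(2, ℤ)) = Period.jConjSL (x : SL(2, ℤ)) := rfl

/-- The Hecke operator on characters commutes with the conjugation by `diag(1,-1)`. -/
theorem heckeChar_jConj {A : Type*} [AddCommGroup A] (c : Additive (Gamma0 N) →+ A) (γ : Gamma0 N) :
    heckeChar N ℓ (fun x => c (Additive.ofMul x)) (Period.jConjGamma0 N γ) =
      heckeChar N ℓ (fun x => c (Additive.ofMul (Period.jConjGamma0 N x))) γ := by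
  let c' : Additive (lvlGamma0 (N * ℓ)).grp →+ A :=
    c.comp (MonoidHom.toAdditive (conjScale N ℓ))
  have h := transferFun_comp_aut (V := lvlGamma0 N) (V' := lvlGamma0 (N * ℓ)) c'
    (jEquiv N) (jEquiv (N * ℓ)) (fun x _ => by rw [coe_jEquiv, coe_jEquiv])
    (fun x hx => by
      rw [coe_jEquiv] at hx
      have h1 := Period.jConjSL_mem_Gamma0 (N := N * ℓ) hx
      rwa [Period.jConjSL_jConjSL] at h1) γ
  have h2 : (fun x : (lvlGamma0 (N * ℓ)).grp =>
      c (Additive.ofMul (Period.jConjGamma0 N (conjScale N ℓ x)))) =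
      fun x => c' (Additive.ofMul (jEquiv (N * ℓ) x)) := funext fun x => by
    rw [jConj_conjScale]
    rfl
  unfold heckeChar
  rw [h2]
  exact h

end FA.JTorsion
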