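import Fermat.Agent.Deform.Burnside
import Fermat.Agent.Deform.MatrixRep
import Mathlib.RingTheory.Filtration
import Mathlib.LinearAlgebra.Matrix.Charpoly.Coeff
import Mathlib.LinearAlgebra.Matrix.Charpoly.LinearMap
import Mathlib.RingTheory.Nakayama
import Mathlib.LinearAlgebra.FreeModule.PID

/-!
# Traces of powers, saturation and spanning
-/

set_option autoImplicit false
set_option linter.style.haveILetI false
set_option linter.unusedSectionVars false

noncomputable section

namespace FA.JTorsion

open IsLocalRing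

section Lucas

/-- The sequence `αᵏ + βᵏ` in terms of `a = α + β` and `b = αβ`. -/
def powSum {R : Type*} [CommRing R] (a b : R) : ℕ → R
  | 0 => 2
  | 1 => a
  | k + 2 => a * powSum a b (k + 1) - b * powSum a b k

theorem map_powSum {R S : Type*} [CommRing R] [CommRing S] (f : R →+* S) (a b : R) :
    ∀ k, f (powSum a b k) = powSum (f a) (f b) k
  | 0 => by simp [powSum, map_ofNat]
  | 1 => rfl
  | k + 2 => by simp only [powSum, map_sub, map_mul, map_powSum f a b k, map_powSum f a b (k + 1)]

variable {R : Type*} [CommRing R]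

theorem trace_pow_fin_two (M : Matrix (Fin 2) (Fin 2) R) :
    ∀ k, (M ^ k).trace = powSum M.trace M.det k
  | 0 => by rw [pow_zero, Matrix.trace_one, Fintype.card_fin, powSum]; norm_num
  | 1 => by rw [pow_one, powSum]
  | k + 2 => by
    nontriviality R
    have h := Matrix.aeval_self_charpoly M
    rw [Matrix.charpoly_fin_two] at h
    simp only [map_add, map_sub, map_mul, map_pow, Polynomial.aeval_X, Polynomial.aeval_C,
      Algebra.algebraMap_eq_smul_one, smul_mul_assoc, one_mul] at h
    have h2 : M ^ (k + 2) = M.trace • M ^ (k + 1) - M.det • M ^ k := by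
      have h3 := congrArg (· * M ^ k) h
      simp only [add_mul, sub_mul, smul_mul_assoc, one_mul, zero_mul, ← pow_add, ← pow_succ'] at h3
      rw [add_comm k 2, eq_sub_iff_add_eq]
      rw [sub_add_eq_add_sub, sub_eq_zero] at h3
      exact h3
    rw [h2, Matrix.trace_sub, Matrix.trace_smul, Matrix.trace_smul, trace_pow_fin_two M k,
      trace_pow_fin_two M (k + 1), powSum, smul_eq_mul, smul_eq_mul]

/-- Powers of an element with a quadratic relation. -/
theorem pow_add_smul_pow {A : Type*} [Ring A] [Algebra R A] {u v : A} {l t : R} (huv : u * v = 1)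
    (hvu : v * u = 1) (h : u + l • v = t • 1) :
    ∀ k, u ^ k + l ^ k • v ^ k = powSum t l k • 1
  | 0 => by simp [powSum, two_smul]
  | 1 => by simpa [powSum] using h
  | k + 2 => by
    have e : (u + l • v) * (u ^ (k + 1) + l ^ (k + 1) • v ^ (k + 1)) =
        (u ^ (k + 2) + l ^ (k + 2) • v ^ (k + 2)) + l • (u ^ k + l ^ k • v ^ k) := by
      simp only [add_mul, mul_add, smul_mul_assoc, mul_smul_comm, smul_smul, smul_add, ← pow_succ']
      rw [show v * u ^ (k + 1) = u ^ k by rw [pow_succ', ← mul_assoc, hvu, one_mul],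
        show u * v ^ (k + 1) = v ^ k by rw [pow_succ', ← mul_assoc, huv, one_mul],
        ← pow_succ (l) (k + 1)]
      simp only [show k + 1 + 1 = k + 2 from rfl]
      abel
    rw [h, pow_add_smul_pow huv hvu h k, pow_add_smul_pow huv hvu h (k + 1), smul_mul_assoc,
      one_mul, smul_smul, smul_smul] at e
    rw [powSum, sub_smul, eq_sub_iff_add_eq]
    exact e.symm

end Lucas

section Saturation

/-- Elements of a ring dividing the whole of a faithful lattice are divisible, up to a constant. -/
theorem exists_saturation (p : ℕ) (hp : p ≠ 0) {T : Type} [CommRing T] {X : Type} [AddCommGroup X]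
    [Module T X] [Module.Free ℤ X] [Module.Finite ℤ X]
    (hX : ∀ t : T, (∀ x : X, t • x = 0) → t = 0) :
    ∃ c : ℕ, ∀ (n : ℕ) (t : T), (∀ x : X, ∃ y, t • x = (p ^ (n + c)) • y) →
      ∃ t' : T, t = (p ^ n) • t' := by
  classical
  let L : T →ₗ[ℤ] Module.End ℤ X :=
    AddMonoidHom.toIntLinearMap
      { toFun := fun t => (DistribSMul.toAddMonoidHom X t).toIntLinearMap
        map_zero' := LinearMap.ext fun x => zero_smul T x
        map_add' := fun s t => LinearMap.ext fun x => add_smul s t x }
  have hL : Function.Injective L := fun s t h => sub_eq_zero.1 (hX _ fun x => by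
    rw [sub_smul, sub_eq_zero]
    exact LinearMap.congr_fun h x)
  obtain ⟨c, hc⟩ := Ideal.exists_pow_inf_eq_pow_smul (Ideal.span {(p : ℤ)}) (LinearMap.range L)
  refine ⟨c, fun n t ht => ?_⟩
  choose y hy using ht
  have hinj : Function.Injective fun z : X => ((p : ℤ) ^ (n + c)) • z :=
    smul_right_injective X (pow_ne_zero _ (Int.natCast_ne_zero.2 hp))
  have hy' : ∀ x, t • x = ((p : ℤ) ^ (n + c)) • y x := fun x => by
    rw [← Nat.cast_pow, natCast_zsmul]; exact hy x
  let w : Module.End ℤ X :=
    (AddMonoidHom.mk' y fun a b => hinj (by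
      show ((p : ℤ) ^ (n + c)) • y (a + b) = ((p : ℤ) ^ (n + c)) • (y a + y b)
      rw [smul_add, ← hy', ← hy', ← hy', smul_add])).toIntLinearMap
  have hmem : L t ∈ (Ideal.span {(p : ℤ)}) ^ (n + c) • (⊤ : Submodule ℤ (Module.End ℤ X)) ⊓
      LinearMap.range L := by
    refine ⟨?_, ⟨t, rfl⟩⟩
    rw [show L t = ((p : ℤ) ^ (n + c)) • w from LinearMap.ext fun x => hy' x, Ideal.span_singleton_pow]
    exact Submodule.smul_mem_smul (Ideal.mem_span_singleton_self _) Submodule.mem_top
  rw [hc (n + c) (Nat.le_add_left c n), Nat.add_sub_cancel, Ideal.span_singleton_pow,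
    Submodule.ideal_span_singleton_smul, Submodule.mem_smul_pointwise_iff_exists] at hmem
  obtain ⟨e, ⟨-, ⟨t', rfl⟩⟩, he⟩ := hmem
  refine ⟨t', hL ?_⟩
  rw [← he, map_nsmul, ← natCast_zsmul, Nat.cast_pow]

end Saturation

section Span

local notation "GQ" => AlgebraicClosure ℚ ≃ₐ[ℚ] AlgebraicClosure ℚ

variable {A : Type} [CommRing A] [IsLocalRing A]

/-- The matrices of a residually absolutely irreducible representation span all matrices. -/
theorem span_matrixOf_eq_top (ρ : GaloisRepAdic A) (habs : ρ.residual.IsAbsolutelyIrreducible)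
    (b : Module.Basis (Fin 2) A ρ.V) :
    Submodule.span A (Set.range (FA.Deform.matrixOf ρ b)) = ⊤ := by
  classical
  let k := ResidueField A
  let K := AlgebraicClosure k
  obtain ⟨c, hc⟩ := FA.Deform.toMatrix_residual ρ b
  let r := FA.Deform.matrixOf ρ b
  let r₀ := FA.Deform.mapRep (residue A) r
  let rK := FA.Deform.mapRep (algebraMap k K) r₀
  have htopK : Submodule.span K (Set.range rK) = ⊤ := by
    refine FA.Deform.eq_top_of_no_invariant_line _ (Submodule.subset_span ⟨1, map_one rK⟩) ?_ ?_
    · intro a ha b hb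
      induction ha, hb using Submodule.span_induction₂ with
      | mem_mem x y hx hy =>
        obtain ⟨σ, rfl⟩ := hx
        obtain ⟨τ, rfl⟩ := hy
        exact Submodule.subset_span ⟨σ * τ, map_mul rK σ τ⟩
      | zero_left y _ => simp
      | zero_right x _ => simp
      | add_left x y z _ _ _ h1 h2 => rw [add_mul]; exact add_mem h1 h2
      | add_right x y z _ _ _ h1 h2 => rw [mul_add]; exact add_mem h1 h2
      | smul_left c x y _ _ h1 => rw [Matrix.smul_mul]; exact Submodule.smul_mem _ c h1
      | smul_right c x y _ _ h1 => rw [Matrix.mul_smul]; exact Submodule.smul_mem _ c h1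
    · intro v hv
      by_contra hcon
      push Not at hcon
      let bK : Module.Basis (Fin 2) K (ρ.residual.baseChange K).V :=
        Algebra.TensorProduct.basis K c
      have hmat : ∀ σ, LinearMap.toMatrix bK bK ((ρ.residual.baseChange K).ρ σ) = rK σ := fun σ => by
        show _ = (r₀ σ).map (algebraMap k K)
        rw [← hc]
        exact LinearMap.toMatrix_baseChange _ _ _ _
      let w := bK.equivFun.symm v
      have hw : w ≠ 0 := bK.equivFun.symm.map_ne_zero_iff.mpr hv
      have hstab : ∀ σ, ∀ x ∈ K ∙ w, (ρ.residual.baseChange K).ρ σ x ∈ K ∙ w := by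
        intro σ x hx
        obtain ⟨e, rfl⟩ := Submodule.mem_span_singleton.mp hx
        obtain ⟨d, hd⟩ := hcon (rK σ) (Submodule.subset_span ⟨σ, rfl⟩)
        rw [map_smul]
        refine Submodule.smul_mem _ _ (Submodule.mem_span_singleton.mpr ⟨d, ?_⟩)
        apply bK.equivFun.injective
        rw [map_smul, Module.Basis.equivFun_apply bK ((ρ.residual.baseChange K).ρ σ w),
          ← LinearMap.toMatrix_mulVec_repr bK bK, hmat, ← Module.Basis.equivFun_apply,
          LinearEquiv.apply_symm_apply, hd]
      rcases habs (K ∙ w) hstab with h | h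
      · exact hw (Submodule.span_singleton_eq_bot.mp h)
      · have h1 : Module.finrank K (K ∙ w) = 1 := finrank_span_singleton hw
        rw [h, finrank_top, (ρ.residual.baseChange K).finrank_eq] at h1
        exact absurd h1 (by norm_num)
  let W := Submodule.span A (Set.range r)
  let m := maximalIdeal A
  -- the span surjects onto the residual matrices
  let W₀ : Submodule k (Matrix (Fin 2) (Fin 2) k) := Submodule.span k (Set.range r₀)
  have htop : W₀ = ⊤ := by
    by_contra hne
    obtain ⟨f, hf0, hf⟩ := Submodule.exists_le_ker_of_lt_top _ (lt_top_iff_ne_top.mpr hne)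
    apply hf0
    let fK : Matrix (Fin 2) (Fin 2) K →ₗ[K] K := ∑ i, ∑ j,
      (algebraMap k K (f (Matrix.single i j 1))) • Matrix.entryLinearMap K K i j
    have hfK : ∀ M : Matrix (Fin 2) (Fin 2) k,
        fK ((algebraMap k K).mapMatrix M) = algebraMap k K (f M) := by
      intro M
      conv_rhs => rw [Matrix.matrix_eq_sum_single M]
      simp only [fK, LinearMap.sum_apply, LinearMap.smul_apply, Matrix.entryLinearMap_apply,
        RingHom.mapMatrix_apply, Matrix.map_apply, smul_eq_mul, map_sum]
      refine Finset.sum_congr rfl fun i _ => Finset.sum_congr rfl fun j _ => ?_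
      rw [show Matrix.single i j (M i j) = M i j • Matrix.single i j (1 : k) by
        rw [Matrix.smul_single, smul_eq_mul, mul_one], map_smul, smul_eq_mul, map_mul, mul_comm]
    have hz : ∀ M, fK M = 0 := by
      intro M
      have hM : M ∈ Submodule.span K (Set.range rK) := htopK ▸ Submodule.mem_top
      refine (Submodule.span_le.mpr ?_ hM : M ∈ LinearMap.ker fK)
      rintro _ ⟨σ, rfl⟩
      show fK ((algebraMap k K).mapMatrix (r₀ σ)) = 0
      rw [hfK, show f (r₀ σ) = 0 from hf (Submodule.subset_span ⟨σ, rfl⟩), map_zero]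
    refine LinearMap.ext fun M => ?_
    have := hfK M
    rw [hz] at this
    exact (algebraMap k K).injective (by rw [← this, LinearMap.zero_apply, map_zero])
  have hlift : ∀ M₀ ∈ W₀, ∃ M ∈ W, (residue A).mapMatrix M = M₀ := by
    intro M₀ hM₀
    induction hM₀ using Submodule.span_induction with
    | mem x hx =>
      obtain ⟨σ, rfl⟩ := hx
      exact ⟨r σ, Submodule.subset_span ⟨σ, rfl⟩, rfl⟩
    | zero => exact ⟨0, W.zero_mem, map_zero _⟩
    | add x y _ _ hx hy =>
      obtain ⟨x', hx', rfl⟩ := hx
      obtain ⟨y', hy', rfl⟩ := hy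
      exact ⟨x' + y', W.add_mem hx' hy', map_add _ _ _⟩
    | smul a x _ hx =>
      obtain ⟨x', hx', rfl⟩ := hx
      obtain ⟨a', rfl⟩ := residue_surjective a
      refine ⟨a' • x', W.smul_mem a' hx', ?_⟩
      ext i j
      simp
  refine eq_top_iff.2 (Submodule.le_of_le_smul_of_le_jacobson_bot Module.Finite.fg_top
    (maximalIdeal_le_jacobson ⊥) fun M _ => ?_)
  obtain ⟨M', hM', he⟩ := hlift ((residue A).mapMatrix M) (htop ▸ Submodule.mem_top)
  rw [show M = M' + (M - M') by abel]
  refine Submodule.add_mem_sup hM' ?_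
  rw [Matrix.matrix_eq_sum_single (M - M')]
  refine Submodule.sum_mem _ fun i _ => Submodule.sum_mem _ fun j _ => ?_
  rw [show Matrix.single i j ((M - M') i j) = (M - M') i j • Matrix.single i j (1 : A) by
    rw [Matrix.smul_single, smul_eq_mul, mul_one]]
  refine Submodule.smul_mem_smul ?_ Submodule.mem_top
  rw [← residue_eq_zero_iff, Matrix.sub_apply, map_sub, sub_eq_zero]
  exact (congrFun (congrFun he i) j).symm

end Span

end FA.JTorsion
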