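import Fermat.Agent.TW.Frobenius
import Mathlib.NumberTheory.Cyclotomic.CyclotomicCharacter
import Mathlib.RingTheory.RootsOfUnity.AlgebraicallyClosed

/-!
# The cyclotomic character at Frobenius elements
-/

set_option autoImplicit false
set_option linter.style.haveILetI false

noncomputable section

namespace FA.JTorsion

local notation "Qb" => AlgebraicClosure ℚ
local notation "GQ" => AlgebraicClosure ℚ ≃ₐ[ℚ] AlgebraicClosure ℚ

variable (p : ℕ) [Fact p.Prime]

/-- The `p`-adic cyclotomic character. -/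
def cycP : GQ →* ℤ_[p]ˣ :=
  (cyclotomicCharacter Qb p).comp
    { toFun := fun σ => (σ : Qb ≃+* Qb)
      map_one' := rfl
      map_mul' := fun _ _ => rfl }

instance hasEnoughRoots (i : ℕ) : HasEnoughRootsOfUnity Qb (p ^ i) := by
  haveI : NeZero (p ^ i) := ⟨pow_ne_zero _ (Fact.out : p.Prime).ne_zero⟩
  haveI : NeZero ((p ^ i : ℕ) : Qb) :=
    ⟨by exact_mod_cast pow_ne_zero _ (Fact.out : p.Prime).ne_zero⟩
  infer_instance

theorem cycP_toZModPow (σ : GQ) (n : ℕ) :
    ((cycP p σ : ℤ_[p]ˣ) : ℤ_[p]).toZModPow n =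
      (modularCyclotomicCharacter Qb
        (HasEnoughRootsOfUnity.natCard_rootsOfUnity Qb (p ^ n)) (σ : Qb ≃+* Qb)).val :=
  cyclotomicCharacter.toZModPow p _

/-- At a Frobenius element over `q ≠ p` the character is `q`. -/
theorem cycP_frobenius {q : ℕ} (hq : q.Prime) (hqp : q ≠ p) {A : ValuationSubring Qb}
    (hA : A.LiesOverPrime q) {σ : GQ} (hσ : A.IsFrobeniusAt σ q) :
    ((cycP p σ : ℤ_[p]ˣ) : ℤ_[p]) = q := by
  refine PadicInt.ext_of_toZModPow.mp fun n => ?_
  rw [map_natCast, cycP_toZModPow]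
  symm
  refine modularCyclotomicCharacter.unique Qb _ _ fun t ht => ?_
  have ht' : (t : Qb) ^ p ^ n = 1 := by
    rw [← Units.val_pow_eq_pow_val, (mem_rootsOfUnity _ t).mp ht, Units.val_one]
  show σ (t : Qb) = _
  rw [FA.TW.frobenius_apply_rootOfUnity Fact.out hq hqp hA hσ ht', ZMod.val_natCast]
  exact pow_eq_pow_mod q ht'

/-- Modulo `p ^ n` the character factors through a finite extension. -/
theorem exists_field_cycP (n : ℕ) :
    ∃ L : IntermediateField ℚ Qb, FiniteDimensional ℚ L ∧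
      ∀ σ : GQ, (∀ a ∈ L, σ a = a) → ((cycP p σ : ℤ_[p]ˣ) : ℤ_[p]).toZModPow n = 1 := by
  obtain ⟨ζ, hζ⟩ := HasEnoughRootsOfUnity.exists_primitiveRoot Qb (p ^ n)
  refine ⟨IntermediateField.adjoin ℚ {ζ}, IntermediateField.adjoin.finiteDimensional
    (((AlgebraicClosure.isAlgebraic ℚ).isAlgebraic ζ).isIntegral), fun σ hσ => ?_⟩
  rw [cycP_toZModPow]
  symm
  refine modularCyclotomicCharacter.unique Qb _ _ fun t ht => ?_
  rcases Nat.eq_zero_or_pos n with rfl | hn
  · have h1 : (t : Qb) = 1 := by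
      have := (mem_rootsOfUnity _ t).mp ht
      simpa using congrArg Units.val this
    rw [h1, one_pow]
    exact map_one σ
  · haveI : NeZero (p ^ n) := ⟨pow_ne_zero _ (Fact.out : p.Prime).ne_zero⟩
    have ht' : (t : Qb) ^ p ^ n = 1 := by
      rw [← Units.val_pow_eq_pow_val, (mem_rootsOfUnity _ t).mp ht, Units.val_one]
    obtain ⟨i, -, hi⟩ := hζ.eq_pow_of_pow_eq_one ht'
    rw [ZMod.val_one'' (Nat.one_lt_pow hn.ne' (Fact.out : p.Prime).one_lt).ne', pow_one, ← hi]
    show σ (ζ ^ i) = ζ ^ i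
    rw [map_pow, hσ ζ (IntermediateField.mem_adjoin_simple_self ℚ ζ)]

end FA.JTorsion
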