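import Mathlib
import Fermat.Agent.ModField.Elliptic

/-!
# Holomorphic `n`-th roots

On a disc, and hence on the upper half plane, a holomorphic function all of whose orders are
divisible by `n` is an `n`-th power of a holomorphic function.
-/

set_option autoImplicit false

noncomputable section

namespace FA.JTorsion

open Complex Metric Filter Set
open scoped Topology Manifold

/-- `n`-th roots of nonvanishing functions on a ball. -/
theorem exists_root_of_ne_zero {g : ℂ → ℂ} {c : ℂ} {r : ℝ} (n : ℕ) (hn : n ≠ 0)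
    (hg : DifferentiableOn ℂ g (ball c r)) (h0 : ∀ w ∈ ball c r, g w ≠ 0) :
    ∃ u : ℂ → ℂ, DifferentiableOn ℂ u (ball c r) ∧ ∀ w ∈ ball c r, u w ^ n = g w := by
  rcases le_or_gt r 0 with hr | hr
  · exact ⟨0, differentiableOn_const _, fun w hw => by simp [ball_eq_empty.2 hr] at hw⟩
  obtain ⟨F, hF⟩ :=
    ((hg.deriv isOpen_ball).div hg h0).isExactOn_ball
  have hFd : DifferentiableOn ℂ F (ball c r) :=
    fun w hw => (hF w hw).differentiableAt.differentiableWithinAt
  set G : ℂ → ℂ := fun w => g w * exp (-F w) with hG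
  have hGd : ∀ w ∈ ball c r, HasDerivAt G 0 w := by
    intro w hw
    have h1 := ((hg.differentiableAt (isOpen_ball.mem_nhds hw)).hasDerivAt).mul (hF w hw).neg.cexp
    refine h1.congr_deriv ?_
    have := h0 w hw
    simp only [Pi.div_apply, Pi.neg_apply]
    field_simp
    ring
  have hconst : ∀ w ∈ ball c r, G w = G c := fun w hw =>
    isOpen_ball.is_const_of_deriv_eq_zero (convex_ball c r).isPreconnected
      (fun x hx => (hGd x hx).differentiableAt.differentiableWithinAt)
      (fun x hx => (hGd x hx).deriv) hw (mem_ball_self hr)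
  obtain ⟨K, hK⟩ := IsAlgClosed.exists_pow_nat_eq (G c) (Nat.pos_of_ne_zero hn)
  refine ⟨fun w => K * exp (F w / n), (hFd.div_const _).cexp.const_mul K, fun w hw => ?_⟩
  rw [mul_pow, ← exp_nat_mul, mul_div_cancel₀ _ (by exact_mod_cast hn), hK, ← hconst w hw, hG]
  rw [mul_assoc, ← exp_add, neg_add_cancel, exp_zero, mul_one]

/-- Removing the zero at one point. -/
theorem exists_factor_at {g : ℂ → ℂ} {U : Set ℂ} (hU : IsOpen U) (hg : DifferentiableOn ℂ g U)
    {a : ℂ} (ha : a ∈ U) (hfin : analyticOrderAt g a ≠ ⊤) :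
    ∃ g' : ℂ → ℂ, DifferentiableOn ℂ g' U ∧ g' a ≠ 0 ∧
      ∀ w, g w = (w - a) ^ analyticOrderNatAt g a * g' w := by
  classical
  set k := analyticOrderNatAt g a
  have hA : AnalyticAt ℂ g a := hg.analyticAt (hU.mem_nhds ha)
  obtain ⟨g₁, hg₁, hne, hev⟩ := hA.analyticOrderAt_ne_top.1 hfin
  refine ⟨fun w => if w = a then g₁ a else g w / (w - a) ^ k, ?_, by simp [hne], fun w => ?_⟩
  · intro w hw
    refine DifferentiableAt.differentiableWithinAt ?_
    rcases eq_or_ne w a with rfl | hwa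
    · refine (hg₁.differentiableAt).congr_of_eventuallyEq ?_
      filter_upwards [hev] with x hx
      rcases eq_or_ne x w with rfl | hxa
      · simp
      · rw [if_neg hxa, hx, smul_eq_mul,
          mul_div_cancel_left₀ _ (pow_ne_zero _ (sub_ne_zero.2 hxa))]
    · have hd : DifferentiableAt ℂ (fun x : ℂ => (x - a) ^ k) w := by fun_prop
      refine ((hg.differentiableAt (hU.mem_nhds hw)).div hd
        (pow_ne_zero k (sub_ne_zero.2 hwa))).congr_of_eventuallyEq ?_
      filter_upwards [isOpen_ne.mem_nhds hwa] with x hx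
      rw [if_neg hx]
      rfl
  · rcases eq_or_ne w a with rfl | hwa
    · simpa using hev.self_of_nhds
    · simp only [if_neg hwa]
      rw [mul_div_cancel₀ _ (pow_ne_zero _ (sub_ne_zero.2 hwa))]

/-- `n`-th roots of functions with finitely many zeros on a ball. -/
theorem exists_root_of_finset {c : ℂ} {r : ℝ} {n : ℕ} (hn : n ≠ 0) (s : Finset ℂ) :
    ∀ g : ℂ → ℂ, DifferentiableOn ℂ g (ball c r) → (∀ w ∈ ball c r, g w = 0 → w ∈ s) →
      (∀ w ∈ ball c r, analyticOrderAt g w ≠ ⊤ ∧ n ∣ analyticOrderNatAt g w) →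
      ∃ u : ℂ → ℂ, DifferentiableOn ℂ u (ball c r) ∧ ∀ w ∈ ball c r, u w ^ n = g w := by
  induction s using Finset.induction with
  | empty =>
    intro g hg hs _
    exact exists_root_of_ne_zero n hn hg fun w hw h => by simpa using hs w hw h
  | @insert a s has ih =>
    intro g hg hs hord
    by_cases ha : a ∈ ball c r
    swap
    · refine ih g hg (fun w hw h => ?_) hord
      rcases Finset.mem_insert.1 (hs w hw h) with rfl | h'
      · exact absurd hw ha
      · exact h'
    obtain ⟨g', hg', hne, heq⟩ := exists_factor_at isOpen_ball hg ha (hord a ha).1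
    obtain ⟨j, hj⟩ := (hord a ha).2
    set k := analyticOrderNatAt g a
    have hgfun : g = (fun w => (w - a) ^ k) * g' := funext heq
    have hord' : ∀ w ∈ ball c r,
        analyticOrderAt g' w ≠ ⊤ ∧ n ∣ analyticOrderNatAt g' w := by
      intro w hw
      have hA' : AnalyticAt ℂ g' w := hg'.analyticAt (isOpen_ball.mem_nhds hw)
      rcases eq_or_ne w a with rfl | hwa
      · rw [analyticOrderNatAt, hA'.analyticOrderAt_eq_zero.2 hne]
        simp
      have hp : AnalyticAt ℂ (fun x => (x - a) ^ k) w := by fun_prop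
      have h0 : analyticOrderAt (fun x => (x - a) ^ k) w = 0 :=
        hp.analyticOrderAt_eq_zero.2 (pow_ne_zero _ (sub_ne_zero.2 hwa))
      have h1 := hord w hw
      rw [analyticOrderNatAt, hgfun, analyticOrderAt_mul hp hA', h0, zero_add] at h1
      exact h1
    obtain ⟨u, hu, hpow⟩ := ih g' hg' (fun w hw h => by
      rcases Finset.mem_insert.1 (hs w hw (by rw [heq w, h, mul_zero])) with rfl | h'
      · exact absurd h hne
      · exact h') hord'
    exact ⟨fun w => (w - a) ^ j * u w, DifferentiableOn.mul (by fun_prop) hu, fun w hw => by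
      rw [mul_pow, ← pow_mul, hpow w hw, heq w, mul_comm j n, hj]⟩

/-- Two roots which agree at a point where they do not vanish agree on the ball. -/
theorem eqOn_of_pow_eq {u v : ℂ → ℂ} {c w₀ : ℂ} {r : ℝ} {n : ℕ} (hn : n ≠ 0)
    (hu : DifferentiableOn ℂ u (ball c r)) (hv : DifferentiableOn ℂ v (ball c r))
    (hw₀ : w₀ ∈ ball c r) (hne : u w₀ ≠ 0) (heq : v w₀ = u w₀)
    (hpow : ∀ w ∈ ball c r, v w ^ n = u w ^ n) : EqOn v u (ball c r) := by
  classical
  refine (hv.analyticOnNhd isOpen_ball).eqOn_of_preconnected_of_eventuallyEq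
    (hu.analyticOnNhd isOpen_ball) (convex_ball c r).isPreconnected hw₀ ?_
  have hcu := (hu.differentiableAt (isOpen_ball.mem_nhds hw₀)).continuousAt
  have hcv := (hv.differentiableAt (isOpen_ball.mem_nhds hw₀)).continuousAt
  set T := (Polynomial.nthRootsFinset n (1 : ℂ)).erase 1
  have hopen : IsOpen ((T : Set ℂ)ᶜ) := T.finite_toSet.isClosed.isOpen_compl
  have hratio : ContinuousAt (fun w => v w / u w) w₀ := hcv.div hcu hne
  have hev : ∀ᶠ w in 𝓝 w₀, v w / u w ∈ ((T : Set ℂ)ᶜ) := hratio.eventually_mem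
    (hopen.mem_nhds (by rw [heq, div_self hne]; simp [T]))
  filter_upwards [hev, hcu.eventually_ne hne, isOpen_ball.mem_nhds hw₀] with w hw hwne hwb
  have h1 : v w / u w = 1 := by
    by_contra h
    refine hw (Finset.mem_coe.2 (Finset.mem_erase.2 ⟨h, ?_⟩))
    rw [Polynomial.mem_nthRootsFinset (Nat.pos_of_ne_zero hn), div_pow, hpow w hwb,
      div_self (pow_ne_zero _ hwne)]
  rwa [div_eq_one_iff_eq hwne] at h1

/-- `n`-th roots on the unit disc. -/
theorem exists_root_unitBall {g : ℂ → ℂ} {n : ℕ} (hn : n ≠ 0)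
    (hg : DifferentiableOn ℂ g (ball 0 1)) {w₀ : ℂ} (hw₀ : w₀ ∈ ball (0 : ℂ) 1)
    (hne : g w₀ ≠ 0) (hord : ∀ w ∈ ball (0 : ℂ) 1, n ∣ analyticOrderNatAt g w) :
    ∃ u : ℂ → ℂ, DifferentiableOn ℂ u (ball 0 1) ∧ ∀ w ∈ ball (0 : ℂ) 1, u w ^ n = g w := by
  classical
  rw [mem_ball, dist_zero_right] at hw₀
  set rad : ℕ → ℝ := fun m => 1 - (1 - ‖w₀‖) / ((m : ℝ) + 2)
  have hrad1 : ∀ m, rad m < 1 := fun m => by
    have h2 : 0 < (1 - ‖w₀‖) / ((m : ℝ) + 2) := div_pos (by linarith) (by positivity)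
    linarith
  have hsub : ∀ m, ball (0 : ℂ) (rad m) ⊆ ball 0 1 := fun m => ball_subset_ball (hrad1 m).le
  have hw₀m : ∀ m, w₀ ∈ ball (0 : ℂ) (rad m) := fun m => by
    rw [mem_ball, dist_zero_right]
    have h2 : (1 - ‖w₀‖) / ((m : ℝ) + 2) < 1 - ‖w₀‖ :=
      div_lt_self (by linarith) (by linarith [Nat.cast_nonneg (α := ℝ) m])
    linarith
  have hA := hg.analyticOnNhd isOpen_ball
  have hw₀b : w₀ ∈ ball (0 : ℂ) 1 := by rwa [mem_ball, dist_zero_right]
  have htop : ∀ w ∈ ball (0 : ℂ) 1, analyticOrderAt g w ≠ ⊤ := fun w hw =>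
    hA.analyticOrderAt_ne_top_of_isPreconnected (convex_ball _ _).isPreconnected hw₀b hw
      (by rw [(hA w₀ hw₀b).analyticOrderAt_eq_zero.2 hne]; exact ENat.zero_ne_top)
  have hexists : ∀ m, ∃ u : ℂ → ℂ, DifferentiableOn ℂ u (ball 0 (rad m)) ∧
      ∀ w ∈ ball (0 : ℂ) (rad m), u w ^ n = g w := by
    intro m
    have hcsub : closedBall (0 : ℂ) (rad m) ⊆ ball 0 1 := closedBall_subset_ball (hrad1 m)
    have hcod := (hA.mono hcsub).preimage_zero_mem_codiscreteWithin hne
      (ball_subset_closedBall (hw₀m m))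
      ⟨⟨w₀, ball_subset_closedBall (hw₀m m)⟩, (convex_closedBall _ _).isPreconnected⟩
    have hfin := (isCompact_closedBall (0 : ℂ) (rad m)).finite_sdiff_of_mem_codiscreteWithin hcod
    exact exists_root_of_finset hn hfin.toFinset g (hg.mono (hsub m))
      (fun w hw h => hfin.mem_toFinset.2 ⟨ball_subset_closedBall hw, by simp [h]⟩)
      fun w hw => ⟨htop w (hsub m hw), hord w (hsub m hw)⟩
  choose v hv hvpow using hexists
  obtain ⟨K, hK⟩ := IsAlgClosed.exists_pow_nat_eq (g w₀) (Nat.pos_of_ne_zero hn)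
  have hK0 : K ≠ 0 := fun h => hne (by rw [← hK, h, zero_pow hn])
  have hv0 : ∀ m, v m w₀ ≠ 0 := fun m h => hne (by rw [← hvpow m w₀ (hw₀m m), h, zero_pow hn])
  set U : ℕ → ℂ → ℂ := fun m w => K / v m w₀ * v m w with hU
  have hUd : ∀ m, DifferentiableOn ℂ (U m) (ball 0 (rad m)) := fun m => (hv m).const_mul _
  have hUpow : ∀ m, ∀ w ∈ ball (0 : ℂ) (rad m), U m w ^ n = g w := fun m w hw => by
    rw [hU, mul_pow, div_pow, hK, ← hvpow m w₀ (hw₀m m), hvpow m w hw,
      div_self (pow_ne_zero _ (hv0 m)), one_mul]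
  have hU0 : ∀ m, U m w₀ = K := fun m => by rw [hU]; exact div_mul_cancel₀ _ (hv0 m)
  have hmono : ∀ {m m'}, m ≤ m' → rad m ≤ rad m' := fun {m m'} h => by
    have h2 : (1 - ‖w₀‖) / ((m' : ℝ) + 2) ≤ (1 - ‖w₀‖) / ((m : ℝ) + 2) :=
      div_le_div_of_nonneg_left (by linarith) (by positivity)
        (by linarith [Nat.cast_le (α := ℝ).2 h])
    linarith
  have hcompat : ∀ {m m'}, m ≤ m' → EqOn (U m') (U m) (ball 0 (rad m)) := fun {m m'} h =>
    eqOn_of_pow_eq hn (hUd m) ((hUd m').mono (ball_subset_ball (hmono h))) (hw₀m m)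
      (by rw [hU0]; exact hK0) (by rw [hU0, hU0])
      fun w hw => by rw [hUpow m w hw, hUpow m' w (ball_subset_ball (hmono h) hw)]
  have hcover : ∀ w ∈ ball (0 : ℂ) 1, ∃ m, w ∈ ball (0 : ℂ) (rad m) := by
    intro w hw
    rw [mem_ball, dist_zero_right] at hw
    obtain ⟨m, hm⟩ := exists_nat_gt ((1 - ‖w₀‖) / (1 - ‖w‖))
    refine ⟨m, ?_⟩
    rw [mem_ball, dist_zero_right]
    rw [div_lt_iff₀ (by linarith)] at hm
    have h2 : (1 - ‖w₀‖) / ((m : ℝ) + 2) < 1 - ‖w‖ := by
      rw [div_lt_iff₀ (by positivity)]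
      nlinarith
    linarith
  refine ⟨fun w => if h : ∃ m, w ∈ ball (0 : ℂ) (rad m) then U (Nat.find h) w else 0, ?_, ?_⟩
  · intro w hw
    obtain ⟨m, hm⟩ := hcover w hw
    refine (((hUd m).differentiableAt (isOpen_ball.mem_nhds hm)).congr_of_eventuallyEq
      ?_).differentiableWithinAt
    filter_upwards [isOpen_ball.mem_nhds hm] with x hx
    have h : ∃ m, x ∈ ball (0 : ℂ) (rad m) := ⟨m, hx⟩
    rw [dif_pos h]
    exact (hcompat (Nat.find_le hx) (Nat.find_spec h)).symm
  · intro w hw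
    simp only [dif_pos (hcover w hw)]
    exact hUpow _ w (Nat.find_spec (hcover w hw))

open UpperHalfPlane hiding I

open FA.ModField in
/-- The inverse of the Cayley map at `i`. -/
theorem cay_I_inv (z : ℍ) : ‖((z : ℂ) - I) / ((z : ℂ) + I)‖ < 1 ∧
    cay UpperHalfPlane.I (((z : ℂ) - I) / ((z : ℂ) + I)) = (z : ℂ) := by
  have hne : (z : ℂ) + I ≠ 0 := fun h => by
    have := congrArg Complex.im h
    simp at this
    linarith [z.im_pos]
  refine ⟨?_, ?_⟩
  · rw [norm_div, div_lt_one (norm_pos_iff.2 hne), Complex.norm_def, Complex.norm_def]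
    refine Real.sqrt_lt_sqrt (Complex.normSq_nonneg _) ?_
    simp only [Complex.normSq_apply, Complex.sub_re, Complex.sub_im, Complex.add_re,
      Complex.add_im, Complex.I_re, Complex.I_im, sub_zero, add_zero]
    have hpos : 0 < (z : ℂ).im := z.im_pos
    nlinarith
  · have h1 : 1 - ((z : ℂ) - I) / ((z : ℂ) + I) = 2 * I / ((z : ℂ) + I) := by
      rw [one_sub_div hne]
      ring
    rw [cay, UpperHalfPlane.coe_I, Complex.conj_I, h1, div_eq_iff (by
      exact div_ne_zero (by simp) hne)]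
    field_simp
    ring

open FA.ModField in
/-- A holomorphic function on the upper half plane with orders divisible by `n` is an `n`-th
power. -/
theorem exists_root {P : ℍ → ℂ} (hP : MDiff P) (hP0 : P ≠ 0) {n : ℕ} (hn : n ≠ 0)
    (hord : ∀ z : ℍ, n ∣ analyticOrderNatAt (P ∘ ofComplex) (z : ℂ)) :
    ∃ R : ℍ → ℂ, MDiff R ∧ ∀ z, R z ^ n = P z := by
  obtain ⟨z₀, hz₀⟩ := Function.ne_iff.1 hP0
  obtain ⟨hn0, hz₀'⟩ := cay_I_inv z₀
  have hord' : ∀ w ∈ ball (0 : ℂ) 1,
      n ∣ analyticOrderNatAt (P ∘ ofComplex ∘ cay UpperHalfPlane.I) w := by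
    intro w hw
    rw [mem_ball, dist_zero_right] at hw
    have hd := cay_hasDerivAt UpperHalfPlane.I hw
    have hA : AnalyticAt ℂ (cay UpperHalfPlane.I) w := by
      refine DifferentiableOn.analyticAt (s := ball (0 : ℂ) 1) (fun x hx => ?_)
        (isOpen_ball.mem_nhds (by rwa [mem_ball, dist_zero_right]))
      rw [mem_ball, dist_zero_right] at hx
      exact (cay_hasDerivAt _ hx).differentiableAt.differentiableWithinAt
    have h := hord ⟨cay UpperHalfPlane.I w, cay_im _ hw⟩
    rw [analyticOrderNatAt, show P ∘ ofComplex ∘ cay UpperHalfPlane.I =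
      (P ∘ ofComplex) ∘ cay UpperHalfPlane.I from rfl,
      analyticOrderAt_comp_of_deriv_ne_zero hA (by
        rw [hd.deriv]
        exact div_ne_zero (cay_const_ne _) (pow_ne_zero _ (one_sub_ne_zero hw)))]
    exact h
  obtain ⟨u, hu, hpow⟩ := exists_root_unitBall hn (differentiableOn_pullback hP UpperHalfPlane.I)
    (w₀ := ((z₀ : ℂ) - I) / ((z₀ : ℂ) + I)) (by rwa [mem_ball, dist_zero_right])
    (by simpa [Function.comp_def, hz₀', ofComplex_apply] using hz₀) hord'
  refine ⟨fun z => u (((z : ℂ) - I) / ((z : ℂ) + I)), ?_, fun z => ?_⟩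
  · rw [UpperHalfPlane.mdifferentiable_iff]
    intro z hz
    obtain ⟨hlt, -⟩ := cay_I_inv ⟨z, hz⟩
    have hne : z + I ≠ 0 := fun h => by
      have h' := congrArg Complex.im h
      have hz' : 0 < z.im := hz
      simp at h'
      linarith
    have h1 : DifferentiableAt ℂ (fun x : ℂ => (x - I) / (x + I)) z :=
      DifferentiableAt.div (by fun_prop) (by fun_prop) hne
    have h2 : DifferentiableAt ℂ u ((z - I) / (z + I)) :=
      hu.differentiableAt (isOpen_ball.mem_nhds (by rw [mem_ball, dist_zero_right]; exact hlt))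
    refine ((h2.comp z h1).congr_of_eventuallyEq ?_).differentiableWithinAt
    filter_upwards [isOpen_upperHalfPlaneSet.mem_nhds hz] with x hx
    simp [Function.comp_apply, ofComplex_apply_of_im_pos hx]
  · obtain ⟨hlt, hcay⟩ := cay_I_inv z
    rw [hpow _ (by rw [mem_ball, dist_zero_right]; exact hlt)]
    simp [Function.comp_apply, hcay, ofComplex_apply]

open FA.ModField in
/-- The order of the Cayley series is the analytic order. -/
theorem order_tay_eq {f : ℍ → ℂ} (hf : MDiff f) (hf0 : f ≠ 0) (τ : ℍ) :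
    (HahnSeries.ofPowerSeries ℤ ℂ (tay (f ∘ ofComplex ∘ cay τ))).order =
      analyticOrderNatAt (f ∘ ofComplex) (τ : ℂ) := by
  have hd := differentiableOn_pullback hf τ
  have hA : AnalyticAt ℂ (f ∘ ofComplex ∘ cay τ) 0 :=
    hd.analyticAt (isOpen_ball.mem_nhds (mem_ball_self one_pos))
  have hcA : AnalyticAt ℂ (cay τ) 0 := by
    refine DifferentiableOn.analyticAt (s := ball (0 : ℂ) 1) (fun x hx => ?_)
      (isOpen_ball.mem_nhds (mem_ball_self one_pos))
    rw [mem_ball, dist_zero_right] at hx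
    exact (cay_hasDerivAt _ hx).differentiableAt.differentiableWithinAt
  have hc : analyticOrderAt (f ∘ ofComplex ∘ cay τ) 0 = analyticOrderAt (f ∘ ofComplex) (τ : ℂ) := by
    rw [show f ∘ ofComplex ∘ cay τ = (f ∘ ofComplex) ∘ cay τ from rfl,
      analyticOrderAt_comp_of_deriv_ne_zero hcA (by
        rw [(cay_hasDerivAt τ (by simp : ‖(0 : ℂ)‖ < 1)).deriv]
        exact div_ne_zero (cay_const_ne _) (by simp)), cay_zero]
  have hne : analyticOrderAt (f ∘ ofComplex ∘ cay τ) 0 ≠ ⊤ := by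
    intro htop
    refine hf0 (eq_zero_of_tay_eq_zero hf τ (funext fun w => ?_))
    have h0 := (hd.analyticOnNhd isOpen_ball).eqOn_zero_of_preconnected_of_eventuallyEq_zero
      (convex_ball _ _).isPreconnected (mem_ball_self one_pos) (analyticOrderAt_eq_top.1 htop)
    simpa [Function.comp_apply, cayH, ofComplex_apply_of_im_pos (cay_im τ w.2.2)] using
      h0 (show (w : ℂ) ∈ ball (0 : ℂ) 1 by rw [mem_ball, dist_zero_right]; exact w.2.2)
  set k := analyticOrderNatAt (f ∘ ofComplex ∘ cay τ) 0 with hk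
  obtain ⟨hlo, hk0⟩ :=
    (analyticOrderAt_eq_nat_iff_iteratedDeriv_eq_zero hA (n := k)).1
      (Nat.cast_analyticOrderNatAt hne).symm
  have hkk : analyticOrderNatAt (f ∘ ofComplex) (τ : ℂ) = k := by
    rw [hk, analyticOrderNatAt, analyticOrderNatAt, hc]
  have hcoeff : ∀ i : ℕ, (HahnSeries.ofPowerSeries ℤ ℂ (tay (f ∘ ofComplex ∘ cay τ))).coeff i =
      (i.factorial : ℂ)⁻¹ * iteratedDeriv i (f ∘ ofComplex ∘ cay τ) 0 := fun i => by
    rw [HahnSeries.ofPowerSeries_apply_coeff]; simp [tay]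
  have hcne : (HahnSeries.ofPowerSeries ℤ ℂ (tay (f ∘ ofComplex ∘ cay τ))).coeff (k : ℤ) ≠ 0 := by
    rw [hcoeff]
    exact mul_ne_zero (inv_ne_zero (by exact_mod_cast k.factorial_ne_zero)) hk0
  rw [hkk]
  refine le_antisymm (HahnSeries.order_le_of_coeff_ne_zero hcne)
    ((ordGE_iff_le_order (HahnSeries.ne_zero_of_coeff_ne_zero hcne)).1 fun i hi => ?_)
  rcases lt_or_ge i 0 with h | h
  · exact ModularCurve.ofPowerSeries_coeff_of_neg _ h
  · lift i to ℕ using h
    rw [hcoeff, hlo i (by exact_mod_cast hi), mul_zero]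

end FA.JTorsion
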