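import Mathlib.RingTheory.AdicCompletion.Basic
import Mathlib.RingTheory.AdicCompletion.RingHom
import Mathlib.RingTheory.TensorProduct.Finite
import Mathlib.RingTheory.LocalRing.MaximalIdeal.Basic
import Mathlib.NumberTheory.Padics.RingHoms
import Mathlib.LinearAlgebra.TensorProduct.Tower

/-!
# Limits of compatible families of endomorphisms of the reductions of a module
-/

set_option autoImplicit false
set_option linter.style.haveILetI false
set_option linter.unusedSectionVars false

noncomputable section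

namespace FA.JTorsion

open scoped TensorProduct

variable {T : Type} [CommRing T] {X : Type} [AddCommGroup X] [Module T X] {R : Type} [CommRing R]
  [Algebra T R] (I : Ideal R) {P : ℕ → Submodule T X}

/-- The submodule `Iⁿ (R ⊗ X)`. -/
abbrev powTop (n : ℕ) : Submodule R (R ⊗[T] X) := I ^ n • ⊤

/-- A family of submodules of `X` mapping into the powers of the ideal. -/
def PowCompat (P : ℕ → Submodule T X) : Prop :=
  (∀ n, P (n + 1) ≤ P n) ∧ ∀ n, ∀ x ∈ P n, (1 : R) ⊗ₜ[T] x ∈ powTop I n

theorem PowCompat.antitone (hP : PowCompat I P) : Antitone P := antitone_nat_of_succ_le hP.1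

variable (hP : PowCompat I P)

/-- The map on the reductions. -/
def redTens (n : ℕ) : X ⧸ P n →ₗ[T] (R ⊗[T] X) ⧸ powTop (T := T) (X := X) I n :=
  (P n).liftQ (((powTop (T := T) (X := X) I n).mkQ.restrictScalars T).comp
    (TensorProduct.mk T R X 1)) fun x hx => (Submodule.Quotient.mk_eq_zero _).2 (hP.2 n x hx)

theorem redTens_mk (n : ℕ) (x : X) : redTens I hP n (Submodule.Quotient.mk x) =
    Submodule.Quotient.mk ((1 : R) ⊗ₜ[T] x) := rfl

/-- A compatible family of endomorphisms. -/
def CompatFamily (f : ∀ n, Module.End T (X ⧸ P n)) : Prop :=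
  ∀ n x y, f (n + 1) (Submodule.Quotient.mk x) = Submodule.Quotient.mk y →
    f n (Submodule.Quotient.mk x) = Submodule.Quotient.mk y

theorem CompatFamily.of_le {f : ∀ n, Module.End T (X ⧸ P n)} (hf : CompatFamily f) {m n : ℕ}
    (h : m ≤ n) {x y : X} (he : f n (Submodule.Quotient.mk x) = Submodule.Quotient.mk y) :
    f m (Submodule.Quotient.mk x) = Submodule.Quotient.mk y := by
  induction h with
  | refl => exact he
  | step _ ih => exact ih (hf _ x y he)

/-- The induced map to the reduction. -/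
def redMap (f : ∀ n, Module.End T (X ⧸ P n)) (n : ℕ) :
    R ⊗[T] X →ₗ[R] (R ⊗[T] X) ⧸ powTop (T := T) (X := X) I n :=
  LinearMap.liftBaseChange R ((redTens I hP n).comp ((f n).comp (P n).mkQ))

theorem redMap_one_tmul {f : ∀ n, Module.End T (X ⧸ P n)} {n : ℕ} {x y : X}
    (h : f n (Submodule.Quotient.mk x) = Submodule.Quotient.mk y) :
    redMap I hP f n ((1 : R) ⊗ₜ[T] x) = Submodule.Quotient.mk ((1 : R) ⊗ₜ[T] y) := by
  rw [redMap, LinearMap.liftBaseChange_tmul, one_smul, LinearMap.comp_apply, LinearMap.comp_apply,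
    Submodule.mkQ_apply, h, redTens_mk]

theorem redMap_compat {f : ∀ n, Module.End T (X ⧸ P n)} (hf : CompatFamily f) {m n : ℕ}
    (h : m ≤ n) :
    Submodule.factorPow I (R ⊗[T] X) h ∘ₗ redMap I hP f n = redMap I hP f m := by
  refine TensorProduct.AlgebraTensorModule.ext fun c x => ?_
  obtain ⟨y, hy⟩ := Submodule.Quotient.mk_surjective (P n) (f n (Submodule.Quotient.mk x))
  rw [show c ⊗ₜ[T] x = c • ((1 : R) ⊗ₜ[T] x) by rw [TensorProduct.smul_tmul', smul_eq_mul, mul_one],
    LinearMap.comp_apply, map_smul, map_smul, map_smul, redMap_one_tmul I hP hy.symm,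
    redMap_one_tmul I hP (hf.of_le h hy.symm)]
  rfl

variable [IsAdicComplete I (R ⊗[T] X)]

/-- The limit endomorphism. -/
def limEnd (f : ∀ n, Module.End T (X ⧸ P n)) (hf : CompatFamily f) : Module.End R (R ⊗[T] X) :=
  IsAdicComplete.lift I (redMap I hP f) fun h => redMap_compat I hP hf h

theorem limEnd_spec {f : ∀ n, Module.End T (X ⧸ P n)} (hf : CompatFamily f) {n : ℕ} {x y : X}
    (h : f n (Submodule.Quotient.mk x) = Submodule.Quotient.mk y) :
    limEnd I hP f hf ((1 : R) ⊗ₜ[T] x) - (1 : R) ⊗ₜ[T] y ∈ powTop I n := by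
  rw [← Submodule.Quotient.eq]
  exact (IsAdicComplete.mk_lift I _ n _).trans (redMap_one_tmul I hP h)

omit [IsAdicComplete I (R ⊗[T] X)] in
/-- Membership in the reductions can be tested on pure tensors. -/
theorem apply_mem_powTop {F : Module.End R (R ⊗[T] X)} {n : ℕ}
    (h : ∀ x : X, F ((1 : R) ⊗ₜ[T] x) ∈ powTop I n) (z : R ⊗[T] X) : F z ∈ powTop I n := by
  induction z with
  | zero => rw [map_zero]; exact zero_mem _
  | tmul c x =>
    rw [show c ⊗ₜ[T] x = c • ((1 : R) ⊗ₜ[T] x) by
      rw [TensorProduct.smul_tmul', smul_eq_mul, mul_one], map_smul]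
    exact Submodule.smul_mem _ c (h x)
  | add a b ha hb => rw [map_add]; exact add_mem ha hb

omit [IsAdicComplete I (R ⊗[T] X)] in
theorem powTop_stable (F : Module.End R (R ⊗[T] X)) {n : ℕ} {z : R ⊗[T] X}
    (hz : z ∈ powTop I n) : F z ∈ powTop I n := by
  have h := Submodule.mem_map_of_mem (f := F) hz
  rw [powTop, Submodule.map_smul''] at h
  exact Submodule.smul_mono le_rfl le_top h

theorem eq_of_forall_powTop {F F' : Module.End R (R ⊗[T] X)}
    (h : ∀ n, ∀ x : X, F ((1 : R) ⊗ₜ[T] x) - F' ((1 : R) ⊗ₜ[T] x) ∈ powTop I n) : F = F' := by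
  refine LinearMap.ext fun z => sub_eq_zero.1 (IsHausdorff.haus (I := I) inferInstance _ fun n => ?_)
  rw [SModEq.zero]
  exact apply_mem_powTop I (F := F - F') (n := n) (h n) z

variable {G : Type} [Monoid G] (act : ∀ n, G →* Module.End T (X ⧸ P n))
  (hact : ∀ g, CompatFamily fun n => act n g)

/-- The limit of a compatible family of representations. -/
def limRep : G →* Module.End R (R ⊗[T] X) where
  toFun g := limEnd I hP (fun n => act n g) (hact g)
  map_one' := eq_of_forall_powTop I fun n x => limEnd_spec I hP (hact 1) (n := n) (x := x) (y := x)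
    (by rw [map_one]; rfl)
  map_mul' g h := eq_of_forall_powTop I fun n x => by
    obtain ⟨y, hy⟩ := Submodule.Quotient.mk_surjective (P n) (act n h (Submodule.Quotient.mk x))
    obtain ⟨z, hz⟩ := Submodule.Quotient.mk_surjective (P n) (act n g (Submodule.Quotient.mk y))
    have h1 := limEnd_spec I hP (hact (g * h)) (n := n) (x := x) (y := z)
      (by rw [map_mul, Module.End.mul_apply, ← hy, ← hz])
    have h2 := limEnd_spec I hP (hact h) hy.symm
    have h3 := limEnd_spec I hP (hact g) hz.symm
    have h4 := powTop_stable I (limEnd I hP (fun n => act n g) (hact g)) h2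
    rw [map_sub] at h4
    rw [Module.End.mul_apply]
    convert sub_mem h1 (add_mem h4 h3) using 1
    abel

theorem limRep_spec {g : G} {n : ℕ} {x y : X}
    (h : act n g (Submodule.Quotient.mk x) = Submodule.Quotient.mk y) :
    limRep I hP act hact g ((1 : R) ⊗ₜ[T] x) - (1 : R) ⊗ₜ[T] y ∈ powTop I n :=
  limEnd_spec I hP (hact g) h

/-- An element acting trivially modulo `P n` is congruent to the identity. -/
theorem limRep_sub_one_mem {g : G} {n : ℕ} (h : act n g = 1) (z : R ⊗[T] X) :
    limRep I hP act hact g z - z ∈ powTop I n :=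
  apply_mem_powTop I (F := limRep I hP act hact g - 1) (n := n)
    (fun _ => limRep_spec I hP act hact (by rw [h]; rfl)) z

/-- Elements with the same action at every level have the same limit. -/
theorem limRep_eq_one {g : G} (h : ∀ n, act n g = 1) : limRep I hP act hact g = 1 :=
  eq_of_forall_powTop I fun n _ => limRep_sub_one_mem I hP act hact (h n) _

omit [IsAdicComplete I (R ⊗[T] X)] in
include hP in
theorem one_tmul_sub_mem {n : ℕ} {x y : X}
    (h : (Submodule.Quotient.mk x : X ⧸ P n) = Submodule.Quotient.mk y) :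
    (1 : R) ⊗ₜ[T] x - (1 : R) ⊗ₜ[T] y ∈ powTop I n := by
  rw [← TensorProduct.tmul_sub]
  exact hP.2 n _ ((Submodule.Quotient.eq _).1 h)

/-- A linear relation between the actions gives a congruence. -/
theorem limRep_relation_mem {g g' : G} {n : ℕ} {c : ℕ} {t : T}
    (h : ∀ q, act n g q + c • act n g' q = t • q) (z : R ⊗[T] X) :
    limRep I hP act hact g z + (c : R) • limRep I hP act hact g' z - algebraMap T R t • z ∈
      powTop I n := by
  refine apply_mem_powTop I (F := limRep I hP act hact g + (c : R) • limRep I hP act hact g' -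
    algebraMap T R t • 1) (n := n) (fun x => ?_) z
  obtain ⟨y, hy⟩ := Submodule.Quotient.mk_surjective (P n) (act n g (Submodule.Quotient.mk x))
  obtain ⟨y', hy'⟩ := Submodule.Quotient.mk_surjective (P n) (act n g' (Submodule.Quotient.mk x))
  have h1 := limRep_spec I hP act hact hy.symm
  have h2 := Submodule.smul_mem _ (c : R) (limRep_spec I hP act hact hy'.symm)
  have h0 := h (Submodule.Quotient.mk x)
  rw [← hy, ← hy', ← Submodule.Quotient.mk_smul, ← Submodule.Quotient.mk_smul,
    ← Submodule.Quotient.mk_add] at h0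
  have h3 := one_tmul_sub_mem I hP h0
  rw [TensorProduct.tmul_add, TensorProduct.tmul_smul, TensorProduct.tmul_smul,
    ← Nat.cast_smul_eq_nsmul R c, ← algebraMap_smul R t] at h3
  simp only [LinearMap.sub_apply, LinearMap.add_apply, LinearMap.smul_apply, Module.End.one_apply]
  rw [smul_sub] at h2
  convert add_mem (add_mem h1 h2) h3 using 1
  abel

section PadicHom

variable {p : ℕ} [Fact p.Prime] (hp : (p : R) ∈ I) [IsAdicComplete I R]

include hp in
theorem exists_padicHom : ∃ ι : ℤ_[p] →+* R, ∀ (n : ℕ) (x : ℤ_[p]),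
    PadicInt.toZModPow n x = 1 → ι x - 1 ∈ I ^ n := by
  have hz : ∀ n : ℕ, ringChar (R ⧸ I ^ n) ∣ p ^ n := fun n => by
    rw [← ringChar.spec, ← map_natCast (Ideal.Quotient.mk (I ^ n)), Ideal.Quotient.eq_zero_iff_mem,
      Nat.cast_pow]
    exact Ideal.pow_mem_pow hp n
  let f : ∀ n, ℤ_[p] →+* R ⧸ I ^ n := fun n =>
    (ZMod.castHom (hz n) (R ⧸ I ^ n)).comp (PadicInt.toZModPow n)
  have hf : ∀ {m n : ℕ} (hle : m ≤ n),
      (Ideal.Quotient.factorPow I hle).comp (f n) = f m := fun {m n} hle => by
    simp only [f, ← RingHom.comp_assoc]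
    rw [show (PadicInt.toZModPow m : ℤ_[p] →+* ZMod (p ^ m)) =
      (ZMod.castHom (pow_dvd_pow p hle) _).comp (PadicInt.toZModPow n) from
        (PadicInt.zmod_cast_comp_toZModPow m n hle).symm, ← RingHom.comp_assoc]
    exact congrArg (fun φ : ZMod (p ^ n) →+* R ⧸ I ^ m => φ.comp (PadicInt.toZModPow n))
      (RingHom.ext_zmod _ _)
  refine ⟨IsAdicComplete.liftRingHom I f hf, fun n x hx => ?_⟩
  rw [← Ideal.Quotient.eq, IsAdicComplete.mk_liftRingHom, map_one]
  simp only [f, RingHom.comp_apply, hx, map_one]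

end PadicHom

end FA.JTorsion
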