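import Fermat.Agent.Level.Theta
import Fermat.Agent.Curve.Riemann

/-!
# The Kummer character of a torsion class of a level

A class `x` killed by `n` gives `f` with divisor `n D` and an `n`-th root `h` of it on the upper
half plane; `γ ↦ (h ∘ γ) / h` is an injective homomorphism from the torsion into
`Hom(Γ, ℤ/n)`.
-/

set_option autoImplicit false
set_option linter.style.haveILetI false
set_option linter.unusedSectionVars false
set_option synthInstance.maxHeartbeats 200000
set_option maxHeartbeats 1600000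

noncomputable section

namespace FA.JTorsion

open AlgebraicCurve FA.Level
open scoped MatrixGroups

theorem exists_merC_of_pow {n : ℕ} (hn : n ≠ 0) {x : Mer} {c : ℂ} (hc : c ≠ 0)
    (hx : x ^ n = merC c) : ∃ d : ℂ, d ≠ 0 ∧ x = merC d := by
  obtain ⟨d, hd⟩ := IsAlgClosed.exists_pow_nat_eq c (Nat.pos_of_ne_zero hn)
  have hd0 : d ≠ 0 := fun h => hc (by rw [← hd, h, zero_pow hn])
  obtain ⟨ζ, hζ, hζ'⟩ := exists_root_of_unity hn (x := x / merC d) (by
    rw [div_pow, hx, ← map_pow, hd, div_self (merC_ne_zero hc)])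
  refine ⟨ζ * d, mul_ne_zero (fun h => ?_) hd0, ?_⟩
  · rw [h, zero_pow hn] at hζ
    exact zero_ne_one hζ
  · rw [map_mul, ← hζ', div_mul_cancel₀ _ (merC_ne_zero hd0)]

theorem exists_stdAddChar {n : ℕ} [NeZero n] {ζ : ℂ} (h : ζ ^ n = 1) :
    ∃ a : ZMod n, ZMod.stdAddChar a = ζ := by
  obtain ⟨i, -, hi⟩ := (Complex.isPrimitiveRoot_exp n (NeZero.ne n)).eq_pow_of_pow_eq_one h
  refine ⟨((i : ℤ) : ZMod n), ?_⟩
  rw [ZMod.stdAddChar_coe, ← hi, ← Complex.exp_nat_mul]
  congr 1
  push_cast
  ring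

theorem stdAddChar_ne_zero {n : ℕ} [NeZero n] (a : ZMod n) : ZMod.stdAddChar a ≠ (0 : ℂ) := by
  intro h
  have h1 := (ZMod.stdAddChar (N := n)).map_add_eq_mul a (-a)
  rw [add_neg_cancel, AddChar.map_zero_eq_one, h, zero_mul] at h1
  exact one_ne_zero h1

variable {V : Lvl} {L : Type} [Field L] [Algebra ℚ L] [Algebra L ℂ]

/-- `h` is an automorphic root attached to the divisor `D` with character `c`. -/
structure IsWitness (n : ℕ) [NeZero n] (D : Divisor L (V.fld L)) (h : Mer)
    (c : V.grp → ZMod n) : Prop where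
  ne : h ≠ 0
  div : ∃ f : V.fld L, f ≠ 0 ∧ (∀ v, (n : ℤ) * D v = v.ord f) ∧ h ^ n = theta f
  char : ∀ γ : V.grp, merSL (γ : SL(2, ℤ)) h = merC (ZMod.stdAddChar (c γ)) * h

theorem IsWitness.mul {n : ℕ} [NeZero n] {D D' : Divisor L (V.fld L)} {h h' : Mer}
    {c c' : V.grp → ZMod n} (H : IsWitness n D h c) (H' : IsWitness n D' h' c') :
    IsWitness n (D + D') (h * h') (c + c') := by
  obtain ⟨f, hf, hD, hh⟩ := H.div
  obtain ⟨f', hf', hD', hh'⟩ := H'.div
  refine ⟨mul_ne_zero H.ne H'.ne, ⟨f * f', mul_ne_zero hf hf', fun v => ?_, ?_⟩, fun γ => ?_⟩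
  · rw [Finsupp.add_apply, v.ord_mul hf hf', mul_add, hD, hD']
  · rw [mul_pow, hh, hh', map_mul]
  · rw [map_mul, H.char, H'.char, Pi.add_apply, AddChar.map_add_eq_mul, map_mul]
    ring

theorem isWitness_principal {n : ℕ} [NeZero n] {D : Divisor L (V.fld L)} {g : V.fld L}
    (hg : g ≠ 0) (hD : ∀ v, D v = v.ord g) : IsWitness n D (theta g) 0 := by
  refine ⟨(map_ne_zero_iff _ theta.injective).2 hg,
    ⟨g ^ n, pow_ne_zero n hg, fun v => ?_, (map_pow _ _ _).symm⟩, fun γ => ?_⟩
  · rw [hD, FA.ModField.place_ord_pow]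
  · rw [Pi.zero_apply, AddChar.map_zero_eq_one, map_one, one_mul, merSL_theta γ.2]

theorem IsWitness.map_mul' {n : ℕ} [NeZero n] {D : Divisor L (V.fld L)} {h : Mer}
    {c : V.grp → ZMod n} (H : IsWitness n D h c) (γ δ : V.grp) : c (γ * δ) = c γ + c δ := by
  apply ZMod.injective_stdAddChar (N := n)
  apply merC.injective
  refine mul_right_cancel₀ H.ne ?_
  rw [← H.char, Subgroup.coe_mul, merSL_mul, H.char, map_mul, merSL, merComp_merC,
    ← merSL, H.char, ← mul_assoc, ← map_mul, ← AddChar.map_add_eq_mul]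

theorem IsWitness.map_neg_one {n : ℕ} [NeZero n] {D : Divisor L (V.fld L)} {h : Mer}
    {c : V.grp → ZMod n} (H : IsWitness n D h c) : c ⟨-1, V.neg_one_mem⟩ = 0 := by
  apply ZMod.injective_stdAddChar (N := n)
  apply merC.injective
  refine mul_right_cancel₀ H.ne ?_
  rw [← H.char, AddChar.map_zero_eq_one, map_one, one_mul]
  have h1 : merSL (-1) = merSL 1 :=
    merComp_congr _ _ (funext fun z => by rw [ModularGroup.SL_neg_smul])
  rw [h1, merSL_one]

variable [IsAlgClosed L]

/-- The character of a class does not depend on the choices. -/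
theorem IsWitness.unique {n : ℕ} [NeZero n] {D D' : Divisor L (V.fld L)} {h h' : Mer}
    {c c' : V.grp → ZMod n} (H : IsWitness n D h c) (H' : IsWitness n D' h' c')
    (hDD : D' - D ∈ Divisor.principal) : c = c' := by
  obtain ⟨g, hg, hgD⟩ := hDD
  obtain ⟨f, hf, hD, hh⟩ := H.div
  obtain ⟨f', hf', hD', hh'⟩ := H'.div
  have hn : n ≠ 0 := NeZero.ne n
  set u : V.fld L := f' / (f * g ^ n)
  have hu : ∀ v : Place L (V.fld L), FA.Curve.AtLeast v 0 u := by
    intro v
    refine Or.inr ?_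
    have h1 : D' v - D v = v.ord g := hgD v
    rw [show u = f' * (f * g ^ n)⁻¹ from div_eq_mul_inv _ _,
      v.ord_mul hf' (inv_ne_zero (mul_ne_zero hf (pow_ne_zero n hg))), v.ord_inv,
      v.ord_mul hf (pow_ne_zero n hg), FA.ModField.place_ord_pow, ← hD', ← hD, ← h1]
    ring_nf
    exact le_refl _
  have h1 := FA.Curve.mem_span_of_isConst hu fun _ hg =>
    FA.Curve.exists_ord_neg (V.isFunctionField L) hg
  rw [Submodule.mem_span_singleton] at h1
  obtain ⟨a, ha⟩ := h1
  rw [Algebra.smul_def, mul_one, eq_div_iff (mul_ne_zero hf (pow_ne_zero n hg))] at ha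
  have ha0 : a ≠ 0 := fun h0 => hf' (by rw [← ha, h0, map_zero, zero_mul])
  have hth : (theta g : Mer) ≠ 0 := (map_ne_zero_iff _ theta.injective).2 hg
  obtain ⟨d, hd0, hd⟩ := exists_merC_of_pow hn (x := h' / (h * theta g))
    ((map_ne_zero (algebraMap L ℂ)).2 ha0) (by
      rw [div_pow, hh', mul_pow, hh, ← map_pow theta, ← map_mul theta, ← ha, map_mul theta,
        theta_algebraMap, mul_div_cancel_right₀]
      exact (map_ne_zero_iff _ theta.injective).2 (mul_ne_zero hf (pow_ne_zero n hg)))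
  rw [div_eq_iff (mul_ne_zero H.ne hth)] at hd
  funext γ
  apply ZMod.injective_stdAddChar (N := n)
  apply merC.injective
  refine mul_right_cancel₀ H'.ne ?_
  rw [← H'.char γ, hd, map_mul, map_mul, H.char, merSL_theta γ.2, merSL, merComp_merC]
  ring

theorem exists_isWitness {n : ℕ} [NeZero n] {D : Divisor L (V.fld L)}
    (h : (n : ℤ) • D ∈ Divisor.principal) : ∃ hh c, IsWitness n D hh c := by
  obtain ⟨f, hf, hfD⟩ := h
  have hn : n ≠ 0 := NeZero.ne n
  have hD : ∀ v, (n : ℤ) * D v = v.ord f := fun v => by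
    rw [← hfD, Finsupp.smul_apply, smul_eq_mul]
  obtain ⟨hh, hhn⟩ := exists_mer_root hn hf fun v => ⟨D v, (hD v).symm⟩
  have hh0 : hh ≠ 0 := fun h0 => by
    rw [h0, zero_pow hn] at hhn
    exact hf ((map_eq_zero_iff _ theta.injective).1 hhn.symm)
  have hc : ∀ γ : V.grp, ∃ a : ZMod n,
      merSL (γ : SL(2, ℤ)) hh = merC (ZMod.stdAddChar a) * hh := fun γ => by
    obtain ⟨ζ, hζ, hζ'⟩ := exists_root_of_unity hn (x := merSL (γ : SL(2, ℤ)) hh / hh) (by
      rw [div_pow, ← map_pow, hhn, merSL_theta γ.2, div_self]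
      exact (map_ne_zero_iff _ theta.injective).2 hf)
    obtain ⟨a, rfl⟩ := exists_stdAddChar hζ
    exact ⟨a, by rw [← hζ', div_mul_cancel₀ _ hh0]⟩
  choose c hc using hc
  exact ⟨hh, c, hh0, ⟨f, hf, hD, hhn⟩, hc⟩

variable (V L)

/-- The torsion of the Jacobian of the level. -/
abbrev tors (n : ℕ) : AddSubgroup (Pic0 L (V.fld L)) := Pic0.torsion L (V.fld L) n

/-- A chosen representative of a class. -/
def rep (x : Pic0 L (V.fld L)) : Divisor L (V.fld L) :=
  ((Pic0.mk_surjective x).choose : Divisor.degZero (K := L) (F := V.fld L))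

theorem rep_sub_mem {x : Pic0 L (V.fld L)} {D : Divisor.degZero (K := L) (F := V.fld L)}
    (h : Pic0.mk D = x) : rep V L x - D ∈ Divisor.principal := by
  have h1 : Pic0.mk D = Pic0.mk (Pic0.mk_surjective x).choose :=
    h.trans (Pic0.mk_surjective x).choose_spec.symm
  have h2 := QuotientAddGroup.eq.1 h1
  rw [AddSubgroup.mem_addSubgroupOf] at h2
  rw [sub_eq_neg_add]
  simpa [rep] using h2

theorem smul_rep_mem {n : ℕ} {x : Pic0 L (V.fld L)} (hx : x ∈ tors V L n) :
    (n : ℤ) • rep V L x ∈ Divisor.principal := by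
  rw [Pic0.mem_torsion, ← (Pic0.mk_surjective x).choose_spec] at hx
  have h1 : ((n : ℤ) • (Pic0.mk_surjective x).choose) ∈
      (Divisor.principal (K := L) (F := V.fld L)).addSubgroupOf Divisor.degZero :=
    (QuotientAddGroup.eq_zero_iff _).1 hx
  rw [AddSubgroup.mem_addSubgroupOf] at h1
  simpa [rep] using h1

variable {V L}

/-- The character of a torsion class. -/
def kumFun {n : ℕ} [NeZero n] (x : tors V L n) : V.grp → ZMod n :=
  (exists_isWitness (smul_rep_mem V L x.2)).choose_spec.choose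

/-- Any witness computes the character. -/
theorem kumFun_eq {n : ℕ} [NeZero n] {x : tors V L n}
    {D : Divisor.degZero (K := L) (F := V.fld L)} (hD : Pic0.mk D = (x : Pic0 L (V.fld L)))
    {h : Mer} {c : V.grp → ZMod n} (H : IsWitness n (D : Divisor L (V.fld L)) h c) :
    kumFun x = c :=
  (H.unique (exists_isWitness (smul_rep_mem V L x.2)).choose_spec.choose_spec
    (rep_sub_mem V L hD)).symm

theorem exists_witness_of_kumFun {n : ℕ} [NeZero n] (x : tors V L n) :
    ∃ (D : Divisor.degZero (K := L) (F := V.fld L)) (h : Mer),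
      Pic0.mk D = (x : Pic0 L (V.fld L)) ∧ IsWitness n (D : Divisor L (V.fld L)) h (kumFun x) :=
  ⟨_, _, (Pic0.mk_surjective _).choose_spec,
    (exists_isWitness (smul_rep_mem V L x.2)).choose_spec.choose_spec⟩

variable (V L)

/-- The Kummer map. -/
def kum (n : ℕ) [NeZero n] : tors V L n →+ (Additive V.grp →+ ZMod n) where
  toFun x := AddMonoidHom.mk' (fun γ => kumFun x γ.toMul) fun a b =>
    (exists_witness_of_kumFun x).choose_spec.choose_spec.2.map_mul' a.toMul b.toMul
  map_zero' := by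
    refine AddMonoidHom.ext fun γ => ?_
    show kumFun (0 : tors V L n) γ.toMul = 0
    rw [kumFun_eq (D := 0) (Pic0.mk_zero) (isWitness_principal (n := n) one_ne_zero
      fun v => by simp)]
    rfl
  map_add' x y := by
    refine AddMonoidHom.ext fun γ => ?_
    obtain ⟨D, h, hD, H⟩ := exists_witness_of_kumFun x
    obtain ⟨D', h', hD', H'⟩ := exists_witness_of_kumFun y
    show kumFun (x + y) γ.toMul = kumFun x γ.toMul + kumFun y γ.toMul
    rw [kumFun_eq (x := x + y) (D := D + D') (by rw [Pic0.mk_add, hD, hD']; rfl) (H.mul H')]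
    rfl

theorem kum_apply {n : ℕ} [NeZero n] (x : tors V L n) (γ : V.grp) :
    kum V L n x (Additive.ofMul γ) = kumFun x γ := rfl

theorem kum_injective (n : ℕ) [NeZero n] : Function.Injective (kum V L n) := by
  rw [injective_iff_map_eq_zero]
  intro x hx
  obtain ⟨D, h, hD, H⟩ := exists_witness_of_kumFun x
  obtain ⟨f, hf, hfD, hh⟩ := H.div
  have hn : n ≠ 0 := NeZero.ne n
  obtain ⟨g, hg⟩ := exists_theta_of_invariant hn hh fun γ hγ => by
    rw [H.char ⟨γ, hγ⟩, show kumFun x ⟨γ, hγ⟩ = 0 from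
      DFunLike.congr_fun hx (Additive.ofMul ⟨γ, hγ⟩), AddChar.map_zero_eq_one, map_one, one_mul]
  have hg0 : g ≠ 0 := fun h0 => H.ne (by rw [← hg, h0, map_zero])
  have hfg : f = g ^ n := theta.injective (by rw [map_pow, hg, hh])
  refine Subtype.ext ?_
  rw [← hD, ZeroMemClass.coe_zero]
  refine (QuotientAddGroup.eq_zero_iff _).2 ?_
  rw [AddSubgroup.mem_addSubgroupOf]
  refine ⟨g, hg0, fun v => ?_⟩
  have h1 := hfD v
  rw [hfg, FA.ModField.place_ord_pow] at h1
  exact mul_left_cancel₀ (Int.natCast_ne_zero.2 hn) h1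

theorem finite_hom_of_level (n : ℕ) [NeZero n] : Finite (Additive V.grp →+ ZMod n) := by
  haveI := V.finiteIndex
  haveI : Group.FG SL(2, ℤ) := Group.fg_iff.2
    ⟨{ModularGroup.S, ModularGroup.T}, SpecialLinearGroup.SL2Z_generators, Set.toFinite _⟩
  haveI : Group.FG V.grp := inferInstance
  obtain ⟨S, hS, hfin⟩ := Group.fg_iff.1 (inferInstance : Group.FG V.grp)
  haveI := hfin.to_subtype
  refine Finite.of_injective (fun φ => fun s : S => φ (Additive.ofMul (s : V.grp))) fun φ ψ h => ?_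
  have hle : Subgroup.closure S ≤
      { carrier := {g | φ (Additive.ofMul g) = ψ (Additive.ofMul g)}
        mul_mem' := fun {x y} hx hy => by
          simp only [Set.mem_ofPred_eq, ofMul_mul, map_add] at hx hy ⊢
          rw [hx, hy]
        one_mem' := by simp
        inv_mem' := fun {x} hx => by
          simp only [Set.mem_ofPred_eq, ofMul_inv, map_neg] at hx ⊢
          rw [hx] } :=
    (Subgroup.closure_le _).2 fun s hs => congrFun h ⟨s, hs⟩
  rw [hS] at hle
  exact AddMonoidHom.ext fun a => hle (Subgroup.mem_top a.toMul)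

theorem tors_finite (n : ℕ) [NeZero n] : Finite (tors V L n) :=
  haveI := finite_hom_of_level V n
  Finite.of_injective _ (kum_injective V L n)

end FA.JTorsion
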