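import Fermat.Agent.JTorsion.LatHecke

/-!
# The arithmetic Galois action commutes with the Hecke correspondences
-/

set_option autoImplicit false
set_option linter.style.haveILetI false
set_option linter.unusedSectionVars false

noncomputable section

namespace FA.JTorsion

open AlgebraicCurve AlgebraicCurve.SemilinearAut FA.Level FA.ModField ModularCurve
open scoped Pointwise

section Generic

variable {K F F' : Type} [Field K] [Field F] [Field F'] [Algebra K F] [Algebra K F']
variable {φ : F →ₐ[K] F'} {g : SemilinearAut K F} {g' : SemilinearAut K F'}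

theorem restrictAlong_smul (hφ : φ.toRingHom.IsIntegral)
    (h : IntertwinesAlong φ.toRingHom g g') (w : Place K F') :
    (g' • w).restrictAlong φ hφ = g • w.restrictAlong φ hφ := by
  apply Place.ext
  ext x
  rw [smul_toValuationSubring, ValuationSubring.mem_pointwise_smul_iff_inv_smul_mem]
  show φ x ∈ (g' • w.toValuationSubring : ValuationSubring F') ↔ φ (g⁻¹ • x) ∈ w.toValuationSubring
  rw [ValuationSubring.mem_pointwise_smul_iff_inv_smul_mem]
  exact Iff.of_eq (congrArg (· ∈ w.toValuationSubring) (h.inv x))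

theorem ramificationIndexAlong_smul (hφ : φ.toRingHom.IsIntegral)
    (h : IntertwinesAlong φ.toRingHom g g') (w : Place K F') :
    Place.ramificationIndexAlong φ (g' • w) = Place.ramificationIndexAlong φ w := by
  set r := w.restrictAlong φ hφ
  obtain ⟨π, hπ⟩ := IsDiscreteValuationRing.exists_irreducible r.toValuationSubring
  have h1 : r.ord (π : F) = 1 := r.ord_coe_irreducible hπ
  have h2 := Place.ord_restrictAlong φ hφ (g' • w) (g • (π : F))
  rw [restrictAlong_smul hφ h, ord_smul, show φ (g • (π : F)) = g' • φ (π : F) from (h _).symm,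
    ord_smul, Place.ord_restrictAlong φ hφ w, h1, mul_one, mul_one] at h2
  exact_mod_cast h2.symm

theorem inertiaDegAlong_eq_one [IsAlgClosed K] (hF : FA.Curve.IsFunctionField K F)
    (hF' : FA.Curve.IsFunctionField K F') (hφ : φ.toRingHom.IsIntegral) (w : Place K F') :
    w.inertiaDegAlong φ hφ = 1 := by
  letI := algebraAlong φ
  haveI := isScalarTower_along φ
  haveI := isIntegral_along φ hφ
  have h := w.deg_restrict_mul_inertiaDeg (F := F)
  rw [hF.deg_eq_one, hF'.deg_eq_one, one_mul] at h
  exact h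

variable [HasPrincipalDivisors K F']

theorem pullbackAlong_smul (hφ : φ.toRingHom.IsIntegral)
    (h : IntertwinesAlong φ.toRingHom g g') (D : Divisor K F) :
    Divisor.pullbackAlong φ hφ (g • D) = g' • Divisor.pullbackAlong φ hφ D := by
  refine Finsupp.ext fun w => ?_
  rw [divisor_smul_apply, Divisor.pullbackAlong_apply, Divisor.pullbackAlong_apply,
    divisor_smul_apply, ← restrictAlong_smul hφ h.inv, ramificationIndexAlong_smul hφ h.inv]

theorem pushforwardAlong_smul [IsAlgClosed K] (hF : FA.Curve.IsFunctionField K F)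
    (hF' : FA.Curve.IsFunctionField K F') (hφ : φ.toRingHom.IsIntegral)
    (h : IntertwinesAlong φ.toRingHom g g') (D : Divisor K F') :
    Divisor.pushforwardAlong φ hφ (g' • D) = g • Divisor.pushforwardAlong φ hφ D := by
  induction D using Finsupp.induction with
  | zero => simp
  | single_add w n D _ _ ih =>
    rw [smul_add, map_add, map_add, smul_add, ih, smul_single, Divisor.pushforwardAlong_single,
      Divisor.pushforwardAlong_single, inertiaDegAlong_eq_one hF hF',
      inertiaDegAlong_eq_one hF hF', Nat.cast_one, mul_one, smul_single,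
      restrictAlong_smul hφ h]

theorem correspondence_smul [IsAlgClosed K] (hF : FA.Curve.IsFunctionField K F)
    (hF' : FA.Curve.IsFunctionField K F') {ψ : F →ₐ[K] F'} (hφ : φ.toRingHom.IsIntegral)
    (hψ : ψ.toRingHom.IsIntegral) (h : IntertwinesAlong φ.toRingHom g g')
    (h' : IntertwinesAlong ψ.toRingHom g g') (hFI : FundamentalIdentityAlong K φ hφ)
    (hfin : FiniteAlong K ψ) (hN : NormFormulaAlong K ψ hfin) (x : Pic0 K F) :
    Pic0.correspondence φ ψ hφ hψ hFI hfin hN (g • x) =
      g • Pic0.correspondence φ ψ hφ hψ hFI hfin hN x := by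
  obtain ⟨D, rfl⟩ := Pic0.mk_surjective x
  rw [pic0_smul_mk, Pic0.correspondence_mk, Pic0.correspondence_mk, pic0_smul_mk]
  refine congrArg Pic0.mk (Subtype.ext ?_)
  rw [Pic0.coe_degZeroCorrespondence, coe_degZeroSMulHom, coe_degZeroSMulHom,
    Pic0.coe_degZeroCorrespondence, Divisor.correspondence_apply, Divisor.correspondence_apply,
    pullbackAlong_smul hφ h, pushforwardAlong_smul hF hF' hψ h']

end Generic

/-- The absolute Galois group. -/
abbrev GalQ : Type := AlgebraicClosure ℚ ≃ₐ[ℚ] AlgebraicClosure ℚ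

variable (N ℓ : ℕ) [NeZero N] [NeZero ℓ] [Algebra (AlgebraicClosure ℚ) ℂ]

local notation "Qb" => AlgebraicClosure ℚ

theorem coeffMap_qExpand_comm {R S : Type} [CommRing R] [CommRing S] (f : R →+* S) (n : ℕ)
    [NeZero n] (x : LaurentSeries R) : coeffMap f (qExpand R n x) = qExpand S n (coeffMap f x) := by
  ext k
  by_cases hk : (n : ℤ) ∣ k
  · obtain ⟨m, rfl⟩ := hk
    rw [coeffMap_coeff, qExpand_coeff_mul, qExpand_coeff_mul, coeffMap_coeff]
  · rw [coeffMap_coeff, qExpand_coeff_of_not_dvd n _ hk, qExpand_coeff_of_not_dvd n _ hk,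
      map_zero]

theorem intertwines_alpha (σ : GalQ) :
    IntertwinesAlong (heckeAlphaBar Qb N ℓ).toRingHom
      (arithmeticGalois (modularFunctionFieldFull N) σ)
      (arithmeticGalois (modularFunctionFieldFull (N * ℓ)) σ) := fun x => Subtype.ext (by
  rw [coe_arithmeticGalois_smul]
  show coeffMap _ ((heckeAlphaBar Qb N ℓ x : _) : LaurentSeries Qb) =
    ((heckeAlphaBar Qb N ℓ _ : _) : LaurentSeries Qb)
  rw [coe_heckeAlphaBar, coe_heckeAlphaBar, coe_arithmeticGalois_smul])

theorem intertwines_beta (σ : GalQ) :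
    IntertwinesAlong (heckeBetaBar Qb N ℓ).toRingHom
      (arithmeticGalois (modularFunctionFieldFull N) σ)
      (arithmeticGalois (modularFunctionFieldFull (N * ℓ)) σ) := fun x =>
  Subtype.ext (by
  rw [coe_arithmeticGalois_smul]
  show coeffMap _ ((heckeBetaBar Qb N ℓ x : _) : LaurentSeries Qb) =
    ((heckeBetaBar Qb N ℓ _ : _) : LaurentSeries Qb)
  rw [coe_heckeBetaBar, coe_heckeBetaBar, coe_arithmeticGalois_smul, coeffMap_qExpand_comm])

theorem heckeOperatorAlong_galois_smul (σ : GalQ) (x : JZero N) :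
    heckeOperatorAlong Qb N ℓ (σ • x) = σ • heckeOperatorAlong Qb N ℓ x := by
  obtain ⟨hα, hβ, hP, hfin, hFI, hN⟩ := heckeInputs N ℓ
  haveI := hP
  haveI : HasPrincipalDivisors Qb ((lvlGamma0 (N * ℓ)).fld Qb) := hP
  rw [heckeOperatorAlong_eq hα hβ hFI hfin hN, galois_smul_pic0_def, galois_smul_pic0_def]
  exact correspondence_smul ((lvlGamma0 N).isFunctionField Qb)
    ((lvlGamma0 (N * ℓ)).isFunctionField Qb) hβ hα (intertwines_beta N ℓ σ)
    (intertwines_alpha N ℓ σ) hFI hfin hN x

end FA.JTorsion
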