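import Fermat.Agent.JTorsion.Transfer
import Fermat.Agent.Period.Primitive
import Fermat.Prelude.Def_ModularForm_HeckeOperatorForms

/-!
# Periods of `T_ℓ f` are the transfer of the periods of `f`, after twisting by `w_N`
-/

set_option autoImplicit false
set_option linter.style.haveILetI false
set_option linter.unusedSectionVars false
set_option maxHeartbeats 1600000

noncomputable section

namespace FA.JTorsion

open UpperHalfPlane hiding I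
open Complex CongruenceSubgroup FA.Level FA.Period ModularCurve
open scoped MatrixGroups

variable (N ℓ : ℕ)

/-- The matrices of `T_ℓ`, resp. `U_ℓ`, acting on the upper half plane. -/
def heckePt : Option (Fin ℓ) → ℍ → ℍ
  | some j => fun z => ModularForm.heckeMatrix ℓ (j : ℕ) • z
  | none => fun z => ModularForm.heckeDiagMatrix ℓ • z

/-- The indices which occur. -/
def heckeIdx : Finset (Option (Fin ℓ)) :=
  if ℓ ∣ N then Finset.univ.filter (fun x => x ≠ none) else Finset.univ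

/-- `z ↦ diag(1,ℓ) z`. -/
def lowScale (z : ℍ) : ℍ := ModularForm.heckeMatrix ℓ 0 • z

variable [NeZero N] [NeZero ℓ]

theorem coe_lowScale (z : ℍ) : (lowScale ℓ z : ℂ) = (z : ℂ) / ℓ := by
  rw [lowScale, ModularForm.coe_heckeMatrix_smul (NeZero.ne ℓ)]
  simp

theorem coe_smul_of_eq {g : SL(2, ℤ)} {a b c d : ℤ}
    (h : (g : Matrix (Fin 2) (Fin 2) ℤ) = !![a, b; c, d]) (z : ℍ) :
    ((g • z : ℍ) : ℂ) = ((a : ℂ) * z + b) / ((c : ℂ) * z + d) ∧ (c : ℂ) * z + d ≠ 0 := by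
  have hne := denom_ne_zero (g : GL (Fin 2) ℝ) z
  rw [ModularGroup.denom_apply] at hne
  constructor
  · rw [UpperHalfPlane.coe_specialLinearGroup_apply]
    simp [h]
  · simpa [h] using hne

theorem lowScale_wConj (γ : Gamma0 (N * ℓ)) (hle : (γ : SL(2, ℤ)) ∈ Gamma0 N) (z : ℍ) :
    lowScale ℓ ((wConj N ⟨_, hle⟩ : SL(2, ℤ)) • z) =
      (wConj N (conjScale N ℓ γ) : SL(2, ℤ)) • lowScale ℓ z := by
  obtain ⟨e, he⟩ := exists_lower_left (N * ℓ) γ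
  have hl : (ℓ : ℂ) ≠ 0 := by exact_mod_cast NeZero.ne ℓ
  obtain ⟨h1, h1'⟩ := coe_smul_of_eq (coe_wConj N (γ := ⟨_, hle⟩) (e := (ℓ : ℤ) * e)
    (by show (γ : SL(2, ℤ)) 1 0 = _; rw [he]; push_cast; ring)) z
  have he' : ((conjScale N ℓ γ : Gamma0 N) : SL(2, ℤ)) 1 0 = (N : ℤ) * e := by
    show (γ : SL(2, ℤ)) 1 0 / (ℓ : ℤ) = _
    rw [he, show ((N * ℓ : ℕ) : ℤ) * e = (ℓ : ℤ) * ((N : ℤ) * e) by push_cast; ring,
      Int.mul_ediv_cancel_left _ (Int.natCast_ne_zero.2 (NeZero.ne ℓ))]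
  obtain ⟨h2, h2'⟩ := coe_smul_of_eq (coe_wConj N he') (lowScale ℓ z)
  apply UpperHalfPlane.ext
  rw [coe_lowScale] at h2'
  rw [coe_lowScale, h1, h2, coe_lowScale]
  simp only [conjScale, MonoidHom.coe_mk, OneHom.coe_mk, Matrix.of_apply, Matrix.cons_val',
    Matrix.cons_val_zero, Matrix.cons_val_one, Matrix.cons_val_fin_one] at h2' ⊢
  push_cast at h2' h1' ⊢
  field_simp at h2' ⊢

/-- An element of `Γ₀(N)` with the given entries. -/
def g0mk (a b e d : ℤ) (h : a * d - b * ((N : ℤ) * e) = 1) : Gamma0 N :=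
  ⟨(⟨!![a, b; (N : ℤ) * e, d], by rw [Matrix.det_fin_two_of]; exact h⟩ : SL(2, ℤ)),
    Gamma0_mem.2 (show (((N : ℤ) * e : ℤ) : ZMod N) = 0 by simp)⟩

theorem coe_g0mk (a b e d : ℤ) (h : a * d - b * ((N : ℤ) * e) = 1) :
    ((g0mk N a b e d h : SL(2, ℤ)) : Matrix (Fin 2) (Fin 2) ℤ) = !![a, b; (N : ℤ) * e, d] := rfl

/-- The class of a coset representative. -/
def classOf (η : Gamma0 N) : Option (Fin ℓ) :=
  if h : ∃ j : Fin ℓ, (ℓ : ℤ) ∣
      (η : SL(2, ℤ)) 1 0 / (N : ℤ) + (η : SL(2, ℤ)) 1 1 * (j : ℕ) then some h.choose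
  else none

theorem isCoprime_lower_right (η : Gamma0 N) :
    IsCoprime ((η : SL(2, ℤ)) 1 1) ((N : ℤ) * ((η : SL(2, ℤ)) 1 0 / (N : ℤ))) := by
  obtain ⟨e, he⟩ := exists_lower_left N η
  rw [he, Int.mul_ediv_cancel_left _ (Int.natCast_ne_zero.2 (NeZero.ne N)), ← he]
  refine ⟨(η : SL(2, ℤ)) 0 0, -(η : SL(2, ℤ)) 0 1, ?_⟩
  have h : (η : SL(2, ℤ)) 0 0 * (η : SL(2, ℤ)) 1 1 - (η : SL(2, ℤ)) 0 1 * (η : SL(2, ℤ)) 1 0 = 1 :=
    by rw [← Matrix.det_fin_two]; exact (η : SL(2, ℤ)).2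
  linear_combination h

variable (hℓ : ℓ.Prime)

include hℓ

theorem exists_class {η : Gamma0 N} (hd : ¬ (ℓ : ℤ) ∣ (η : SL(2, ℤ)) 1 1) :
    ∃ j : Fin ℓ, (ℓ : ℤ) ∣
      (η : SL(2, ℤ)) 1 0 / (N : ℤ) + (η : SL(2, ℤ)) 1 1 * (j : ℕ) := by
  haveI : Fact ℓ.Prime := ⟨hℓ⟩
  set c : ℤ := (η : SL(2, ℤ)) 1 0 / (N : ℤ)
  set d : ℤ := (η : SL(2, ℤ)) 1 1
  have hd' : (d : ZMod ℓ) ≠ 0 := fun h => hd ((ZMod.intCast_zmod_eq_zero_iff_dvd _ _).1 h)
  refine ⟨⟨((-(c : ZMod ℓ)) / (d : ZMod ℓ)).val, ZMod.val_lt _⟩, ?_⟩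
  rw [← ZMod.intCast_zmod_eq_zero_iff_dvd]
  push_cast
  rw [ZMod.natCast_zmod_val, mul_div_cancel₀ _ hd', add_neg_cancel]

theorem classOf_spec (η : Gamma0 N) :
    (∃ j : Fin ℓ, classOf N ℓ η = some j ∧
      (ℓ : ℤ) ∣ (η : SL(2, ℤ)) 1 0 / (N : ℤ) + (η : SL(2, ℤ)) 1 1 * (j : ℕ) ∧
      ¬ (ℓ : ℤ) ∣ (η : SL(2, ℤ)) 1 1) ∨
    (classOf N ℓ η = none ∧ (ℓ : ℤ) ∣ (η : SL(2, ℤ)) 1 1 ∧ ¬ ℓ ∣ N) := by
  by_cases hd : (ℓ : ℤ) ∣ (η : SL(2, ℤ)) 1 1
  · have hnc : ¬ (ℓ : ℤ) ∣ (N : ℤ) * ((η : SL(2, ℤ)) 1 0 / (N : ℤ)) := fun h => by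
      obtain ⟨u, v, huv⟩ := isCoprime_lower_right N η
      have h1 : (ℓ : ℤ) ∣ 1 := huv ▸ dvd_add (hd.mul_left u) (h.mul_left v)
      exact hℓ.ne_one (Nat.eq_one_of_dvd_one (Int.natCast_dvd_natCast.1 h1))
    refine Or.inr ⟨?_, hd, fun h => hnc ((Int.natCast_dvd_natCast.2 h).mul_right _)⟩
    rw [classOf, dif_neg]
    rintro ⟨j, hj⟩
    exact hnc (Dvd.dvd.mul_left ((dvd_add_left (hd.mul_right _)).1 hj) _)
  · have h := exists_class N ℓ hℓ hd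
    exact Or.inl ⟨h.choose, by rw [classOf, dif_pos h], h.choose_spec, hd⟩

theorem classOf_mem (η : Gamma0 N) : classOf N ℓ η ∈ heckeIdx N ℓ := by
  rcases classOf_spec N ℓ hℓ η with ⟨j, h, -, -⟩ | ⟨h, -, h'⟩ <;> rw [h, heckeIdx]
  · split_ifs <;> simp
  · rw [if_neg h']; simp

theorem mul_inv_mem_iff {η η' : Gamma0 N} {c c' : ℤ} (hc : (η : SL(2, ℤ)) 1 0 = (N : ℤ) * c)
    (hc' : (η' : SL(2, ℤ)) 1 0 = (N : ℤ) * c') :
    ((η * η'⁻¹ : Gamma0 N) : SL(2, ℤ)) ∈ Gamma0 (N * ℓ) ↔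
      (ℓ : ℤ) ∣ c * (η' : SL(2, ℤ)) 1 1 - (η : SL(2, ℤ)) 1 1 * c' := by
  have h10 : ((η * η'⁻¹ : Gamma0 N) : SL(2, ℤ)) 1 0 =
      (N : ℤ) * (c * (η' : SL(2, ℤ)) 1 1 - (η : SL(2, ℤ)) 1 1 * c') := by
    simp [Matrix.mul_apply, Fin.sum_univ_two, Matrix.adjugate_fin_two, hc, hc']
    ring
  rw [Gamma0_mem, ZMod.intCast_zmod_eq_zero_iff_dvd, h10, Nat.cast_mul]
  exact mul_dvd_mul_iff_left (Int.natCast_ne_zero.2 (NeZero.ne N))

theorem not_dvd_lower {η : Gamma0 N} {c : ℤ} (hc : (η : SL(2, ℤ)) 1 0 = (N : ℤ) * c)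
    (hd : (ℓ : ℤ) ∣ (η : SL(2, ℤ)) 1 1) : ¬ (ℓ : ℤ) ∣ c := by
  intro h
  obtain ⟨u, v, huv⟩ := isCoprime_lower_right N η
  rw [hc, Int.mul_ediv_cancel_left _ (Int.natCast_ne_zero.2 (NeZero.ne N))] at huv
  have h1 : (ℓ : ℤ) ∣ 1 := huv ▸ dvd_add (hd.mul_left u) ((h.mul_left _).mul_left v)
  exact hℓ.ne_one (Nat.eq_one_of_dvd_one (Int.natCast_dvd_natCast.1 h1))

/-- The class classifies the cosets of `Γ₀(Nℓ)`. -/
theorem classOf_eq_iff {η η' : Gamma0 N} : classOf N ℓ η = classOf N ℓ η' ↔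
    ((η * η'⁻¹ : Gamma0 N) : SL(2, ℤ)) ∈ Gamma0 (N * ℓ) := by
  obtain ⟨c, hc⟩ := exists_lower_left N η
  obtain ⟨c', hc'⟩ := exists_lower_left N η'
  have hN := Int.natCast_ne_zero.2 (NeZero.ne N)
  have hp := Nat.prime_iff_prime_int.1 hℓ
  rw [mul_inv_mem_iff N ℓ hℓ hc hc']
  rcases classOf_spec N ℓ hℓ η with ⟨j, hj, hdv, hnd⟩ | ⟨hj, hdd, -⟩ <;>
    rcases classOf_spec N ℓ hℓ η' with ⟨j', hj', hdv', hnd'⟩ | ⟨hj', hdd', -⟩ <;>
    rw [hj, hj']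
  · rw [hc, Int.mul_ediv_cancel_left _ hN] at hdv
    rw [hc', Int.mul_ediv_cancel_left _ hN] at hdv'
    set d := (η : SL(2, ℤ)) 1 1
    set d' := (η' : SL(2, ℤ)) 1 1
    have h2 := dvd_sub (hdv.mul_right d') (hdv'.mul_left d)
    have he : (c + d * ((j : ℕ) : ℤ)) * d' - d * (c' + d' * ((j' : ℕ) : ℤ)) =
        (c * d' - d * c') + d * d' * (((j : ℕ) : ℤ) - ((j' : ℕ) : ℤ)) := by ring
    rw [he] at h2
    constructor
    · intro h
      obtain rfl := Option.some.inj h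
      simpa using h2
    · intro h
      have h3 := (dvd_add_right h).1 h2
      rcases hp.dvd_or_dvd h3 with h5 | h5
      · exact absurd h5 (fun h6 => (hp.dvd_or_dvd h6).elim hnd hnd')
      · obtain ⟨q, hq⟩ := h5
        have h1 := j.2
        have h2 := j'.2
        refine congrArg some (Fin.ext ?_)
        rcases lt_trichotomy q 0 with hlt | rfl | hlt
        · have : (ℓ : ℤ) * q ≤ (ℓ : ℤ) * (-1) :=
            mul_le_mul_of_nonneg_left (by omega) (by positivity)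
          omega
        · omega
        · have : (ℓ : ℤ) * 1 ≤ (ℓ : ℤ) * q :=
            mul_le_mul_of_nonneg_left (by omega) (by positivity)
          omega
  · refine iff_of_false (by simp) fun h => ?_
    have h4 : (ℓ : ℤ) ∣ (η : SL(2, ℤ)) 1 1 * c' := (dvd_sub_right (hdd'.mul_left c)).1 h
    exact (hp.dvd_or_dvd h4).elim hnd (not_dvd_lower N ℓ hℓ hc' hdd')
  · refine iff_of_false (by simp) fun h => ?_
    have h4 : (ℓ : ℤ) ∣ c * (η' : SL(2, ℤ)) 1 1 := (dvd_sub_left (hdd.mul_right c')).1 h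
    exact (hp.dvd_or_dvd h4).elim (not_dvd_lower N ℓ hℓ hc hdd) hnd'
  · exact iff_of_true rfl (dvd_sub (hdd'.mul_left c) (hdd.mul_right c'))

/-- Every index is the class of some element. -/
theorem exists_classOf_eq {x : Option (Fin ℓ)} (hx : x ∈ heckeIdx N ℓ) :
    ∃ η : Gamma0 N, classOf N ℓ η = x := by
  haveI : Fact ℓ.Prime := ⟨hℓ⟩
  have hN := Int.natCast_ne_zero.2 (NeZero.ne N)
  rcases x with _ | j
  · have hndvd : ¬ ℓ ∣ N := fun h => by simp [heckeIdx, h] at hx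
    obtain ⟨u, v, huv⟩ : IsCoprime (ℓ : ℤ) (N : ℤ) := by
      rw [Int.isCoprime_iff_gcd_eq_one, Int.gcd_natCast_natCast]
      exact (Nat.Prime.coprime_iff_not_dvd hℓ).2 hndvd
    refine ⟨g0mk N u (-v) 1 (ℓ : ℤ) (by linarith), ?_⟩
    rcases classOf_spec N ℓ hℓ (g0mk N u (-v) 1 (ℓ : ℤ) (by linarith)) with
      ⟨j, -, -, hd⟩ | ⟨h, -, -⟩
    · exact absurd (show (ℓ : ℤ) ∣ (ℓ : ℤ) from dvd_rfl) hd
    · exact h
  · refine ⟨g0mk N 1 0 (-((j : ℕ) : ℤ)) 1 (by ring), ?_⟩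
    rcases classOf_spec N ℓ hℓ _ with ⟨j', hj', hdv, -⟩ | ⟨-, hd, -⟩
    · rw [hj']
      change (ℓ : ℤ) ∣ (N : ℤ) * -((j : ℕ) : ℤ) / (N : ℤ) + (1 : ℤ) * ((j' : ℕ) : ℤ) at hdv
      rw [Int.mul_ediv_cancel_left _ hN, one_mul] at hdv
      obtain ⟨k, hk⟩ := hdv
      refine congrArg some (Fin.ext ?_)
      have h1 := j.2
      have h2 := j'.2
      have hk0 : k = 0 := by
        by_contra hne
        rcases lt_or_gt_of_ne hne with hlt | hlt
        · have : (ℓ : ℤ) * k ≤ (ℓ : ℤ) * (-1) :=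
            mul_le_mul_of_nonneg_left (by omega) (by positivity)
          omega
        · have : (ℓ : ℤ) * 1 ≤ (ℓ : ℤ) * k :=
            mul_le_mul_of_nonneg_left (by omega) (by positivity)
          omega
      rw [hk0] at hk
      omega
    · change (ℓ : ℤ) ∣ (1 : ℤ) at hd
      exact absurd (Nat.eq_one_of_dvd_one (Int.natCast_dvd_natCast.1 (by exact_mod_cast hd)))
        hℓ.ne_one

/-- The conjugated representative differs from the Hecke matrix by an element of `Γ₀(N)`. -/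
theorem exists_factor (η : Gamma0 N) : ∃ h : Gamma0 N, ∀ z : ℍ,
    lowScale ℓ ((wConj N η : SL(2, ℤ)) • z) = (h : SL(2, ℤ)) • heckePt ℓ (classOf N ℓ η) z := by
  obtain ⟨c, hc⟩ := exists_lower_left N η
  have hdet : (η : SL(2, ℤ)) 0 0 * (η : SL(2, ℤ)) 1 1 -
      (η : SL(2, ℤ)) 0 1 * (η : SL(2, ℤ)) 1 0 = 1 := by
    rw [← Matrix.det_fin_two]; exact (η : SL(2, ℤ)).2
  rw [hc] at hdet
  set a := (η : SL(2, ℤ)) 0 0
  set b := (η : SL(2, ℤ)) 0 1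
  set d := (η : SL(2, ℤ)) 1 1
  have hN := Int.natCast_ne_zero.2 (NeZero.ne N)
  have hl : (ℓ : ℂ) ≠ 0 := by exact_mod_cast NeZero.ne ℓ
  rcases classOf_spec N ℓ hℓ η with ⟨j, hj, hdv, -⟩ | ⟨hj, hdd, -⟩
  · rw [hc, Int.mul_ediv_cancel_left _ hN] at hdv
    obtain ⟨k, hk⟩ := hdv
    set h : Gamma0 N := g0mk N d (-k) (-((ℓ : ℤ) * b)) (a + (j : ℕ) * ((N : ℤ) * b))
      (by linear_combination hdet + (N : ℤ) * b * hk)
    refine ⟨h, fun z => ?_⟩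
    obtain ⟨h1, h1'⟩ := coe_smul_of_eq (coe_wConj N hc) z
    obtain ⟨h2, h2'⟩ := coe_smul_of_eq (g := (h : SL(2, ℤ))) (a := d) (b := -k)
      (c := -((ℓ : ℤ) * ((N : ℤ) * b))) (d := a + (j : ℕ) * ((N : ℤ) * b))
      (by rw [coe_g0mk, show (N : ℤ) * -((ℓ : ℤ) * b) = -((ℓ : ℤ) * ((N : ℤ) * b)) by ring])
      (heckePt ℓ (some j) z)
    rw [hj]
    apply UpperHalfPlane.ext
    simp only [heckePt, ModularForm.coe_heckeMatrix_smul (NeZero.ne ℓ)] at h2 h2' ⊢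
    rw [coe_lowScale, h1, h2]
    have hk' : (c : ℂ) + (d : ℂ) * (j : ℕ) = (ℓ : ℂ) * k := by exact_mod_cast hk
    have hden : ((-((ℓ : ℤ) * ((N : ℤ) * b)) : ℤ) : ℂ) * (((z : ℂ) + (j : ℕ)) / ℓ) +
        ((a + (j : ℕ) * ((N : ℤ) * b) : ℤ) : ℂ) = ((-((N : ℤ) * b) : ℤ) : ℂ) * z + (a : ℂ) := by
      push_cast
      field_simp
      ring
    have hnum : (d : ℂ) * (((z : ℂ) + (j : ℕ)) / ℓ) + ((-k : ℤ) : ℂ) =
        ((d : ℂ) * z + ((-c : ℤ) : ℂ)) / ℓ := by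
      push_cast
      field_simp
      linear_combination hk'
    rw [hden, hnum, div_right_comm]
  · obtain ⟨k, hk⟩ := hdd
    change d = (ℓ : ℤ) * k at hk
    set h : Gamma0 N := g0mk N k (-c) (-b) ((ℓ : ℤ) * a) (by linear_combination hdet - a * hk)
    refine ⟨h, fun z => ?_⟩
    obtain ⟨h1, h1'⟩ := coe_smul_of_eq (coe_wConj N hc) z
    obtain ⟨h2, h2'⟩ := coe_smul_of_eq (g := (h : SL(2, ℤ))) (a := k) (b := -c)
      (c := -((N : ℤ) * b)) (d := (ℓ : ℤ) * a) (by rw [coe_g0mk, mul_neg]) (heckePt ℓ none z)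
    rw [hj]
    apply UpperHalfPlane.ext
    simp only [heckePt, ModularForm.coe_heckeDiagMatrix_smul (NeZero.ne ℓ)] at h2 h2' ⊢
    rw [coe_lowScale, h1, h2]
    have hk' : (d : ℂ) = (ℓ : ℂ) * k := by exact_mod_cast hk
    rw [div_div, div_eq_div_iff (mul_ne_zero h1' hl) h2']
    push_cast
    rw [hk']
    ring

/-- The operator on forms. -/
def heckeForm : CuspForm (Gamma0 N) 2 →ₗ[ℂ] CuspForm (Gamma0 N) 2 :=
  if h : ℓ ∣ N then CuspForm.heckeULin 2 h else CuspForm.heckeTLin 2 hℓ h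

/-- A primitive of `T_ℓ f`. -/
theorem isPrimitive_heckeForm {f : CuspForm (Gamma0 N) 2} {F : ℍ → ℂ} (hF : IsPrimitive F ⇑f) :
    IsPrimitive (fun z => ∑ x ∈ heckeIdx N ℓ, F (heckePt ℓ x z)) ⇑(heckeForm N ℓ hℓ f) := by
  classical
  have hl : (ℓ : ℂ) ≠ 0 := by exact_mod_cast NeZero.ne ℓ
  have hdiv : ∀ (j : Fin ℓ) (τ : ℍ), HasDerivAt ((fun z => F (heckePt ℓ (some j) z)) ∘ ofComplex)
      ((ℓ : ℂ)⁻¹ * f (ModularForm.heckeMatrix ℓ (j : ℕ) • τ)) (τ : ℂ) := by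
    intro j τ
    have him : 0 < (((τ : ℂ) + (j : ℕ)) / ℓ).im := by
      rw [Complex.div_natCast_im]
      simpa using div_pos τ.im_pos (by exact_mod_cast Nat.pos_of_ne_zero (NeZero.ne ℓ))
    have h1 : HasDerivAt (fun w : ℂ => (w + (j : ℕ)) / ℓ) ((ℓ : ℂ)⁻¹) (τ : ℂ) := by
      simpa using ((hasDerivAt_id (τ : ℂ)).add_const ((j : ℕ) : ℂ)).div_const (ℓ : ℂ)
    have h2 : HasDerivAt (F ∘ ofComplex) (f (ModularForm.heckeMatrix ℓ (j : ℕ) • τ))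
        (((τ : ℂ) + (j : ℕ)) / ℓ) := by
      rw [← ModularForm.coe_heckeMatrix_smul (NeZero.ne ℓ)]
      exact hF _
    have h3 := h2.comp (τ : ℂ) h1
    rw [mul_comm] at h3
    refine h3.congr_of_eventuallyEq ?_
    filter_upwards [isOpen_upperHalfPlaneSet.mem_nhds τ.im_pos] with w hw
    simp only [Function.comp_apply, heckePt, ofComplex_apply_of_im_pos hw]
    congr 1
    rw [ofComplex_apply_of_im_pos (by
      rw [Complex.div_natCast_im]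
      simpa using div_pos hw (by exact_mod_cast Nat.pos_of_ne_zero (NeZero.ne ℓ)))]
    exact UpperHalfPlane.ext (ModularForm.coe_heckeMatrix_smul (NeZero.ne ℓ) _ _)
  have hdiag : ∀ τ : ℍ, HasDerivAt ((fun z => F (heckePt ℓ none z)) ∘ ofComplex)
      ((ℓ : ℂ) * f (ModularForm.heckeDiagMatrix ℓ • τ)) (τ : ℂ) := by
    intro τ
    have h1 : HasDerivAt (fun w : ℂ => (ℓ : ℂ) * w) (ℓ : ℂ) (τ : ℂ) := by
      simpa using (hasDerivAt_id (τ : ℂ)).const_mul (ℓ : ℂ)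
    have h2 : HasDerivAt (F ∘ ofComplex) (f (ModularForm.heckeDiagMatrix ℓ • τ))
        ((ℓ : ℂ) * (τ : ℂ)) := by
      rw [← ModularForm.coe_heckeDiagMatrix_smul (NeZero.ne ℓ)]
      exact hF _
    have h3 := h2.comp (τ : ℂ) h1
    rw [mul_comm] at h3
    refine h3.congr_of_eventuallyEq ?_
    filter_upwards [isOpen_upperHalfPlaneSet.mem_nhds τ.im_pos] with w hw
    simp only [Function.comp_apply, heckePt, ofComplex_apply_of_im_pos hw]
    congr 1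
    rw [ofComplex_apply_of_im_pos (by
      simp only [Complex.mul_im, Complex.natCast_re, Complex.natCast_im, zero_mul, add_zero]
      exact mul_pos (by exact_mod_cast Nat.pos_of_ne_zero (NeZero.ne ℓ)) hw)]
    exact UpperHalfPlane.ext (ModularForm.coe_heckeDiagMatrix_smul (NeZero.ne ℓ) _)
  intro τ
  have hfun : ((fun z => ∑ x ∈ heckeIdx N ℓ, F (heckePt ℓ x z)) ∘ ofComplex) =
      fun w => ∑ x ∈ heckeIdx N ℓ, ((fun z => F (heckePt ℓ x z)) ∘ ofComplex) w := rfl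
  rw [hfun]
  by_cases hN : ℓ ∣ N
  · have hval : heckeForm N ℓ hℓ f τ =
        ∑ x ∈ heckeIdx N ℓ, (x.elim ((ℓ : ℂ) * f (ModularForm.heckeDiagMatrix ℓ • τ))
          fun j => (ℓ : ℂ)⁻¹ * f (ModularForm.heckeMatrix ℓ (j : ℕ) • τ)) := by
      rw [heckeForm, dif_pos hN, CuspForm.heckeULin_apply_apply,
        ModularForm.heckeU_apply 2 (NeZero.ne ℓ), heckeIdx, if_pos hN, Finset.sum_filter,
        Fintype.sum_option, Finset.mul_sum, Finset.sum_range]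
      simp
    rw [hval]
    refine HasDerivAt.fun_sum fun x _ => ?_
    cases x with
    | none => exact hdiag τ
    | some j => exact hdiv j τ
  · have hval : heckeForm N ℓ hℓ f τ =
        ∑ x ∈ heckeIdx N ℓ, (x.elim ((ℓ : ℂ) * f (ModularForm.heckeDiagMatrix ℓ • τ))
          fun j => (ℓ : ℂ)⁻¹ * f (ModularForm.heckeMatrix ℓ (j : ℕ) • τ)) := by
      rw [heckeForm, dif_neg hN, CuspForm.heckeTLin_apply_apply,
        ModularForm.heckeT_apply 2 (NeZero.ne ℓ), heckeIdx, if_neg hN,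
        Fintype.sum_option, Finset.mul_sum, Finset.sum_range]
      simp
      ring
    rw [hval]
    refine HasDerivAt.fun_sum fun x _ => ?_
    cases x with
    | none => exact hdiag τ
    | some j => exact hdiv j τ

include hℓ

/-- Periods of `T_ℓ f`, read after conjugation by `w_N`, are the transfer. -/
theorem periodMap_heckeForm (f : CuspForm (Gamma0 N) 2) (γ : Gamma0 N) :
    periodMap N (heckeForm N ℓ hℓ f) (Additive.ofMul (wConj N γ)) =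
      heckeChar N ℓ (fun x => periodMap N f (Additive.ofMul (wConj N x))) γ := by
  classical
  obtain ⟨F, hF⟩ := exists_hasEquivariantPrimitive f
  have hG := isPrimitive_heckeForm N ℓ hℓ hF.1
  set G : ℍ → ℂ := fun z => ∑ x ∈ heckeIdx N ℓ, F (heckePt ℓ x z)
  let γ₀ : (lvlGamma0 N).grp := γ
  let η : RelCos (lvlGamma0 N) (lvlGamma0 (N * ℓ)) → Gamma0 N := fun i => relRep i
  choose h hh using fun i => exists_factor N ℓ hℓ (η i)
  set P : ℂ := ∑ i, periodMap N f (Additive.ofMul (h i))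
  have hG' : ∀ z, G z = ∑ i, F (lowScale ℓ ((wConj N (η i) : SL(2, ℤ)) • z)) - P := by
    intro z
    have h1 : ∑ i, F (heckePt ℓ (classOf N ℓ (η i)) z) = G z := by
      refine Finset.sum_bij (fun i _ => classOf N ℓ (η i)) (fun i _ => classOf_mem N ℓ hℓ _)
        (fun i _ j _ hij => ?_) (fun x hx => ?_) (fun i _ => rfl)
      · have h2 := (classOf_eq_iff N ℓ hℓ).1 hij
        rw [← QuotientGroup.out_eq' i, ← QuotientGroup.out_eq' j, QuotientGroup.eq,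
          Subgroup.mem_subgroupOf]
        change (((Quotient.out i)⁻¹ * ((Quotient.out j)⁻¹)⁻¹ : (lvlGamma0 N).grp) : SL(2, ℤ)) ∈
          Gamma0 (N * ℓ) at h2
        rw [inv_inv] at h2
        exact h2
      · obtain ⟨η', hη'⟩ := exists_classOf_eq N ℓ hℓ hx
        let η₀ : (lvlGamma0 N).grp := η'
        refine ⟨QuotientGroup.mk η₀⁻¹, Finset.mem_univ _, ?_⟩
        rw [← hη']
        refine (classOf_eq_iff N ℓ hℓ).2 ?_
        have h2 := QuotientGroup.eq.1 (QuotientGroup.out_eq'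
          (QuotientGroup.mk η₀⁻¹ : RelCos (lvlGamma0 N) (lvlGamma0 (N * ℓ))))
        rw [Subgroup.mem_subgroupOf] at h2
        exact h2
    rw [← h1, eq_sub_iff_add_eq, ← Finset.sum_add_distrib]
    refine Finset.sum_congr rfl fun i _ => ?_
    rw [hh i z, periodMap_apply f hF.1 (h i) (heckePt ℓ (classOf N ℓ (η i)) z)]
    ring
  set z₀ : ℍ := UpperHalfPlane.I
  rw [periodMap_apply _ hG (wConj N γ) z₀]
  show G _ - G z₀ = _
  rw [hG', hG', sub_sub_sub_cancel_right]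
  unfold heckeChar transferFun
  have hperm : ∑ i, F (lowScale ℓ ((wConj N (η i) : SL(2, ℤ)) • z₀)) =
      ∑ i, F (lowScale ℓ ((wConj N (η (γ₀⁻¹ • i)) : SL(2, ℤ)) • z₀)) :=
    (Fintype.sum_equiv
      (MulAction.toPerm γ₀⁻¹ : Equiv.Perm (RelCos (lvlGamma0 N) (lvlGamma0 (N * ℓ))))
      (fun i => F (lowScale ℓ ((wConj N (η (γ₀⁻¹ • i)) : SL(2, ℤ)) • z₀)))
      (fun i => F (lowScale ℓ ((wConj N (η i) : SL(2, ℤ)) • z₀))) fun i => rfl).symm
  rw [hperm, ← Finset.sum_sub_distrib]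
  refine Finset.sum_congr rfl fun i _ => ?_
  set g' : Gamma0 (N * ℓ) := ⟨_, relRep_mul_mem (V' := lvlGamma0 (N * ℓ)) γ₀ i⟩
  have hle : (g' : SL(2, ℤ)) ∈ Gamma0 N := (η i * γ * (η (γ₀⁻¹ • i))⁻¹ : Gamma0 N).2
  have hmove : lowScale ℓ ((wConj N (η i) : SL(2, ℤ)) • (wConj N γ : SL(2, ℤ)) • z₀) =
      (wConj N (conjScale N ℓ g') : SL(2, ℤ)) •
        lowScale ℓ ((wConj N (η (γ₀⁻¹ • i)) : SL(2, ℤ)) • z₀) := by
    rw [← lowScale_wConj N ℓ g' hle, ← mul_smul, ← mul_smul, ← Subgroup.coe_mul,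
      ← Subgroup.coe_mul, ← map_mul, ← map_mul]
    congr 4
    show η i * γ = (η i * γ * (η (γ₀⁻¹ • i))⁻¹) * η (γ₀⁻¹ • i)
    rw [inv_mul_cancel_right]
  rw [hmove]
  exact (periodMap_apply f hF.1 (wConj N (conjScale N ℓ g'))
    (lowScale ℓ ((wConj N (η (γ₀⁻¹ • i)) : SL(2, ℤ)) • z₀))).symm

end FA.JTorsion
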