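import Fermat.Agent.JTorsion.Parabolic
import Fermat.Agent.JTorsion.Periods
import Fermat.Agent.S21

/-!
# The lattice spans the parabolic homomorphisms; periods intertwine the Hecke operators
-/

set_option autoImplicit false
set_option linter.style.haveILetI false
set_option linter.unusedSectionVars false

noncomputable section

namespace FA.JTorsion

open CongruenceSubgroup FA.Level ModularCurve ModularCurve.Period
open scoped MatrixGroups

/-- Pairs of cusp forms of weight two. -/
abbrev FormPair (N : ℕ) : Type := CuspForm (Gamma0 N) 2 × CuspForm (Gamma0 N) 2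

variable (N : ℕ) [NeZero N]

/-- The lattice inside the complex homomorphisms. -/
def toComplex : cuspLat (lvlGamma0 N) →ₗ[ℤ] (Additive (Gamma0 N) →+ ℂ) :=
  (AddMonoidHom.mk' (fun φ : cuspLat (lvlGamma0 N) =>
      ((Int.castAddHom ℂ).comp (φ : Additive (lvlGamma0 N).grp →+ ℤ) : Additive (Gamma0 N) →+ ℂ))
    fun _ _ => AddMonoidHom.comp_add _ _ _).toIntLinearMap

theorem toComplex_apply (φ : cuspLat (lvlGamma0 N)) (g : Additive (Gamma0 N)) :
    toComplex N φ g = (((φ : Additive (lvlGamma0 N).grp →+ ℤ) g : ℤ) : ℂ) := rfl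

theorem toComplex_injective : Function.Injective (toComplex N) := fun _ _ h =>
  Subtype.ext (AddMonoidHom.ext fun g => Int.cast_injective (α := ℂ) (DFunLike.congr_fun h g))

/-- Parabolic homomorphisms are combinations of integral ones. -/
theorem parabolicHoms_le_span :
    parabolicHoms ℂ (Gamma0 N) ℂ ≤ Submodule.span ℂ (Set.range (toComplex N)) := by
  classical
  intro φ hφ
  obtain ⟨c', hc'⟩ := exists_factor_cuspProj (lvlGamma0 N)
    (c := (φ : Additive (lvlGamma0 N).grp →+ ℂ)) (killsCusps_of_parabolic N (mem_parabolicHoms_iff.1 hφ))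
  let T := Submodule.torsion ℤ (CuspQuot (lvlGamma0 N))
  haveI : Finite T := Module.finite_of_fg_torsion (M := T) Submodule.torsion_isTorsion
  haveI : Module.Free ℤ (CuspQuot (lvlGamma0 N) ⧸ T) := Module.free_of_finite_type_torsion_free'
  obtain ⟨s, hs⟩ := Module.projective_lifting_property T.mkQ LinearMap.id T.mkQ_surjective
  let b := Module.Free.chooseBasis ℤ (CuspQuot (lvlGamma0 N) ⧸ T)
  haveI := Fintype.ofFinite (Module.Free.ChooseBasisIndex ℤ (CuspQuot (lvlGamma0 N) ⧸ T))
  let e : Module.Free.ChooseBasisIndex ℤ (CuspQuot (lvlGamma0 N) ⧸ T) → cuspLat (lvlGamma0 N) :=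
    fun i => ⟨((b.coord i).comp T.mkQ).toAddMonoidHom.comp (cuspProj (lvlGamma0 N)), fun δ => by
      show b.coord i (T.mkQ (cuspProj (lvlGamma0 N) _)) = 0
      rw [killsCusps_cuspProj (lvlGamma0 N) δ, map_zero, map_zero]⟩
  have hφeq : φ = ∑ i, c' (s (b i)) • toComplex N (e i) := by
    refine AddMonoidHom.ext fun g => ?_
    rw [AddMonoidHom.finsetSum_apply]
    let g' : Additive (lvlGamma0 N).grp := g
    set q := cuspProj (lvlGamma0 N) g'
    have hT : ∀ t ∈ T, c' t = 0 := fun t ht => by
      have h1 : (Nat.card T) • t = 0 :=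
        congrArg Subtype.val (card_nsmul_eq_zero' (x := (⟨t, ht⟩ : T)))
      have h2 : (Nat.card T) • c' t = 0 := by rw [← map_nsmul, h1, map_zero]
      rw [nsmul_eq_mul] at h2
      exact (mul_eq_zero.1 h2).resolve_left (Nat.cast_ne_zero.2 Nat.card_pos.ne')
    have h3 : c' (s (T.mkQ q)) = c' q := by
      rw [← sub_eq_zero, ← map_sub]
      refine hT _ ?_
      rw [← Submodule.Quotient.mk_eq_zero, ← Submodule.mkQ_apply, map_sub, sub_eq_zero]
      exact LinearMap.congr_fun hs _
    calc φ g = c' q := (hc' g').symm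
      _ = c' (s (T.mkQ q)) := h3.symm
      _ = c' (s (∑ i, b.repr (T.mkQ q) i • b i)) := by rw [b.sum_repr]
      _ = ∑ i, (c' (s (b i)) • toComplex N (e i)) g := by
        rw [map_sum, map_sum]
        refine Finset.sum_congr rfl fun i _ => ?_
        rw [map_zsmul, map_zsmul, zsmul_eq_mul, mul_comm]
        rfl
  rw [hφeq]
  exact Submodule.sum_mem _ fun i _ => Submodule.smul_mem _ _ (Submodule.subset_span ⟨e i, rfl⟩)

theorem toComplex_mem (φ : cuspLat (lvlGamma0 N)) :
    toComplex N φ ∈ parabolicHoms ℂ (Gamma0 N) ℂ :=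
  mem_parabolicHoms_iff.2 fun γ hγ => by
    exact (congrArg (Int.cast : ℤ → ℂ) (cuspLat_isParabolicHom N φ.2 γ hγ)).trans Int.cast_zero

/-- Precomposition by conjugation with `w_N`. -/
def twistW : (Additive (Gamma0 N) →+ ℂ) →ₗ[ℂ] (Additive (Gamma0 N) →+ ℂ) where
  toFun c := c.comp (MonoidHom.toAdditive (wConj N))
  map_add' _ _ := rfl
  map_smul' _ _ := rfl

theorem twistW_apply (c : Additive (Gamma0 N) →+ ℂ) (γ : Gamma0 N) :
    twistW N c (Additive.ofMul γ) = c (Additive.ofMul (wConj N γ)) := rfl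

/-- The twisted period pair. -/
def pairPeriod : FormPair N →ₗ[ℂ] (Additive (Gamma0 N) →+ ℂ) :=
  (twistW N).comp (periodHomPair N)

theorem pairPeriod_injective : Function.Injective (pairPeriod N) := by
  intro a b h
  refine (Fermat.Agent.S21.result N).1 (AddMonoidHom.ext fun g => ?_)
  have h1 := DFunLike.congr_fun h (Additive.ofMul (wConj N g.toMul))
  rw [pairPeriod, LinearMap.comp_apply, LinearMap.comp_apply, twistW_apply, twistW_apply,
    wConj_wConj] at h1
  exact h1

theorem exists_pairPeriod_eq {φ : Additive (Gamma0 N) →+ ℂ}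
    (hφ : φ ∈ parabolicHoms ℂ (Gamma0 N) ℂ) : ∃ p, pairPeriod N p = φ := by
  have h : twistW N φ ∈ parabolicHoms ℂ (Gamma0 N) ℂ := mem_parabolicHoms_iff.2 fun γ hγ => by
    rw [twistW_apply]
    exact (mem_parabolicHoms_iff.1 hφ) _ (by rw [wConj_trace]; exact hγ)
  rw [← (Fermat.Agent.S21.result N).2, LinearMap.mem_range] at h
  obtain ⟨p, hp⟩ := h
  refine ⟨p, AddMonoidHom.ext fun g => ?_⟩
  show twistW N (periodHomPair N p) (Additive.ofMul g.toMul) = _
  rw [twistW_apply, hp, twistW_apply, wConj_wConj]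
  rfl

variable (ℓ : ℕ) [NeZero ℓ] (hℓ : ℓ.Prime)

/-- The twisted period pair of transformed forms. -/
theorem pairPeriod_heckeForm (p : FormPair N) (γ : Gamma0 N) :
    pairPeriod N (heckeForm N ℓ hℓ p.1, heckeForm N ℓ hℓ p.2) (Additive.ofMul γ) =
      heckeChar N ℓ (fun x => pairPeriod N p (Additive.ofMul x)) γ := by
  obtain ⟨pml, hpml, hdef⟩ := periodHomPair_def N FA.Period.existsPeriodMapLinear
  obtain ⟨f, g⟩ := p
  have hval : ∀ (u v : CuspForm (Gamma0 N) 2) (x : Gamma0 N),
      pairPeriod N (u, v) (Additive.ofMul x) =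
        (periodMap N u (Additive.ofMul (wConj N x)) +
            periodMap N u (Additive.ofMul (wConj N (Period.jConjGamma0 N x)))) +
          (periodMap N v (Additive.ofMul (wConj N x)) -
            periodMap N v (Additive.ofMul (wConj N (Period.jConjGamma0 N x)))) := fun u v x => by
    rw [pairPeriod, LinearMap.comp_apply, twistW_apply, hdef, ← hpml, ← hpml, ← jConj_wConj]
    rfl
  have hj : ∀ u : CuspForm (Gamma0 N) 2,
      periodMap N (heckeForm N ℓ hℓ u) (Additive.ofMul (wConj N (Period.jConjGamma0 N γ))) =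
        heckeChar N ℓ (fun x => periodMap N u (Additive.ofMul (wConj N (Period.jConjGamma0 N x)))) γ :=
    fun u => by
    rw [periodMap_heckeForm N ℓ hℓ]
    exact heckeChar_jConj N ℓ ((periodMap N u).comp (MonoidHom.toAdditive (wConj N))) γ
  rw [hval, hj f, hj g, periodMap_heckeForm N ℓ hℓ f γ, periodMap_heckeForm N ℓ hℓ g γ, funext (hval f g)]
  simp only [sub_eq_add_neg]
  rw [heckeChar_add, heckeChar_add, heckeChar_add]
  congr 2
  exact map_neg (AddMonoidHom.id ℂ) _ |>.trans (by
    simp only [AddMonoidHom.id_apply]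
    exact (Finset.sum_neg_distrib _).symm)

end FA.JTorsion
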