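import Mathlib.LinearAlgebra.Dual.Lemmas
import Mathlib.LinearAlgebra.Eigenspace.Triangularizable
import Mathlib.FieldTheory.IsAlgClosed.Basic

/-!
# Burnside's theorem
-/

set_option autoImplicit false
set_option linter.style.haveILetI false

namespace FA.JTorsion

variable {k V : Type*} [Field k] [IsAlgClosed k] [AddCommGroup V] [Module k V]
  [FiniteDimensional k V]

/-- A space of endomorphisms closed under products and acting irreducibly is everything. -/
theorem eq_top_of_irreducible [Nontrivial V] (A : Submodule k (Module.End k V))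
    (hone : (1 : Module.End k V) ∈ A) (hmul : ∀ a ∈ A, ∀ b ∈ A, a * b ∈ A)
    (hirr : ∀ U : Submodule k V, (∀ a ∈ A, ∀ u ∈ U, a u ∈ U) → U = ⊥ ∨ U = ⊤) : A = ⊤ := by
  classical
  have hcyc : ∀ v : V, v ≠ 0 → ∀ w : V, ∃ a ∈ A, a v = w := by
    intro v hv w
    let U : Submodule k V := A.map (LinearMap.applyₗ v : Module.End k V →ₗ[k] V)
    rcases hirr U (by rintro a ha _ ⟨b, hb, rfl⟩; exact ⟨a * b, hmul a ha b hb, rfl⟩) with h | h
    · exact absurd ((Submodule.mem_bot k).1 (h ▸ (⟨1, hone, rfl⟩ : v ∈ U))) hv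
    · exact (h ▸ Submodule.mem_top : w ∈ U)
  let P : ℕ → Prop := fun r => ∃ T ∈ A, T ≠ 0 ∧ Module.finrank k (LinearMap.range T) = r
  have hP : ∃ r, P r := ⟨_, 1, hone, one_ne_zero, rfl⟩
  obtain ⟨T, hT, hT0, hrk⟩ := Nat.find_spec hP
  obtain ⟨x₁, hx₁⟩ : ∃ x, T x ≠ 0 := by
    by_contra h; push Not at h; exact hT0 (LinearMap.ext h)
  have hrange : ∀ x, ∃ c : k, T x = c • T x₁ := by
    intro x
    by_contra hc
    push Not at hc
    obtain ⟨S, hS, hSx⟩ := hcyc (T x₁) hx₁ x
    let R := LinearMap.range T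
    have hmaps : ∀ w ∈ R, T (S w) ∈ R := fun w _ => LinearMap.mem_range_self T (S w)
    haveI : Nontrivial R := Submodule.nontrivial_iff_ne_bot.2 fun h =>
      hx₁ ((Submodule.mem_bot k).1 (h ▸ LinearMap.mem_range_self T x₁))
    obtain ⟨c, hc'⟩ := Module.End.exists_eigenvalue (K := k) ((T.comp S).restrict hmaps)
    obtain ⟨⟨v, hv⟩, hv'⟩ := hc'.exists_hasEigenvector
    let T' : Module.End k V := T * S * T - c • T
    have hT' : T' ∈ A := A.sub_mem (hmul _ (hmul T hT S hS) T hT) (A.smul_mem c hT)
    have hne : T' ≠ 0 := fun h0 => hc c (by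
      have h1 := LinearMap.congr_fun h0 x₁
      simp only [T', LinearMap.sub_apply, Module.End.mul_apply, LinearMap.smul_apply,
        LinearMap.zero_apply, hSx, sub_eq_zero] at h1
      exact h1)
    have hTT : ∀ y, T' y = T (S (T y)) - c • T y := fun y => rfl
    have hle : LinearMap.range T' ≤ R := by
      rintro _ ⟨y, rfl⟩
      rw [hTT]
      exact R.sub_mem (LinearMap.mem_range_self T _) (R.smul_mem c (LinearMap.mem_range_self T _))
    have hlt : LinearMap.range T' < R := by
      refine lt_of_le_of_ne hle fun heq => ?_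
      let g : R →ₗ[k] R := (T.comp S).restrict hmaps - c • LinearMap.id
      have hsurj : Function.Surjective g := by
        rintro ⟨w, hw⟩
        obtain ⟨y, rfl⟩ : w ∈ LinearMap.range T' := heq.symm ▸ hw
        exact ⟨⟨T y, LinearMap.mem_range_self T y⟩, Subtype.ext rfl⟩
      refine hv'.2 (LinearMap.injective_iff_surjective.2 hsurj ?_)
      rw [map_zero]
      show (T.comp S).restrict hmaps ⟨v, hv⟩ - c • ⟨v, hv⟩ = 0
      rw [hv'.apply_eq_smul, sub_self]
    exact Nat.find_min hP ((Submodule.finrank_lt_finrank_of_lt hlt).trans_eq hrk) ⟨T', hT', hne, rfl⟩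
  choose f hf using hrange
  let φ : Module.Dual k V :=
    { toFun := f
      map_add' := fun a b => smul_left_injective k hx₁ (by
        simp only [add_smul, ← hf, map_add])
      map_smul' := fun c a => smul_left_injective k hx₁ (by
        simp only [RingHom.id_apply, smul_eq_mul, mul_smul, ← hf, map_smul]) }
  have hφ : ∀ x, T x = φ x • T x₁ := hf
  let D : Submodule k (Module.Dual k V) :=
    A.map ({ toFun := fun a => φ.comp a
             map_add' := fun a b => LinearMap.ext fun x => map_add φ (a x) (b x)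
             map_smul' := fun c a => LinearMap.ext fun x => map_smul φ c (a x) } :
      Module.End k V →ₗ[k] Module.Dual k V)
  have hD : D = ⊤ := by
    rcases hirr D.dualCoannihilator (fun a ha u hu => by
        rw [Submodule.mem_dualCoannihilator] at hu ⊢
        rintro _ ⟨b, hb, rfl⟩
        exact hu _ ⟨b * a, hmul b hb a ha, rfl⟩) with h | h
    · have h2 := Subspace.dualCoannihilator_dualAnnihilator_eq (W := D)
      rw [h, Submodule.dualAnnihilator_bot] at h2
      exact h2.symm
    · have h3 : x₁ ∈ D.dualCoannihilator := h ▸ Submodule.mem_top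
      rw [Submodule.mem_dualCoannihilator] at h3
      have h4 : φ x₁ = 0 := h3 φ ⟨1, hone, rfl⟩
      exact absurd ((hφ x₁).trans (by rw [h4, zero_smul])) hx₁
  have hone' : ∀ (ψ : Module.Dual k V) (w : V), LinearMap.smulRight ψ w ∈ A := by
    intro ψ w
    obtain ⟨a, ha, hψ⟩ : ψ ∈ D := hD ▸ Submodule.mem_top
    obtain ⟨b, hb, hw⟩ := hcyc _ hx₁ w
    have h5 : LinearMap.smulRight ψ w = b * T * a := LinearMap.ext fun x => by
      rw [Module.End.mul_apply, Module.End.mul_apply, hφ, map_smul, hw, LinearMap.smulRight_apply,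
        ← hψ]
      rfl
    rw [h5]
    exact hmul _ (hmul b hb T hT) a ha
  rw [eq_top_iff]
  intro X _
  let b := Module.Free.chooseBasis k V
  haveI := Fintype.ofFinite (Module.Free.ChooseBasisIndex k V)
  have h6 : X = ∑ i, LinearMap.smulRight (b.coord i) (X (b i)) := LinearMap.ext fun x => by
    rw [LinearMap.sum_apply]
    conv_lhs => rw [← b.sum_repr x, map_sum]
    exact Finset.sum_congr rfl fun i _ => by rw [map_smul, LinearMap.smulRight_apply, b.coord_apply]
  rw [h6]
  exact A.sum_mem fun i _ => hone' _ _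

end FA.JTorsion
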