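import Fermat.Agent.JTorsion.Surjective

/-!
# Kummer characters kill the parabolic elements `δ T^M δ⁻¹`

The root of a function with divisor divisible by `n` is, near a cusp, a power of the parameter
times an `n`-th root of a unit, hence periodic of period `M`.
-/

set_option autoImplicit false
set_option linter.style.haveILetI false
set_option linter.unusedSectionVars false
set_option synthInstance.maxHeartbeats 200000
set_option maxHeartbeats 1600000

noncomputable section

namespace FA.JTorsion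

open UpperHalfPlane hiding I
open Complex Filter Set AlgebraicCurve FA.Level ModularCurve FA.ModField
open scoped MatrixGroups Topology Manifold

/-- A function whose `n`-th power tends to a nonzero limit at `i∞` and which is multiplied by a
constant under a translation is periodic. -/
theorem eq_one_of_pow_tendsto {W : ℂ → ℂ} {A t : ℝ} {n : ℕ} (hn : n ≠ 0) {c ζ : ℂ} (hc : c ≠ 0)
    (hW : ContinuousOn W {z : ℂ | A ≤ z.im})
    (hnear : ∀ z : ℂ, A ≤ z.im → ‖W z ^ n / c - 1‖ < 1)
    (hper : ∀ z : ℂ, A ≤ z.im → W (z + (t : ℂ)) = ζ * W z) (hζ : ζ ^ n = 1) : ζ = 1 := by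
  obtain ⟨d, hd⟩ := IsAlgClosed.exists_pow_nat_eq c (Nat.pos_of_ne_zero hn)
  set S : Set ℂ := {z : ℂ | A ≤ z.im}
  have hslit : ∀ z ∈ S, W z ^ n / c ∈ Complex.slitPlane := fun z hz => by
    have h1 := hnear z hz
    have h2 := Complex.abs_re_le_norm (W z ^ n / c - 1)
    simp only [Complex.sub_re, Complex.one_re] at h2
    exact Or.inl (by have := abs_lt.1 (h2.trans_lt h1); linarith [this.1])
  set V : ℂ → ℂ := fun z => W z / (d * (W z ^ n / c) ^ ((n : ℂ)⁻¹))
  have hd0 : d ≠ 0 := fun h => hc (by rw [← hd, h, zero_pow hn])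
  have hden : ∀ z ∈ S, d * (W z ^ n / c) ^ ((n : ℂ)⁻¹) ≠ 0 := fun z hz => mul_ne_zero hd0 (by
    rw [Complex.cpow_def_of_ne_zero (Complex.slitPlane_ne_zero (hslit z hz))]
    exact Complex.exp_ne_zero _)
  have hV : ContinuousOn V S :=
    hW.div (continuousOn_const.mul (((hW.pow n).div_const c).cpow continuousOn_const
      fun z hz => hslit z hz)) hden
  have hpow : MapsTo V S ↑(Polynomial.nthRoots n (1 : ℂ)).toFinset := fun z hz => by
    rw [Finset.mem_coe, Multiset.mem_toFinset, Polynomial.mem_nthRoots (Nat.pos_of_ne_zero hn)]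
    simp only [V]
    rw [div_pow, mul_pow, hd, Complex.cpow_nat_inv_pow _ hn, mul_div_cancel₀ _ hc, div_self]
    exact fun h => Complex.slitPlane_ne_zero (hslit z hz) (by rw [h, zero_div])
  have hconn : IsPreconnected S := (convex_halfSpace_im_ge A).isPreconnected
  have hz₁ : (A : ℂ) * Complex.I ∈ S := by simp [S]
  have hz₂ : (A : ℂ) * Complex.I + (t : ℂ) ∈ S := by simp [S]
  have heq := hconn.constant_of_mapsTo (Finset.finite_toSet _).isDiscrete hV hpow hz₁ hz₂
  simp only [V] at heq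
  rw [hper _ hz₁, mul_pow, hζ, one_mul, div_eq_div_iff (hden _ hz₁) (hden _ hz₁)] at heq
  have hW0 : W ((A : ℂ) * Complex.I) ≠ 0 := fun h => by
    have := hnear _ hz₁
    rw [h, zero_pow hn, zero_div, zero_sub, norm_neg, norm_one] at this
    exact lt_irrefl _ this
  have h3 := mul_right_cancel₀ (hden _ hz₁) heq
  exact mul_right_cancel₀ hW0 (by rw [one_mul]; exact h3.symm)

theorem tendsto_qp_zero (M : ℕ) [NeZero M] : Tendsto (qp M) atImInfty (𝓝 0) := by
  have h := (Function.Periodic.qParam_tendsto (h := (M : ℝ))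
    (by exact_mod_cast Nat.pos_of_ne_zero (NeZero.ne M)))
  exact (h.mono_right nhdsWithin_le_nhds).comp UpperHalfPlane.tendsto_coe_atImInfty

/-- An expansion of order `≥ 0` tends to its constant term. -/
theorem tendsto_coeff_zero {M : ℕ} [NeZero M] {f : ℍ → ℂ} {K : LaurentSeries ℂ}
    (h : HasExp (qp M) f K) (hK : OrdGE 0 K) : Tendsto f atImInfty (𝓝 (K.coeff 0)) := by
  set K₁ : LaurentSeries ℂ := (K - HahnSeries.C (K.coeff 0)) * HahnSeries.single (-1 : ℤ) 1
  set g : ℍ → ℂ := fun z => (f z - K.coeff 0) * (qp M z)⁻¹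
  have hg : HasExp (qp M) g K₁ :=
    ((h.sub (hasExp_C _)).mul (qp_ne_zero M) (hasExp_single (-1 : ℤ) 1)).congr (funext fun z => by
      simp [g])
  have hord : OrdGE 0 K₁ := by
    intro i hi
    have hi' : i + 1 ≤ 0 := by omega
    rw [show i = (i + 1) + (-1 : ℤ) by ring, HahnSeries.coeff_mul_single_add, mul_one,
      HahnSeries.coeff_sub]
    rcases lt_or_eq_of_le hi' with h0 | h0
    · rw [hK _ h0, HahnSeries.C_apply, HahnSeries.coeff_single_of_ne h0.ne, sub_zero]
    · rw [h0, HahnSeries.C_apply, HahnSeries.coeff_single_same, sub_self]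
  have hb : IsBoundedAtImInfty g :=
    isBoundedAtImInfty_of_hasSum_qExpansion (h := (M : ℝ))
      (by exact_mod_cast Nat.pos_of_ne_zero (NeZero.ne M)) (c := fun k : ℕ => K₁.coeff k)
      fun z => by simpa [qp, smul_eq_mul] using (hasExp_iff_nat hord).1 hg z
  rw [UpperHalfPlane.isBoundedAtImInfty_iff] at hb
  obtain ⟨B, A, hB⟩ := hb
  have h0 : Tendsto (fun z => f z - K.coeff 0) atImInfty (𝓝 0) := by
    refine squeeze_zero_norm' ?_ (by simpa using ((tendsto_qp_zero M).norm.const_mul B))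
    filter_upwards [UpperHalfPlane.atImInfty_mem _ |>.2 ⟨A, fun z hz => hz⟩] with z hz
    have := hB z hz
    simp only [g, norm_mul, norm_inv] at this
    rwa [← div_eq_mul_inv, div_le_iff₀ (norm_pos_iff.2 (qp_ne_zero M z))] at this
  simpa using h0.add_const (K.coeff 0)

variable {V : Lvl} {L : Type} [Field L] [Algebra ℚ L] [Algebra L ℂ]

/-- A root in `Mer` of a function with divisor divisible by `n` is holomorphic up to a function
of `alg`. -/
theorem exists_holo_root {n : ℕ} (hn : n ≠ 0) {f : V.fld L} {x : Mer} (hx : x ^ n = theta f)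
    (hf : f ≠ 0) (hord : ∀ v : Place L (V.fld L), (n : ℤ) ∣ v.ord f) :
    ∃ (a b : V.alg L) (R : holSub), a ≠ 0 ∧ b ≠ 0 ∧ f * V.toFld L b = V.toFld L a ∧
      x * toMer (genHol b) = toMer R ∧
      ∀ z, (R : ℍ → ℂ) z ^ n = V.funHom L (a * b ^ (n - 1)) z := by
  obtain ⟨a, b, hb, hab⟩ := V.exists_fraction L f
  have ha : a ≠ 0 := fun h0 => by
    subst h0
    rw [map_zero] at hab
    exact mul_ne_zero hf ((map_ne_zero_iff _ (V.toFld_injective L)).2 hb) hab
  have hAB : a * b ^ (n - 1) ≠ 0 := mul_ne_zero ha (pow_ne_zero _ hb)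
  have hP0 : V.funHom L (a * b ^ (n - 1)) ≠ 0 :=
    fun h => hAB (V.funHom_injective L (by rw [h, map_zero]))
  obtain ⟨R, hR, hRP⟩ := exists_root (V.funHom_mem L (a * b ^ (n - 1))).1 hP0 hn (fun τ => by
    obtain ⟨c, hc⟩ := dvd_order_emb hord (pointPar V τ) 1
    have heq := congrArg (emb (pointPar V τ) 1) hab
    rw [map_mul, emb_toFld, emb_toFld] at heq
    have heq' := congrArg HahnSeries.order heq
    rw [HahnSeries.order_mul ((_root_.map_ne_zero _).2 hf) (expAt_ne_zero _ _ hb)] at heq'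
    have h3 := order_expAt_point (V := V) (L := L) (a * b ^ (n - 1)) hAB τ
    rw [show expAt (pointPar V τ) 1 (a * b ^ (n - 1)) =
      expAt (pointPar V τ) 1 a * expAt (pointPar V τ) 1 b ^ (n - 1) from by
        show expHom (pointPar V τ) 1 _ = expHom (pointPar V τ) 1 a * expHom (pointPar V τ) 1 b ^ _
        rw [map_mul, map_pow],
      HahnSeries.order_mul (expAt_ne_zero _ _ ha) (pow_ne_zero _ (expAt_ne_zero _ _ hb)),
      HahnSeries.order_pow, nsmul_eq_mul, ← heq'] at h3
    rw [← Int.natCast_dvd_natCast, ← h3]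
    refine ⟨c + (expAt (pointPar V τ) 1 b).order, ?_⟩
    rw [hc, Nat.cast_sub (Nat.pos_of_ne_zero hn)]
    push_cast
    ring)
  have hb' : toMer (genHol b) ≠ 0 := fun h0 => hb (genHol_injective (by
    rw [map_zero]; exact toMer_injective (h0.trans (map_zero _).symm)))
  have hpow : toMer (⟨R, hR⟩ : holSub) ^ n = (x * toMer (genHol b)) ^ n := by
    have h1 : theta f * toMer (genHol b) = toMer (genHol a) := by
      rw [← theta_toFld, ← theta_toFld, ← map_mul]
      exact congrArg theta hab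
    rw [show toMer (⟨R, hR⟩ : holSub) ^ n = toMer (genHol (a * b ^ (n - 1))) by
      rw [← map_pow]; exact congrArg toMer (Subtype.ext (funext hRP)),
      mul_pow, hx, map_mul, map_mul, map_pow, map_pow, ← h1, mul_assoc, ← pow_succ',
      Nat.sub_add_cancel (Nat.pos_of_ne_zero hn)]
  have hx0 : x ≠ 0 := fun h0 => by
    rw [h0, zero_pow hn] at hx
    exact hf ((map_eq_zero_iff _ theta.injective).1 hx.symm)
  have hR0 : toMer (⟨R, hR⟩ : holSub) ≠ 0 := fun h0 => by
    rw [h0, zero_pow hn, eq_comm, pow_eq_zero_iff hn] at hpow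
    exact mul_ne_zero hx0 hb' hpow
  obtain ⟨ζ, hζ, hζ'⟩ := exists_root_of_unity hn (x := x * toMer (genHol b) / toMer ⟨R, hR⟩)
    (by rw [div_pow, ← hpow, div_self (pow_ne_zero n hR0)])
  refine ⟨a, b, ⟨fun z => ζ * R z, mdifferentiable_const.mul hR⟩, ha, hb, hab, ?_, fun z => ?_⟩
  · rw [(div_eq_iff hR0).1 hζ', merC_eq, ← map_mul]
    exact congrArg toMer (Subtype.ext rfl)
  · show (ζ * R z) ^ n = _
    rw [mul_pow, hζ, one_mul, hRP]

/-- A Kummer character kills `δ T^M δ⁻¹`. -/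
theorem IsWitness.map_conj_T_pow [IsAlgClosed L] {n : ℕ} [NeZero n] {D : Divisor L (V.fld L)}
    {h : Mer} {c : V.grp → ZMod n} (H : IsWitness n D h c) (δ : SL(2, ℤ)) :
    c ⟨_, V.conj_T_pow_mem δ⟩ = 0 := by
  obtain ⟨f, hf, hD, hh⟩ := H.div
  have hn : n ≠ 0 := NeZero.ne n
  have hord : ∀ v : Place L (V.fld L), (n : ℤ) ∣ v.ord f := fun v => ⟨D v, (hD v).symm⟩
  obtain ⟨a, b, R, ha, hb, hab, hR, hRpow⟩ := exists_holo_root hn hh hf hord
  set γ : V.grp := ⟨_, V.conj_T_pow_mem δ⟩
  set ζ : ℂ := ZMod.stdAddChar (c γ)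
  have hζn : ζ ^ n = 1 := by
    rw [← AddChar.map_nsmul_eq_pow, nsmul_eq_mul, ZMod.natCast_self, zero_mul,
      AddChar.map_zero_eq_one]
  have hRγ : ∀ z, (R : ℍ → ℂ) ((γ : SL(2, ℤ)) • z) = ζ * (R : ℍ → ℂ) z := by
    have h1 := congrArg (merSL (γ : SL(2, ℤ))) hR
    rw [map_mul, H.char, show merSL (γ : SL(2, ℤ)) (toMer (genHol b)) = toMer (genHol b) by
      rw [← theta_toFld]; exact merSL_theta γ.2 _, mul_assoc, hR, merSL_toMer, merC_eq,
      ← map_mul] at h1
    exact fun z => (congrFun (congrArg Subtype.val (toMer_injective h1)) z).symm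
  set K := expAt (cuspPar V) δ (a * b ^ (n - 1))
  have hK := expAt_spec (cuspPar V) δ (a * b ^ (n - 1))
  have hKne : K ≠ 0 := expAt_ne_zero _ _ (mul_ne_zero ha (pow_ne_zero _ hb))
  obtain ⟨k, hk⟩ : (n : ℤ) ∣ K.order := by
    obtain ⟨q, hq⟩ := dvd_order_emb hord (cuspPar V) δ
    have heq := congrArg (emb (cuspPar V) δ) hab
    rw [map_mul, emb_toFld, emb_toFld] at heq
    have heq' := congrArg HahnSeries.order heq
    rw [HahnSeries.order_mul ((_root_.map_ne_zero _).2 hf) (expAt_ne_zero _ _ hb)] at heq'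
    rw [show K = expAt (cuspPar V) δ a * expAt (cuspPar V) δ b ^ (n - 1) from by
        show expHom (cuspPar V) δ _ = expHom (cuspPar V) δ a * expHom (cuspPar V) δ b ^ _
        rw [map_mul, map_pow],
      HahnSeries.order_mul (expAt_ne_zero _ _ ha) (pow_ne_zero _ (expAt_ne_zero _ _ hb)),
      HahnSeries.order_pow, nsmul_eq_mul, ← heq', hq, Nat.cast_sub (Nat.pos_of_ne_zero hn)]
    exact ⟨q + (expAt (cuspPar V) δ b).order, by push_cast; ring⟩
  set U : LaurentSeries ℂ := K * HahnSeries.single (-K.order) 1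
  have hU0 : U.coeff 0 ≠ 0 := by
    rw [show (0 : ℤ) = K.order + -K.order by ring, HahnSeries.coeff_mul_single_add, mul_one]
    exact HahnSeries.coeff_order_eq_zero.not.2 hKne
  have hUord : OrdGE 0 U := by
    intro i hi
    rw [show i = (i + K.order) + -K.order by ring, HahnSeries.coeff_mul_single_add, mul_one]
    exact HahnSeries.coeff_eq_zero_of_lt_order (by omega)
  set w : ℍ → ℂ := fun z => (R : ℍ → ℂ) (δ • z) * (qp V.M z ^ k)⁻¹
  have hwn : HasExp (qp V.M) (fun z => w z ^ n) U := by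
    refine (hK.mul (qp_ne_zero V.M) (hasExp_single (-K.order) 1)).congr (funext fun z => ?_)
    simp only [w, Pi.mul_apply, mul_pow, hRpow, one_mul, inv_pow, zpow_neg, hk]
    rw [← zpow_natCast (qp V.M z ^ k) n, ← zpow_mul, mul_comm k]
    rfl
  have hlim := tendsto_coeff_zero hwn hUord
  obtain ⟨A, hA⟩ : ∃ A : ℝ, ∀ z : ℍ, A ≤ z.im → ‖w z ^ n / U.coeff 0 - 1‖ < 1 := by
    have h1 : Tendsto (fun z => ‖w z ^ n / U.coeff 0 - 1‖) atImInfty (𝓝 0) := by
      have := ((hlim.div_const (U.coeff 0)).sub_const 1).norm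
      rwa [div_self hU0, sub_self, norm_zero] at this
    exact (UpperHalfPlane.atImInfty_mem _).1 (h1.eventually (gt_mem_nhds zero_lt_one))
  set A' := max A 1
  have hqc : ContinuousOn (qp V.M ∘ ofComplex) {z : ℂ | 0 < z.im} := by
    intro z hz
    refine (((qParam_hasDerivAt V.M z).continuousAt).congr ?_).continuousWithinAt
    filter_upwards [isOpen_upperHalfPlaneSet.mem_nhds hz] with x hx
    simp [qp, Function.comp_apply, ofComplex_apply_of_im_pos hx]
  have hsub : {z : ℂ | A' ≤ z.im} ⊆ {z : ℂ | 0 < z.im} :=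
    fun z (hz : A' ≤ z.im) => lt_of_lt_of_le one_pos ((le_max_right A 1).trans hz)
  have hWc : ContinuousOn (w ∘ ofComplex) {z : ℂ | A' ≤ z.im} := by
    refine ContinuousOn.mul
      ((UpperHalfPlane.mdifferentiable_iff.1 (mdiff_comp_smul R.2 δ)).continuousOn.mono hsub)
      ((hqc.mono hsub).zpow₀ k (fun z _ => Or.inl (qp_ne_zero V.M _)) |>.inv₀
        fun z _ => zpow_ne_zero _ (qp_ne_zero V.M _))
  have hWper : ∀ z : ℂ, A' ≤ z.im →
      (w ∘ ofComplex) (z + ((V.M : ℝ) : ℂ)) = ζ * (w ∘ ofComplex) z := by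
    intro z hz
    have hz0 : 0 < z.im := hsub hz
    have hz1 : 0 < (z + ((V.M : ℝ) : ℂ)).im := by simpa using hz0
    simp only [Function.comp_apply, ofComplex_apply_of_im_pos hz0, ofComplex_apply_of_im_pos hz1]
    have e : (⟨z + ((V.M : ℝ) : ℂ), hz1⟩ : ℍ) = ModularGroup.T ^ (V.M : ℤ) • (⟨z, hz0⟩ : ℍ) := by
      apply UpperHalfPlane.ext
      rw [ModularGroup.coe_T_zpow_smul_eq]
      simp
    have hq : qp V.M (⟨z + ((V.M : ℝ) : ℂ), hz1⟩ : ℍ) = qp V.M ⟨z, hz0⟩ := by
      simp only [qp]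
      rw [Function.Periodic.qParam, Function.Periodic.qParam, Complex.ofReal_natCast, mul_add,
        add_div, mul_div_cancel_right₀ _ (show ((V.M : ℕ) : ℂ) ≠ 0 by exact_mod_cast V.M_ne),
        Complex.exp_add, Complex.exp_two_pi_mul_I, mul_one]
    simp only [w, hq]
    rw [e, ← mul_smul, show δ * ModularGroup.T ^ (V.M : ℤ) = (γ : SL(2, ℤ)) * δ by
      show δ * _ = δ * _ * δ⁻¹ * δ
      rw [inv_mul_cancel_right], mul_smul, hRγ, mul_assoc]
  have h1 : ζ = 1 := eq_one_of_pow_tendsto hn hU0 hWc (fun z hz => by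
    simpa only [Function.comp_apply, ofComplex_apply_of_im_pos (hsub hz)] using
      hA ⟨z, hsub hz⟩ ((le_max_left A 1).trans hz)) hWper hζn
  exact ZMod.injective_stdAddChar (h1.trans (AddChar.map_zero_eq_one _).symm)

theorem kum_killsCusps [IsAlgClosed L] {n : ℕ} [NeZero n] (x : tors V L n) :
    KillsCusps V (kum V L n x) := fun δ => by
  obtain ⟨D, h, -, H⟩ := exists_witness_of_kumFun x
  exact H.map_conj_T_pow δ

theorem kum_neg_one [IsAlgClosed L] {n : ℕ} [NeZero n] (x : tors V L n) :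
    kum V L n x (Additive.ofMul ⟨-1, V.neg_one_mem⟩) = 0 := by
  obtain ⟨D, h, -, H⟩ := exists_witness_of_kumFun x
  exact H.map_neg_one

end FA.JTorsion
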