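import Fermat.Agent.JTorsion.Kummer
import Fermat.Agent.Curve.Along

/-!
# Kummer characters under pullback and pushforward between levels

Pullback along a map of function fields coming from a map `g` of the upper half plane composes the
character with the conjugation by `g`; pushforward along an inclusion of levels is the transfer.
-/

set_option autoImplicit false
set_option linter.style.haveILetI false
set_option linter.unusedSectionVars false
set_option synthInstance.maxHeartbeats 200000
set_option maxHeartbeats 1600000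

noncomputable section

namespace FA.JTorsion

open AlgebraicCurve FA.Level IntermediateField
open scoped MatrixGroups UpperHalfPlane

/-- A map of function fields of levels induced by a map of the upper half plane. -/
structure LvlMap (V V' : Lvl) (L : Type) [Field L] [Algebra ℚ L] [Algebra L ℂ] where
  /-- the map of fields -/
  φ : V.fld L →ₐ[L] V'.fld L
  /-- the map of the upper half plane -/
  g : ℍ → ℍ
  good : IsGoodMap g
  theta_φ : ∀ f, theta (φ f) = merComp good (theta f)
  /-- the map of groups -/
  c : V'.grp →* V.grp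
  c_spec : ∀ (γ : V'.grp) (z : ℍ), g ((γ : SL(2, ℤ)) • z) = (c γ : SL(2, ℤ)) • g z

/-- An inclusion of levels with its map of function fields. -/
structure LvlIncl (V V' : Lvl) (L : Type) [Field L] [Algebra ℚ L] [Algebra L ℂ] where
  /-- the inclusion of groups -/
  le : V'.grp ≤ V.grp
  /-- the map of fields -/
  φ : V.fld L →ₐ[L] V'.fld L
  theta_φ : ∀ f, theta (φ f) = theta f

variable {V V' : Lvl} {L : Type} [Field L] [Algebra ℚ L] [Algebra L ℂ]

theorem merSL_merComp (A : LvlMap V V' L) (γ : V'.grp) (x : Mer) :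
    merSL (γ : SL(2, ℤ)) (merComp A.good x) = merComp A.good (merSL (A.c γ : SL(2, ℤ)) x) := by
  have : (merSL (γ : SL(2, ℤ))).comp (merComp A.good) =
      (merComp A.good).comp (merSL (A.c γ : SL(2, ℤ))) := ringHom_mer_ext fun f => by
    simp only [RingHom.comp_apply, merSL, merComp_toMer]
    exact congrArg toMer (Subtype.ext (funext fun z => congrArg (f : ℍ → ℂ) (A.c_spec γ z)))
  exact RingHom.congr_fun this x

/-- Pullback of a witness. -/
theorem IsWitness.pullback [HasPrincipalDivisors L (V'.fld L)] (A : LvlMap V V' L)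
    (hint : A.φ.toRingHom.IsIntegral) {n : ℕ} [NeZero n] {D : Divisor L (V.fld L)} {h : Mer}
    {c : V.grp → ZMod n} (H : IsWitness n D h c) :
    IsWitness n (Divisor.pullbackAlong A.φ hint D) (merComp A.good h) fun γ => c (A.c γ) := by
  obtain ⟨f, hf, hD, hh⟩ := H.div
  refine ⟨(map_ne_zero _).2 H.ne,
    ⟨A.φ f, (map_ne_zero_iff _ A.φ.toRingHom.injective).2 hf, fun w => ?_, ?_⟩, fun γ => ?_⟩
  · rw [Divisor.pullbackAlong_apply, Place.ord_restrictAlong A.φ hint, ← hD]
    ring
  · rw [← map_pow, hh, A.theta_φ]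
  · rw [merSL_merComp, H.char, map_mul, merComp_merC]

/-! ### The norm as a product of conjugates -/

variable (V V')

/-- The cosets of the smaller level in the larger one. -/
abbrev RelCos : Type := V.grp ⧸ V'.grp.subgroupOf V.grp

instance relFiniteIndex : (V'.grp.subgroupOf V.grp).FiniteIndex := by
  haveI := V'.finiteIndex
  infer_instance

instance relFintype : Fintype (RelCos V V') :=
  @Fintype.ofFinite _ (Subgroup.finite_quotient_of_finiteIndex)

variable {V V'}

/-- The representative `η_i` of a right coset. -/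
def relRep (i : RelCos V V') : V.grp := (Quotient.out i)⁻¹

theorem relRep_mul_mem (γ : V.grp) (i : RelCos V V') :
    ((relRep i * γ * (relRep (γ⁻¹ • i))⁻¹ : V.grp) : SL(2, ℤ)) ∈ V'.grp := by
  rw [← Subgroup.mem_subgroupOf]
  have h : (QuotientGroup.mk (γ⁻¹ * Quotient.out i) : RelCos V V') = γ⁻¹ • i := by
    conv_rhs => rw [← QuotientGroup.out_eq' i]
    rfl
  have h2 := h.trans (QuotientGroup.out_eq' (γ⁻¹ • i)).symm
  rw [QuotientGroup.eq] at h2
  simpa [relRep, mul_assoc] using h2

/-- The transfer. -/
def transferFun {A : Type*} [AddCommMonoid A] (c : V'.grp → A) (γ : V.grp) : A :=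
  ∑ i : RelCos V V', c ⟨_, relRep_mul_mem γ i⟩

/-- Restriction of a field element by a coset representative. -/
def conjEmb (i : RelCos V V') : V'.fld L →+* Mer :=
  (merSL (relRep i : SL(2, ℤ))).comp theta

theorem conjEmb_injective :
    Function.Injective fun i : RelCos V V' => conjEmb (L := L) i := by
  intro i j h
  have h1 : conjEmb i (V'.sepF L) = conjEmb j (V'.sepF L) := RingHom.congr_fun h _
  simp only [conjEmb, RingHom.comp_apply, Lvl.sepF, theta_toFld, merSL_toMer] at h1
  have h2 := congrArg Subtype.val (toMer_injective h1)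
  have h3 : ((relRep j * (relRep i)⁻¹ : V.grp) : SL(2, ℤ)) ∈ V'.grp := by
    refine V'.sep_spec _ fun z => ?_
    have h4 := congrFun h2 ((relRep i : SL(2, ℤ))⁻¹ • z)
    change V'.funHom L (V'.sepA L) _ = V'.funHom L (V'.sepA L) _ at h4
    rw [V'.funHom_sepA, smul_inv_smul] at h4
    rw [Subgroup.coe_mul, Subgroup.coe_inv, mul_smul]
    exact h4.symm
  rw [← Subgroup.mem_subgroupOf] at h3
  have h4 : (QuotientGroup.mk (Quotient.out j) : RelCos V V') =
      QuotientGroup.mk (Quotient.out i) := by
    rw [QuotientGroup.eq]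
    simpa [relRep, mul_inv_rev, mul_assoc] using (inv_mem (inv_mem h3))
  rw [QuotientGroup.out_eq', QuotientGroup.out_eq'] at h4
  exact h4.symm

theorem addChar_sum {ι A R : Type*} [AddCommMonoid A] [CommMonoid R] (ψ : AddChar A R)
    (s : Finset ι) (a : ι → A) : ψ (∑ i ∈ s, a i) = ∏ i ∈ s, ψ (a i) := by
  classical
  induction s using Finset.induction with
  | empty => simp
  | @insert i s hi ih => rw [Finset.sum_insert hi, Finset.prod_insert hi, AddChar.map_add_eq_mul, ih]

theorem LvlIncl.φ_jF (A : LvlIncl V V' L) : A.φ (V.jF L) = V'.jF L := by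
  refine theta.injective ?_
  rw [A.theta_φ, Lvl.jF, Lvl.jF, theta_toFld, theta_toFld]
  exact congrArg toMer (Subtype.ext ((V.funHom_jA L).trans (V'.funHom_jA L).symm))

theorem LvlIncl.finrank [IsAlgClosed L] (A : LvlIncl V V' L) :
    letI := algebraAlong A.φ
    Module.finrank (V.fld L) (V'.fld L) = Fintype.card (RelCos V V') := by
  letI := algebraAlong A.φ
  haveI := isScalarTower_along A.φ
  haveI : Module.Finite (V.fld L) (V'.fld L) :=
    FA.Curve.finiteAlong (V.isFunctionField L) (V'.isFunctionField L) A.φ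
  have h := FA.Curve.finrank_adjoin_algebraMap (K := L) (F' := V'.fld L) (V.jF L)
  rw [show algebraMap (V.fld L) (V'.fld L) (V.jF L) = V'.jF L from A.φ_jF] at h
  rw [show Module.finrank L⟮V.jF L⟯ (V.fld L) = Fintype.card V.Cos from V.finrank_jFld L,
    show Module.finrank L⟮V'.jF L⟯ (V'.fld L) = Fintype.card V'.Cos from V'.finrank_jFld L] at h
  have h2 := Subgroup.relIndex_mul_index A.le
  rw [Subgroup.index_eq_card, Subgroup.index_eq_card, Nat.card_eq_fintype_card,
    Nat.card_eq_fintype_card] at h2
  have h3 : V'.grp.relIndex V.grp = Fintype.card (RelCos V V') := by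
    rw [Subgroup.relIndex, Subgroup.index_eq_card, Nat.card_eq_fintype_card]
  rw [h3] at h2
  refine mul_left_cancel₀ (b := Module.finrank (V.fld L) (V'.fld L))
    (Fintype.card_ne_zero (α := V.Cos)) ?_
  rw [← h, ← h2, mul_comm]

/-- The norm is the product of the conjugates. -/
theorem LvlIncl.theta_norm [IsAlgClosed L] (A : LvlIncl V V' L) (f : V'.fld L) :
    letI := algebraAlong A.φ
    theta (Algebra.norm (V.fld L) f) =
      ∏ i : RelCos V V', merSL (relRep i : SL(2, ℤ)) (theta f) := by
  classical
  letI := algebraAlong A.φ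
  haveI := isScalarTower_along A.φ
  haveI : Module.Finite (V.fld L) (V'.fld L) :=
    FA.Curve.finiteAlong (V.isFunctionField L) (V'.isFunctionField L) A.φ
  haveI : CharZero L := charZero_of_injective_algebraMap (algebraMap ℚ L).injective
  haveI : CharZero (V.fld L) :=
    charZero_of_injective_algebraMap (algebraMap L (V.fld L)).injective
  letI : Algebra (V.fld L) Mer := (theta (V := V) (L := L)).toAlgebra
  let E := AlgebraicClosure Mer
  let emb : RelCos V V' → V'.fld L →ₐ[V.fld L] E := fun i =>
    { (algebraMap Mer E).comp (conjEmb i) with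
      commutes' := fun x => by
        show algebraMap Mer E (merSL (relRep i : SL(2, ℤ)) (theta (A.φ x))) =
          algebraMap (V.fld L) E x
        rw [A.theta_φ, merSL_theta (relRep i).2, IsScalarTower.algebraMap_apply (V.fld L) Mer E]
        rfl }
  have hinj : Function.Injective emb := fun i j h => conjEmb_injective
    (RingHom.ext fun x => (algebraMap Mer E).injective (AlgHom.congr_fun h x))
  have hbij : Function.Bijective emb := (Fintype.bijective_iff_injective_and_card emb).2
    ⟨hinj, by rw [AlgHom.card, A.finrank]⟩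
  apply (algebraMap Mer E).injective
  rw [show algebraMap Mer E (theta (Algebra.norm (V.fld L) f)) =
      algebraMap (V.fld L) E (Algebra.norm (V.fld L) f) from
    (IsScalarTower.algebraMap_apply (V.fld L) Mer E _).symm,
    Algebra.norm_eq_prod_embeddings, map_prod]
  exact (Fintype.prod_bijective emb hbij _ _ fun i => rfl).symm

/-- Pushforward of a witness along an inclusion of levels is the transfer. -/
theorem IsWitness.pushforward [IsAlgClosed L] (A : LvlIncl V V' L)
    (hint : A.φ.toRingHom.IsIntegral) {n : ℕ} [NeZero n] {D : Divisor L (V'.fld L)} {h : Mer}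
    {c : V'.grp → ZMod n} (H : IsWitness n D h c) :
    IsWitness n (Divisor.pushforwardAlong A.φ hint D)
      (∏ i : RelCos V V', merSL (relRep i : SL(2, ℤ)) h) (transferFun c) := by
  classical
  obtain ⟨f, hf, hD, hh⟩ := H.div
  refine ⟨Finset.prod_ne_zero_iff.2 fun i _ => (map_ne_zero _).2 H.ne, ?_, fun γ => ?_⟩
  · letI := algebraAlong A.φ
    haveI := isScalarTower_along A.φ
    haveI : Module.Finite (V.fld L) (V'.fld L) :=
      FA.Curve.finiteAlong (V.isFunctionField L) (V'.isFunctionField L) A.φ
    have hnorm := FA.Curve.normFormulaAlong (V.isFunctionField L) (V'.isFunctionField L) A.φ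
      (FA.Curve.finiteAlong (V.isFunctionField L) (V'.isFunctionField L) A.φ)
    refine ⟨Algebra.norm (V.fld L) f, Algebra.norm_ne_zero_iff.2 hf, fun v => ?_, ?_⟩
    · have h1 := hnorm f hf ((n : ℤ) • D) (fun w => by
        rw [Finsupp.smul_apply, smul_eq_mul, hD w]) v
      rw [← h1, map_zsmul, Finsupp.smul_apply, smul_eq_mul]
      rfl
    · rw [A.theta_norm, ← Finset.prod_pow]
      exact Finset.prod_congr rfl fun i _ => by rw [← map_pow, hh]
  · rw [map_prod]
    have hstep : ∀ i : RelCos V V', merSL (γ : SL(2, ℤ)) (merSL (relRep i : SL(2, ℤ)) h) =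
        merC (ZMod.stdAddChar (c ⟨_, relRep_mul_mem γ i⟩)) *
          merSL (relRep (γ⁻¹ • i) : SL(2, ℤ)) h := by
      intro i
      rw [← merSL_mul, ← Subgroup.coe_mul]
      have h1 : relRep i * γ =
          (relRep i * γ * (relRep (γ⁻¹ • i))⁻¹) * relRep (γ⁻¹ • i) := by rw [inv_mul_cancel_right]
      rw [congrArg (fun x : V.grp => (x : SL(2, ℤ))) h1, Subgroup.coe_mul, merSL_mul,
        H.char ⟨_, relRep_mul_mem γ i⟩, map_mul]
      congr 1
      exact merComp_merC _ _
    rw [Finset.prod_congr rfl fun i _ => hstep i, Finset.prod_mul_distrib,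
      Fintype.prod_equiv (MulAction.toPerm γ⁻¹ : Equiv.Perm (RelCos V V'))
        (fun i => merSL (relRep (γ⁻¹ • i) : SL(2, ℤ)) h)
        (fun i => merSL (relRep i : SL(2, ℤ)) h) (fun i => rfl), ← map_prod, transferFun,
      addChar_sum]

/-- The correspondence `φ_* ∘ ψ^*` on Kummer characters. -/
theorem kumFun_correspondence [IsAlgClosed L] [HasPrincipalDivisors L (V'.fld L)]
    (A : LvlIncl V V' L) (B : LvlMap V V' L) (hA : A.φ.toRingHom.IsIntegral)
    (hB : B.φ.toRingHom.IsIntegral) (hFI : FundamentalIdentityAlong L B.φ hB)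
    (hfin : FiniteAlong L A.φ) (hN : NormFormulaAlong L A.φ hfin) {n : ℕ} [NeZero n]
    (x : tors V L n)
    (hy : Pic0.correspondence B.φ A.φ hB hA hFI hfin hN (x : Pic0 L (V.fld L)) ∈ tors V L n) :
    kumFun (⟨_, hy⟩ : tors V L n) = transferFun fun γ => kumFun x (B.c γ) := by
  obtain ⟨D, h, hD, H⟩ := exists_witness_of_kumFun x
  refine kumFun_eq (x := ⟨_, hy⟩)
    (D := Pic0.degZeroCorrespondence B.φ A.φ hB hA hFI D) ?_ ((H.pullback B hB).pushforward A hA)
  rw [← Pic0.correspondence_mk B.φ A.φ hB hA hFI hfin hN D, hD]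

theorem map_mem_tors {V' : Lvl} (T : Pic0 L (V.fld L) →+ Pic0 L (V'.fld L)) {n : ℕ}
    (x : tors V L n) : T x ∈ tors V' L n := by
  rw [Pic0.mem_torsion, ← map_zsmul, Pic0.mem_torsion.1 x.2, map_zero]

/-- A homomorphism restricted to the torsion. -/
def torsMap {V' : Lvl} (T : Pic0 L (V.fld L) →+ Pic0 L (V'.fld L)) (n : ℕ) :
    tors V L n →+ tors V' L n :=
  (T.comp (tors V L n).subtype).codRestrict _ (map_mem_tors T)

end FA.JTorsion
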