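import Fermat.Agent.JTorsion.Functorial
import Fermat.Agent.Level.Gamma0
import Fermat.Agent.Level.Ext
import Fermat.Prelude.Def_ModularCurve_HeckeModule

/-!
# The Hecke operators of `J₀(N)` on Kummer characters

`T_ℓ = α_* β^*` acts as the transfer from `Γ₀(Nℓ)` of `γ ↦ χ (diag(ℓ,1) γ diag(ℓ,1)⁻¹)`.
-/

set_option autoImplicit false
set_option linter.style.haveILetI false
set_option linter.unusedSectionVars false
set_option synthInstance.maxHeartbeats 200000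
set_option maxHeartbeats 1600000

noncomputable section

namespace FA.JTorsion

open UpperHalfPlane hiding I
open AlgebraicCurve FA.Level ModularCurve CongruenceSubgroup FA.ModField
open scoped MatrixGroups

variable (N ℓ : ℕ) [NeZero N] [NeZero ℓ]

/-- `γ ↦ diag(ℓ,1) γ diag(ℓ,1)⁻¹` from `Γ₀(Nℓ)` to `Γ₀(N)`. -/
def conjScale : Gamma0 (N * ℓ) →* Gamma0 N where
  toFun γ := ⟨⟨!![(γ : SL(2, ℤ)) 0 0, (ℓ : ℤ) * (γ : SL(2, ℤ)) 0 1;
      (γ : SL(2, ℤ)) 1 0 / (ℓ : ℤ), (γ : SL(2, ℤ)) 1 1], by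
        have hdet : (γ : SL(2, ℤ)) 0 0 * (γ : SL(2, ℤ)) 1 1 -
            (γ : SL(2, ℤ)) 0 1 * (γ : SL(2, ℤ)) 1 0 = 1 := by
          rw [← Matrix.det_fin_two]; exact (γ : SL(2, ℤ)).2
        have hd : (ℓ : ℤ) ∣ (γ : SL(2, ℤ)) 1 0 :=
          (dvd_mul_left (ℓ : ℤ) N).trans (by
            exact_mod_cast (ZMod.intCast_zmod_eq_zero_iff_dvd _ (N * ℓ)).1 (Gamma0_mem.1 γ.2))
        rw [Matrix.det_fin_two_of, mul_comm ((ℓ : ℤ)) _, mul_assoc, Int.mul_ediv_cancel' hd]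
        exact hdet⟩, by
    rw [Gamma0_mem, ZMod.intCast_zmod_eq_zero_iff_dvd]
    show (N : ℤ) ∣ (γ : SL(2, ℤ)) 1 0 / (ℓ : ℤ)
    refine Int.dvd_ediv_of_mul_dvd ?_
    rw [mul_comm]
    exact_mod_cast (ZMod.intCast_zmod_eq_zero_iff_dvd _ (N * ℓ)).1 (Gamma0_mem.1 γ.2)⟩
  map_one' := by
    refine Subtype.ext (Subtype.ext ?_)
    ext i j
    fin_cases i <;> fin_cases j <;> simp
  map_mul' γ δ := by
    refine Subtype.ext (Subtype.ext ?_)
    have hd : ∀ x : Gamma0 (N * ℓ), (ℓ : ℤ) ∣ (x : SL(2, ℤ)) 1 0 := fun x =>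
      (dvd_mul_left (ℓ : ℤ) N).trans (by
        exact_mod_cast (ZMod.intCast_zmod_eq_zero_iff_dvd _ (N * ℓ)).1 (Gamma0_mem.1 x.2))
    obtain ⟨c, hc⟩ := hd γ
    obtain ⟨c', hc'⟩ := hd δ
    have hl : (ℓ : ℤ) ≠ 0 := Int.natCast_ne_zero.2 (NeZero.ne ℓ)
    have hq : ∀ x : Gamma0 (N * ℓ), ∀ e : ℤ, (x : SL(2, ℤ)) 1 0 = (ℓ : ℤ) * e →
        (x : SL(2, ℤ)) 1 0 / (ℓ : ℤ) = e := fun x e he => by
      rw [he, Int.mul_ediv_cancel_left _ hl]
    have hcd : ((γ * δ : Gamma0 (N * ℓ)) : SL(2, ℤ)) 1 0 =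
        (ℓ : ℤ) * (c * (δ : SL(2, ℤ)) 0 0 + (γ : SL(2, ℤ)) 1 1 * c') := by
      simp [Matrix.mul_apply, Fin.sum_univ_two, hc, hc']
      ring
    show (!![((γ * δ : Gamma0 (N * ℓ)) : SL(2, ℤ)) 0 0,
        (ℓ : ℤ) * ((γ * δ : Gamma0 (N * ℓ)) : SL(2, ℤ)) 0 1;
        ((γ * δ : Gamma0 (N * ℓ)) : SL(2, ℤ)) 1 0 / (ℓ : ℤ),
        ((γ * δ : Gamma0 (N * ℓ)) : SL(2, ℤ)) 1 1] : Matrix (Fin 2) (Fin 2) ℤ) =
      !![(γ : SL(2, ℤ)) 0 0, (ℓ : ℤ) * (γ : SL(2, ℤ)) 0 1; (γ : SL(2, ℤ)) 1 0 / (ℓ : ℤ),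
          (γ : SL(2, ℤ)) 1 1] *
        !![(δ : SL(2, ℤ)) 0 0, (ℓ : ℤ) * (δ : SL(2, ℤ)) 0 1; (δ : SL(2, ℤ)) 1 0 / (ℓ : ℤ),
          (δ : SL(2, ℤ)) 1 1]
    rw [hq _ _ hcd, hq γ c hc, hq δ c' hc']
    ext i j
    fin_cases i <;> fin_cases j <;> simp [Matrix.mul_apply, Fin.sum_univ_two, hc, hc'] <;> ring

theorem scaleH_conjScale (γ : Gamma0 (N * ℓ)) (z : ℍ) :
    scaleH ℓ ((γ : SL(2, ℤ)) • z) = (conjScale N ℓ γ : SL(2, ℤ)) • scaleH ℓ z := by
  have hd : (ℓ : ℤ) ∣ (γ : SL(2, ℤ)) 1 0 := (dvd_mul_left (ℓ : ℤ) N).trans (by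
    exact_mod_cast (ZMod.intCast_zmod_eq_zero_iff_dvd _ (N * ℓ)).1 (Gamma0_mem.1 γ.2))
  obtain ⟨c, hc⟩ := hd
  apply UpperHalfPlane.ext
  rw [coe_scaleH, UpperHalfPlane.coe_specialLinearGroup_apply,
    UpperHalfPlane.coe_specialLinearGroup_apply, coe_scaleH]
  have hl : (ℓ : ℤ) ≠ 0 := Int.natCast_ne_zero.2 (NeZero.ne ℓ)
  simp [conjScale, hc, Int.mul_ediv_cancel_left _ hl]
  ring

/-- `α` typed at the levels. -/
def alphaHom (L : Type) [Field L] [Algebra ℚ L] :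
    (lvlGamma0 N).fld L →ₐ[L] (lvlGamma0 (N * ℓ)).fld L := heckeAlphaBar L N ℓ

theorem coe_alphaHom (L : Type) [Field L] [Algebra ℚ L] (x : (lvlGamma0 N).fld L) :
    (alphaHom N ℓ L x : LaurentSeries L) = (x : LaurentSeries L) :=
  coe_heckeAlphaBar N ℓ x

/-- `β` typed at the levels. -/
def betaHom (L : Type) [Field L] [Algebra ℚ L] :
    (lvlGamma0 N).fld L →ₐ[L] (lvlGamma0 (N * ℓ)).fld L := heckeBetaBar L N ℓ

theorem coe_betaHom (L : Type) [Field L] [Algebra ℚ L] (x : (lvlGamma0 N).fld L) :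
    (betaHom N ℓ L x : LaurentSeries L) = qExpand L ℓ (x : LaurentSeries L) :=
  coe_heckeBetaBar N ℓ x

/-- The inclusion `α`. -/
def alphaIncl (L : Type) [Field L] [Algebra ℚ L] [Algebra L ℂ] :
    LvlIncl (lvlGamma0 N) (lvlGamma0 (N * ℓ)) L where
  le := fun γ hγ => by
    rw [show (lvlGamma0 N).grp = Gamma0 N from rfl, Gamma0_mem,
      ZMod.intCast_zmod_eq_zero_iff_dvd]
    exact (Int.natCast_dvd_natCast.2 (dvd_mul_right N ℓ)).trans
      ((ZMod.intCast_zmod_eq_zero_iff_dvd _ _).1 (Gamma0_mem.1 hγ))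
  φ := alphaHom N ℓ L
  theta_φ := fun f => by
    refine RingHom.congr_fun (fld_ringHom_ext (V := lvlGamma0 N)
      (σ := (theta (V := lvlGamma0 (N * ℓ))).comp (alphaHom N ℓ L).toRingHom)
      (τ := theta) ?_ ?_) f
    · intro c
      show theta ((alphaHom N ℓ L) (algebraMap L ((lvlGamma0 N).fld L) c)) = _
      rw [AlgHom.commutes, theta_algebraMap, theta_algebraMap]
    · intro x a ha hx
      obtain ⟨d, hd0, hd, rfl⟩ := ha
      haveI := hd0
      have hexp : HasExp (qp 1) (fun z => jfun (scaleH d z))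
          (coeffMap (algebraMap L ℂ) (x : LaurentSeries L)) := by
        rw [hx, Lvl.coeffMap_coeffEmb_complex, coeffMap_gen_rat]
        exact hasExp_scale d
      show theta ((alphaHom N ℓ L) x) = theta x
      rw [theta_eq_of_series (V := lvlGamma0 N) (R := ⟨_, mdiff_jfun_scale d⟩)
          (scale_mem_modFuns N d hd) hexp,
        theta_eq_of_series (V := lvlGamma0 (N * ℓ)) (R := ⟨_, mdiff_jfun_scale d⟩)
          (scale_mem_modFuns (N * ℓ) d (hd.trans (dvd_mul_right N ℓ)))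
          (by rw [coe_alphaHom]; exact hexp)]

/-- The map `β`. -/
def betaMap (L : Type) [Field L] [Algebra ℚ L] [Algebra L ℂ] :
    LvlMap (lvlGamma0 N) (lvlGamma0 (N * ℓ)) L where
  φ := betaHom N ℓ L
  g := scaleH ℓ
  good := isGoodMap_scale ℓ
  theta_φ := fun f => by
    refine RingHom.congr_fun (fld_ringHom_ext (V := lvlGamma0 N)
      (σ := (theta (V := lvlGamma0 (N * ℓ))).comp (betaHom N ℓ L).toRingHom)
      (τ := (merComp (isGoodMap_scale ℓ)).comp theta) ?_ ?_) f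
    · intro c
      show theta ((betaHom N ℓ L) (algebraMap L ((lvlGamma0 N).fld L) c)) = merComp _ _
      rw [AlgHom.commutes, theta_algebraMap, theta_algebraMap, merComp_merC]
    · intro x a ha hx
      obtain ⟨d, hd0, hd, rfl⟩ := ha
      haveI := hd0
      haveI : NeZero (ℓ * d) := ⟨Nat.mul_ne_zero (NeZero.ne ℓ) (NeZero.ne d)⟩
      have hexp : HasExp (qp 1) (fun z => jfun (scaleH d z))
          (coeffMap (algebraMap L ℂ) (x : LaurentSeries L)) := by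
        rw [hx, Lvl.coeffMap_coeffEmb_complex, coeffMap_gen_rat]
        exact hasExp_scale d
      show theta ((betaHom N ℓ L) x) = merComp _ (theta x)
      rw [theta_eq_of_series (V := lvlGamma0 N) (R := ⟨_, mdiff_jfun_scale d⟩)
          (scale_mem_modFuns N d hd) hexp, merComp_toMer]
      refine (theta_eq_of_series (V := lvlGamma0 (N * ℓ)) (R := ⟨_, mdiff_jfun_scale (ℓ * d)⟩)
        (scale_mem_modFuns (N * ℓ) (ℓ * d)
          ((mul_dvd_mul_left ℓ hd).trans (dvd_of_eq (mul_comm ℓ N)))) ?_).trans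
        (congrArg toMer (Subtype.ext (funext fun z => congrArg jfun (UpperHalfPlane.ext ?_))))
      · rw [coe_betaHom, hx, coeffEmb, coeffMap_qExpand, coeffMap_qExpand,
          coeffMap_qExpand, qExpand_qExpand, ← jqModC_rat, coeffMap_jqModC, coeffMap_jqModC]
        exact hasExp_scale _
      · simp only [coe_scaleH]
        push_cast
        ring
  c := conjScale N ℓ
  c_spec := scaleH_conjScale N ℓ

variable [Algebra (AlgebraicClosure ℚ) ℂ]

theorem heckeInputs : HeckeInputsAlong (AlgebraicClosure ℚ) N ℓ := by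
  have h1 := (lvlGamma0 N).isFunctionField (AlgebraicClosure ℚ)
  have h2 := (lvlGamma0 (N * ℓ)).isFunctionField (AlgebraicClosure ℚ)
  haveI hP : HasPrincipalDivisors (AlgebraicClosure ℚ)
      (laurentBaseChange (AlgebraicClosure ℚ) (modularFunctionFieldFull (N * ℓ))) :=
    FA.Curve.hasPrincipalDivisors h2
  haveI : HasPrincipalDivisors (AlgebraicClosure ℚ)
      ((lvlGamma0 (N * ℓ)).fld (AlgebraicClosure ℚ)) := hP
  exact heckeInputsAlong_intro (FA.Curve.isIntegral_toRingHom h1 h2 _)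
    (FA.Curve.isIntegral_toRingHom h1 h2 _) (FA.Curve.fundamentalIdentityAlong h1 h2 _ _)
    (FA.Curve.finiteAlong h1 h2 _) (FA.Curve.normFormulaAlong h1 h2 _ _)

/-- The operator on characters. -/
def heckeChar {A : Type*} [AddCommMonoid A] (c : Gamma0 N → A) : Gamma0 N → A :=
  transferFun (V := lvlGamma0 N) (V' := lvlGamma0 (N * ℓ)) fun γ => c (conjScale N ℓ γ)

/-- The Kummer character of `T_ℓ x`. -/
theorem kumFun_heckeOperatorAlong {n : ℕ} [NeZero n]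
    (x : tors (lvlGamma0 N) (AlgebraicClosure ℚ) n)
    (hy : heckeOperatorAlong (AlgebraicClosure ℚ) N ℓ
      (x : Pic0 (AlgebraicClosure ℚ) ((lvlGamma0 N).fld (AlgebraicClosure ℚ))) ∈
      tors (lvlGamma0 N) (AlgebraicClosure ℚ) n) :
    kumFun (⟨_, hy⟩ : tors (lvlGamma0 N) (AlgebraicClosure ℚ) n) =
      heckeChar N ℓ (kumFun x) := by
  obtain ⟨hα, hβ, hP, hfin, hFI, hN⟩ := heckeInputs N ℓ
  haveI := hP
  haveI : HasPrincipalDivisors (AlgebraicClosure ℚ)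
      ((lvlGamma0 (N * ℓ)).fld (AlgebraicClosure ℚ)) := hP
  have heq := heckeOperatorAlong_eq hα hβ hFI hfin hN
  have hy' : Pic0.correspondence (betaMap N ℓ (AlgebraicClosure ℚ)).φ
      (alphaIncl N ℓ (AlgebraicClosure ℚ)).φ hβ hα hFI hfin hN
      (x : Pic0 (AlgebraicClosure ℚ) ((lvlGamma0 N).fld (AlgebraicClosure ℚ))) ∈
      tors (lvlGamma0 N) (AlgebraicClosure ℚ) n := by
    have h := hy
    rw [heq] at h
    exact h
  refine (congrArg kumFun (Subtype.ext ?_)).trans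
    (kumFun_correspondence (alphaIncl N ℓ (AlgebraicClosure ℚ))
      (betaMap N ℓ (AlgebraicClosure ℚ)) hα hβ hFI hfin hN x hy')
  show heckeOperatorAlong (AlgebraicClosure ℚ) N ℓ _ = _
  rw [heq]
  rfl

end FA.JTorsion
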