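import Mathlib.LinearAlgebra.FreeModule.PID
import Mathlib.LinearAlgebra.Matrix.Adjugate
import Mathlib.LinearAlgebra.Dimension.Free
import Mathlib.RingTheory.DiscreteValuationRing.Basic
import Mathlib.LinearAlgebra.Matrix.NonsingularInverse
import Mathlib.LinearAlgebra.Dimension.StrongRankCondition

/-!
# An integral model of a projectively multiplicative family of matrices
-/

set_option autoImplicit false
set_option linter.style.haveILetI false
set_option linter.unusedSectionVars false

noncomputable section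

namespace FA.JTorsion

open IsLocalRing Matrix

variable {R : Type} [CommRing R] [IsDomain R] [IsDiscreteValuationRing R] {G : Type} [Monoid G]

/-- Multiplication by a matrix does not leave the powers of an ideal. -/
theorem matrix_mul_mem {ι : Type*} [Fintype ι] (I : Ideal R) {A : Matrix ι ι R}
    (hA : ∀ i j, A i j ∈ I) (B C : Matrix ι ι R) (i j : ι) : (B * A * C) i j ∈ I := by
  simp only [Matrix.mul_apply, Finset.sum_mul]
  exact I.sum_mem fun a _ => I.sum_mem fun b _ => I.mul_mem_right _ (I.mul_mem_left _ (hA b a))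

/-- If `c⁻¹ Φ` is multiplicative, it is conjugate to an integral representation. -/
theorem exists_integral_model (c : R) (hc : c ≠ 0) (Φ : G → Matrix (Fin 2) (Fin 2) R)
    (hone : Φ 1 = c • 1) (hmul : ∀ g h, Φ g * Φ h = c • Φ (g * h)) :
    ∃ r : G →* Matrix (Fin 2) (Fin 2) R, (∀ g, c * (r g).trace = (Φ g).trace ∧
        c ^ 2 * (r g).det = (Φ g).det ∧ (Φ g = c • 1 → r g = 1)) ∧
      ∃ v : ℕ, ∀ g n, (∀ i j, (Φ g - Φ 1) i j ∈ maximalIdeal R ^ (n + v)) →
        ∀ i j, (r g - 1) i j ∈ maximalIdeal R ^ n := by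
  classical
  let W : Submodule R (Fin 2 → R) :=
    Submodule.span R (Set.range fun gk : G × Fin 2 => fun a => Φ gk.1 a gk.2)
  have hW : ∀ g, ∀ w ∈ W, ∃ w' ∈ W, Φ g *ᵥ w = c • w' := by
    intro g w hw
    induction hw using Submodule.span_induction with
    | mem x hx =>
      obtain ⟨⟨h, k⟩, rfl⟩ := hx
      refine ⟨fun a => Φ (g * h) a k, Submodule.subset_span ⟨(g * h, k), rfl⟩, funext fun a => ?_⟩
      have h' := congrFun (congrFun (hmul g h) a) k
      simpa [Matrix.mulVec, dotProduct, Matrix.mul_apply] using h'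
    | zero => exact ⟨0, W.zero_mem, by rw [Matrix.mulVec_zero, smul_zero]⟩
    | add x y _ _ hx hy =>
      obtain ⟨x', hx', ex⟩ := hx
      obtain ⟨y', hy', ey⟩ := hy
      exact ⟨x' + y', W.add_mem hx' hy', by rw [Matrix.mulVec_add, ex, ey, smul_add]⟩
    | smul a x _ hx =>
      obtain ⟨x', hx', ex⟩ := hx
      exact ⟨a • x', W.smul_mem a hx', by rw [Matrix.mulVec_smul, ex, smul_comm]⟩
  have hcW : ∀ x : Fin 2 → R, c • x ∈ W := by
    have h1 : ∀ k, (fun a => Φ 1 a k) ∈ W := fun k => Submodule.subset_span ⟨(1, k), rfl⟩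
    intro x
    have e : c • x = x 0 • (fun a => Φ 1 a 0) + x 1 • (fun a => Φ 1 a 1) := by
      ext a
      fin_cases a <;> simp [hone, mul_comm]
    rw [e]
    exact W.add_mem (W.smul_mem _ (h1 0)) (W.smul_mem _ (h1 1))
  let f : (Fin 2 → R) →ₗ[R] W := (c • LinearMap.id).codRestrict W fun x => hcW x
  have hf : Function.Injective f := fun x y h =>
    smul_right_injective _ hc (congrArg Subtype.val h : c • x = c • y)
  have hrank : Module.finrank R W = 2 := by
    refine le_antisymm ?_ ?_
    · exact (Submodule.finrank_le W).trans (Module.finrank_fin_fun R).le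
    · exact (Module.finrank_fin_fun R).ge.trans (LinearMap.finrank_le_finrank_of_injective hf)
  let b : Module.Basis (Fin 2) R W := Module.finBasisOfFinrankEq R W hrank
  let P : Matrix (Fin 2) (Fin 2) R := Matrix.of fun a k => (b k : Fin 2 → R) a
  have hPx : ∀ w : W, P *ᵥ (fun k => b.repr w k) = (w : Fin 2 → R) := by
    intro w
    ext a
    have h := congrArg (fun u : W => (u : Fin 2 → R) a) (b.sum_repr w)
    simp only [Fin.sum_univ_two, Submodule.coe_add, Submodule.coe_smul, Pi.add_apply,
      Pi.smul_apply, smul_eq_mul] at h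
    rw [← h]
    simp [P, Matrix.mulVec, dotProduct, Fin.sum_univ_two, mul_comm]
  have hdet : P.det ≠ 0 := by
    let Q : Matrix (Fin 2) (Fin 2) R := Matrix.of fun k j => b.repr (f (Pi.single j 1)) k
    have hPQ : P * Q = c • 1 := by
      ext a j
      have h := congrFun (hPx (f (Pi.single j 1))) a
      rw [show (P * Q) a j = (P *ᵥ fun k => b.repr (f (Pi.single j 1)) k) a from rfl, h]
      simp [f, Matrix.one_apply, Pi.single_apply]
    intro h0
    have h := congrArg Matrix.det hPQ
    rw [Matrix.det_mul, h0, zero_mul, Matrix.det_smul, Matrix.det_one, mul_one] at h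
    exact pow_ne_zero _ hc h.symm
  have hex : ∀ g, ∃ S : Matrix (Fin 2) (Fin 2) R, Φ g * P = c • (P * S) := by
    intro g
    choose w' hw' e using fun k => hW g (b k : Fin 2 → R) (b k).2
    refine ⟨Matrix.of fun i k => b.repr ⟨w' k, hw' k⟩ i, ?_⟩
    ext a k
    rw [show (Φ g * P) a k = (Φ g *ᵥ (b k : Fin 2 → R)) a from rfl, e k]
    show c * w' k a = c * (P *ᵥ fun i => b.repr ⟨w' k, hw' k⟩ i) a
    rw [hPx]
  choose S hS using hex
  have hcan : ∀ A B : Matrix (Fin 2) (Fin 2) R, c • (P * A) = c • (P * B) → A = B := by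
    intro A B h
    have h' := congrArg (fun M => P.adjugate * M) (smul_right_injective _ hc h)
    simp only [← Matrix.mul_assoc, Matrix.adjugate_mul, Matrix.smul_mul, Matrix.one_mul] at h'
    exact smul_right_injective _ hdet h'
  have hS1 : ∀ g, Φ g = c • 1 → S g = 1 := fun g hg => hcan _ _ (by
    rw [← hS, hg, Matrix.smul_mul, Matrix.one_mul, Matrix.mul_one])
  let r : G →* Matrix (Fin 2) (Fin 2) R :=
    { toFun := S
      map_one' := hS1 1 hone
      map_mul' := fun g h => hcan _ _ (smul_right_injective _ hc (by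
        show c • c • (P * S (g * h)) = c • c • (P * (S g * S h))
        rw [← hS, ← Matrix.smul_mul, ← hmul, Matrix.mul_assoc, hS, Matrix.mul_smul,
          ← Matrix.mul_assoc (Φ g), hS, Matrix.smul_mul, Matrix.mul_assoc])) }
  have hr : ∀ g, c • (P.det • r g) = P.adjugate * Φ g * P := fun g => by
    rw [Matrix.mul_assoc, hS, Matrix.mul_smul, ← Matrix.mul_assoc, Matrix.adjugate_mul,
      Matrix.smul_mul, Matrix.one_mul]
    rfl
  refine ⟨r, fun g => ⟨?_, ?_, hS1 g⟩, ?_⟩
  · have h := congrArg Matrix.trace (hr g)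
    rw [Matrix.trace_mul_cycle, Matrix.mul_adjugate, Matrix.smul_mul, Matrix.one_mul,
      Matrix.trace_smul, Matrix.trace_smul, Matrix.trace_smul, smul_eq_mul, smul_eq_mul,
      smul_eq_mul, mul_left_comm] at h
    exact mul_left_cancel₀ hdet h
  · have h := congrArg Matrix.det (hS g)
    rw [Matrix.det_smul, Matrix.det_mul, Matrix.det_mul, Fintype.card_fin, mul_left_comm,
      mul_comm (Φ g).det] at h
    exact (mul_left_cancel₀ hdet h).symm
  · obtain ⟨ϖ, hϖ⟩ := IsDiscreteValuationRing.exists_irreducible R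
    obtain ⟨v, u, hu⟩ := IsDiscreteValuationRing.eq_unit_mul_pow_irreducible
      (mul_ne_zero hc hdet) hϖ
    refine ⟨v, fun g n hn i j => ?_⟩
    have h1 : (c * P.det) • (r g - 1) = P.adjugate * (Φ g - Φ 1) * P := by
      rw [Matrix.mul_sub, Matrix.sub_mul, ← hr, ← hr, map_one, mul_smul, smul_sub, smul_sub]
    have h2 : (c * P.det) * (r g - 1) i j ∈ maximalIdeal R ^ (n + v) := by
      rw [← smul_eq_mul, ← Matrix.smul_apply, h1]
      exact matrix_mul_mem _ hn _ _ i j
    rw [hϖ.maximalIdeal_eq, Ideal.span_singleton_pow, Ideal.mem_span_singleton] at h2 ⊢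
    rw [hu, mul_assoc] at h2
    replace h2 := (Units.isUnit u).dvd_mul_left.1 h2
    rw [pow_add, mul_comm] at h2
    exact (mul_dvd_mul_iff_left (pow_ne_zero v hϖ.ne_zero)).1 h2

end FA.JTorsion
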