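import Fermat.Agent.JTorsion.LiftTors
import Fermat.Agent.JTorsion.HeckeGamma0

/-!
# The Hecke operators on the lattice
-/

set_option autoImplicit false
set_option linter.style.haveILetI false
set_option linter.unusedSectionVars false

noncomputable section

namespace FA.JTorsion

open AlgebraicCurve FA.Level ModularCurve CongruenceSubgroup
open scoped MatrixGroups

variable {N ℓ : ℕ} [NeZero N] [NeZero ℓ]

theorem heckeChar_map {A B : Type*} [AddCommMonoid A] [AddCommMonoid B] (g : A →+ B)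
    (c : Gamma0 N → A) (γ : Gamma0 N) :
    g (heckeChar N ℓ c γ) = heckeChar N ℓ (fun x => g (c x)) γ :=
  map_sum g _ _

theorem heckeChar_add {A : Type*} [AddCommMonoid A] (c c' : Gamma0 N → A) (γ : Gamma0 N) :
    heckeChar N ℓ (fun x => c x + c' x) γ = heckeChar N ℓ c γ + heckeChar N ℓ c' γ :=
  Finset.sum_add_distrib

theorem heckeChar_mul {A : Type*} [NonUnitalNonAssocSemiring A] (a : A) (c : Gamma0 N → A)
    (γ : Gamma0 N) :
    heckeChar N ℓ (fun x => a * c x) γ = a * heckeChar N ℓ c γ :=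
  (Finset.mul_sum _ _ _).symm

variable [Algebra (AlgebraicClosure ℚ) ℂ] (N ℓ)

local notation "Qb" => AlgebraicClosure ℚ

/-- `T_ℓ` on the class group of the level. -/
def heckeLvl : Pic0 Qb ((lvlGamma0 N).fld Qb) →+ Pic0 Qb ((lvlGamma0 N).fld Qb) :=
  heckeOperatorAlong Qb N ℓ

theorem heckeOperatorAlong_mem_tors {n : ℕ} {x : Pic0 Qb ((lvlGamma0 N).fld Qb)}
    (hx : x ∈ tors (lvlGamma0 N) Qb n) :
    heckeLvl N ℓ x ∈ tors (lvlGamma0 N) Qb n := by
  rw [Pic0.mem_torsion] at hx ⊢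
  exact (map_zsmul (heckeLvl N ℓ) (n : ℤ) x).symm.trans (by rw [hx, map_zero])

/-- The reduction of the integral transfer is the character of the transformed class. -/
theorem kum_heckeOperatorAlong {n : ℕ} [NeZero n] (φ : cuspLat (lvlGamma0 N)) (γ : Gamma0 N) :
    kum (lvlGamma0 N) Qb n ⟨_, heckeOperatorAlong_mem_tors N ℓ (latTors (lvlGamma0 N) Qb n φ).2⟩
        (Additive.ofMul γ) =
      ((heckeChar N ℓ (fun x => (φ : Additive (lvlGamma0 N).grp →+ ℤ) (Additive.ofMul x)) γ : ℤ) :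
        ZMod n) := by
  refine (congrFun (kumFun_heckeOperatorAlong N ℓ (latTors (lvlGamma0 N) Qb n φ)
    (heckeOperatorAlong_mem_tors N ℓ (latTors (lvlGamma0 N) Qb n φ).2)) γ).trans ?_
  show _ = Int.castAddHom (ZMod n) _
  rw [heckeChar_map (Int.castAddHom (ZMod n))]
  congr 1
  funext x
  exact kum_latTors φ (Additive.ofMul x)

theorem int_eq_of_forall_cast {a b : ℤ} (h : ∀ n : ℕ, n ≠ 0 → (a : ZMod n) = (b : ZMod n)) :
    a = b := by
  by_contra hne
  have h1 := h ((a - b).natAbs + 1) (Nat.succ_ne_zero _)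
  rw [eq_comm, ZMod.intCast_eq_intCast_iff_dvd_sub] at h1
  have h2 := Int.natAbs_dvd_natAbs.2 h1
  rw [Int.natAbs_natCast] at h2
  exact absurd (Nat.le_of_dvd (Int.natAbs_pos.2 (sub_ne_zero.2 hne)) h2) (by omega)

/-- The transfer of an element of the lattice. -/
def latHeckeVal (φ : cuspLat (lvlGamma0 N)) (g : Additive (lvlGamma0 N).grp) : ℤ :=
  heckeChar N ℓ (fun x => (φ : Additive (lvlGamma0 N).grp →+ ℤ) (Additive.ofMul x)) g.toMul

theorem cast_latHeckeVal {n : ℕ} [NeZero n] (φ : cuspLat (lvlGamma0 N))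
    (g : Additive (lvlGamma0 N).grp) :
    ((latHeckeVal N ℓ φ g : ℤ) : ZMod n) = kum (lvlGamma0 N) Qb n
      ⟨_, heckeOperatorAlong_mem_tors N ℓ (latTors (lvlGamma0 N) Qb n φ).2⟩ g :=
  (kum_heckeOperatorAlong N ℓ φ g.toMul).symm

/-- The transfer as a homomorphism. -/
def latHeckeHom (φ : cuspLat (lvlGamma0 N)) : Additive (lvlGamma0 N).grp →+ ℤ :=
  AddMonoidHom.mk' (latHeckeVal N ℓ φ) fun a b => int_eq_of_forall_cast fun n hn => by
    haveI : NeZero n := ⟨hn⟩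
    exact ((cast_latHeckeVal N ℓ φ (a + b)).trans (map_add (kum (lvlGamma0 N) Qb n _) a b)).trans
      ((congrArg₂ (· + ·) (cast_latHeckeVal N ℓ φ a).symm (cast_latHeckeVal N ℓ φ b).symm).trans
        (Int.cast_add _ _).symm)

theorem latHeckeHom_mem (φ : cuspLat (lvlGamma0 N)) :
    latHeckeHom N ℓ φ ∈ cuspLat (lvlGamma0 N) := fun δ => int_eq_of_forall_cast fun n hn => by
  haveI : NeZero n := ⟨hn⟩
  exact ((cast_latHeckeVal N ℓ φ _).trans (kum_killsCusps _ δ)).trans Int.cast_zero.symm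

/-- The Hecke operator on the lattice. -/
def latHecke : cuspLat (lvlGamma0 N) →ₗ[ℤ] cuspLat (lvlGamma0 N) :=
  (AddMonoidHom.mk' (fun φ : cuspLat (lvlGamma0 N) =>
      (⟨latHeckeHom N ℓ φ, latHeckeHom_mem N ℓ φ⟩ : cuspLat (lvlGamma0 N)))
    fun _ _ => Subtype.ext (AddMonoidHom.ext fun g => heckeChar_add _ _ g.toMul)).toIntLinearMap

theorem latHecke_apply (φ : cuspLat (lvlGamma0 N)) (γ : Gamma0 N) :
    (latHecke N ℓ φ : Additive (lvlGamma0 N).grp →+ ℤ) (Additive.ofMul γ) =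
      heckeChar N ℓ (fun x => (φ : Additive (lvlGamma0 N).grp →+ ℤ) (Additive.ofMul x)) γ := rfl

theorem heckeOperatorAlong_latTors {n : ℕ} [NeZero n] (φ : cuspLat (lvlGamma0 N)) :
    heckeLvl N ℓ
        (latTors (lvlGamma0 N) Qb n φ : Pic0 Qb ((lvlGamma0 N).fld Qb)) =
      latTors (lvlGamma0 N) Qb n (latHecke N ℓ φ) :=
  congrArg Subtype.val (kum_injective (lvlGamma0 N) Qb n
    (a₁ := ⟨_, heckeOperatorAlong_mem_tors N ℓ (latTors (lvlGamma0 N) Qb n φ).2⟩)
    (AddMonoidHom.ext fun g =>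
      (kum_heckeOperatorAlong N ℓ φ g.toMul).trans (kum_latTors (latHecke N ℓ φ) g).symm))

theorem heckeOperatorAlong_mem_liftedTors {n : ℕ} [NeZero n]
    {x : Pic0 Qb ((lvlGamma0 N).fld Qb)} (hx : x ∈ liftedTors (lvlGamma0 N) Qb n) :
    heckeLvl N ℓ x ∈ liftedTors (lvlGamma0 N) Qb n := by
  obtain ⟨φ, rfl⟩ := hx
  exact ⟨latHecke N ℓ φ, (heckeOperatorAlong_latTors N ℓ φ).symm⟩

end FA.JTorsion
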