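import Fermat.Agent.JTorsion.PeriodPair
import Fermat.Prelude.Def_CuspForm_HeckeAlgebra

/-!
# The Hecke algebra of cusp forms acts faithfully on the lattice
-/

set_option autoImplicit false
set_option linter.style.haveILetI false
set_option linter.unusedSectionVars false

noncomputable section

namespace FA.JTorsion

open CongruenceSubgroup FA.Level ModularCurve ModularCurve.Period
open scoped MatrixGroups

variable (N : ℕ) [NeZero N]

/-- `e` is the effect of `t` on the lattice. -/
def Compat (t : Module.End ℂ (CuspForm (Gamma0 N) 2))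
    (e : Module.End ℤ (cuspLat (lvlGamma0 N))) : Prop :=
  ∀ (φ : cuspLat (lvlGamma0 N)) (p : FormPair N), pairPeriod N p = toComplex N φ →
    pairPeriod N (t p.1, t p.2) = toComplex N (e φ)

variable {N}

theorem Compat.right_unique {t : Module.End ℂ (CuspForm (Gamma0 N) 2)}
    {e e' : Module.End ℤ (cuspLat (lvlGamma0 N))} (h : Compat N t e) (h' : Compat N t e') :
    e = e' := by
  refine LinearMap.ext fun φ => toComplex_injective N ?_
  obtain ⟨p, hp⟩ := exists_pairPeriod_eq N (toComplex_mem N φ)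
  exact (h φ p hp).symm.trans (h' φ p hp)

theorem Compat.left_unique {t t' : Module.End ℂ (CuspForm (Gamma0 N) 2)}
    {e : Module.End ℤ (cuspLat (lvlGamma0 N))} (h : Compat N t e) (h' : Compat N t' e) :
    t = t' := by
  let D : FormPair N →ₗ[ℂ] FormPair N := (t - t').prodMap (t - t')
  let S : Submodule ℂ (Additive (Gamma0 N) →+ ℂ) := (LinearMap.ker D).map (pairPeriod N)
  have hspan : Submodule.span ℂ (Set.range (toComplex N)) ≤ S := by
    rw [Submodule.span_le]
    rintro _ ⟨φ, rfl⟩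
    obtain ⟨p, hp⟩ := exists_pairPeriod_eq N (toComplex_mem N φ)
    refine ⟨p, ?_, hp⟩
    have h1 := pairPeriod_injective N ((h φ p hp).trans (h' φ p hp).symm)
    show D p = 0
    rw [Prod.ext_iff] at h1
    exact Prod.ext (sub_eq_zero.2 h1.1) (sub_eq_zero.2 h1.2)
  refine LinearMap.ext fun f => ?_
  have h2 := hspan (parabolicHoms_le_span N (show pairPeriod N (f, 0) ∈ parabolicHoms ℂ (Gamma0 N) ℂ from
    mem_parabolicHoms_iff.2 fun γ hγ => by
      have h3 : periodHomPair N (f, 0) ∈ parabolicHoms ℂ (Gamma0 N) ℂ :=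
        (Fermat.Agent.S21.result N).2 ▸ LinearMap.mem_range_self _ _
      exact mem_parabolicHoms_iff.1 h3 _ (by rw [wConj_trace]; exact hγ)))
  obtain ⟨p, hp, hpe⟩ := h2
  rw [pairPeriod_injective N hpe] at hp
  exact sub_eq_zero.1 (Prod.ext_iff.1 (LinearMap.mem_ker.1 hp)).1

theorem compat_one : Compat N 1 1 := fun _ _ h => h

theorem compat_zero : Compat N 0 0 := fun φ p _ => by
  simp only [LinearMap.zero_apply, map_zero]
  exact map_zero (pairPeriod N)

theorem Compat.add {t t' : Module.End ℂ (CuspForm (Gamma0 N) 2)}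
    {e e' : Module.End ℤ (cuspLat (lvlGamma0 N))} (h : Compat N t e) (h' : Compat N t' e') :
    Compat N (t + t') (e + e') := fun φ p hp => by
  rw [LinearMap.add_apply, LinearMap.add_apply, LinearMap.add_apply, ← Prod.mk_add_mk, map_add,
    map_add, h φ p hp, h' φ p hp]

theorem Compat.mul {t t' : Module.End ℂ (CuspForm (Gamma0 N) 2)}
    {e e' : Module.End ℤ (cuspLat (lvlGamma0 N))} (h : Compat N t e) (h' : Compat N t' e') :
    Compat N (t * t') (e * e') := fun φ p hp =>
  h (e' φ) (t' p.1, t' p.2) (h' φ p hp)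

theorem compat_intCast (a : ℤ) :
    Compat N (a : Module.End ℂ (CuspForm (Gamma0 N) 2))
      (a : Module.End ℤ (cuspLat (lvlGamma0 N))) := fun φ p hp => by
  rw [Module.End.intCast_apply, Module.End.intCast_apply, Module.End.intCast_apply,
    ← Prod.smul_mk, Prod.mk.eta, map_zsmul, map_zsmul, hp]

variable [Algebra (AlgebraicClosure ℚ) ℂ]

theorem compat_heckeForm {ℓ : ℕ} [NeZero ℓ] (hℓ : ℓ.Prime) :
    Compat N (heckeForm N ℓ hℓ) (latHecke N ℓ) := fun φ p hp => AddMonoidHom.ext fun g => by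
  refine (pairPeriod_heckeForm N ℓ hℓ p g.toMul).trans ?_
  rw [hp]
  refine Eq.trans ?_ (congrArg (Int.cast : ℤ → ℂ) (latHecke_apply N ℓ φ g.toMul).symm)
  exact ((heckeChar_map (Int.castAddHom ℂ) _ g.toMul).trans rfl).symm

variable (N) (S : Set ℕ)

theorem exists_compat (t : CuspForm.heckeAlgebra N 2 S) :
    ∃ e, Compat N (t : Module.End ℂ (CuspForm (Gamma0 N) 2)) e := by
  obtain ⟨t, ht⟩ := t
  refine Algebra.adjoin_induction (p := fun t _ => ∃ e, Compat N t e) ?_ ?_ ?_ ?_ ht
  · rintro _ (⟨ℓ, hℓ, hℓN, -, rfl⟩ | ⟨q, hqN, hq, -, rfl⟩)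
    · haveI : NeZero ℓ := ⟨hℓ.ne_zero⟩
      exact ⟨latHecke N ℓ, by simpa [heckeForm, dif_neg hℓN] using compat_heckeForm (N := N) hℓ⟩
    · haveI : NeZero q := ⟨hq.ne_zero⟩
      exact ⟨latHecke N q, by simpa [heckeForm, dif_pos hqN] using compat_heckeForm (N := N) hq⟩
  · exact fun r => ⟨(r : Module.End ℤ _), by
      rw [show algebraMap ℤ (Module.End ℂ (CuspForm (Gamma0 N) 2)) r = ((r : ℤ) : Module.End ℂ _)
        from eq_intCast _ r]
      exact compat_intCast r⟩
  · rintro x y - - ⟨e, he⟩ ⟨e', he'⟩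
    exact ⟨e + e', he.add he'⟩
  · rintro x y - - ⟨e, he⟩ ⟨e', he'⟩
    exact ⟨e * e', he.mul he'⟩

/-- The action of the Hecke algebra of forms on the lattice. -/
def latRep : CuspForm.heckeAlgebra N 2 S →+* Module.End ℤ (cuspLat (lvlGamma0 N)) where
  toFun t := (exists_compat N S t).choose
  map_one' := (exists_compat N S 1).choose_spec.right_unique compat_one
  map_zero' := (exists_compat N S 0).choose_spec.right_unique compat_zero
  map_add' x y := (exists_compat N S (x + y)).choose_spec.right_unique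
    ((exists_compat N S x).choose_spec.add (exists_compat N S y).choose_spec)
  map_mul' x y := (exists_compat N S (x * y)).choose_spec.right_unique
    ((exists_compat N S x).choose_spec.mul (exists_compat N S y).choose_spec)

theorem compat_latRep (t : CuspForm.heckeAlgebra N 2 S) :
    Compat N (t : Module.End ℂ (CuspForm (Gamma0 N) 2)) (latRep N S t) :=
  (exists_compat N S t).choose_spec

theorem latRep_injective : Function.Injective (latRep N S) := fun x y h =>
  Subtype.ext ((compat_latRep N S x).left_unique (h ▸ compat_latRep N S y))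

variable {S}

theorem latRep_T {ℓ : ℕ} [NeZero ℓ] (hℓ : ℓ.Prime) (hℓN : ¬ ℓ ∣ N) (hℓS : ℓ ∉ S) :
    latRep N S (CuspForm.heckeAlgebra.T hℓ hℓN hℓS) = latHecke N ℓ :=
  (compat_latRep N S _).right_unique (by
    simpa [heckeForm, dif_neg hℓN] using compat_heckeForm (N := N) hℓ)

theorem latRep_U {q : ℕ} [NeZero q] (hq : q.Prime) (hqN : q ∣ N) (hqS : q ∉ S) :
    latRep N S (CuspForm.heckeAlgebra.U hq hqN hqS) = latHecke N q :=
  (compat_latRep N S _).right_unique (by
    simpa [heckeForm, dif_pos hqN] using compat_heckeForm (N := N) hq)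

/-- `latHecke` lies in the image of the full Hecke algebra. -/
theorem exists_latRep_eq {ℓ : ℕ} [NeZero ℓ] (hℓ : ℓ.Prime) :
    ∃ t, latRep N ∅ t = latHecke N ℓ := by
  by_cases h : ℓ ∣ N
  · exact ⟨_, latRep_U N hℓ h (Set.notMem_empty _)⟩
  · exact ⟨_, latRep_T N hℓ h (Set.notMem_empty _)⟩

theorem latHecke_comm {ℓ ℓ' : ℕ} [NeZero ℓ] [NeZero ℓ'] (hℓ : ℓ.Prime) (hℓ' : ℓ'.Prime) :
    Commute (latHecke N ℓ) (latHecke N ℓ') := by
  obtain ⟨t, ht⟩ := exists_latRep_eq N hℓ
  obtain ⟨t', ht'⟩ := exists_latRep_eq N hℓ'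
  rw [← ht, ← ht']
  exact (Commute.all t t').map (latRep N ∅)

end FA.JTorsion
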