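import Fermat.Agent.JTorsion.Surjective
import Fermat.Agent.JTorsion.CuspKill
import Mathlib.GroupTheory.FiniteAbelian.Basic
import Mathlib.LinearAlgebra.FreeModule.PID
import Mathlib.Algebra.Module.Projective
import Mathlib.GroupTheory.Abelianization.Defs

/-!
# The lattice of integral homomorphisms killing the cusps and the torsion classes it lifts
-/

set_option autoImplicit false
set_option linter.style.haveILetI false
set_option linter.unusedSectionVars false

noncomputable section

namespace FA.JTorsion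

open AlgebraicCurve FA.Level FA.ModField ModularCurve
open scoped MatrixGroups

variable (V : Lvl)

/-- The integral homomorphisms killing the cusps. -/
def cuspLat : Submodule ℤ (Additive V.grp →+ ℤ) where
  carrier := {φ | KillsCusps V φ}
  zero_mem' := fun _ => rfl
  add_mem' := fun {φ ψ} hφ hψ δ => by
    rw [AddMonoidHom.add_apply, hφ δ, hψ δ, add_zero]
  smul_mem' := fun a φ hφ δ => by
    rw [AddMonoidHom.smul_apply, hφ δ, smul_zero]

theorem mem_cuspLat {φ : Additive V.grp →+ ℤ} : φ ∈ cuspLat V ↔ KillsCusps V φ := Iff.rfl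

theorem grp_fg : Group.FG V.grp := by
  haveI := V.finiteIndex
  haveI : Group.FG SL(2, ℤ) := Group.fg_iff.2
    ⟨{ModularGroup.S, ModularGroup.T}, SpecialLinearGroup.SL2Z_generators, Set.toFinite _⟩
  infer_instance

/-- The elements attached to the cusps in the abelianisation. -/
def cuspElts : AddSubgroup (Additive (Abelianization V.grp)) :=
  AddSubgroup.closure (Set.range fun δ : SL(2, ℤ) =>
    Additive.ofMul (Abelianization.of (⟨_, V.conj_T_pow_mem δ⟩ : V.grp)))

/-- The abelianisation modulo the cusps. -/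
abbrev CuspQuot : Type := Additive (Abelianization V.grp) ⧸ cuspElts V

/-- The projection. -/
def cuspProj : Additive V.grp →+ CuspQuot V :=
  (QuotientAddGroup.mk' (cuspElts V)).comp (MonoidHom.toAdditive Abelianization.of)

theorem cuspProj_surjective : Function.Surjective (cuspProj V) := by
  intro q
  obtain ⟨a, rfl⟩ := QuotientAddGroup.mk'_surjective (cuspElts V) q
  obtain ⟨g, hg⟩ := QuotientGroup.mk'_surjective (commutator V.grp) a.toMul
  refine ⟨Additive.ofMul g, ?_⟩
  show QuotientAddGroup.mk' _ (Additive.ofMul (Abelianization.of g)) = _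
  rw [show Abelianization.of g = a.toMul from hg]
  rfl

theorem killsCusps_cuspProj : KillsCusps V (cuspProj V) := fun δ =>
  (QuotientAddGroup.eq_zero_iff _).2 (AddSubgroup.subset_closure ⟨δ, rfl⟩)

/-- A homomorphism killing the cusps factors. -/
theorem exists_factor_cuspProj {A : Type*} [AddCommGroup A] {c : Additive V.grp →+ A}
    (hc : KillsCusps V c) : ∃ c' : CuspQuot V →+ A, ∀ x, c' (cuspProj V x) = c x := by
  let c₀ : Additive (Abelianization V.grp) →+ A :=
    MonoidHom.toAdditiveLeft (Abelianization.lift (AddMonoidHom.toMultiplicativeRight c))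
  refine ⟨QuotientAddGroup.lift (cuspElts V) c₀ ?_, fun x => ?_⟩
  · refine (AddSubgroup.closure_le _).2 ?_
    rintro _ ⟨δ, rfl⟩
    exact hc δ
  · rfl

instance cuspQuot_finite : Module.Finite ℤ (CuspQuot V) := by
  haveI := grp_fg V
  haveI : Group.FG (Abelianization V.grp) :=
    Group.fg_of_surjective (f := (Abelianization.of : V.grp →* Abelianization V.grp))
      (QuotientGroup.mk'_surjective (commutator V.grp))
  rw [Module.Finite.iff_addGroup_fg]
  exact AddGroup.fg_of_surjective (f := QuotientAddGroup.mk' (cuspElts V))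
    (QuotientAddGroup.mk'_surjective _)

/-- Homomorphisms killing the cusps modulo a large multiple lift to integral ones. -/
theorem exists_lift : ∃ e : ℕ, e ≠ 0 ∧ ∀ (n : ℕ) (c : Additive V.grp →+ ZMod (e * n)),
    KillsCusps V c → ∃ φ : Additive V.grp →+ ℤ, φ ∈ cuspLat V ∧
      ∀ x, ((φ x : ℤ) : ZMod n) = ZMod.castHom (dvd_mul_left n e) (ZMod n) (c x) := by
  classical
  let T := Submodule.torsion ℤ (CuspQuot V)
  haveI : Finite T :=
    Module.finite_of_fg_torsion (M := T) (Submodule.torsion_isTorsion)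
  haveI : Module.Free ℤ (CuspQuot V ⧸ T) := Module.free_of_finite_type_torsion_free'
  obtain ⟨s, hs⟩ := Module.projective_lifting_property T.mkQ LinearMap.id T.mkQ_surjective
  refine ⟨Nat.card T, Nat.card_pos.ne', fun n c hc => ?_⟩
  obtain ⟨c', hc'⟩ := exists_factor_cuspProj V hc
  let b := Module.Free.chooseBasis ℤ (CuspQuot V ⧸ T)
  let ψ : CuspQuot V ⧸ T →ₗ[ℤ] ℤ := b.constr ℤ fun i => ((c' (s (b i))).cast : ℤ)
  let q : ZMod (Nat.card T * n) →+ ZMod n := (ZMod.castHom (dvd_mul_left n _) (ZMod n)).toAddMonoidHom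
  have hψ : ∀ y, ((ψ y : ℤ) : ZMod n) = q (c' (s y)) := by
    have h : ((Int.castAddHom (ZMod n)).comp ψ.toAddMonoidHom).toIntLinearMap =
        ((q.comp c').comp s.toAddMonoidHom).toIntLinearMap := b.ext fun i => by
      show ((ψ (b i) : ℤ) : ZMod n) = q (c' (s (b i)))
      rw [show ψ (b i) = _ from b.constr_basis ℤ _ i]
      show _ = ZMod.castHom (dvd_mul_left n _) (ZMod n) _
      conv_rhs => rw [← ZMod.intCast_zmod_cast (c' (s (b i))), map_intCast]
    exact fun y => LinearMap.congr_fun h y
  refine ⟨(ψ.comp T.mkQ).toAddMonoidHom.comp (cuspProj V), fun δ => ?_, fun x => ?_⟩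
  · show ψ (T.mkQ (cuspProj V _)) = 0
    rw [killsCusps_cuspProj V δ, map_zero, map_zero]
  · show ((ψ (T.mkQ (cuspProj V x)) : ℤ) : ZMod n) = q (c x)
    rw [hψ, ← hc' x, ← sub_eq_zero, ← map_sub, ← map_sub]
    set t := s (T.mkQ (cuspProj V x)) - cuspProj V x
    have ht : t ∈ T := by
      rw [← Submodule.Quotient.mk_eq_zero, ← Submodule.mkQ_apply, map_sub, sub_eq_zero]
      exact LinearMap.congr_fun hs _
    have he : (Nat.card T) • t = 0 := congrArg Subtype.val (card_nsmul_eq_zero' (x := (⟨t, ht⟩ : T)))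
    have he' : (Nat.card T) • c' t = 0 := by rw [← map_nsmul, he, map_zero]
    rw [nsmul_eq_mul, ← ZMod.intCast_zmod_cast (c' t), ← Int.cast_natCast, ← Int.cast_mul,
      ZMod.intCast_zmod_eq_zero_iff_dvd, Nat.cast_mul] at he'
    have hd : (n : ℤ) ∣ (c' t).cast :=
      (mul_dvd_mul_iff_left (Int.natCast_ne_zero.2 Nat.card_pos.ne')).1 he'
    show ZMod.castHom (dvd_mul_left n _) (ZMod n) (c' t) = 0
    rw [← ZMod.intCast_zmod_cast (c' t), map_intCast]
    exact (ZMod.intCast_zmod_eq_zero_iff_dvd _ _).2 hd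

/-- A multiple through which homomorphisms lift. -/
def liftExp : ℕ := (exists_lift V).choose

theorem liftExp_ne_zero : liftExp V ≠ 0 := (exists_lift V).choose_spec.1

instance neZero_liftExp_mul (n : ℕ) [NeZero n] : NeZero (liftExp V * n) :=
  ⟨Nat.mul_ne_zero (liftExp_ne_zero V) (NeZero.ne n)⟩

theorem exists_lift_liftExp {n : ℕ} {c : Additive V.grp →+ ZMod (liftExp V * n)}
    (hc : KillsCusps V c) : ∃ φ : Additive V.grp →+ ℤ, φ ∈ cuspLat V ∧
      ∀ x, ((φ x : ℤ) : ZMod n) = ZMod.castHom (dvd_mul_left n _) (ZMod n) (c x) :=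
  (exists_lift V).choose_spec.2 n c hc

theorem cuspLat_free_finite : Module.Free ℤ (cuspLat V) ∧ Module.Finite ℤ (cuspLat V) := by
  obtain ⟨S, hS, hfin⟩ := Group.fg_iff.1 (grp_fg V)
  haveI := hfin.to_subtype
  haveI := Fintype.ofFinite S
  let ev : (Additive V.grp →+ ℤ) →ₗ[ℤ] (S → ℤ) :=
    { toFun := fun φ s => φ (Additive.ofMul (s : V.grp))
      map_add' := fun _ _ => rfl
      map_smul' := fun _ _ => rfl }
  have hinj : Function.Injective ev := by
    intro φ ψ h
    refine AddMonoidHom.toMultiplicativeRight.injective ?_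
    exact MonoidHom.eq_of_eqOn_dense hS fun s hs => congrArg Multiplicative.ofAdd (congrFun h ⟨s, hs⟩)
  haveI : Module.Finite ℤ (cuspLat V) := Module.Finite.of_injective
    (ev.comp (cuspLat V).subtype) (hinj.comp (Submodule.injective_subtype _))
  let e := LinearEquiv.ofInjective (ev.comp (cuspLat V).subtype)
    (hinj.comp (Submodule.injective_subtype _))
  exact ⟨Module.Free.of_equiv e.symm, ‹_›⟩

end FA.JTorsion
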