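import Fermat.Agent.JTorsion.Lattice

/-!
# The torsion classes lifted from integral homomorphisms
-/

set_option autoImplicit false
set_option linter.style.haveILetI false
set_option linter.unusedSectionVars false

noncomputable section

namespace FA.JTorsion

open AlgebraicCurve FA.Level FA.ModField ModularCurve
open scoped MatrixGroups

variable {V : Lvl} {L : Type} [Field L] [IsAlgClosed L] [Algebra ℚ L] [Algebra L ℂ]

theorem nsmul_mem_tors {m n : ℕ} {x : Pic0 L (V.fld L)} (hx : x ∈ tors V L (m * n)) :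
    m • x ∈ tors V L n := by
  rw [Pic0.mem_torsion, natCast_zsmul] at hx ⊢
  rw [← mul_nsmul, hx]

/-- Multiplication of classes reduces the character. -/
theorem kum_nsmul {m n : ℕ} [NeZero n] [NeZero (m * n)] (x : tors V L (m * n)) (γ : Additive V.grp) :
    kum V L n ⟨_, nsmul_mem_tors x.2⟩ γ =
      ZMod.castHom (dvd_mul_left n m) (ZMod n) (kum V L (m * n) x γ) := by
  obtain ⟨D, h, hD, H⟩ := exists_witness_of_kumFun x
  obtain ⟨f, hf, hfD, hh⟩ := H.div
  have H' : IsWitness n ((m • D : Divisor.degZero (K := L) (F := V.fld L)) : Divisor L (V.fld L))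
      (h ^ m) fun g => ZMod.castHom (dvd_mul_left n m) (ZMod n) (kumFun x g) := by
    refine ⟨pow_ne_zero _ H.ne, ⟨f, hf, fun v => ?_, by rw [← pow_mul, hh]⟩, fun g => ?_⟩
    · rw [← hfD v, AddSubgroupClass.coe_nsmul, Finsupp.smul_apply, nsmul_eq_mul]
      push_cast
      ring
    · rw [map_pow, H.char g, mul_pow, ← map_pow]
      congr 2
      conv_lhs => rw [← ZMod.intCast_zmod_cast (kumFun x g)]
      conv_rhs => rw [← ZMod.intCast_zmod_cast (kumFun x g), map_intCast]
      exact stdAddChar_pow (mul_comm m n) _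
  have h1 := kumFun_eq (x := ⟨_, nsmul_mem_tors x.2⟩) (D := m • D)
    (show Pic0.mk (m • D) = m • (x : Pic0 L (V.fld L)) by
      rw [← hD]; exact (QuotientAddGroup.mk_nsmul _ D m)) H'
  exact congrFun h1 γ.toMul

variable (V L)

/-- The torsion class with a given integral character. -/
def latTors (n : ℕ) [NeZero n] : cuspLat V →+ tors V L n :=
  AddMonoidHom.mk' (fun φ => (exists_kum_eq V L φ.2 n).choose) fun φ ψ => by
    refine kum_injective V L n (AddMonoidHom.ext fun g => ?_)
    rw [map_add, AddMonoidHom.add_apply]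
    have h1 := (exists_kum_eq V L φ.2 n).choose_spec g.toMul
    have h2 := (exists_kum_eq V L ψ.2 n).choose_spec g.toMul
    have h3 := (exists_kum_eq V L (φ + ψ).2 n).choose_spec g.toMul
    rw [ofMul_toMul] at h1 h2 h3
    rw [h1, h2, h3, Submodule.coe_add, AddMonoidHom.add_apply, Int.cast_add]

variable {V L}

theorem kum_latTors {n : ℕ} [NeZero n] (φ : cuspLat V) (g : Additive V.grp) :
    kum V L n (latTors V L n φ) g = (((φ : Additive V.grp →+ ℤ) g : ℤ) : ZMod n) :=
  (exists_kum_eq V L φ.2 n).choose_spec g.toMul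

theorem nsmul_latTors {m n : ℕ} [NeZero n] [NeZero (m * n)] (φ : cuspLat V) :
    m • (latTors V L (m * n) φ : Pic0 L (V.fld L)) = latTors V L n φ := by
  refine congrArg Subtype.val
    (kum_injective V L n (a₁ := ⟨_, nsmul_mem_tors (latTors V L (m * n) φ).2⟩)
      (AddMonoidHom.ext fun g => ?_))
  rw [kum_nsmul, kum_latTors, kum_latTors, map_intCast]

theorem latTors_eq_zero_iff {n : ℕ} [NeZero n] {φ : cuspLat V} :
    latTors V L n φ = 0 ↔ ∃ ψ : cuspLat V, φ = n • ψ := by
  constructor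
  · intro h
    have hdvd : ∀ g, (n : ℤ) ∣ (φ : Additive V.grp →+ ℤ) g := fun g => by
      rw [← ZMod.intCast_zmod_eq_zero_iff_dvd, ← kum_latTors (L := L), h, map_zero]
      rfl
    have hn : (n : ℤ) ≠ 0 := Int.natCast_ne_zero.2 (NeZero.ne n)
    refine ⟨⟨AddMonoidHom.mk' (fun g => (φ : Additive V.grp →+ ℤ) g / (n : ℤ)) fun a b => by
      rw [map_add, Int.add_ediv_of_dvd_left (hdvd a)], fun δ => ?_⟩, ?_⟩
    · show (φ : Additive V.grp →+ ℤ) _ / (n : ℤ) = 0
      rw [φ.2 δ, Int.zero_ediv]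
    · refine Subtype.ext (AddMonoidHom.ext fun g => ?_)
      show _ = n • ((φ : Additive V.grp →+ ℤ) g / (n : ℤ))
      rw [nsmul_eq_mul, Int.mul_ediv_cancel' (hdvd g)]
  · rintro ⟨ψ, rfl⟩
    rw [map_nsmul]
    refine Subtype.ext ?_
    rw [AddSubgroupClass.coe_nsmul, ZeroMemClass.coe_zero, ← natCast_zsmul]
    exact Pic0.mem_torsion.1 (latTors V L n ψ).2

variable (V L)

/-- The lifted torsion classes. -/
def liftedTors (n : ℕ) [NeZero n] : AddSubgroup (Pic0 L (V.fld L)) :=
  ((tors V L n).subtype.comp (latTors V L n)).range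

variable {V L}

theorem liftedTors_le {n : ℕ} [NeZero n] : liftedTors V L n ≤ tors V L n := by
  rintro _ ⟨φ, rfl⟩
  exact (latTors V L n φ).2

/-- The lifted classes are the multiples by `liftExp` of torsion classes. -/
theorem mem_liftedTors_iff {n : ℕ} [NeZero n] {x : Pic0 L (V.fld L)} :
    x ∈ liftedTors V L n ↔ ∃ y ∈ tors V L (liftExp V * n), liftExp V • y = x := by
  constructor
  · rintro ⟨φ, rfl⟩
    exact ⟨_, (latTors V L (liftExp V * n) φ).2, nsmul_latTors φ⟩
  · rintro ⟨y, hy, rfl⟩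
    obtain ⟨φ, hφ, hval⟩ := exists_lift_liftExp V (n := n) (c := kum V L (liftExp V * n) ⟨y, hy⟩)
      (kum_killsCusps _)
    refine ⟨⟨φ, hφ⟩, congrArg Subtype.val (kum_injective V L n
      (a₂ := ⟨_, nsmul_mem_tors hy⟩) (AddMonoidHom.ext fun g => ?_))⟩
    rw [kum_latTors, hval g]
    exact (kum_nsmul ⟨y, hy⟩ g).symm

end FA.JTorsion
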