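import Fermat.Agent.JTorsion.LatHecke
import Fermat.Prelude.Def_ModularCurve_PeriodMap

/-!
# Integral cusp killing homomorphisms are the integral parabolic ones
-/

set_option autoImplicit false
set_option linter.style.haveILetI false
set_option linter.unusedSectionVars false

noncomputable section

namespace FA.JTorsion

open CongruenceSubgroup FA.Level ModularCurve ModularCurve.Period
open scoped MatrixGroups

/-- An element of trace `2` is conjugate to a power of `T`. -/
theorem exists_conj_T_zpow (g : SL(2, ℤ))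
    (htr : (g : Matrix (Fin 2) (Fin 2) ℤ).trace = 2) :
    ∃ (δ : SL(2, ℤ)) (k : ℤ), g = δ * ModularGroup.T ^ k * δ⁻¹ := by
  rw [Matrix.trace_fin_two] at htr
  have hdet : g 0 0 * g 1 1 - g 0 1 * g 1 0 = 1 := by rw [← Matrix.det_fin_two]; exact g.2
  by_cases hc : g 1 0 = 0
  · rw [hc, mul_zero, sub_zero] at hdet
    have ha : g 0 0 = 1 ∧ g 1 1 = 1 := by
      rcases Int.eq_one_or_neg_one_of_mul_eq_one hdet with h | h <;>
        rw [h] at hdet htr <;> constructor <;> omega
    refine ⟨1, g 0 1, ?_⟩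
    rw [one_mul, inv_one, mul_one]
    refine Subtype.ext ?_
    rw [ModularGroup.coe_T_zpow]
    ext i j
    fin_cases i <;> fin_cases j <;> simp [ha.1, ha.2, hc]
  · have hg : 0 < Int.gcd (g 0 0 - 1) (g 1 0) := Int.gcd_pos_of_ne_zero_right _ hc
    obtain ⟨x, hx⟩ := Int.gcd_dvd_left (g 0 0 - 1) (g 1 0)
    obtain ⟨y, hy⟩ := Int.gcd_dvd_right (g 0 0 - 1) (g 1 0)
    set h : ℤ := (Int.gcd (g 0 0 - 1) (g 1 0) : ℤ)
    have hh : h ≠ 0 := Int.natCast_ne_zero.2 hg.ne'
    have hbez := Int.gcd_eq_gcd_ab (g 0 0 - 1) (g 1 0)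
    set u := Int.gcdA (g 0 0 - 1) (g 1 0)
    set v := Int.gcdB (g 0 0 - 1) (g 1 0)
    have hxy : x * u + y * v = 1 := mul_left_cancel₀ hh (by
      linear_combination (-1 : ℤ) * hbez - u * hx - v * hy)
    let δ : SL(2, ℤ) := ⟨!![x, -v; y, u], by rw [Matrix.det_fin_two_of]; linarith⟩
    have hfix1 : g 0 0 * x + g 0 1 * y = x := mul_left_cancel₀ hh (by
      linear_combination -(g 0 0 - 1) * hx - g 0 1 * hy - hdet + g 0 0 * htr)
    have hfix2 : g 1 0 * x + g 1 1 * y = y := mul_left_cancel₀ hh (by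
      linear_combination -g 1 0 * hx - (g 1 1 - 1) * hy + g 1 0 * htr)
    set e : SL(2, ℤ) := δ⁻¹ * g * δ
    have he : (e : Matrix (Fin 2) (Fin 2) ℤ) =
        !![u * g 0 0 + v * g 1 0, u * g 0 1 + v * g 1 1;
          -y * g 0 0 + x * g 1 0, -y * g 0 1 + x * g 1 1] * !![x, -v; y, u] := by
      simp only [e, Matrix.SpecialLinearGroup.coe_mul, Matrix.SpecialLinearGroup.coe_inv]
      show Matrix.adjugate !![x, -v; y, u] * _ * !![x, -v; y, u] = _
      rw [Matrix.adjugate_fin_two_of, neg_neg]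
      congr 1
      rw [Matrix.eta_fin_two (g : Matrix (Fin 2) (Fin 2) ℤ), Matrix.mul_fin_two]
      simp
    rw [Matrix.mul_fin_two] at he
    have e00 : e 0 0 = 1 := by
      rw [he, Matrix.of_apply, Matrix.cons_val_zero, Matrix.cons_val_zero]
      linear_combination u * hfix1 + v * hfix2 + hxy
    have e10 : e 1 0 = 0 := by
      rw [he, Matrix.of_apply, Matrix.cons_val_one, Matrix.cons_val_zero]
      simp only [Matrix.cons_val_zero]
      linear_combination -y * hfix1 + x * hfix2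
    have e11 : e 1 1 = 1 := by
      rw [he, Matrix.of_apply, Matrix.cons_val_one, Matrix.cons_val_zero]
      simp only [Matrix.cons_val_one, Matrix.cons_val_fin_one]
      linear_combination (x * u + y * v) * htr - u * hfix1 - v * hfix2 + hxy
    refine ⟨δ, e 0 1, ?_⟩
    have hT : e = ModularGroup.T ^ e 0 1 := by
      refine Subtype.ext ?_
      rw [ModularGroup.coe_T_zpow]
      ext i j
      fin_cases i <;> fin_cases j <;> simp [e00, e10, e11]
    rw [← hT]
    simp only [e]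
    group

variable (N : ℕ) [NeZero N]

/-- An element of the lattice kills every element of trace `±2`. -/
theorem cuspLat_isParabolicHom {φ : Additive (lvlGamma0 N).grp →+ ℤ}
    (hφ : φ ∈ cuspLat (lvlGamma0 N)) : IsParabolicHom (Gamma0 N) φ := by
  have key : ∀ γ : (lvlGamma0 N).grp, ((γ : SL(2, ℤ)) : Matrix (Fin 2) (Fin 2) ℤ).trace = 2 →
      φ (Additive.ofMul γ) = 0 := by
    intro γ hγ
    obtain ⟨δ, k, hk⟩ := exists_conj_T_zpow γ hγ
    have hpow : γ ^ ((lvlGamma0 N).M : ℤ) = (⟨_, (lvlGamma0 N).conj_T_pow_mem δ⟩ : (lvlGamma0 N).grp) ^ k := by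
      refine Subtype.ext ?_
      rw [Subgroup.coe_zpow, Subgroup.coe_zpow, hk, conj_zpow, conj_zpow, ← zpow_mul, ← zpow_mul,
        mul_comm k]
    have h1 := congrArg (fun g => φ (Additive.ofMul g)) hpow
    simp only [ofMul_zpow, map_zsmul] at h1
    rw [hφ δ, smul_zero, smul_eq_mul] at h1
    exact (mul_eq_zero.1 h1).resolve_left (Int.natCast_ne_zero.2 (lvlGamma0 N).M_ne)
  intro γ hγ
  rcases eq_or_eq_neg_of_sq_eq_sq _ (2 : ℤ) (hγ.trans (by norm_num)) with h | h
  · exact key γ h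
  · let n1 : (lvlGamma0 N).grp := ⟨-1, (lvlGamma0 N).neg_one_mem⟩
    let γ' : (lvlGamma0 N).grp := γ
    have h2 : ((γ' * n1 : (lvlGamma0 N).grp) : SL(2, ℤ)) = -(γ : SL(2, ℤ)) := by
      show (γ : SL(2, ℤ)) * -1 = _
      rw [mul_neg, mul_one]
    have h3 := key (γ' * n1) (by
      rw [h2, Matrix.SpecialLinearGroup.coe_neg, Matrix.trace_neg, h, neg_neg])
    rw [ofMul_mul, map_add, hom_neg_one_eq_zero (lvlGamma0 N) φ, add_zero] at h3
    exact h3

theorem killsCusps_of_parabolic {A : Type*} [AddCommGroup A] {φ : Additive (Gamma0 N) →+ A}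
    (hφ : IsParabolicHom (Gamma0 N) φ) : KillsCusps (lvlGamma0 N) φ := fun δ => by
  refine hφ _ ?_
  show ((δ * ModularGroup.T ^ ((lvlGamma0 N).M : ℤ) * δ⁻¹ : SL(2, ℤ)) :
    Matrix (Fin 2) (Fin 2) ℤ).trace ^ 2 = 4
  rw [Matrix.SpecialLinearGroup.coe_mul, Matrix.trace_mul_comm, ← Matrix.SpecialLinearGroup.coe_mul,
    inv_mul_cancel_left, ModularGroup.coe_T_zpow, Matrix.trace_fin_two_of]
  norm_num

end FA.JTorsion
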