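import Mathlib
import Fermat.Agent.ModField.ModFuns
import Fermat.Agent.ModField.Elliptic

/-!
# Poincaré series with character

For a finite order character `χ` of `Γ₀(N)` trivial on `-1` we construct a nonzero holomorphic
function `h` on the upper half plane with `h (γ z) = χ(γ) h(z)` and with expansions at all cusps.
-/

set_option autoImplicit false

noncomputable section

namespace FA.JTorsion

open UpperHalfPlane hiding I
open Complex Filter Set CongruenceSubgroup FA.ModField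
open scoped MatrixGroups Topology Manifold ModularForm

/-- The data of a seed for a Poincaré series of weight `36`. -/
structure Seed where
  /-- the special point -/
  z0 : ℍ
  hz0 : 1 < z0.im
  /-- the seed -/
  g : ℍ → ℂ
  mdiff : MDiff g
  g_ne : g z0 ≠ 0
  vanish : ∀ γ : SL(2, ℤ), γ • z0 ≠ z0 → g (γ • z0) = 0
  /-- the bounding constant -/
  C : ℝ
  C_nonneg : 0 ≤ C
  bound : ∀ w : ℍ, ‖g w‖ * w.im ^ 18 ≤ C * w.im ^ 6 / ((w.re - z0.re) ^ 2 + 1) ^ 2

/-- A function vanishing on a set with interior vanishes. -/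
theorem exists_good_point : ∃ z : ℍ, 1 < z.im ∧ ModularForm.E₄ z ≠ 0 ∧ ModularForm.E₆ z ≠ 0 := by
  have h4 := ModularForm.E₄
  by_contra hcon
  push Not at hcon
  set z₁ : ℍ := ⟨⟨0, 2⟩, by norm_num⟩
  have hz₁ : (1 : ℝ) < z₁.im := by show (1 : ℝ) < 2; norm_num
  have hopen : IsOpen {z : ℍ | 1 < z.im} := isOpen_lt continuous_const UpperHalfPlane.continuous_im
  have hprod : (⇑ModularForm.E₄ * ⇑ModularForm.E₆ : ℍ → ℂ) = 0 := by
    refine UpperHalfPlane.eq_zero_of_frequently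
      ((ModularForm.E₄).holo'.mul (ModularForm.E₆).holo') (τ := z₁) (Filter.Eventually.frequently ?_)
    filter_upwards [nhdsWithin_le_nhds (hopen.mem_nhds hz₁)] with z hz
    rcases eq_or_ne (ModularForm.E₄ z) 0 with h | h
    · simp [h]
    · simp [hcon z hz h]
  have hE := (UpperHalfPlane.mul_eq_zero_iff (ModularForm.E₄).holo'
    (ModularForm.E₆).holo').1 hprod
  rcases hE with h | h
  · have h1 := congrFun h UpperHalfPlane.I
    exact E4_ne_zero_of (z := UpperHalfPlane.I) (by rw [jfun_I]; norm_num) (by simpa using h1)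
  · have h1 := congrFun h rho
    exact E6_ne_zero_of (z := rho) (by rw [jfun_rho]; norm_num) (by simpa using h1)

/-- Seeds exist. -/
theorem exists_seed : Nonempty Seed := by
  classical
  obtain ⟨z0, hz0, h4, h6⟩ := exists_good_point
  set Ψ : ℍ → ℂ := fun z => ModularForm.discriminant z ^ 2 * (jfun z - jfun z0) with hΨ
  have hΔ : MDiff ModularForm.discriminant := CuspForm.discriminant.holo'
  have hΨm : MDiff Ψ := (hΔ.pow 2).mul (mdiff_jfun.sub mdifferentiable_const)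
  -- the cusp form bound
  obtain ⟨CΨ, hCΨ⟩ : ∃ CΨ, ∀ w : ℍ, ‖Ψ w‖ * w.im ^ 12 ≤ CΨ := by
    obtain ⟨C₁, hC₁⟩ := CuspFormClass.exists_bound CuspForm.discriminant
    obtain ⟨C₂, hC₂⟩ := ModularFormClass.exists_bound (by norm_num) ModularForm.E₄
    set D : ℝ := max C₁ 0
    set E : ℝ := max C₂ 0
    have hD : ∀ w : ℍ, ‖ModularForm.discriminant w‖ * w.im ^ 6 ≤ D := fun w => by
      have h := hC₁ w
      rw [CuspForm.coe_discriminant] at h
      rw [show (((12 : ℤ) : ℝ) / 2) = ((6 : ℕ) : ℝ) by norm_num, Real.rpow_natCast,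
        le_div_iff₀ (pow_pos w.im_pos 6)] at h
      exact h.trans (le_max_left _ _)
    -- `Δ E₄³` and `Δ²` are bounded by powers of the height
    obtain ⟨B, hB⟩ : ∃ B, ∀ w : ℍ,
        ‖ModularForm.discriminant w * ModularForm.E₄ w ^ 3‖ * w.im ^ 12 ≤ B := by
      let F : CuspForm 𝒮ℒ 24 :=
        { toFun := fun w => ModularForm.discriminant w * ModularForm.E₄ w ^ 3
          slash_action_eq' := by
            rintro A ⟨γ, rfl⟩
            refine (slash_eq_iff_smul γ).2 fun w => ?_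
            rw [discriminant_smul, E4_smul, mul_pow, ← zpow_natCast (denom γ w ^ (4 : ℤ)) 3,
              ← zpow_mul, show ((4 : ℤ) * ((3 : ℕ) : ℤ)) = 12 by norm_num,
              show (24 : ℤ) = 12 + 12 by norm_num, zpow_add₀ (denom_ne_zero _ _)]
            ring
          holo' := hΔ.mul ((ModularForm.E₄).holo'.pow 3)
          zero_at_cusps' := fun {c} hc => by
            rw [OnePoint.isZeroAt_iff_forall_SL2Z hc]
            intro γ _
            have h0 : IsZeroAtImInfty (fun w => ModularForm.discriminant w) := by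
              have := CuspFormClass.zero_at_infty CuspForm.discriminant
              simpa [CuspForm.coe_discriminant] using this
            have hb : IsBoundedAtImInfty (fun w => ModularForm.E₄ w) :=
              ModularFormClass.bdd_at_infty ModularForm.E₄
            have : ((fun w => ModularForm.discriminant w * ModularForm.E₄ w ^ 3) ∣[(24 : ℤ)] γ) =
                fun w => ModularForm.discriminant w * ModularForm.E₄ w ^ 3 := by
              refine (slash_eq_iff_smul γ).2 fun w => ?_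
              rw [discriminant_smul, E4_smul, mul_pow, ← zpow_natCast (denom γ w ^ (4 : ℤ)) 3,
                ← zpow_mul, show ((4 : ℤ) * ((3 : ℕ) : ℤ)) = 12 by norm_num,
                show (24 : ℤ) = 12 + 12 by norm_num, zpow_add₀ (denom_ne_zero _ _)]
              ring
            rw [this]
            have h3 := ((hb.mul hb).mul hb)
            refine Tendsto.congr (fun w => ?_) (Filter.ZeroAtFilter.mul_boundedAtFilter h0 h3)
            simp only [Pi.mul_apply]; ring }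
      obtain ⟨B, hB⟩ := CuspFormClass.exists_bound F
      refine ⟨B, fun w => ?_⟩
      have h := hB w
      rw [show (((24 : ℤ) : ℝ) / 2) = ((12 : ℕ) : ℝ) by norm_num, Real.rpow_natCast,
        le_div_iff₀ (pow_pos w.im_pos 12)] at h
      exact h
    refine ⟨B + ‖jfun z0‖ * D ^ 2, fun w => ?_⟩
    have hw : ModularForm.discriminant w ^ 2 * (jfun w - jfun z0) =
        ModularForm.discriminant w * ModularForm.E₄ w ^ 3 -
          jfun z0 * ModularForm.discriminant w ^ 2 := by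
      have := ModularForm.discriminant_ne_zero w
      rw [show jfun w = ModularForm.E₄ w ^ 3 / ModularForm.discriminant w from rfl]
      field_simp
    have h2 : ‖ModularForm.discriminant w‖ ^ 2 * w.im ^ 12 ≤ D ^ 2 := by
      rw [show w.im ^ 12 = (w.im ^ 6) ^ 2 by ring, ← mul_pow]
      exact pow_le_pow_left₀ (by have := w.im_pos; positivity) (hD w) 2
    calc ‖Ψ w‖ * w.im ^ 12
        ≤ (‖ModularForm.discriminant w * ModularForm.E₄ w ^ 3‖ +
            ‖jfun z0 * ModularForm.discriminant w ^ 2‖) * w.im ^ 12 := by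
          rw [hΨ]
          simp only
          rw [hw]
          exact mul_le_mul_of_nonneg_right (norm_sub_le _ _) (pow_nonneg w.im_pos.le _)
      _ ≤ B + ‖jfun z0‖ * D ^ 2 := by
          rw [add_mul, norm_mul (jfun z0), norm_pow, mul_assoc]
          exact add_le_add (hB w) (mul_le_mul_of_nonneg_left h2 (norm_nonneg _))
  -- the derivative at the special point
  set ψ : ℂ → ℂ := Ψ ∘ ofComplex with hψ
  have hψd : DifferentiableOn ℂ ψ {z | 0 < z.im} := UpperHalfPlane.mdifferentiable_iff.1 hΨm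
  have hopenH : IsOpen {z : ℂ | 0 < z.im} := isOpen_upperHalfPlaneSet
  have hψ0 : ψ (z0 : ℂ) = 0 := by simp [hψ, hΨ, ofComplex_apply]
  have hψ' : deriv ψ (z0 : ℂ) ≠ 0 := by
    have hΔd := (UpperHalfPlane.mdifferentiable_iff.1 hΔ).differentiableAt
      (hopenH.mem_nhds z0.im_pos)
    have hjd := (UpperHalfPlane.mdifferentiable_iff.1 mdiff_jfun).differentiableAt
      (hopenH.mem_nhds z0.im_pos)
    have hd : HasDerivAt ψ (ModularForm.discriminant z0 ^ 2 * deriv (jfun ∘ ofComplex) (z0 : ℂ))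
        (z0 : ℂ) := by
      have h1 := (hΔd.hasDerivAt.pow 2).mul (hjd.hasDerivAt.sub_const (jfun z0))
      refine h1.congr_deriv ?_
      simp [ofComplex_apply]
    rw [hd.deriv]
    refine mul_ne_zero (pow_ne_zero _ (ModularForm.discriminant_ne_zero _)) ?_
    have hD := D_jfun z0
    rw [Derivative.normalizedDerivOfComplex, inv_mul_eq_iff_eq_mul₀ Complex.two_pi_I_ne_zero] at hD
    rw [hD]
    simp [h4, h6, ModularForm.discriminant_ne_zero, Real.pi_ne_zero]
  -- the seed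
  set ds : ℂ → ℂ := dslope ψ (z0 : ℂ) with hds
  have hdsd : DifferentiableOn ℂ ds {z | 0 < z.im} :=
    (differentiableOn_dslope (hopenH.mem_nhds z0.im_pos)).2 hψd
  have hconj : ∀ w : ℂ, 0 < w.im → w - (starRingEnd ℂ) (z0 : ℂ) ≠ 0 := fun w hw h => by
    have h' := congrArg Complex.im h
    simp at h'
    linarith [z0.im_pos]
  set g : ℍ → ℂ := fun w => ds w / ((w : ℂ) - (starRingEnd ℂ) (z0 : ℂ)) ^ 3 with hg
  have hgm : MDiff g := by
    rw [UpperHalfPlane.mdifferentiable_iff]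
    refine (hdsd.div (DifferentiableOn.pow (differentiableOn_id.sub_const _) 3) fun w hw =>
      pow_ne_zero _ (hconj w hw)).congr fun w hw => ?_
    simp [hg, Function.comp_apply, ofComplex_apply_of_im_pos hw]
  have hg0 : g z0 ≠ 0 := by
    simp only [hg, hds, dslope_same]
    exact div_ne_zero hψ' (pow_ne_zero _ (hconj _ z0.im_pos))
  have hvan : ∀ γ : SL(2, ℤ), γ • z0 ≠ z0 → g (γ • z0) = 0 := by
    intro γ hγ
    have hne : ((γ • z0 : ℍ) : ℂ) ≠ z0 := fun h => hγ (UpperHalfPlane.ext h)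
    have hj := jfun_smul γ z0
    have hΨ0 : ψ ((γ • z0 : ℍ) : ℂ) = 0 := by
      rw [hψ, Function.comp_apply, ofComplex_apply, hΨ]
      simp only [hj, sub_self, mul_zero]
    simp only [hg, hds, dslope_of_ne _ hne, slope, vsub_eq_sub, hψ0, hΨ0, sub_zero, smul_zero,
      zero_div]
  -- the bound
  set y0 := z0.im
  obtain ⟨r, hr, hr2⟩ : ∃ r, 0 < r ∧ r = y0 / 2 := ⟨_, by positivity, rfl⟩
  have hball : Metric.closedBall (z0 : ℂ) r ⊆ {z | 0 < z.im} := fun w hw => by
    rw [Metric.mem_closedBall, dist_eq_norm] at hw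
    have := (abs_le.1 ((Complex.abs_im_le_norm (w - z0)).trans hw)).1
    simp at this
    show 0 < w.im
    have : y0 = (z0 : ℂ).im := rfl
    linarith
  obtain ⟨K, hK⟩ := (isCompact_closedBall (z0 : ℂ) r).exists_bound_of_continuousOn
    (hdsd.continuousOn.mono hball)
  have hK0 : 0 ≤ K := le_trans (norm_nonneg _) (hK _ (Metric.mem_closedBall_self hr.le))
  have hCΨ0 : 0 ≤ CΨ := le_trans (by positivity) (hCΨ z0)
  set C := K * (2 * y0) ^ 12 * (4 * y0) + CΨ * (1 + 2 * y0 / r)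
  refine ⟨⟨z0, hz0, g, hgm, hg0, hvan, C, by positivity, fun w => ?_⟩⟩
  set D := ‖(w : ℂ) - (starRingEnd ℂ) (z0 : ℂ)‖
  have hwpos := w.im_pos
  have hD1 : ((w.re - z0.re) ^ 2 + 1) ≤ D ^ 2 := by
    show _ ≤ ‖_‖ ^ 2
    rw [Complex.sq_norm, Complex.normSq_apply]
    simp only [Complex.sub_re, Complex.sub_im, Complex.conj_re, Complex.conj_im, coe_re, coe_im,
      sub_neg_eq_add]
    nlinarith
  have hDpos : 0 < D := norm_pos_iff.2 (hconj _ w.im_pos)
  have key : ‖ds w‖ * w.im ^ 18 * D ≤ C * w.im ^ 6 := by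
    rcases le_or_gt ‖(w : ℂ) - z0‖ r with hwr | hwr
    · have hdsK : ‖ds w‖ ≤ K := hK w (by rwa [Metric.mem_closedBall, dist_eq_norm])
      have himle : w.im ≤ 2 * y0 := by
        have := (abs_le.1 ((Complex.abs_im_le_norm ((w : ℂ) - z0)).trans hwr)).2
        simp only [Complex.sub_im, coe_im] at this
        linarith
      have hDle : D ≤ 4 * y0 := by
        have h1 : D ≤ ‖(w : ℂ) - z0‖ + ‖(z0 : ℂ) - (starRingEnd ℂ) (z0 : ℂ)‖ :=
          norm_sub_le_norm_sub_add_norm_sub _ _ _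
        have h2 : ‖(z0 : ℂ) - (starRingEnd ℂ) (z0 : ℂ)‖ = 2 * y0 := by
          rw [Complex.sub_conj]
          simp [y0, abs_of_pos z0.im_pos]
        linarith
      calc ‖ds w‖ * w.im ^ 18 * D
          ≤ K * ((2 * y0) ^ 12 * w.im ^ 6) * (4 * y0) := by
            have h18 : w.im ^ 18 ≤ (2 * y0) ^ 12 * w.im ^ 6 := by
              rw [show w.im ^ 18 = w.im ^ 12 * w.im ^ 6 by ring]
              gcongr
            gcongr
        _ ≤ C * w.im ^ 6 := by
            rw [show K * ((2 * y0) ^ 12 * w.im ^ 6) * (4 * y0) =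
              (K * (2 * y0) ^ 12 * (4 * y0)) * w.im ^ 6 by ring]
            gcongr
            exact le_add_of_nonneg_right (by positivity)
    · have hne : (w : ℂ) ≠ z0 := fun h => by
        rw [h, sub_self, norm_zero] at hwr
        linarith
      have hdsw : ‖ds w‖ = ‖Ψ w‖ / ‖(w : ℂ) - z0‖ := by
        simp only [hds, dslope_of_ne _ hne, slope, vsub_eq_sub, hψ0, sub_zero, smul_eq_mul,
          norm_mul, norm_inv]
        rw [inv_mul_eq_div]
        simp [hψ, ofComplex_apply]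
      have hDle : D ≤ ‖(w : ℂ) - z0‖ * (1 + 2 * y0 / r) := by
        have h1 : D ≤ ‖(w : ℂ) - z0‖ + ‖(z0 : ℂ) - (starRingEnd ℂ) (z0 : ℂ)‖ :=
          norm_sub_le_norm_sub_add_norm_sub _ _ _
        have h2 : ‖(z0 : ℂ) - (starRingEnd ℂ) (z0 : ℂ)‖ = 2 * y0 := by
          rw [Complex.sub_conj]
          simp [y0, abs_of_pos z0.im_pos]
        have h3 : 2 * y0 ≤ ‖(w : ℂ) - z0‖ * (2 * y0 / r) := by
          rw [mul_div_assoc', le_div_iff₀ hr]
          nlinarith
        linarith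
      have hwn : 0 < ‖(w : ℂ) - z0‖ := hr.trans hwr
      calc ‖ds w‖ * w.im ^ 18 * D
          ≤ ‖ds w‖ * w.im ^ 18 * (‖(w : ℂ) - z0‖ * (1 + 2 * y0 / r)) := by gcongr
        _ = (‖Ψ w‖ * w.im ^ 12) * (1 + 2 * y0 / r) * w.im ^ 6 := by
            rw [hdsw]; field_simp
        _ ≤ C * w.im ^ 6 := by
            gcongr
            exact le_trans (mul_le_mul_of_nonneg_right (hCΨ w) (by positivity))
              (le_add_of_nonneg_left (by positivity))
  rw [hg]
  simp only [norm_div, norm_pow]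
  show ‖ds w‖ / D ^ 3 * w.im ^ 18 ≤ _
  calc ‖ds w‖ / D ^ 3 * w.im ^ 18 = ‖ds w‖ * w.im ^ 18 * D / (D ^ 2) ^ 2 := by
        field_simp
    _ ≤ C * w.im ^ 6 / (D ^ 2) ^ 2 := by gcongr
    _ ≤ C * w.im ^ 6 / ((w.re - z0.re) ^ 2 + 1) ^ 2 := by gcongr

/-! ### The series -/

variable (S : Seed)

/-- The Poincaré series with weights `u`. -/
def pSum (u : SL(2, ℤ) → ℂ) (z : ℍ) : ℂ := ∑' γ : SL(2, ℤ), u γ * (S.g ∣[(36 : ℤ)] γ) z

/-- The index of a term. -/
def pIdx (γ : SL(2, ℤ)) : (Fin 2 → ℤ) × ℤ := (![γ 1 0, γ 1 1], ⌊(γ • UpperHalfPlane.I).re⌋)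

theorem row_ne_zero (γ : SL(2, ℤ)) : (![γ 1 0, γ 1 1] : Fin 2 → ℤ) ≠ 0 := fun h => by
  have h0 : γ 1 0 = 0 := congrFun h 0
  have h1 : γ 1 1 = 0 := congrFun h 1
  have := γ.det_coe
  rw [Matrix.det_fin_two, h0, h1] at this
  simp at this

theorem pIdx_injective : Function.Injective pIdx := by
  intro γ δ h
  simp only [pIdx, Prod.mk.injEq] at h
  obtain ⟨h1, h2⟩ := h
  have hc : γ 1 0 = δ 1 0 := congrFun h1 0
  have hd : γ 1 1 = δ 1 1 := congrFun h1 1
  have dγ := γ.det_coe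
  have dδ := δ.det_coe
  rw [Matrix.det_fin_two] at dγ dδ
  rw [← hc, ← hd] at dδ
  set j : ℤ := γ 0 1 * δ 0 0 - γ 0 0 * δ 0 1
  have ha : γ 0 0 = δ 0 0 + j * γ 1 0 := by linear_combination δ 0 0 * dγ - γ 0 0 * dδ
  have hb : γ 0 1 = δ 0 1 + j * γ 1 1 := by linear_combination δ 0 1 * dγ - γ 0 1 * dδ
  have hz : ((γ • UpperHalfPlane.I : ℍ) : ℂ) = (δ • UpperHalfPlane.I : ℍ) + (j : ℂ) := by
    have hne := smul_denom_ne γ UpperHalfPlane.I
    rw [coe_smul_int, coe_smul_int, ha, hb, ← hc, ← hd, div_add' _ _ _ hne]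
    push_cast
    congr 1
    ring
  have hre : (γ • UpperHalfPlane.I).re = (δ • UpperHalfPlane.I).re + j := by
    have := congrArg Complex.re hz
    simpa using this
  rw [hre, Int.floor_add_intCast] at h2
  have hj : j = 0 := by omega
  apply Subtype.ext
  ext a b
  fin_cases a <;> fin_cases b
  · simpa [hj] using ha
  · simpa [hj] using hb
  · exact hc
  · exact hd

/-- The summable weights. -/
def pWeight (x : (Fin 2 → ℤ) × ℤ) : ℝ := (‖x.1‖ ^ 12)⁻¹ * ((|(x.2 : ℝ)| + 1) ^ 4)⁻¹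

theorem summable_pWeight : Summable pWeight := by
  refine Summable.mul_of_nonneg (f := fun x : Fin 2 → ℤ => (‖x‖ ^ 12)⁻¹)
    (g := fun k : ℤ => ((|(k : ℝ)| + 1) ^ 4)⁻¹) ?_ ?_ (fun x => by positivity) fun k => by positivity
  · refine (EisensteinSeries.summable_one_div_norm_rpow (k := ((12 : ℕ) : ℝ)) (by norm_num)).congr
      fun x => ?_
    rw [Real.rpow_neg (norm_nonneg _), Real.rpow_natCast]
  · have h : Summable fun n : ℕ => (((n : ℝ) + 1) ^ 4)⁻¹ := by
      have := (summable_nat_add_iff 1).2 (Real.summable_nat_pow_inv.2 (by norm_num : 1 < 4))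
      simpa using this
    refine Summable.of_nat_of_neg ?_ ?_ <;> refine h.congr fun n => ?_ <;> simp

theorem summable_pWeight_idx : Summable fun γ => pWeight (pIdx γ) :=
  summable_pWeight.comp_injective pIdx_injective

/-- The constant of the uniform bound on a strip. -/
def stripConst (A ε : ℝ) (hε : 0 < ε) : ℝ :=
  S.C * (2 * (|S.z0.re| + A + (A + 1) / ε + 3) ^ 2 + 2) ^ 2 /
    EisensteinSeries.r ⟨⟨A, ε⟩, hε⟩ ^ 12

theorem abs_re_sub_le {A ε : ℝ} (hε : 0 < ε) (hA : 0 ≤ A) (γ : SL(2, ℤ)) {z : ℍ}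
    (hx : |z.re| ≤ A) (hy : ε ≤ z.im) :
    |(γ • z).re - (γ • UpperHalfPlane.I).re| ≤ A + (A + 1) / ε + 1 := by
  have hne := smul_denom_ne γ z
  have hne' := smul_denom_ne γ UpperHalfPlane.I
  have hdet : ((γ 0 0 : ℤ) : ℂ) * (γ 1 1 : ℤ) - ((γ 0 1 : ℤ) : ℂ) * (γ 1 0 : ℤ) = 1 := by
    have := γ.det_coe
    rw [Matrix.det_fin_two] at this
    exact_mod_cast this
  have hdiff : ((γ • z : ℍ) : ℂ) - (γ • UpperHalfPlane.I : ℍ) =
      ((z : ℂ) - I) / ((((γ 1 0 : ℤ) : ℂ) * z + (γ 1 1 : ℤ)) *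
        (((γ 1 0 : ℤ) : ℂ) * I + (γ 1 1 : ℤ))) := by
    rw [coe_smul_int, coe_smul_int, UpperHalfPlane.coe_I]
    rw [UpperHalfPlane.coe_I] at hne'
    rw [div_sub_div _ _ hne hne']
    congr 1
    linear_combination ((z : ℂ) - I) * hdet
  have hre : (γ • z).re - (γ • UpperHalfPlane.I).re =
      (((γ • z : ℍ) : ℂ) - (γ • UpperHalfPlane.I : ℍ)).re := by simp
  rw [hre, hdiff]
  have hnn : 0 ≤ (A + 1) / ε := by positivity
  rcases eq_or_ne (γ 1 0) 0 with hc | hc
  · rw [hc]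
    have hd : ((γ 1 1 : ℤ) : ℂ) * (γ 1 1 : ℤ) = 1 := by
      have hd1 : γ 1 1 * γ 1 1 = 1 := by
        have := γ.det_coe
        rw [Matrix.det_fin_two, hc, mul_zero, sub_zero] at this
        exact Int.isUnit_mul_self (IsUnit.of_mul_eq_one_right _ this)
      exact_mod_cast hd1
    simp only [Int.cast_zero, zero_mul, zero_add, hd, div_one]
    simp only [Complex.sub_re, coe_re, Complex.I_re, sub_zero]
    linarith
  · refine (Complex.abs_re_le_norm _).trans ?_
    have hc1 : (1 : ℝ) ≤ |((γ 1 0 : ℤ) : ℝ)| := by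
      rw [← Int.cast_abs]; exact_mod_cast Int.one_le_abs hc
    have h1 : z.im ≤ ‖((γ 1 0 : ℤ) : ℂ) * z + (γ 1 1 : ℤ)‖ := by
      refine le_trans ?_ (Complex.abs_im_le_norm _)
      simp only [Complex.add_im, Complex.mul_im, Complex.intCast_re, Complex.intCast_im, coe_im,
        zero_mul, add_zero, abs_mul, abs_of_pos z.im_pos]
      nlinarith [z.im_pos]
    have h2 : (1 : ℝ) ≤ ‖((γ 1 0 : ℤ) : ℂ) * I + (γ 1 1 : ℤ)‖ := by
      refine le_trans ?_ (Complex.abs_im_le_norm _)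
      simpa using hc1
    have h3 : ‖(z : ℂ) - I‖ ≤ A + z.im + 1 := by
      refine (Complex.norm_le_abs_re_add_abs_im _).trans ?_
      simp only [Complex.sub_re, Complex.sub_im, coe_re, coe_im, Complex.I_re, Complex.I_im,
        sub_zero]
      have := abs_sub z.im 1
      rw [abs_of_pos z.im_pos, abs_one] at this
      linarith
    rw [norm_div, norm_mul]
    calc ‖(z : ℂ) - I‖ / (‖((γ 1 0 : ℤ) : ℂ) * z + (γ 1 1 : ℤ)‖ *
          ‖((γ 1 0 : ℤ) : ℂ) * I + (γ 1 1 : ℤ)‖)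
        ≤ (A + z.im + 1) / (z.im * 1) := by
          apply div_le_div₀ (by linarith [z.im_pos]) h3 (by linarith [z.im_pos])
          exact mul_le_mul h1 h2 zero_le_one (norm_nonneg _)
      _ = (A + 1) / z.im + 1 := by field_simp [z.im_ne_zero]; ring
      _ ≤ A + (A + 1) / ε + 1 := by
          have : (A + 1) / z.im ≤ (A + 1) / ε := by gcongr
          linarith

/-- The uniform bound on a strip. -/
theorem norm_term_le {A ε : ℝ} (hε : 0 < ε) (hA : 0 ≤ A) (γ : SL(2, ℤ)) {z : ℍ}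
    (hx : |z.re| ≤ A) (hy : ε ≤ z.im) :
    ‖(S.g ∣[(36 : ℤ)] γ) z‖ ≤ stripConst S A ε hε / z.im ^ 12 * pWeight (pIdx γ) := by
  set d : ℝ := ‖((γ 1 0 : ℤ) : ℂ) * z + (γ 1 1 : ℤ)‖ with hd
  have hd0 : 0 < d := norm_pos_iff.2 (smul_denom_ne γ z)
  set w := γ • z
  set t := w.re - S.z0.re
  set Q := t ^ 2 + 1
  have hy0 := z.im_pos
  have hQ : 0 < Q := by positivity
  have him : w.im = z.im / d ^ 2 := by
    rw [show w.im = (γ • z).im from rfl, ModularGroup.im_smul_eq_div_normSq,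
      ModularGroup.denom_apply, hd, Complex.sq_norm]
  have hnorm : ‖(S.g ∣[(36 : ℤ)] γ) z‖ = ‖S.g w‖ / d ^ 36 := by
    rw [ModularForm.SL_slash_apply, norm_mul, norm_zpow, ModularGroup.denom_apply, hd,
      _root_.zpow_neg, ← div_eq_mul_inv]
    norm_cast
  have hb := S.bound w
  rw [him, div_pow, div_pow, ← pow_mul, ← pow_mul] at hb
  have h1 : ‖(S.g ∣[(36 : ℤ)] γ) z‖ ≤ S.C / (z.im ^ 12 * d ^ 12 * Q ^ 2) := by
    rw [hnorm, le_div_iff₀ (by positivity)]
    have : S.C * (z.im ^ 6 / d ^ 12) / Q ^ 2 = S.C * z.im ^ 6 / (d ^ 12 * Q ^ 2) := by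
      field_simp
    rw [this, mul_div_assoc', div_le_div_iff₀ (by positivity) (by positivity)] at hb
    rw [div_mul_eq_mul_div, div_le_iff₀ (by positivity)]
    refine le_of_mul_le_mul_right ?_ (pow_pos hy0 6)
    calc ‖S.g w‖ * (z.im ^ 12 * d ^ 12 * Q ^ 2) * z.im ^ 6
        = ‖S.g w‖ * z.im ^ 18 * (d ^ 12 * Q ^ 2) := by ring
      _ ≤ S.C * z.im ^ 6 * d ^ 36 := hb
      _ = S.C * d ^ 36 * z.im ^ 6 := by ring
  -- compare with the weights
  set B := |S.z0.re| + A + (A + 1) / ε + 3 with hB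
  set k := ⌊(γ • UpperHalfPlane.I).re⌋
  have hk : |(k : ℝ)| + 1 ≤ B + |t| := by
    have h2 := abs_re_sub_le hε hA γ hx hy
    have h3 : |(k : ℝ) - (γ • UpperHalfPlane.I).re| ≤ 1 := by
      rw [abs_sub_comm, Int.self_sub_floor, abs_of_nonneg (Int.fract_nonneg _)]
      exact (Int.fract_lt_one _).le
    have h4 := abs_sub_le (k : ℝ) (γ • UpperHalfPlane.I).re 0
    have h5 := abs_sub_le (γ • UpperHalfPlane.I).re w.re 0
    rw [abs_sub_comm (γ • UpperHalfPlane.I).re w.re] at h5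
    have h6 := abs_add_le t S.z0.re
    simp only [sub_zero] at h4 h5
    rw [show t + S.z0.re = w.re from sub_add_cancel _ _] at h6
    linarith
  have hk2 : (|(k : ℝ)| + 1) ^ 2 ≤ (2 * B ^ 2 + 2) * Q := by
    have h7 : (|(k : ℝ)| + 1) ^ 2 ≤ (B + |t|) ^ 2 := pow_le_pow_left₀ (by positivity) hk 2
    nlinarith [sq_abs t, sq_nonneg (B - |t|)]
  set r0 := EisensteinSeries.r ⟨⟨A, ε⟩, hε⟩
  have hr0 : 0 < r0 := EisensteinSeries.r_pos _
  have hrd : r0 * ‖(![γ 1 0, γ 1 1] : Fin 2 → ℤ)‖ ≤ d := by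
    refine le_trans ?_
      (EisensteinSeries.r_mul_max_le z (x := (![γ 1 0, γ 1 1] : Fin 2 → ℤ)) (row_ne_zero γ))
    gcongr
    exact EisensteinSeries.r_lower_bound_on_verticalStrip z hε ⟨hx, hy⟩
  have hxpos : 0 < ‖(![γ 1 0, γ 1 1] : Fin 2 → ℤ)‖ := norm_pos_iff.2 (row_ne_zero γ)
  refine h1.trans ?_
  simp only [stripConst, pWeight, pIdx]
  calc S.C / (z.im ^ 12 * d ^ 12 * Q ^ 2)
      ≤ S.C / (z.im ^ 12 * (r0 * ‖(![γ 1 0, γ 1 1] : Fin 2 → ℤ)‖) ^ 12 *
          ((|(k : ℝ)| + 1) ^ 2 / (2 * B ^ 2 + 2)) ^ 2) := by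
        have hkk : (|(k : ℝ)| + 1) ^ 2 / (2 * B ^ 2 + 2) ≤ Q := by
          rw [div_le_iff₀ (by positivity)]; linarith
        gcongr
        exact S.C_nonneg
    _ = S.C * (2 * B ^ 2 + 2) ^ 2 / r0 ^ 12 / z.im ^ 12 *
          ((‖(![γ 1 0, γ 1 1] : Fin 2 → ℤ)‖ ^ 12)⁻¹ * ((|(k : ℝ)| + 1) ^ 4)⁻¹) := by
        rw [mul_pow, div_pow]
        clear_value B r0
        field_simp

theorem summable_term {u : SL(2, ℤ) → ℂ} (hu : ∀ γ, ‖u γ‖ ≤ 1) (z : ℍ) :
    Summable fun γ => u γ * (S.g ∣[(36 : ℤ)] γ) z := by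
  refine Summable.of_norm_bounded
    (summable_pWeight_idx.mul_left (stripConst S |z.re| z.im z.im_pos / z.im ^ 12)) fun γ => ?_
  rw [norm_mul]
  exact (mul_le_of_le_one_left (norm_nonneg _) (hu γ)).trans
    (norm_term_le S z.im_pos (abs_nonneg _) γ le_rfl le_rfl)

theorem mdiff_pSum {u : SL(2, ℤ) → ℂ} (hu : ∀ γ, ‖u γ‖ ≤ 1) : MDiff (pSum S u) := by
  rw [UpperHalfPlane.mdifferentiable_iff]
  intro z hz
  set U : Set ℂ := {w | |w.re| < |z.re| + 1 ∧ z.im / 2 < w.im}
  have hU : IsOpen U := (isOpen_lt (continuous_abs.comp Complex.continuous_re) continuous_const).inter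
    (isOpen_lt continuous_const Complex.continuous_im)
  have hzpos : 0 < z.im := hz
  have hzU : z ∈ U := ⟨by linarith, by linarith⟩
  have hε : 0 < z.im / 2 := by linarith
  have hUH : ∀ w ∈ U, 0 < w.im := fun w hw => hε.trans hw.2
  have hd : DifferentiableOn ℂ
      (fun w => ∑' γ : SL(2, ℤ), u γ * ((S.g ∣[(36 : ℤ)] γ) ∘ ofComplex) w) U := by
    refine differentiableOn_tsum_of_summable_norm (u := fun γ =>
      stripConst S (|z.re| + 1) (z.im / 2) hε / (z.im / 2) ^ 12 * pWeight (pIdx γ))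
      (summable_pWeight_idx.mul_left _) (fun γ => ?_) hU fun γ w hw => ?_
    · refine DifferentiableOn.const_mul ?_ _
      exact (UpperHalfPlane.mdifferentiable_iff.1 (S.mdiff.slash _ _)).mono hUH
    · rw [norm_mul, Function.comp_apply, ofComplex_apply_of_im_pos (hUH w hw)]
      refine (mul_le_of_le_one_left (norm_nonneg _) (hu γ)).trans ?_
      refine (norm_term_le S hε (by positivity) γ (z := ⟨w, hUH w hw⟩) hw.1.le hw.2.le).trans ?_
      have hC0 : 0 ≤ stripConst S (|z.re| + 1) (z.im / 2) hε := by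
        have := S.C_nonneg
        have := EisensteinSeries.r_pos ⟨⟨|z.re| + 1, z.im / 2⟩, hε⟩
        unfold stripConst
        positivity
      have hw' : z.im / 2 ≤ (⟨w, hUH w hw⟩ : ℍ).im := hw.2.le
      have hwt : 0 ≤ pWeight (pIdx γ) := by unfold pWeight; positivity
      gcongr
  exact (hd.differentiableAt (hU.mem_nhds hzU)).differentiableWithinAt

theorem pSum_slash (u : SL(2, ℤ) → ℂ) (δ : SL(2, ℤ)) :
    pSum S u ∣[(36 : ℤ)] δ = pSum S (fun γ => u (γ * δ⁻¹)) := by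
  funext z
  rw [ModularForm.SL_slash_apply, pSum, pSum, ← tsum_mul_right,
    ← (Equiv.mulRight δ).tsum_eq (fun γ => u (γ * δ⁻¹) * (S.g ∣[(36 : ℤ)] γ) z)]
  refine tsum_congr fun γ => ?_
  simp only [Equiv.coe_mulRight, mul_inv_cancel_right, SlashAction.slash_mul]
  rw [ModularForm.SL_slash_apply (S.g ∣[(36 : ℤ)] γ) δ z, mul_assoc]

theorem isBoundedAtImInfty_pSum {u : SL(2, ℤ) → ℂ} (hu : ∀ γ, ‖u γ‖ ≤ 1) :
    IsBoundedAtImInfty (pSum S u) := by
  rw [UpperHalfPlane.isBoundedAtImInfty_iff]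
  refine ⟨stripConst S 1 1 one_pos * ∑' γ, pWeight (pIdx γ), 1, fun z hz => ?_⟩
  set j : ℤ := ⌊z.re⌋
  set z' : ℍ := ModularGroup.T ^ (-j) • z
  have hre : z'.re = z.re - j := by
    rw [ModularGroup.re_T_zpow_smul]; push_cast; ring
  have him : z'.im = z.im := ModularGroup.im_T_zpow_smul z _
  have hden : denom (ModularGroup.T ^ j : SL(2, ℤ)) (z' : ℂ) = 1 := by
    rw [ModularGroup.denom_apply]
    simp [ModularGroup.coe_T_zpow]
  have hval : pSum S u z = pSum S (fun γ => u (γ * (ModularGroup.T ^ j)⁻¹)) z' := by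
    rw [← pSum_slash, ModularForm.SL_slash_apply, hden, one_zpow, mul_one]
    congr 1
    rw [smul_smul, ← zpow_add, add_neg_cancel, zpow_zero, one_smul]
  rw [hval]
  have hx : |z'.re| ≤ 1 := by
    rw [hre, Int.self_sub_floor, abs_of_nonneg (Int.fract_nonneg _)]
    exact (Int.fract_lt_one _).le
  have hy : 1 ≤ z'.im := him ▸ hz
  refine tsum_of_norm_bounded (summable_pWeight_idx.hasSum.mul_left _) fun γ => ?_
  rw [norm_mul]
  refine (mul_le_of_le_one_left (norm_nonneg _) (hu _)).trans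
    ((norm_term_le S one_pos zero_le_one γ hx hy).trans ?_)
  have hC0 : 0 ≤ stripConst S 1 1 one_pos := by
    have := S.C_nonneg
    have := EisensteinSeries.r_pos ⟨⟨1, 1⟩, one_pos⟩
    unfold stripConst
    positivity
  have hwt : 0 ≤ pWeight (pIdx γ) := by unfold pWeight; positivity
  gcongr
  exact div_le_self hC0 (one_le_pow₀ hy)

theorem eq_one_or_neg_one_of_smul_z0 {γ : SL(2, ℤ)} (h : γ • S.z0 = S.z0) :
    γ = 1 ∨ γ = -1 := by
  have him := congrArg UpperHalfPlane.im h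
  rw [ModularGroup.im_smul_eq_div_normSq, ModularGroup.denom_apply] at him
  have hne : Complex.normSq (((γ 1 0 : ℤ) : ℂ) * S.z0 + (γ 1 1 : ℤ)) ≠ 0 :=
    (Complex.normSq_pos.2 (smul_denom_ne γ S.z0)).ne'
  rw [div_eq_iff hne] at him
  have hn1 : Complex.normSq (((γ 1 0 : ℤ) : ℂ) * S.z0 + (γ 1 1 : ℤ)) = 1 :=
    mul_left_cancel₀ S.z0.im_ne_zero (by rw [mul_one]; exact him.symm)
  have hc : γ 1 0 = 0 := by
    by_contra hc
    rw [Complex.normSq_apply] at hn1
    simp only [Complex.add_im, Complex.mul_im, Complex.intCast_re, Complex.intCast_im, coe_im,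
      zero_mul, add_zero] at hn1
    have hc1 : (1 : ℝ) ≤ ((γ 1 0 : ℤ) : ℝ) ^ 2 := by
      have : (1 : ℤ) ≤ γ 1 0 ^ 2 := by nlinarith [Int.one_le_abs hc, sq_abs (γ 1 0)]
      exact_mod_cast this
    have h2 : (1 : ℝ) < S.z0.im ^ 2 := by nlinarith [S.hz0]
    nlinarith [mul_le_mul hc1 h2.le zero_le_one (by positivity)]
  have hdet := γ.det_coe
  rw [Matrix.det_fin_two, hc, mul_zero, sub_zero] at hdet
  have hb : γ 0 1 = 0 := by
    have h1 := congrArg (fun w : ℍ => (w : ℂ)) h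
    simp only [coe_smul_int] at h1
    rw [div_eq_iff (smul_denom_ne γ S.z0), hc] at h1
    rcases Int.eq_one_or_neg_one_of_mul_eq_one' hdet with ⟨e1, e2⟩ | ⟨e1, e2⟩ <;>
    · rw [e1, e2] at h1
      simpa using h1
  rcases Int.eq_one_or_neg_one_of_mul_eq_one' hdet with ⟨e1, e2⟩ | ⟨e1, e2⟩
  · left
    apply Subtype.ext
    ext a b
    fin_cases a <;> fin_cases b <;> simp [hc, hb, e1, e2]
  · right
    apply Subtype.ext
    ext a b
    fin_cases a <;> fin_cases b <;> simp [hc, hb, e1, e2]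

/-- The inverse of `Δ` has a `q`-expansion. -/
theorem exists_hasExp_inv_discriminant :
    ∃ L, HasExp (qp 1) (fun z => (ModularForm.discriminant z)⁻¹) L := by
  refine ⟨_, ((hasExp_single (T := qp 1) (-1) 1).mul (qp_ne_zero 1) hasExp_inv_etaUnit).congr
    (funext fun z => ?_)⟩
  have hq : qp 1 z = Function.Periodic.qParam (1 : ℝ) (z : ℂ) := by simp [qp]
  simp only [Pi.mul_apply, one_mul, zpow_neg_one]
  rw [ModularForm.discriminant_eq_q_prod, ← hq,
    inv_pow, ← (ModularForm.multipliable_one_sub_pow (norm_qp_lt_one 1 z)).tprod_pow 24]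
  · simp only [ModularForm.eta_q, ← hq, mul_inv]

/-- A function on the upper half plane transforming by a character of a group `Γ`, with expansions at
the cusps. -/
theorem exists_twisted (Γ : Subgroup SL(2, ℤ)) (N : ℕ) [NeZero N]
    (hT : ∀ δ : SL(2, ℤ), δ * ModularGroup.T ^ (N : ℤ) * δ⁻¹ ∈ Γ) (hnegmem : -1 ∈ Γ)
    (χ : Γ →* ℂˣ) {m : ℕ} (hm : m ≠ 0)
    (hord : ∀ γ, χ γ ^ m = 1) (hneg : ∀ γ : Γ, (γ : SL(2, ℤ)) = -1 → χ γ = 1)
    (hcusp : ∀ (δ : SL(2, ℤ)) (γ : Γ),
      (γ : SL(2, ℤ)) = δ * ModularGroup.T ^ (N : ℤ) * δ⁻¹ → χ γ = 1) :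
    ∃ h : ℍ → ℂ, h ≠ 0 ∧ MDiff h ∧
      (∀ (γ : Γ) (z : ℍ), h ((γ : SL(2, ℤ)) • z) = (χ γ : ℂ) * h z) ∧
      ∀ δ : SL(2, ℤ), ∃ L, HasExp (qp N) (fun z => h (δ • z)) L := by
  classical
  obtain ⟨S⟩ := exists_seed
  set u : SL(2, ℤ) → ℂ := fun γ =>
    if h : γ ∈ Γ then (((χ ⟨γ, h⟩)⁻¹ : ℂˣ) : ℂ) else 0 with hu_def
  have hu : ∀ γ, ‖u γ‖ ≤ 1 := by
    intro γ
    rw [hu_def]
    simp only
    split_ifs with h
    · refine (Complex.norm_eq_one_of_pow_eq_one (n := m) ?_ hm).le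
      rw [← Units.val_pow_eq_pow_val, inv_pow, hord, inv_one, Units.val_one]
    · simp
  set R := pSum S u
  have hRinv : ∀ (δ : Γ), R ∣[(36 : ℤ)] (δ : SL(2, ℤ)) = fun z => (χ δ : ℂ) * R z := by
    intro δ
    funext z
    show ((pSum S u) ∣[(36 : ℤ)] (δ : SL(2, ℤ))) z = (χ δ : ℂ) * pSum S u z
    rw [pSum_slash, pSum, pSum, ← tsum_mul_left]
    refine tsum_congr fun γ => ?_
    rw [← mul_assoc]
    congr 1
    by_cases hγ : γ ∈ Γ
    · have hγ' : γ * (δ : SL(2, ℤ))⁻¹ ∈ Γ := mul_mem hγ (inv_mem δ.2)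
      rw [hu_def]
      simp only [dif_pos hγ, dif_pos hγ']
      rw [show (⟨_, hγ'⟩ : Γ) = ⟨γ, hγ⟩ * δ⁻¹ from rfl, map_mul, map_inv, mul_inv,
        inv_inv, Units.val_mul, mul_comm]
    · have hγ' : γ * (δ : SL(2, ℤ))⁻¹ ∉ Γ := fun h => hγ (by
        simpa using mul_mem h δ.2)
      rw [hu_def]
      simp only [dif_neg hγ, dif_neg hγ', mul_zero]
  have hone : u 1 = 1 := by
    rw [hu_def]
    simp only [dif_pos (one_mem (Γ))]
    rw [show (⟨1, one_mem _⟩ : Γ) = 1 from rfl, map_one, inv_one, Units.val_one]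
  have hmone : u (-1) = 1 := by
    rw [hu_def]
    simp only [dif_pos hnegmem]
    rw [hneg _ rfl, inv_one, Units.val_one]
  have hz : R S.z0 ≠ 0 := by
    have hne : (1 : SL(2, ℤ)) ≠ -1 := fun h => by
      have := congrArg (fun g : SL(2, ℤ) => g 0 0) h
      simp at this
    show pSum S u S.z0 ≠ 0
    rw [pSum, tsum_eq_sum (s := {1, -1}) ?_, Finset.sum_pair hne, hone, hmone,
      ModularForm.SL_slash_apply, ModularForm.SL_slash_apply, ModularGroup.denom_apply,
      ModularGroup.denom_apply]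
    · have h1 : (-1 : SL(2, ℤ)) • S.z0 = S.z0 := by rw [ModularGroup.SL_neg_smul, one_smul]
      rw [h1, one_smul]
      have := S.g_ne
      norm_num [_root_.zpow_neg]
      exact this
    · intro γ hγ
      simp only [Finset.mem_insert, Finset.mem_singleton, not_or] at hγ
      rw [ModularForm.SL_slash_apply, S.vanish γ, zero_mul, mul_zero]
      intro h
      rcases eq_one_or_neg_one_of_smul_z0 S h with h' | h'
      · exact hγ.1 h'
      · exact hγ.2 h'
  have hΔ : MDiff ModularForm.discriminant := CuspForm.discriminant.holo'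
  refine ⟨fun z => R z * (ModularForm.discriminant z)⁻¹ ^ 3, fun h => ?_,
    (mdiff_pSum S hu).mul (mdiff_inv_discriminant.pow 3), fun γ z => ?_, fun δ => ?_⟩
  · exact mul_ne_zero hz (pow_ne_zero 3 (inv_ne_zero (ModularForm.discriminant_ne_zero S.z0)))
      (congrFun h S.z0)
  · have h1 := congrFun (hRinv γ) z
    rw [ModularForm.SL_slash_apply, _root_.zpow_neg,
      mul_inv_eq_iff_eq_mul₀ (zpow_ne_zero _ (denom_ne_zero _ _))] at h1
    simp only [h1, discriminant_smul]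
    have hd := denom_ne_zero ((γ : SL(2, ℤ)) : GL (Fin 2) ℝ) z
    rw [mul_inv, mul_pow, inv_pow, ← zpow_natCast (_ ^ (12 : ℤ)) 3, ← zpow_mul]
    norm_num
    field_simp
  · set u' : SL(2, ℤ) → ℂ := fun γ => u (γ * δ⁻¹)
    have hu' : ∀ γ, ‖u' γ‖ ≤ 1 := fun γ => hu _
    set F := pSum S u'
    have hFR : F = R ∣[(36 : ℤ)] δ := (pSum_slash S u δ).symm
    have hTN := hT δ
    have hper : Function.Periodic (F ∘ ofComplex) (N : ℝ) := by
      have hF : F ∣[(36 : ℤ)] (ModularGroup.T ^ (N : ℤ)) = F := by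
        rw [hFR, ← SlashAction.slash_mul,
          show δ * ModularGroup.T ^ (N : ℤ) =
            ((⟨_, hTN⟩ : Γ) : SL(2, ℤ)) * δ by simp,
          SlashAction.slash_mul, hRinv, hcusp δ ⟨_, hTN⟩ rfl]
        simp
      intro w
      rcases le_or_gt w.im 0 with hw | hw
      · have hw' : (w + (N : ℝ)).im ≤ 0 := by simpa using hw
        simp only [Function.comp_apply, ofComplex_apply_eq_of_im_nonpos hw' hw]
      · have hw' : 0 < (w + (N : ℝ)).im := by simpa using hw
        simp only [Function.comp_apply, ofComplex_apply_of_im_pos hw,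
          ofComplex_apply_of_im_pos hw']
        have h2 := congrFun hF ⟨w, hw⟩
        rw [ModularForm.SL_slash_apply, ModularGroup.denom_apply] at h2
        simp only [ModularGroup.coe_T_zpow, Matrix.of_apply, Matrix.cons_val', Matrix.cons_val_zero,
          Matrix.cons_val_one, Matrix.cons_val_fin_one, Int.cast_zero, zero_mul, zero_add,
          Int.cast_one, one_zpow, mul_one] at h2
        rw [← h2]
        congr 1
        apply UpperHalfPlane.ext
        rw [ModularGroup.coe_T_zpow_smul_eq]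
        simp
    have hFexp : HasExp (qp N) F
        (HahnSeries.ofPowerSeries ℤ ℂ (UpperHalfPlane.qExpansion N F)) :=
      hasExp_ofPowerSeries fun z => by
        have := UpperHalfPlane.hasSum_qExpansion (h := (N : ℝ))
          (by exact_mod_cast Nat.pos_of_ne_zero (NeZero.ne N)) hper (mdiff_pSum S hu')
          (isBoundedAtImInfty_pSum S hu') z
        simpa [qp, smul_eq_mul] using this
    obtain ⟨LD, hLD⟩ := exists_hasExp_inv_discriminant
    have hLD' := hLD.comp (U := qp N) (id : ℍ → ℍ) N 1 fun z => by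
      rw [Units.val_one, one_mul, qp_pow_self]; rfl
    refine ⟨_, (hFexp.mul (qp_ne_zero N) (hLD'.pow (qp_ne_zero N) 3)).congr (funext fun z => ?_)⟩
    simp only [Pi.mul_apply, Pi.pow_apply, Function.comp_apply, id_eq, hFR,
      ModularForm.SL_slash_apply, discriminant_smul]
    have hd := denom_ne_zero ((δ : SL(2, ℤ)) : GL (Fin 2) ℝ) z
    rw [mul_inv (_ ^ (12 : ℤ)), mul_pow, inv_pow (_ ^ (12 : ℤ)), ← zpow_natCast (_ ^ (12 : ℤ)) 3,
      ← zpow_mul, _root_.zpow_neg]
    norm_num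
    ring

end FA.JTorsion
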