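import Fermat.Agent.JTorsion.LatMod
import Fermat.Agent.JTorsion.ResidualAbs

/-!
# Residual representations attached to mod `p` systems of Hecke eigenvalues
-/

set_option autoImplicit false
set_option linter.style.haveILetI false
set_option linter.unusedSectionVars false
set_option synthInstance.maxHeartbeats 100000

noncomputable section

namespace FA.JTorsion

open FA.Level ModularCurve

local notation "Qb" => AlgebraicClosure ℚ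

variable [Algebra Qb ℂ] (N : ℕ) [NeZero N] (S : Finset ℕ) (p : ℕ) [Fact p.Prime]
  {k : Type} [Field k] [CharP k p]
  (ψ : CuspForm.heckeAlgebra N 2 (↑S : Set ℕ) →+* k)

/-- The two-dimensional representation attached to a system of eigenvalues modulo `p`. -/
theorem exists_residual [IsAlgClosed k] (hGR : GoodRed N) :
    ∃ r : GalQ →* Matrix (Fin 2) (Fin 2) k,
      (∃ L : IntermediateField ℚ Qb, FiniteDimensional ℚ L ∧
        ∀ σ : GalQ, (∀ a ∈ L, σ a = a) → r σ = 1) ∧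
      (∀ σ, (r σ).det = ((cycK p k σ : kˣ) : k)) ∧
      ∀ ℓ : ℕ, (hℓ : ℓ.Prime) → (hℓN : ¬ ℓ ∣ N) → ℓ ≠ p →
        ∀ A : ValuationSubring Qb, A.LiesOverPrime ℓ →
          (∀ σ ∈ A.inertiaSubgroupIn ℚ, r σ = 1) ∧
          ∀ hℓS : ℓ ∉ (↑S : Set ℕ), ∀ σ : GalQ, A.IsFrobeniusAt σ ℓ →
            (r σ).trace = ψ (CuspForm.heckeAlgebra.T (k := 2) hℓ hℓN hℓS) ∧
              (r σ).det = (ℓ : k) := by
  classical
  letI := ψ.toAlgebra
  haveI : NeZero p := ⟨(Fact.out : p.Prime).ne_zero⟩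
  haveI : Module.Finite ℤ (CuspForm.heckeAlgebra N 2 (↑S : Set ℕ)) :=
    FA.Period.moduleFinite_heckeAlgebra N 2 (↑S : Set ℕ)
  obtain ⟨g₀, x, hx, hg₀⟩ := exists_functional_of_faithful (k := k) p
    (X := LatMod N (↑S : Set ℕ)) fun _ h => latMod_faithful N (↑S : Set ℕ) h
  let g : ModN N (↑S : Set ℕ) p →ₗ[CuspForm.heckeAlgebra N 2 (↑S : Set ℕ)] k :=
    (nMultiples N (↑S : Set ℕ) p).liftQ g₀ fun y hy => by
      obtain ⟨z, rfl⟩ := (mem_nMultiples N _).1 hy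
      exact hg₀ z
  have hg : g ≠ 0 := fun h => hx (LinearMap.congr_fun h (Submodule.Quotient.mk x))
  let bad : Finset ℕ := S ∪ N.primeFactors
  let t : ℕ → CuspForm.heckeAlgebra N 2 (↑S : Set ℕ) := fun ℓ =>
    if h : ℓ.Prime ∧ ¬ ℓ ∣ N ∧ ℓ ∉ (↑S : Set ℕ) then
      CuspForm.heckeAlgebra.T (k := 2) h.1 h.2.1 h.2.2 else 0
  have hbad : ∀ ℓ : ℕ, ℓ.Prime → ℓ ∉ bad → ¬ ℓ ∣ N ∧ ℓ ∉ (↑S : Set ℕ) := fun ℓ hℓ h => by
    simp only [bad, Finset.mem_union, Nat.mem_primeFactors, not_or] at h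
    exact ⟨fun hd => h.2 ⟨hℓ, hd, NeZero.ne N⟩, by simpa using h.1⟩
  have hnp : ∀ ℓ : ℕ, ℓ.Prime → ℓ ≠ p → ¬ ℓ ∣ p := fun ℓ hℓ hℓp h =>
    hℓp ((Nat.prime_dvd_prime_iff_eq hℓ Fact.out).1 h)
  obtain ⟨r, hfin, hdet, htriv, htr⟩ := exists_residual_abs p (galMod N (↑S : Set ℕ) p) g hg bad
    (exists_field_galMod N (↑S : Set ℕ) p) t fun ℓ hℓ hℓp hb A hA σ hσ q => by
      obtain ⟨hℓN, hℓS⟩ := hbad ℓ hℓ hb
      rw [show t ℓ = CuspForm.heckeAlgebra.T (k := 2) hℓ hℓN hℓS from dif_pos ⟨hℓ, hℓN, hℓS⟩]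
      exact galMod_frobenius N (↑S : Set ℕ) p hGR hℓ hℓN (hnp ℓ hℓ hℓp) hA hℓS hσ q
  refine ⟨r, hfin, hdet, fun ℓ hℓ hℓN hℓp A hA => ⟨fun σ hσ => htriv σ
    (galMod_inertia N (↑S : Set ℕ) p hGR hℓ hℓN (hnp ℓ hℓ hℓp) hA hσ)
    (cycK_inertia p k hℓ hℓp hA hσ), fun hℓS σ hσ => ⟨?_, ?_⟩⟩⟩
  · have hb : ℓ ∉ bad := by
      simp only [bad, Finset.mem_union, Nat.mem_primeFactors, not_or]
      exact ⟨by simpa using hℓS, fun h => hℓN h.2.1⟩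
    rw [htr ℓ hℓ hℓp hb A hA σ hσ,
      show t ℓ = CuspForm.heckeAlgebra.T (k := 2) hℓ hℓN hℓS from dif_pos ⟨hℓ, hℓN, hℓS⟩]
    rfl
  · exact (hdet σ).trans (cycK_frobenius p k hℓ hℓp hA hσ)

end FA.JTorsion
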