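import Fermat.Agent.JTorsion.Descent
import Fermat.Agent.JTorsion.Poincare

/-!
# Every integral homomorphism killing the parabolic elements comes from torsion

For `λ : Γ → ℤ` vanishing on `δ T^M δ⁻¹` the reduction mod `n` is a Kummer character.
-/

set_option autoImplicit false
set_option linter.style.haveILetI false
set_option linter.unusedSectionVars false
set_option synthInstance.maxHeartbeats 200000
set_option maxHeartbeats 1600000

noncomputable section

namespace FA.JTorsion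

open AlgebraicCurve FA.Level ModularCurve FA.ModField
open scoped MatrixGroups Manifold UpperHalfPlane

variable (V : Lvl)

/-- An additive homomorphism kills the `δ T^M δ⁻¹`. -/
def KillsCusps {A : Type*} [AddZeroClass A] (φ : Additive V.grp →+ A) : Prop :=
  ∀ δ : SL(2, ℤ), φ (Additive.ofMul ⟨_, V.conj_T_pow_mem δ⟩) = 0

theorem hom_neg_one_eq_zero (φ : Additive V.grp →+ ℤ) :
    φ (Additive.ofMul ⟨-1, V.neg_one_mem⟩) = 0 := by
  have h : (⟨-1, V.neg_one_mem⟩ : V.grp) * ⟨-1, V.neg_one_mem⟩ = 1 :=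
    Subtype.ext (by simp [neg_mul_neg])
  have h2 := φ.map_add (Additive.ofMul ⟨-1, V.neg_one_mem⟩) (Additive.ofMul ⟨-1, V.neg_one_mem⟩)
  rw [← ofMul_mul, h, ofMul_one, map_zero] at h2
  omega

theorem stdAddChar_pow {m n k : ℕ} [NeZero m] [NeZero n] (h : m = n * k) (a : ℤ) :
    ZMod.stdAddChar (a : ZMod m) ^ k = (ZMod.stdAddChar (a : ZMod n) : ℂ) := by
  have hk : k ≠ 0 := fun hk => NeZero.ne m (by rw [h, hk, mul_zero])
  have hn : (n : ℂ) ≠ 0 := by exact_mod_cast NeZero.ne n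
  rw [ZMod.stdAddChar_coe, ZMod.stdAddChar_coe, ← Complex.exp_nat_mul]
  congr 1
  rw [h]
  push_cast
  field_simp

/-- The character of `Γ` attached to an integral homomorphism modulo `m`. -/
def expChar (m : ℕ) [NeZero m] (φ : Additive V.grp →+ ℤ) : V.grp →* ℂˣ where
  toFun γ := Units.mk0 (ZMod.stdAddChar ((φ (Additive.ofMul γ) : ℤ) : ZMod m))
    (stdAddChar_ne_zero _)
  map_one' := Units.ext (by simp)
  map_mul' a b := Units.ext (by
    simp only [Units.val_mk0, Units.val_mul, ofMul_mul, map_add, Int.cast_add,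
      AddChar.map_add_eq_mul])

theorem expChar_apply {m : ℕ} [NeZero m] (φ : Additive V.grp →+ ℤ) (γ : V.grp) :
    (expChar V m φ γ : ℂ) = ZMod.stdAddChar ((φ (Additive.ofMul γ) : ℤ) : ZMod m) := rfl

theorem expChar_pow {m : ℕ} [NeZero m] (φ : Additive V.grp →+ ℤ) (γ : V.grp) :
    expChar V m φ γ ^ m = 1 := by
  apply Units.ext
  rw [Units.val_pow_eq_pow_val, expChar_apply, ← AddChar.map_nsmul_eq_pow, nsmul_eq_mul,
    ZMod.natCast_self, zero_mul, AddChar.map_zero_eq_one, Units.val_one]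

/-- A holomorphic twisted function with values in the field after raising to the power `m`. -/
theorem exists_twisted_field {m : ℕ} [NeZero m] {φ : Additive V.grp →+ ℤ} (hφ : KillsCusps V φ)
    {k : ℕ} (hm : m = 6 * V.M * k) :
    ∃ (h₀ : holSub) (f₀ : V.fld ℂ), DivN V k f₀ ∧ toMer h₀ ≠ 0 ∧ theta f₀ = toMer h₀ ^ m ∧
      ∀ γ : V.grp, merSL (γ : SL(2, ℤ)) (toMer h₀) =
        merC (ZMod.stdAddChar ((φ (Additive.ofMul γ) : ℤ) : ZMod m)) * toMer h₀ := by
  obtain ⟨h₀, hne, hmd, htr, hexp⟩ := exists_twisted V.grp V.M V.conj_T_pow_mem V.neg_one_mem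
    (expChar V m φ) (NeZero.ne m) (expChar_pow V φ)
    (fun γ hγ => Units.ext (by
      rw [expChar_apply, show γ = ⟨-1, V.neg_one_mem⟩ from Subtype.ext hγ,
        hom_neg_one_eq_zero, Int.cast_zero, AddChar.map_zero_eq_one, Units.val_one]))
    (fun δ γ hγ => Units.ext (by
      rw [expChar_apply, show γ = ⟨_, V.conj_T_pow_mem δ⟩ from Subtype.ext hγ, hφ δ,
        Int.cast_zero, AddChar.map_zero_eq_one, Units.val_one]))
  set H : holSub := ⟨h₀, hmd⟩
  have hH : toMer H ≠ 0 := fun h => hne (congrArg Subtype.val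
    (toMer_injective (h.trans (map_zero _).symm)))
  set P : ℍ → ℂ := fun z => h₀ z ^ m
  have hPinv : ∀ γ ∈ V.grp, ∀ z, P (γ • z) = P z := fun γ hγ z => by
    show h₀ ((⟨γ, hγ⟩ : V.grp) • z) ^ m = h₀ z ^ m
    rw [show ((⟨γ, hγ⟩ : V.grp) • z : ℍ) = γ • z from rfl, htr ⟨γ, hγ⟩, mul_pow,
      ← Units.val_pow_eq_pow_val, expChar_pow, Units.val_one, one_mul]
  have hPexp : ∀ δ : SL(2, ℤ), ∃ K : LaurentSeries ℂ,
      HasExp (qp V.M) (fun z => P (δ • z)) (K ^ m) := fun δ => by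
    obtain ⟨K, hK⟩ := hexp δ
    exact ⟨K, (hK.pow (qp_ne_zero V.M) m).congr rfl⟩
  have hPmd : MDiff P := (hmd.pow m)
  have hP1 : ∃ K, HasExp (qp 1) P K := by
    obtain ⟨K, hK⟩ := hPexp 1
    exact hasExp_descend (fun z => hPinv _ V.T_mem z)
      (hK.congr (funext fun z => by rw [one_smul]))
  have hPmf : P ∈ V.mf := ⟨hPmd, hPinv, hP1, fun δ => ⟨_, (hPexp δ).choose_spec⟩⟩
  obtain ⟨K₁, hK₁⟩ := hP1
  obtain ⟨f₀, hf₀⟩ := exists_theta_of_modFuns (L := ℂ) hPmf K₁
    (by rwa [Algebra.algebraMap_self, coeffMap_id])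
  have htheta : theta f₀ = toMer H ^ m := by
    rw [hf₀, ← map_pow]
    exact congrArg toMer (Subtype.ext (funext fun z => rfl))
  refine ⟨H, f₀, ⟨fun h0 => pow_ne_zero m hH (by rw [← htheta, h0, map_zero]), fun v => ?_⟩, hH,
    htheta, fun γ => ?_⟩
  · refine dvd_ord_of_emb (fun γ => ?_) (fun τ γ => ?_) v
    · obtain ⟨K, hK⟩ := hPexp γ
      rw [emb_eq_of_theta hf₀ (P := cuspPar V) (K := K ^ m) hK, HahnSeries.order_pow,
        ← Nat.cast_mul, ← hm, nsmul_eq_mul]
      exact dvd_mul_right _ _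
    · have hc := hasExp_cay (mdiff_comp_smul hmd γ) τ
      rw [emb_eq_of_theta hf₀ (P := pointPar V τ) ((hc.pow disc_ne_zero m).congr rfl),
        HahnSeries.order_pow, ← Nat.cast_mul, ← hm, nsmul_eq_mul]
      exact dvd_mul_right _ _
  · rw [merSL_toMer, merC_eq, ← map_mul]
    exact congrArg toMer (Subtype.ext (funext fun z => htr γ z))

/-- Surjectivity: the reduction of an integral homomorphism killing the cusps is a Kummer
character. -/
theorem exists_kum_eq (L : Type) [Field L] [IsAlgClosed L] [Algebra ℚ L] [Algebra L ℂ]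
    {φ : Additive V.grp →+ ℤ} (hφ : KillsCusps V φ) (n : ℕ) [NeZero n] :
    ∃ x : tors V L n, ∀ γ : V.grp,
      kum V L n x (Additive.ofMul γ) = ((φ (Additive.ofMul γ) : ℤ) : ZMod n) := by
  classical
  set C := 6 * V.M
  have hC : C ≠ 0 := Nat.mul_ne_zero (by norm_num) V.M_ne
  haveI : NeZero (C * (n * C)) := ⟨Nat.mul_ne_zero hC (Nat.mul_ne_zero (NeZero.ne n) hC)⟩
  obtain ⟨H, f₀, hdiv, hH, htheta, hchar⟩ :=
    exists_twisted_field V hφ (m := C * (n * C)) (k := n * C) rfl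
  have hN : n * C ≠ 0 := Nat.mul_ne_zero (NeZero.ne n) hC
  obtain ⟨f, hf⟩ := exists_descended V (L := L) hN hdiv
  have hdivC := hdiv.of_sameCls hf
  obtain ⟨c, g, hc, hg, hfg⟩ := hf
  have hf0 : f ≠ 0 := fun h0 => hdivC.1 (by rw [h0, map_zero])
  have hord : ∀ v : Place L (V.fld L), (n : ℤ) ∣ v.ord f := fun v => by
    refine dvd_ord_of_emb (fun γ => ?_) (fun τ γ => ?_) v
    all_goals
      rw [← emb_toC, ← Nat.cast_mul, mul_comm (6 * V.M) n]
      exact dvd_order_emb hdivC.2 _ _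
  set hF := V.isFunctionField L
  set D : Divisor L (V.fld L) := (FA.Curve.divOf hF f).mapRange (fun z => z / (n : ℤ)) (by simp)
  have hD : ∀ v, (n : ℤ) * D v = v.ord f := fun v => by
    rw [Finsupp.mapRange_apply, FA.Curve.divOf_apply, Int.mul_ediv_cancel' (hord v)]
  have hdeg : D ∈ Divisor.degZero (K := L) (F := V.fld L) := by
    rw [Divisor.mem_degZero]
    have h1 : (n : ℤ) • D = FA.Curve.divOf hF f := Finsupp.ext fun v => by simp [hD v]
    have h2 := congrArg Divisor.degree h1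
    rw [map_zsmul, FA.Curve.degree_divOf, smul_eq_mul] at h2
    exact (mul_eq_zero.1 h2).resolve_left (Int.natCast_ne_zero.2 (NeZero.ne n))
  have hx : Pic0.mk ⟨D, hdeg⟩ ∈ tors V L n := by
    rw [Pic0.mem_torsion]
    refine (QuotientAddGroup.eq_zero_iff _).2 ?_
    rw [AddSubgroup.mem_addSubgroupOf]
    exact ⟨f, hf0, fun v => by simp [hD v]⟩
  obtain ⟨d, hd⟩ := IsAlgClosed.exists_pow_nat_eq c (Nat.pos_of_ne_zero hN)
  have hd0 : d ≠ 0 := fun h => hc (by rw [← hd, h, zero_pow hN])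
  have hg' : (theta g : Mer) ≠ 0 := (map_ne_zero_iff _ theta.injective).2 hg
  set h : Mer := (merC d * toMer H ^ C * theta g) ^ C
  have hne : h ≠ 0 :=
    pow_ne_zero _ (mul_ne_zero (mul_ne_zero (merC_ne_zero hd0) (pow_ne_zero _ hH)) hg')
  have hW : IsWitness n D h fun γ : V.grp => ((φ (Additive.ofMul γ) : ℤ) : ZMod n) := by
    refine ⟨hne, ⟨f, hf0, hD, ?_⟩, fun γ => ?_⟩
    · rw [← theta_toC V L f, hfg, map_mul, map_mul, map_pow, theta_algebraMap,
        Algebra.algebraMap_self, RingHom.id_apply, htheta, ← hd, map_pow]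
      simp only [h, mul_pow, ← pow_mul]
      ring
    · simp only [h, map_pow, map_mul, hchar, merSL_theta γ.2]
      rw [show merSL (γ : SL(2, ℤ)) (merC d) = merC d from merComp_merC _ d,
        ← stdAddChar_pow (m := C * (n * C)) (n := n) (k := C * C) (by ring)
          (φ (Additive.ofMul γ)), map_pow]
      ring
  refine ⟨⟨_, hx⟩, fun γ => ?_⟩
  rw [kum_apply, kumFun_eq (D := ⟨D, hdeg⟩) rfl hW]

end FA.JTorsion
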